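import Fermat.Agent.Pack.S43GC.G0E14L3
import Fermat.Agent.Pack.S43GC.G0E21L2
import Fermat.Agent.Pack.S43GC.G0E20L1
import Fermat.Agent.Pack.S43GC.G0E10L3
import Fermat.Agent.Pack.S43GC.G0E16L3
import Fermat.Agent.Pack.S43GC.G0E21L0
import Fermat.Agent.Pack.S43GC.G0E10L1
import Fermat.Agent.Pack.S43GC.G0E14L2
import Fermat.Agent.Pack.S43GC.G0E14L0
import Fermat.Agent.Pack.S43GC.G0E16L2
import Fermat.Agent.Pack.S43GC.G0E14L1
import Fermat.Agent.Pack.S43GC.G0E11L2
import Fermat.Agent.Pack.S43GC.G0E11L0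
import Fermat.Agent.Pack.S43GC.G0E10L2
import Fermat.Agent.Pack.S44C.G0E6L0
import Fermat.Agent.Pack.S43GC.G0E11L3
import Fermat.Agent.Pack.S43GC.G0E18L1
import Fermat.Agent.Pack.S43GC.G0E17L3
import Fermat.Agent.Pack.S43GC.G0E21L3
import Fermat.Agent.Pack.S43GC.G0E19L0
import Fermat.Agent.Pack.S43GC.G0E19L1
import Fermat.Agent.Pack.S43GC.G0E18L3
import Fermat.Agent.Pack.Fast891

-- ===== PACK-BEGIN S55/E1/Inputs.lean
section
/-
S55 engine E1 — the arithmetic inputs, integration file.  Chief architect: helper55.  NO sorry.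

Of the five inputs of `InputsSpecFin` (E1/Main3.lean) four are PROVED on main:
* T6p  `T.H719.tateNakayamaAt`          (helper719 + 837 + 353 + 295),
* L    `LocalSpec.H964.localSpec`       (helper964 + layer L),
* GD9  `Bridge.sUnitsDivSpec`           (helper655),
* GD10 `Bridge.h1FiniteSpec`            (helper655 + helper901).
The only remaining input is `GlobalInputSpec` (= `Tow.GlobalSpecFin S p` for all odd `p ∈ S`),
the target of layer G (G-ADAPTER).

`S55_of_engine_global : EngineSpecFin → GlobalInputSpec → <frozen statement S55>`.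
So `Fermat/Agent/S55.lean` will be
  `E1.S55_of_engine_global engineSpecFin globalInput hp2 S hpS M hsm hMur`.
-/






set_option autoImplicit false

open CategoryTheory Module groupCohomology ExtCitation

namespace Fermat.Agent.S55.E1

open Fermat.Agent.S55.Tow

/-- **The only open arithmetic input**: a good tower datum (final form) for all odd `p ∈ S`. -/
def GlobalInputSpec : Prop :=
  ∀ (p : ℕ) [Fact p.Prime], p ≠ 2 → ∀ (S : Finset Nat.Primes), pPrime p ∈ S → GlobalSpecFin S p

/-- All arithmetic inputs of the engine from the global one. -/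
theorem inputsSpecFin_of (hG : GlobalInputSpec) : InputsSpecFin :=
  ⟨Fermat.Agent.S55.T.H719.tateNakayamaAt, fun p _ hp2 S hpS =>
    ⟨hG p hp2 S hpS,
      Fermat.Agent.S55.LocalSpec.H964.localSpec p (Nat.Prime.ne_zero Fact.out),
      Fermat.Agent.S55.Bridge.sUnitsDivSpec (S := S) (p := p) hpS,
      Fermat.Agent.S55.Bridge.h1FiniteSpec S hpS⟩⟩

/-- S55 from the engine and the global input. -/
theorem S55_of_engine_global (hE : EngineSpecFin) (hG : GlobalInputSpec)
    {p : ℕ} [Fact p.Prime] (hp2 : p ≠ 2) (S : Finset Nat.Primes) (hpS : pPrime p ∈ S)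
    (M : Rep (ZMod p) (AlgebraicClosure ℚ ≃ₐ[ℚ] AlgebraicClosure ℚ))
    [FiniteDimensional (ZMod p) M]
    (hsm : ∀ m : M, ∃ F : IntermediateField ℚ (AlgebraicClosure ℚ), FiniteDimensional ℚ F ∧
      ∀ s ∈ F.fixingSubgroup, M.ρ s m = m)
    (hMur : ∀ q : Nat.Primes, q ∉ S → ∀ A : ValuationSubring (AlgebraicClosure ℚ),
      A.LiesOverPrime (q : ℕ) → ∀ g ∈ A.inertiaSubgroupIn ℚ, M.ρ g = 1) :
    ∃ B : sha₁ S (M.dualTwist (cycloChar p)) →ₗ[ZMod p] sha₂ S M →ₗ[ZMod p] ZMod p,
      (∀ y, (∀ x, B y x = 0) → y = 0) ∧ (∀ x, (∀ y, B y x = 0) → x = 0) :=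
  S55_of_specsFin hE (inputsSpecFin_of hG) hp2 S hpS M hsm hMur

end Fermat.Agent.S55.E1

end
-- ===== PACK-END S55/E1/Inputs.lean

-- ===== PACK-BEGIN S55/G/Rec/L5H413.lean
section


/-!
# S55 / G / REC, leaf L5 = `LocalCycloNormSpec` (helper413) — INDEX-COUNT route

`localCycloNorm : LocalCycloNormSpec`, unconditional.

Proof.  `F = ℚ_ℓ(ζ)`, `ζ` a primitive `ℓ^e`-th root of unity in `Ω = PadicAlgCl ℓ`, `N = Gal(Ω/F) ≤ W`,
`r = [W : N]`.  For `b` fixed by `W`: `y := relNorm W b ∈ ℚ_ℓ` and `y ^ r = relNorm N b = N_{F/ℚ_ℓ}(b)`.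
The norm group of `F/ℚ_ℓ` is `ℓ^ℤ × (1 + ℓ^e ℤ_ℓ)` (explicit norms + the local norm index theorem
for cyclic extensions, `H413.normRange_cyclotomic_eq`), so the unit part `u` of `y` satisfies
`u ^ r ≡ 1 mod ℓ^e`.  The image `c(W)` of `W` under the cyclotomic character is a subgroup of order
`r` of the CYCLIC group `(ℤ/ℓ^e)ˣ`, hence `c(W) = {x | x ^ r = 1} ∋ u mod ℓ^e`.
-/

set_option autoImplicit false
set_option linter.style.haveILetI false

namespace Fermat.Agent.S55.G.Rec.H413

open Fermat.Agent.S55.H413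

/-- The norm estimate: `‖y - ℓ^k · t‖ ≤ ‖ℓ‖^(k + m)` where `k = v(y)` and `t` is the canonical
lift of the residue mod `ℓ^m` of the unit part of `y`. -/
theorem norm_sub_unitResidue_le (ℓ : ℕ) [hℓ : Fact ℓ.Prime] (m : ℕ) (y : ℚ_[ℓ]ˣ) :
    ‖(y : ℚ_[ℓ]) - (ℓ : ℚ_[ℓ]) ^ ((y : ℚ_[ℓ]).valuation) *
        (((unitResidue ℓ m y : (ZMod (ℓ ^ m))ˣ) : ZMod (ℓ ^ m)).val : ℚ_[ℓ])‖
      ≤ ‖(ℓ : ℚ_[ℓ])‖ ^ ((y : ℚ_[ℓ]).valuation + m) := by
  have : NeZero (ℓ ^ m) := ⟨(pow_pos hℓ.out.pos _).ne'⟩
  set u : ℤ_[ℓ] := ((unitPart ℓ y : ℤ_[ℓ]ˣ) : ℤ_[ℓ]) with hu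
  set t : ℕ := ((unitResidue ℓ m y : (ZMod (ℓ ^ m))ˣ) : ZMod (ℓ ^ m)).val with ht
  have h1 : PadicInt.toZModPow m (u - (t : ℤ_[ℓ])) = 0 := by
    rw [map_sub, map_natCast, ht, ZMod.natCast_zmod_val, coe_unitResidue, sub_self]
  have h2 : u - (t : ℤ_[ℓ]) ∈ (Ideal.span {(ℓ : ℤ_[ℓ]) ^ m} : Ideal ℤ_[ℓ]) := by
    rw [← PadicInt.ker_toZModPow]
    exact h1
  have h3 : ‖u - (t : ℤ_[ℓ])‖ ≤ (ℓ : ℝ) ^ (-m : ℤ) :=
    (PadicInt.norm_le_pow_iff_mem_span_pow _ _).2 h2
  have hy' := eq_unitPart_mul ℓ y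
  rw [← hu] at hy'
  have h4 : (y : ℚ_[ℓ]) - (ℓ : ℚ_[ℓ]) ^ ((y : ℚ_[ℓ]).valuation) * (t : ℚ_[ℓ]) =
      (ℓ : ℚ_[ℓ]) ^ ((y : ℚ_[ℓ]).valuation) * ((u - (t : ℤ_[ℓ]) : ℤ_[ℓ]) : ℚ_[ℓ]) := by
    rw [PadicInt.coe_sub, PadicInt.coe_natCast]
    linear_combination hy'
  have hℓn : ‖(ℓ : ℚ_[ℓ])‖ ≠ 0 := by
    rw [Padic.norm_p]
    exact inv_ne_zero (by exact_mod_cast hℓ.out.ne_zero)
  rw [h4, norm_mul, zpow_add₀ hℓn, norm_zpow]
  refine mul_le_mul_of_nonneg_left ?_ (by positivity)
  rw [PadicInt.padic_norm_e_of_padicInt, Padic.norm_p, zpow_natCast, inv_pow, ← zpow_natCast,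
    ← zpow_neg]
  exact h3

/-- **Leaf L5** of the REC block (norm route): norms from the subfields of `ℚ_ℓ(μ_{ℓ^e})`. -/
theorem localCycloNorm : LocalCycloNormSpec := by
  intro ℓ hℓ hℓ2 e he W hW b hb
  obtain ⟨n, rfl⟩ : ∃ n, e = n + 1 := ⟨e - 1, by omega⟩
  have hne : NeZero (ℓ ^ (n + 1)) := ⟨(pow_pos hℓ.out.pos _).ne'⟩
  obtain ⟨ζ, hζ⟩ := exists_primitiveRoot_padicAlgCl ℓ n
  haveI hcyc : IsCyclotomicExtension {ℓ ^ (n + 1)} ℚ_[ℓ] (cycF ℓ ζ) :=
    isCyclotomicExtension_cycF ℓ hζ
  haveI : FiniteDimensional ℚ_[ℓ] (cycF ℓ ζ) :=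
    IsCyclotomicExtension.finiteDimensional {ℓ ^ (n + 1)} ℚ_[ℓ] (cycF ℓ ζ)
  haveI : IsGalois ℚ_[ℓ] (cycF ℓ ζ) :=
    IsCyclotomicExtension.isGalois {ℓ ^ (n + 1)} ℚ_[ℓ] (cycF ℓ ζ)
  haveI := RelNormH707.isGalois_local ℓ
  have hNW : (cycF ℓ ζ).fixingSubgroup ≤ W := fixingSubgroup_cycF_le ℓ hζ hW
  haveI : (cycF ℓ ζ).fixingSubgroup.FiniteIndex := by
    refine ⟨?_⟩
    rw [← IntermediateField.finrank_eq_fixingSubgroup_index]
    exact Module.finrank_pos.ne'
  haveI : W.FiniteIndex := Subgroup.finiteIndex_of_le hNW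
  -- `b ∈ F`
  have hbF : (b : PadicAlgCl ℓ) ∈ cycF ℓ ζ := by
    rw [← InfiniteGalois.fixedField_fixingSubgroup (cycF ℓ ζ), IntermediateField.mem_fixedField_iff]
    intro τ hτ
    exact congrArg Units.val (hb τ (hNW hτ))
  -- the norm `y`
  obtain ⟨y, hy0, hy⟩ := RelNormH707.relNorm_rational_local ℓ hb
  set r := (cycF ℓ ζ).fixingSubgroup.relIndex W with hr
  have hpow := relNorm_pow_relIndex hNW b hb
  have hnorm := relNorm_fixing_eq_norm (cycF ℓ ζ) b hbF
  have hyr : y ^ r = Algebra.norm ℚ_[ℓ] (⟨b, hbF⟩ : cycF ℓ ζ) := by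
    apply (algebraMap ℚ_[ℓ] (PadicAlgCl ℓ)).injective
    rw [map_pow, ← hy, ← hnorm, hpow, Units.val_pow_eq_pow_val]
  have hb0 : (⟨b, hbF⟩ : cycF ℓ ζ) ≠ 0 := by
    intro h
    exact b.ne_zero (congrArg Subtype.val h)
  have hmem : (Units.mk0 y hy0) ^ r ∈ normRange ℓ (cycF ℓ ζ) := by
    refine ⟨Units.mk0 _ hb0, ?_⟩
    apply Units.ext
    rw [Units.coe_map, Units.val_pow_eq_pow_val, Units.val_mk0, Units.val_mk0]
    exact hyr.symm
  rw [normRange_cyclotomic_eq ℓ n (cycF ℓ ζ) hℓ2, MonoidHom.mem_ker, map_pow, wildChar_apply,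
    inv_pow, inv_eq_one] at hmem
  -- the cyclotomic character
  have hrcard : r = Nat.card (W.map (hζ.autToPow ℚ_[ℓ])) := by
    rw [hr, ← ker_autToPow_eq ℓ hζ, Subgroup.relIndex_ker]
  haveI : IsCyclic (ZMod (ℓ ^ (n + 1)))ˣ :=
    ZMod.isCyclic_units_of_prime_pow ℓ hℓ.out hℓ2 (n + 1)
  have hu : unitResidue ℓ (n + 1) (Units.mk0 y hy0) ∈ W.map (hζ.autToPow ℚ_[ℓ]) :=
    mem_of_pow_card_eq_one _ _ (by rw [← hrcard]; exact hmem)
  obtain ⟨τ, hτW, hτ⟩ := hu
  refine ⟨y.valuation, 1,
    ((unitResidue ℓ (n + 1) (Units.mk0 y hy0) : (ZMod (ℓ ^ (n + 1)))ˣ) : ZMod (ℓ ^ (n + 1))).val,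
    τ, hτW, ?_, ?_⟩
  · intro ξ hξ
    rw [autToPow_spec_all ℓ hζ τ ξ hξ, hτ]
  · have key := norm_sub_unitResidue_le ℓ (n + 1) (Units.mk0 y hy0)
    rw [Units.val_mk0] at key
    have e1 : ((relNorm W b : (PadicAlgCl ℓ)ˣ) : PadicAlgCl ℓ) -
        (((1 : ℤˣ) : ℤ) : PadicAlgCl ℓ) * (ℓ : PadicAlgCl ℓ) ^ y.valuation *
          ((((unitResidue ℓ (n + 1) (Units.mk0 y hy0) : (ZMod (ℓ ^ (n + 1)))ˣ) :
            ZMod (ℓ ^ (n + 1))).val : ℕ) : PadicAlgCl ℓ) =
        algebraMap ℚ_[ℓ] (PadicAlgCl ℓ) (y - (ℓ : ℚ_[ℓ]) ^ y.valuation *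
          ((((unitResidue ℓ (n + 1) (Units.mk0 y hy0) : (ZMod (ℓ ^ (n + 1)))ˣ) :
            ZMod (ℓ ^ (n + 1))).val : ℕ) : ℚ_[ℓ])) := by
      rw [hy, map_sub, map_mul, map_zpow₀, map_natCast, map_natCast]
      simp
    have e2 : (ℓ : PadicAlgCl ℓ) = algebraMap ℚ_[ℓ] (PadicAlgCl ℓ) (ℓ : ℚ_[ℓ]) := by
      rw [map_natCast]
    rw [e1, e2]
    have hn1 : ∀ x : ℚ_[ℓ], ‖algebraMap ℚ_[ℓ] (PadicAlgCl ℓ) x‖ = ‖x‖ :=
      fun x => PadicAlgCl.norm_extends ℓ x
    rw [hn1, hn1]
    exact_mod_cast key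

end Fermat.Agent.S55.G.Rec.H413

end
-- ===== PACK-END S55/G/Rec/L5H413.lean

-- ===== PACK-BEGIN S55/G/Rec/Reciprocity.lean
section















/-!
# S55 / layer G / block REC : THE RECIPROCITY LAW  (assembly, helper1)

All 19 leaves of the norm route (`Rec/Spec2.lean`) are proved on main; this file assembles them.

* `cycloSum I : CycloSumSpec I`                                  (STEP A, unconditional)
* `killAboveP I p (hp : p ≠ 2) : KillAbovePSpec I p`             (STEP C, unconditional)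
* `trivAboveP I p hp (HP : HassePrincipleSpec p) : TrivAbovePSpec I p`   (STEP B)
* **`reciprocity I p hp (HP : HassePrincipleSpec p) : ReciprocitySpec I p`** :
  for every local invariant system `I`, every odd prime `p` and every number field
  `K = ℚ̄^U`: `∑_v inv_v (x_v) = 0` for all `x ∈ Br(K)` of `p`-power order.

The only remaining inputs are the adapters `HassePrincipleSpec p` (from the inequalities,
`Rec/HP/`) and the existence of a `LocalInvSystem` (from local class field theory, `Rec/Loc/`).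
-/

set_option autoImplicit false

namespace Fermat.Agent.S55.G.Rec

/-- (L3) the unramified formula, unconditional. -/
theorem unramCup (I : LocalInvSystem) : UnramCupSpec I :=
  H900.unramCup_of H931.localStructure H496.cupAdd I

/-- **STEP A**: the cyclotomic sum formula. -/
theorem cycloSum (I : LocalInvSystem) : CycloSumSpec I :=
  H511.cycloSum_of H496.cupLoc H844.localNorm H931.localStructure H854.cycloFrob
    H413.localCycloNorm H934.orbitNorm
    (H124.productFormula_of H934.orbitNorm VdegH707.vdegSpec) H181.supportFinite I (unramCup I)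

/-- **STEP C**: killing the components above `p`. -/
theorem killAboveP (I : LocalInvSystem) (p : ℕ) [Fact p.Prime] (hp : p ≠ 2) :
    KillAbovePSpec I p :=
  H174.killAboveP_of I p hp H931.localStructure H742.weakApprox (cycloSum I)

/-- **STEP B**: classes trivial above `p`, from the Hasse principle. -/
theorem trivAboveP (I : LocalInvSystem) (p : ℕ) [Fact p.Prime] (hp : p ≠ 2)
    (HP : HassePrincipleSpec p) : TrivAbovePSpec I p :=
  H415.trivAboveP_of I p hp HP Glob.cyclicSplit H181.supportFinite H496.locRes (cycloSum I)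

/-- **THE RECIPROCITY LAW** (`p`-primary part, `p` odd), from the Hasse principle. -/
theorem reciprocity (I : LocalInvSystem) (p : ℕ) [Fact p.Prime] (hp : p ≠ 2)
    (HP : HassePrincipleSpec p) : ReciprocitySpec I p :=
  reciprocity_of I p (trivAboveP I p hp HP) (killAboveP I p hp) H181.supportFinite

end Fermat.Agent.S55.G.Rec

end
-- ===== PACK-END S55/G/Rec/Reciprocity.lean

-- ===== PACK-BEGIN S56/H419/H0PrimesT.lean
section



/-!
# S56 / W-BASE / leaf EUL-H0, part 9 (helper419): adapter to the HERB vocabulary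

The unit theorem mod `p` (`H614.sUnits_charpoly`, `Euler.H896.herbCharpoly`) is stated for a
Galois extension `L/K` of number fields and a finite set `T` of primes of `K`
(`T : Finset (HeightOneSpectrum (𝓞 K))`), with the `Gal(L/K)`-set
`primesAbove K L T` (`S55/G/SpecUnits.lean`) and the permutation `H614.primePerm K L T τ`
(`w ↦ τ⁻¹ w`).  Here `K = ℚ`, `L = F` a finite Galois level and `T = primesT S` for a finite set
`S` of rational primes:

* `ratPrime q : HeightOneSpectrum (𝓞 ℚ)`, `primesT S = S.image ratPrime`;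
* `mem_primesAbove_primesT_iff` : `w ∈ primesAbove ℚ F (primesT S) ↔ ∃ q ∈ S, q ∈ w`;
* `permCharpoly_primePerm` : `permCharpoly k (primePerm ℚ F (primesT S) τ) =
  ∏ q ∈ S, permCharpoly k (τ⁻¹ | primes of 𝓞 F above q)`.
-/

set_option autoImplicit false
set_option linter.style.haveILetI false
set_option linter.unusedSectionVars false

noncomputable section

open scoped Pointwise NumberField

namespace Fermat.Agent.S56.H419

open Fermat.Agent.S55.PT Fermat.Agent.S55.G Fermat.Agent.S56.H614 ExtCitation MulAction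
  NumberField Polynomial IsDedekindDomain

/-! ### rational primes as primes of `𝓞 ℚ` -/

theorem natCast_ringOfIntegers_rat_ne_zero (q : Nat.Primes) : ((q : ℕ) : 𝓞 ℚ) ≠ 0 := by
  intro h
  have := congrArg (fun x : 𝓞 ℚ => (x : ℚ)) h
  simp only [map_natCast, map_zero] at this
  exact q.2.ne_zero (by exact_mod_cast this)

theorem prime_natCast_ringOfIntegers_rat (q : Nat.Primes) : Prime ((q : ℕ) : 𝓞 ℚ) := by
  have h1 : Prime ((q : ℕ) : ℤ) := Nat.prime_iff_prime_int.1 q.2
  have h2 : Rat.ringOfIntegersEquiv ((q : ℕ) : 𝓞 ℚ) = ((q : ℕ) : ℤ) := map_natCast _ _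
  rw [← h2] at h1
  exact (MulEquiv.prime_iff Rat.ringOfIntegersEquiv.toMulEquiv).1 h1

/-- The prime `(q)` of `𝓞 ℚ`. -/
def ratPrime (q : Nat.Primes) : HeightOneSpectrum (𝓞 ℚ) where
  asIdeal := Ideal.span {((q : ℕ) : 𝓞 ℚ)}
  isPrime := (Ideal.span_singleton_prime (natCast_ringOfIntegers_rat_ne_zero q)).2
    (prime_natCast_ringOfIntegers_rat q)
  ne_bot := by
    rw [Ne, Ideal.span_singleton_eq_bot]
    exact natCast_ringOfIntegers_rat_ne_zero q

@[simp] theorem ratPrime_asIdeal (q : Nat.Primes) :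
    (ratPrime q).asIdeal = Ideal.span {((q : ℕ) : 𝓞 ℚ)} := rfl

open Classical in
/-- The finite set of primes of `𝓞 ℚ` attached to a finite set of rational primes. -/
def primesT (S : Finset Nat.Primes) : Finset (HeightOneSpectrum (𝓞 ℚ)) := S.image ratPrime

theorem mem_primesT {S : Finset Nat.Primes} {v : HeightOneSpectrum (𝓞 ℚ)} :
    v ∈ primesT S ↔ ∃ q ∈ S, ratPrime q = v := by
  classical
  unfold primesT
  rw [Finset.mem_image]

section Level

variable (F : IntermediateField ℚ (AlgebraicClosure ℚ)) [NumberField F]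

/-- `w` lies over `(q)` iff `q ∈ w`. -/
theorem under_eq_ratPrime_iff (q : Nat.Primes) (w : HeightOneSpectrum (𝓞 F)) :
    w.asIdeal.under (𝓞 ℚ) = (ratPrime q).asIdeal ↔ ((q : ℕ) : 𝓞 F) ∈ w.asIdeal := by
  constructor
  · intro h
    have h1 : ((q : ℕ) : 𝓞 ℚ) ∈ w.asIdeal.under (𝓞 ℚ) := by
      rw [h, ratPrime_asIdeal]
      exact Ideal.mem_span_singleton_self _
    rw [Ideal.under_def, Ideal.mem_comap, map_natCast] at h1
    exact h1
  · intro h
    have hle : (ratPrime q).asIdeal ≤ w.asIdeal.under (𝓞 ℚ) := by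
      rw [ratPrime_asIdeal, Ideal.span_singleton_le_iff_mem, Ideal.under_def, Ideal.mem_comap,
        map_natCast]
      exact h
    have hne : w.asIdeal.under (𝓞 ℚ) ≠ ⊤ := (Ideal.IsPrime.under (𝓞 ℚ) w.asIdeal).ne_top
    exact ((ratPrime q).isMaximal.eq_of_le hne hle).symm

theorem mem_primesAbove_primesT_iff (S : Finset Nat.Primes) (w : HeightOneSpectrum (𝓞 F)) :
    w ∈ primesAbove ℚ F (primesT S) ↔ ∃ q ∈ S, ((q : ℕ) : 𝓞 F) ∈ w.asIdeal := by
  constructor
  · rintro ⟨v, hv, hw⟩
    obtain ⟨q, hq, rfl⟩ := mem_primesT.1 hv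
    exact ⟨q, hq, (under_eq_ratPrime_iff F q w).1 hw⟩
  · rintro ⟨q, hq, hw⟩
    exact ⟨ratPrime q, mem_primesT.2 ⟨q, hq, rfl⟩, (under_eq_ratPrime_iff F q w).2 hw⟩

theorem natCast_ringOfIntegers_ne_zero (q : Nat.Primes) : ((q : ℕ) : 𝓞 F) ≠ 0 := by
  intro h
  have := congrArg (fun x : 𝓞 F => (x : F)) h
  simp only [map_natCast, map_zero] at this
  exact q.2.ne_zero (by exact_mod_cast this)

/-- `{primes of 𝓞 F above S} ≃ primesAbove ℚ F (primesT S)`. -/
def primesTEquiv (S : Finset Nat.Primes) :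
    {P : Ideal (𝓞 F) // ∃ q ∈ S, IsPrimeOver F q P} ≃ ↥(primesAbove ℚ F (primesT S)) where
  toFun P := ⟨⟨P.1, by obtain ⟨q, _, h⟩ := P.2; exact h.1, by
      obtain ⟨q, _, h⟩ := P.2
      intro hbot
      have := h.2
      rw [hbot, Ideal.mem_bot] at this
      exact natCast_ringOfIntegers_ne_zero F q this⟩,
    (mem_primesAbove_primesT_iff F S _).2 (by
      obtain ⟨q, hq, h⟩ := P.2
      exact ⟨q, hq, h.2⟩)⟩
  invFun w := ⟨w.1.asIdeal, by
    obtain ⟨q, hq, h⟩ := (mem_primesAbove_primesT_iff F S w.1).1 w.2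
    exact ⟨q, hq, w.1.isPrime, h⟩⟩
  left_inv P := rfl
  right_inv w := rfl

@[simp] theorem primesTEquiv_asIdeal (S : Finset Nat.Primes)
    (P : {P : Ideal (𝓞 F) // ∃ q ∈ S, IsPrimeOver F q P}) :
    (primesTEquiv F S P).1.asIdeal = P.1 := rfl

variable [IsGalois ℚ F] (k : Type*) [Field k]

/-- **Adapter.** `permCharpoly` of `H614.primePerm` on the primes above `primesT S` is the
`permCharpoly` of `τ⁻¹` on the primes of `𝓞 F` above `S`. -/
theorem permCharpoly_primePerm_eq_union (S : Finset Nat.Primes) (τ : F ≃ₐ[ℚ] F)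
    [Finite {P : Ideal (𝓞 F) // ∃ q ∈ S, IsPrimeOver F q P}] :
    permCharpoly k (primePerm ℚ F (primesT S) τ) =
      permCharpoly k (unionMap (IsPrimeOver F) (fun P => τ⁻¹ • P)
        (fun _ _ h => h.smul τ⁻¹) S) := by
  symm
  refine permCharpoly_congr_equiv k (primesTEquiv F S) _ _ ?_
  intro P
  apply Subtype.ext
  apply HeightOneSpectrum.ext
  rfl

end Level

section Final

variable (F : IntermediateField ℚ (AlgebraicClosure ℚ)) [NumberField F] [IsGalois ℚ F]
  [FiniteDimensional ℚ F] (k : Type*) [Field k]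

/-- **Product formula in HERB vocabulary.**
`permCharpoly k (primePerm ℚ F (primesT S) τ) = ∏_{q ∈ S} permCharpoly k (τ⁻¹ | primes above q)`. -/
theorem permCharpoly_primePerm (S : Finset Nat.Primes) (τ : F ≃ₐ[ℚ] F) :
    permCharpoly k (primePerm ℚ F (primesT S) τ) =
      ∏ q ∈ S, permCharpoly k (primeOverMap F τ⁻¹ q) := by
  rw [permCharpoly_primePerm_eq_union F k S τ, prod_permCharpoly_primesOver F k S τ⁻¹]

/-- **Finite primes, HERB vocabulary.**
`∏_{q ∈ S} permCharpoly k (dcPerm D_q U σ)⁻¹ = permCharpoly k (primePerm ℚ F (primesT S) σ|_F)`. -/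
theorem prod_permCharpoly_dcPerm_Dq (S : Finset Nat.Primes) (σ : _root_.Fermat.Agent.S55.PT.GQ) :
    ∏ q ∈ S, permCharpoly k (dcPerm (Dq q) F.fixingSubgroup σ).symm =
      permCharpoly k (primePerm ℚ F (primesT S) (resF F σ)) := by
  rw [permCharpoly_primePerm F k S (resF F σ)]
  exact Finset.prod_congr rfl (fun q _ => permCharpoly_dcPerm_Dq F k q σ)

end Final

end Fermat.Agent.S56.H419

end

end
-- ===== PACK-END S56/H419/H0PrimesT.lean

-- ===== PACK-BEGIN S56/H419/H0Final.lean
section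


/-!
# S56 / W-BASE / leaf EUL-H0, part 10 (helper419): the `H⁰` package in characteristic
polynomial form

`F/ℚ` a finite Galois level inside `ℚ̄`, `U = G_F = F.fixingSubgroup`, `σ ∈ G_ℚ`, `τ = σ|_F`,
`M` a one-dimensional representation of `G_ℚ` on which `G_ℚ` acts through a character `χ`
(`M = μ_p = mu p`, `χ = cycloChar p`), `X = Ind_U M = indRep U M`, `X′ = X.dualTwist χ`.
All characteristic polynomials are those of the right translation `R_σ = indR U M σ` (resp. its
contragredient `indRDual U M σ` on `X′`):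

* `charpoly_H0_loc_tdual`  : `∏_{q ∈ S} charpoly(R_σ | H⁰(G_q, X′)) =
                               permCharpoly k (primePerm ℚ F (primesT S) τ)`;
* `charpoly_H0_loc_triv`   : the same for `Ind_U M`, `M` with trivial action;
* `charpoly_H0_glob_tdual` : `charpoly(R_σ | H⁰(G_ℚ, X′)) = X - 1`;
* `charpoly_minus`         : `charpoly(R_σ | X^{c=-1}) = permCharpoly k (τ⁻¹ | InfinitePlace F)`
                             (`c` = complex conjugation, acting by `-1` on `M`);
* `charpoly_H0_glob_char`  : `charpoly(R_σ | H⁰(G_ℚ, X)) = X - χ(σ)` if `χ|_U = 1`, `= 1` else.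

The right-hand sides are exactly the factors of `H614.sUnits_charpoly` /
`Euler.H896.herbCharpoly` for `K = ℚ`, `L = F`, `T = primesT S`.
-/

set_option autoImplicit false
set_option linter.style.haveILetI false
set_option linter.unusedSectionVars false

noncomputable section

open scoped Pointwise NumberField

namespace Fermat.Agent.S56.H419

open Fermat.Agent.S55.PT Fermat.Agent.S55.G Fermat.Agent.S56.H614 ExtCitation MulAction
  NumberField Polynomial IsDedekindDomain groupCohomology

/-! ### scalar endomorphisms -/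

section Scalar

variable {R : Type*} [Field R] {V : Type*} [AddCommGroup V] [Module R V] [Module.Finite R V]

theorem charpoly_smul_one (c : R) :
    (c • (1 : Module.End R V)).charpoly = (X - C c) ^ Module.finrank R V := by
  have h := LinearMap.charpoly_sub_smul (0 : Module.End R V) (-c)
  rw [zero_sub, neg_smul, neg_neg, LinearMap.charpoly_zero] at h
  rw [h, pow_comp, X_comp, map_neg, sub_eq_add_neg]

theorem charpoly_of_forall_smul (f : V →ₗ[R] V) (c : R) (hf : ∀ v, f v = c • v) :
    f.charpoly = (X - C c) ^ Module.finrank R V := by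
  have : f = c • (1 : Module.End R V) := by
    apply LinearMap.ext
    intro v
    rw [hf]
    rfl
  rw [this, charpoly_smul_one]

end Scalar

/-! ### the global Tate dual -/

section GlobalDual

variable {k : Type} [Field k] {G : Type} [Group G] (U : Subgroup G) [U.Normal] [U.FiniteIndex]
  (M : Rep.{0, 0, 0} k G) (χ : G →* kˣ)

/-- `H⁰(G, (Ind_U M)′) ≃ H⁰(G, Ind_U(M′))`. -/
def tdualToIndGlobal :
    ↥(LevelSys.H0 ((indRep U M).dualTwist χ)) ≃ₗ[k]
      ↥(LevelSys.H0 (indRep U (M.dualTwist χ))) where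
  toFun a := ⟨(dualIndEquiv U M).symm a.1, by
    intro g
    apply (dualIndEquiv U M).injective
    have h1 := dualIndEquiv_equivariant U M χ g ((dualIndEquiv U M).symm a.1)
    have h2 : ((indRep U M).dualTwist χ).ρ g a.1 = a.1 := a.2 g
    show dualIndEquiv U M ((indRep U (M.dualTwist χ)).ρ g ((dualIndEquiv U M).symm a.1)) = _
    rw [LinearEquiv.coe_coe] at h1
    rw [h1, LinearEquiv.apply_symm_apply, h2]⟩
  map_add' a b := by
    apply Subtype.ext
    exact map_add (dualIndEquiv U M).symm a.1 b.1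
  map_smul' c a := by
    apply Subtype.ext
    exact map_smul (dualIndEquiv U M).symm c a.1
  invFun b := ⟨dualIndEquiv U M b.1, by
    intro g
    have h1 := dualIndEquiv_equivariant U M χ g b.1
    have h2 : (indRep U (M.dualTwist χ)).ρ g b.1 = b.1 := b.2 g
    show ((indRep U M).dualTwist χ).ρ g (dualIndEquiv U M b.1) = _
    rw [LinearEquiv.coe_coe] at h1
    rw [← h1, h2]⟩
  left_inv a := by
    apply Subtype.ext
    exact (dualIndEquiv U M).apply_symm_apply a.1
  right_inv b := by
    apply Subtype.ext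
    exact (dualIndEquiv U M).symm_apply_apply b.1

@[simp] theorem coe_tdualToIndGlobal (a : ↥(LevelSys.H0 ((indRep U M).dualTwist χ))) :
    ((tdualToIndGlobal U M χ a).1 : (G ⧸ U) →₀ Module.Dual k M) =
      (dualIndEquiv U M).symm a.1 := rfl

theorem tdualToIndGlobal_indR (σ : G) (a : ↥(LevelSys.H0 ((indRep U M).dualTwist χ))) :
    tdualToIndGlobal U M χ
      (pushH0 (A := (indRep U M).dualTwist χ) (B := (indRep U M).dualTwist χ) (indRDual U M σ)
        (indRDual_equivariant U M χ σ) a) =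
      pushH0 (A := indRep U (M.dualTwist χ)) (B := indRep U (M.dualTwist χ))
        (indR U (M.dualTwist χ) σ) (indR_equivariant U (M.dualTwist χ) σ)
        (tdualToIndGlobal U M χ a) := by
  apply Subtype.ext
  apply (dualIndEquiv U M).injective
  rw [coe_tdualToIndGlobal, LinearEquiv.apply_symm_apply, coe_pushH0, coe_pushH0,
    dualIndEquiv_indR, coe_tdualToIndGlobal, LinearEquiv.apply_symm_apply]
  rfl

variable [Module.Finite k M]

/-- **Global `H⁰` of the Tate dual.** For `M = k(χ)` of dimension one, the right translation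
acts trivially on the line `H⁰(G, (Ind_U M)′)`. -/
theorem charpoly_H0_glob_tdual (hM : ∀ (g : G) (m : M), M.ρ g m = (χ g : k) • m)
    (hM1 : Module.finrank k M = 1) (σ : G) :
    (pushH0 (A := (indRep U M).dualTwist χ) (B := (indRep U M).dualTwist χ) (indRDual U M σ)
      (indRDual_equivariant U M χ σ)).charpoly = X - 1 := by
  have hD : Module.finrank k (Module.Dual k M) = 1 := by
    rw [Subspace.dual_finrank_eq, hM1]
  have htriv : ∀ (g : G) (f : Module.Dual k M), (M.dualTwist χ).ρ g f = f :=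
    fun g f => dualTwist_trivial_of_char M χ hM g f
  have h1 := charpoly_eq_of_intertwine (tdualToIndGlobal U M χ) _ _
    (tdualToIndGlobal_indR U M χ σ)
  haveI : Module.Finite k (M.dualTwist χ) :=
    inferInstanceAs (Module.Finite k (Module.Dual k M))
  rw [h1, charpoly_indH0 U (M.dualTwist χ) σ]
  have htop : invU U (M.dualTwist χ) = ⊤ := by
    rw [eq_top_iff]
    intro f _ u _
    exact htriv u f
  have hfr : Module.finrank k ↥(invU U (M.dualTwist χ)) = 1 := by
    rw [htop, finrank_top]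
    exact hD
  have := charpoly_of_forall_smul (invUAct U (M.dualTwist χ) σ) 1 (fun v => by
    apply Subtype.ext
    rw [coe_invUAct, htriv, one_smul])
  rw [this, hfr, pow_one, map_one]

/-- **Global `H⁰` of `Ind_U k(χ)`.** -/
theorem charpoly_H0_glob_char (hM : ∀ (g : G) (m : M), M.ρ g m = (χ g : k) • m) (σ : G) :
    (pushH0 (A := indRep U M) (B := indRep U M) (indR U M σ)
      (indR_equivariant U M σ)).charpoly =
      (X - C ((χ σ : k))) ^ Module.finrank k ↥(invU U M) := by
  rw [charpoly_indH0 U M σ]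
  exact charpoly_of_forall_smul (invUAct U M σ) (χ σ : k) (fun v => by
    apply Subtype.ext
    rw [coe_invUAct, hM]
    rfl)

/-- If `χ` is trivial on `U` then `M^U = M`. -/
theorem finrank_invU_of_trivial (hM : ∀ (g : G) (m : M), M.ρ g m = (χ g : k) • m)
    (hχ : ∀ u ∈ U, χ u = 1) : Module.finrank k ↥(invU U M) = Module.finrank k M := by
  have htop : invU U M = ⊤ := by
    rw [eq_top_iff]
    intro m _ u hu
    rw [hM, hχ u hu, Units.val_one, one_smul]
  rw [htop, finrank_top]

/-- If `χ` is nontrivial on `U` then `M^U = 0`. -/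
theorem finrank_invU_of_nontrivial (hM : ∀ (g : G) (m : M), M.ρ g m = (χ g : k) • m)
    (hχ : ∃ u ∈ U, χ u ≠ 1) : Module.finrank k ↥(invU U M) = 0 := by
  obtain ⟨u, hu, hne⟩ := hχ
  have hbot : invU U M = ⊥ := by
    rw [eq_bot_iff]
    intro m hm
    have h1 : M.ρ u m = m := hm u hu
    rw [hM] at h1
    have h2 : ((χ u : k) - 1) • m = 0 := by rw [sub_smul, h1, one_smul, sub_self]
    rcases smul_eq_zero.1 h2 with h | h
    · exfalso
      apply hne
      apply Units.ext
      rw [Units.val_one]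
      exact sub_eq_zero.1 h
    · exact (Submodule.mem_bot k).2 h
  rw [hbot, finrank_bot]

end GlobalDual

/-! ### the arithmetic package -/

section Arithmetic

variable (F : IntermediateField ℚ (AlgebraicClosure ℚ)) [NumberField F] [IsGalois ℚ F]
  [FiniteDimensional ℚ F] {k : Type} [Field k] (M : Rep.{0, 0, 0} k _root_.Fermat.Agent.S55.PT.GQ) [Module.Finite k M]

/-- **Local `H⁰` of the Tate dual, all `q ∈ S`.** -/
theorem charpoly_H0_loc_tdual (χ : _root_.Fermat.Agent.S55.PT.GQ →* kˣ)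
    (hM : ∀ (g : _root_.Fermat.Agent.S55.PT.GQ) (m : M), M.ρ g m = (χ g : k) • m) (hM1 : Module.finrank k M = 1)
    (S : Finset Nat.Primes) (σ : _root_.Fermat.Agent.S55.PT.GQ) :
    ∏ q ∈ S, (pushH0 (A := Rep.res (rl q) ((indRep F.fixingSubgroup M).dualTwist χ))
        (B := Rep.res (rl q) ((indRep F.fixingSubgroup M).dualTwist χ))
        (indRDual F.fixingSubgroup M σ)
        (indRDual_res_equivariant (rl q) F.fixingSubgroup M χ σ)).charpoly =
      permCharpoly k (primePerm ℚ F (primesT S) (resF F σ)) := by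
  rw [← prod_permCharpoly_dcPerm_Dq F k S σ]
  exact Finset.prod_congr rfl (fun q _ =>
    charpoly_resTdualIndH0 F.fixingSubgroup M (rl q) χ hM hM1 σ)

/-- **Local `H⁰`, trivial coefficients, all `q ∈ S`.** -/
theorem charpoly_H0_loc_triv (hM : ∀ (g : _root_.Fermat.Agent.S55.PT.GQ) (m : M), M.ρ g m = m)
    (hM1 : Module.finrank k M = 1) (S : Finset Nat.Primes) (σ : _root_.Fermat.Agent.S55.PT.GQ) :
    ∏ q ∈ S, (pushH0 (A := Rep.res (rl q) (indRep F.fixingSubgroup M))
        (B := Rep.res (rl q) (indRep F.fixingSubgroup M)) (indR F.fixingSubgroup M σ)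
        (indR_res_equivariant (rl q) F.fixingSubgroup M σ)).charpoly =
      permCharpoly k (primePerm ℚ F (primesT S) (resF F σ)) := by
  rw [← prod_permCharpoly_dcPerm_Dq F k S σ]
  exact Finset.prod_congr rfl (fun q _ =>
    charpoly_resIndH0 F.fixingSubgroup M (rl q) (fun g m => hM (rl q g) m) hM1 σ)

/-- **Archimedean term.** -/
theorem charpoly_minus (hc : ∀ m : M, M.ρ complexConjugation m = -m)
    (hM1 : Module.finrank k M = 1) (σ : _root_.Fermat.Agent.S55.PT.GQ) :
    (minusR complexConjugation F.fixingSubgroup M σ).charpoly =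
      permCharpoly k (fun w : InfinitePlace F => (resF F σ)⁻¹ • w) := by
  rw [charpoly_minusR F.fixingSubgroup M complexConjugation hc hM1 σ]
  exact permCharpoly_dcPerm_Dinf F k σ

end Arithmetic

end Fermat.Agent.S56.H419

end

end
-- ===== PACK-END S56/H419/H0Final.lean

-- ===== PACK-BEGIN S56/H419/H0Mu.lean
section



/-!
# S56 / W-BASE / leaf EUL-H0, part 11 (helper419): the term `μ_p(F)`

`F/ℚ` a finite Galois level, `U = G_F`, `σ ∈ G_ℚ`, `τ = σ|_F`.  For ANY model `(W, ι, gμ)` of the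
`Gal(F/ℚ)`-module `μ_p(F)` in the sense of `Euler.H896.herbCharpoly` (`W` a finite
`𝔽_p`-vector space, `ι : W → Fˣ` additive, injective, with range the `p`-torsion, `gμ` induced by
`τ`):

  `gμ.charpoly = charpoly (R_σ | H⁰(G_ℚ, Ind_U μ_p))`                      (`charpoly_muModel`).
-/

set_option autoImplicit false
set_option linter.style.haveILetI false
set_option linter.unusedSectionVars false

noncomputable section

open scoped Pointwise NumberField

namespace Fermat.Agent.S56.H419

open Fermat.Agent.S55.PT Fermat.Agent.S55.G Fermat.Agent.S55.Bridge ExtCitation MulAction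
  NumberField Polynomial groupCohomology

attribute [local instance] Fermat.Agent.S55.Bridge.isAlgebraic_Qbar
  Fermat.Agent.S55.Bridge.isGalois_Qbar

section Mu

variable (p : ℕ) [Fact p.Prime] (F : IntermediateField ℚ (AlgebraicClosure ℚ))

/-- The image in `ℚ̄ˣ` of a unit of `F`. -/
def unitToQbar : Fˣ →* (AlgebraicClosure ℚ)ˣ :=
  Units.map ((algebraMap F (AlgebraicClosure ℚ) : F →+* AlgebraicClosure ℚ) : F →* _)

@[simp] theorem coe_unitToQbar (z : Fˣ) :
    ((unitToQbar F z : (AlgebraicClosure ℚ)ˣ) : AlgebraicClosure ℚ) = ((z : F) : _) := rfl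

theorem unitToQbar_injective : Function.Injective (unitToQbar F) := by
  intro a b h
  apply Units.ext
  apply Subtype.ext
  have := congrArg (fun t : (AlgebraicClosure ℚ)ˣ => (t : AlgebraicClosure ℚ)) h
  exact this

theorem unitToQbar_mem_rootsOfUnity {z : Fˣ} (hz : z ^ p = 1) :
    unitToQbar F z ∈ rootsOfUnity p (AlgebraicClosure ℚ) := by
  rw [mem_rootsOfUnity, ← map_pow, hz, map_one]

variable [Normal ℚ F]

/-- `τ = σ|_F` raises a `p`-th root of unity of `F` to the power `χ(σ)`. -/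
theorem map_resF_eq_pow (σ : _root_.Fermat.Agent.S55.PT.GQ) {z : Fˣ} (hz : z ^ p = 1) :
    Units.map ((resF F σ : F →+* F) : F →* F) z =
      z ^ ((cycloChar p σ : (ZMod p)ˣ) : ZMod p).val := by
  apply unitToQbar_injective F
  apply Units.ext
  rw [map_pow, Units.val_pow_eq_pow_val, coe_unitToQbar, coe_unitToQbar]
  have h := cycloChar_spec p σ (unitToQbar_mem_rootsOfUnity p F hz)
  rw [coe_unitToQbar] at h
  exact (resF_apply_coe F σ (z : F)).trans h

/-- If `σ` fixes `F` pointwise and `χ(σ) ≠ 1` then `F` has no nontrivial `p`-th root of unity. -/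
theorem eq_one_of_pow_eq_one_of_cycloChar_ne_one {u : _root_.Fermat.Agent.S55.PT.GQ} (hu : u ∈ F.fixingSubgroup)
    (hχ : cycloChar p u ≠ 1) {z : Fˣ} (hz : z ^ p = 1) : z = 1 := by
  have hp : p.Prime := Fact.out
  have h1 : resF F u = 1 := by
    have : u ∈ (resF F).ker := by rw [ker_resF]; exact hu
    exact this
  have h2 := map_resF_eq_pow p F u hz
  rw [h1] at h2
  have h3 : z = z ^ ((cycloChar p u : (ZMod p)ˣ) : ZMod p).val := by
    rw [← h2]
    apply Units.ext
    rfl
  set n := ((cycloChar p u : (ZMod p)ˣ) : ZMod p).val with hn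
  have hn1 : n ≠ 1 := by
    intro h
    apply hχ
    apply Units.ext
    rw [Units.val_one]
    have hval : ((cycloChar p u : (ZMod p)ˣ) : ZMod p).val = (1 : ZMod p).val := by
      haveI : Fact (1 < p) := ⟨hp.one_lt⟩
      rw [ZMod.val_one]
      exact h
    exact ZMod.val_injective p hval
  have hn0 : n ≠ 0 := by
    intro h
    have : ((cycloChar p u : (ZMod p)ˣ) : ZMod p) = 0 := by
      rw [← ZMod.val_eq_zero]
      exact h
    exact (cycloChar p u).ne_zero this
  have hnp : n < p := ZMod.val_lt _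
  have h4 : z ^ (n - 1) = 1 := by
    have h5 : z ^ (n - 1) * z = z := by
      rw [← pow_succ, Nat.sub_add_cancel (Nat.one_le_iff_ne_zero.2 hn0)]
      exact h3.symm
    exact mul_eq_right.mp h5
  have hord : orderOf z ∣ Nat.gcd (n - 1) p :=
    Nat.dvd_gcd (orderOf_dvd_of_pow_eq_one h4) (orderOf_dvd_of_pow_eq_one hz)
  have hgcd : Nat.gcd (n - 1) p = 1 := by
    rw [Nat.gcd_comm]
    have hnd : ¬ p ∣ n - 1 := Nat.not_dvd_of_pos_of_lt (by omega) (by omega)
    exact (Nat.Prime.coprime_iff_not_dvd hp).2 hnd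
  rw [hgcd, Nat.dvd_one, orderOf_eq_one_iff] at hord
  exact hord

end Mu

section Model

variable (p : ℕ) [Fact p.Prime] (F : IntermediateField ℚ (AlgebraicClosure ℚ)) [NumberField F]
  [IsGalois ℚ F] [FiniteDimensional ℚ F]
  {W : Type*} [AddCommGroup W] [Module (ZMod p) W] [Module.Finite (ZMod p) W]
  (gμ : W →ₗ[ZMod p] W) (ι : W →+ Additive Fˣ) (hι : Function.Injective ι)
  (hιr : ∀ a, a ∈ ι.range ↔ p • a = 0) (σ : _root_.Fermat.Agent.S55.PT.GQ)
  (hgμ : ∀ w, ι (gμ w) = unitsHom ℚ F (resF F σ) (ι w))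

include hιr in
theorem model_pow_eq_one (w : W) : (ι w).toMul ^ p = 1 := by
  have h : p • ι w = 0 := (hιr (ι w)).1 ⟨w, rfl⟩
  have h2 := congrArg Additive.toMul h
  rw [toMul_nsmul, toMul_zero] at h2
  exact h2

include hι hιr hgμ in
/-- `gμ` is multiplication by `χ(σ)`. -/
theorem model_gμ_eq_smul (w : W) : gμ w = ((cycloChar p σ : (ZMod p)ˣ) : ZMod p) • w := by
  apply hι
  have h1 : unitsHom ℚ F (resF F σ) (ι w) =
      Additive.ofMul (Units.map ((resF F σ : F →+* F) : F →* F) (ι w).toMul) := rfl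
  rw [hgμ, h1, map_resF_eq_pow p F σ (model_pow_eq_one p F ι hιr w), ofMul_pow, ofMul_toMul]
  set n := ((cycloChar p σ : (ZMod p)ˣ) : ZMod p).val with hn
  have h2 : ((cycloChar p σ : (ZMod p)ˣ) : ZMod p) • w = n • w := by
    rw [← Nat.cast_smul_eq_nsmul (ZMod p) n w, hn, ZMod.natCast_zmod_val]
  rw [h2, map_nsmul]

include hι hιr in
/-- If `χ|_U ≠ 1` then `μ_p(F) = 0`. -/
theorem finrank_model_of_nontrivial (hχ : ∃ u ∈ F.fixingSubgroup, cycloChar p u ≠ 1) :
    Module.finrank (ZMod p) W = 0 := by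
  obtain ⟨u, hu, hne⟩ := hχ
  haveI : Subsingleton W := by
    refine ⟨fun a b => ?_⟩
    have key : ∀ w : W, w = 0 := by
      intro w
      apply hι
      have h1 := eq_one_of_pow_eq_one_of_cycloChar_ne_one p F hu hne
        (model_pow_eq_one p F ι hιr w)
      rw [map_zero]
      exact congrArg Additive.ofMul h1
    rw [key a, key b]
  exact Module.finrank_zero_of_subsingleton

include hι hιr in
/-- If `χ|_U = 1` then `μ_p(F)` is a line. -/
theorem finrank_model_of_trivial (hχ : ∀ u ∈ F.fixingSubgroup, cycloChar p u = 1) :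
    Module.finrank (ZMod p) W = 1 := by
  have hp : p.Prime := Fact.out
  haveI : NeZero p := ⟨hp.ne_zero⟩
  -- the bijection `W ≃ μ_p(ℚ̄)`
  let f : W → rootsOfUnity p (AlgebraicClosure ℚ) := fun w =>
    ⟨unitToQbar F (ι w).toMul, unitToQbar_mem_rootsOfUnity p F (model_pow_eq_one p F ι hιr w)⟩
  have hf_inj : Function.Injective f := by
    intro a b h
    apply hι
    have h1 : unitToQbar F (ι a).toMul = unitToQbar F (ι b).toMul := congrArg Subtype.val h
    exact Additive.toMul.injective (unitToQbar_injective F h1)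
  have hf_surj : Function.Surjective f := by
    intro t
    have hfix : ∀ u ∈ F.fixingSubgroup, u ((t.1 : (AlgebraicClosure ℚ)ˣ) : AlgebraicClosure ℚ) =
        ((t.1 : (AlgebraicClosure ℚ)ˣ) : AlgebraicClosure ℚ) := fun u hu =>
      (cycloChar_eq_one_iff p u).1 (hχ u hu) t.1 t.2
    have hmem : ((t.1 : (AlgebraicClosure ℚ)ˣ) : AlgebraicClosure ℚ) ∈ F := by
      rw [← InfiniteGalois.fixedField_fixingSubgroup F, IntermediateField.mem_fixedField_iff]
      exact hfix
    have hne : (⟨_, hmem⟩ : F) ≠ 0 := by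
      intro h0
      have := congrArg Subtype.val h0
      exact (t.1 : (AlgebraicClosure ℚ)ˣ).ne_zero this
    let z : Fˣ := Units.mk0 ⟨_, hmem⟩ hne
    have hz : unitToQbar F z = t.1 := by
      apply Units.ext
      rfl
    have hzp : z ^ p = 1 := by
      apply unitToQbar_injective F
      rw [map_pow, hz, map_one]
      exact (mem_rootsOfUnity p t.1).1 t.2
    have hmem2 : Additive.ofMul z ∈ ι.range := by
      rw [hιr, ← ofMul_pow, hzp, ofMul_one]
    obtain ⟨w, hw⟩ := hmem2
    refine ⟨w, ?_⟩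
    apply Subtype.ext
    show unitToQbar F (ι w).toMul = t.1
    rw [hw, toMul_ofMul, hz]
  have hcard : Nat.card W = p := by
    rw [Nat.card_congr (Equiv.ofBijective f ⟨hf_inj, hf_surj⟩)]
    exact card_rootsOfUnity_eq_self p
  have h2 := Module.natCard_eq_pow_finrank (K := ZMod p) (V := W)
  rw [hcard, Nat.card_eq_fintype_card, ZMod.card] at h2
  have h3 : p ^ 1 = p ^ Module.finrank (ZMod p) W := by rw [pow_one]; exact h2
  exact (Nat.pow_right_injective hp.two_le h3).symm

theorem mu_ρ_apply (g : _root_.Fermat.Agent.S55.PT.GQ) (m : mu p) :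
    (mu p).ρ g m = ((cycloChar p g : (ZMod p)ˣ) : ZMod p) • m := rfl

include hι hιr hgμ in
/-- **The `μ_p(F)` term.** For any model `(W, ι, gμ)` of `μ_p(F)`, the characteristic polynomial
of `gμ` is that of the right translation on `H⁰(G_ℚ, Ind_U μ_p)`. -/
theorem charpoly_muModel :
    gμ.charpoly =
      (pushH0 (A := indRep F.fixingSubgroup (mu p)) (B := indRep F.fixingSubgroup (mu p))
        (indR F.fixingSubgroup (mu p) σ)
        (indR_equivariant F.fixingSubgroup (mu p) σ)).charpoly := by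
  haveI : Module.Finite (ZMod p) (mu p) := inferInstanceAs (Module.Finite (ZMod p) (ZMod p))
  rw [charpoly_H0_glob_char F.fixingSubgroup (mu p) (cycloChar p) (mu_ρ_apply p) σ,
    charpoly_of_forall_smul gμ _ (model_gμ_eq_smul p F gμ ι hι hιr σ hgμ)]
  congr 1
  by_cases hχ : ∀ u ∈ F.fixingSubgroup, cycloChar p u = 1
  · rw [finrank_model_of_trivial p F ι hι hιr hχ,
      finrank_invU_of_trivial F.fixingSubgroup (mu p) (cycloChar p) (mu_ρ_apply p) hχ]
    exact (Module.finrank_self (ZMod p)).symm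
  · push Not at hχ
    rw [finrank_model_of_nontrivial p F ι hι hιr hχ,
      finrank_invU_of_nontrivial F.fixingSubgroup (mu p) (cycloChar p) (mu_ρ_apply p) hχ]

end Model

end Fermat.Agent.S56.H419

end

end
-- ===== PACK-END S56/H419/H0Mu.lean

-- ===== PACK-BEGIN S56/H419/H0Herb.lean
section



/-!
# S56 / W-BASE / leaves EUL-H0 + EUL-HERB combined (helper419)

`F/ℚ` a finite Galois level, `U = G_F`, `S` a finite set of rational primes, `σ ∈ G_ℚ`,
`X = Ind_U μ_p = indRep U (mu p)`, `X′ = tdual p X`.  For ANY model `(V, π, g)` of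
`E_S(F)/p` (the `S`-units of `F` modulo `p`-th powers, with the endomorphism induced by `σ|_F`):

  `charpoly(g) · charpoly(R_σ | H⁰(G_ℚ, X′))
      = charpoly(R_σ | H⁰(G_ℚ, X)) · charpoly(R_σ | X^{c=-1}) · ∏_{q ∈ S} charpoly(R_σ | H⁰(G_q, X′))`

(`herb_H0`).  This is `Euler.H896.herbCharpoly` (helper896) for `K = ℚ`, `L = F`,
`T = primesT S`, with every factor rewritten as the characteristic polynomial of a right
translation on an `H⁰` of the PT layer.  In `G₀(𝔽_p[C])`, `C = ⟨σ|_F⟩` of order prime to `p`: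
`[E_S(F)/p] + [H⁰(X′)] = [H⁰(X)] + [X^{c=-1}] + Σ_q [H⁰(G_q, X′)]`.
-/

set_option autoImplicit false
set_option linter.style.haveILetI false
set_option linter.unusedSectionVars false

noncomputable section

open scoped Pointwise NumberField

namespace Fermat.Agent.S56.H419

open Fermat.Agent.S55.PT Fermat.Agent.S55.G Fermat.Agent.S55.Bridge Fermat.Agent.S56.H614
  Fermat.Agent.S56.Euler.H896 ExtCitation MulAction NumberField Polynomial groupCohomology

section CC

variable (p : ℕ) [Fact p.Prime]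

/-- Complex conjugation inverts roots of unity. -/
theorem complexConjugation_root {t : AlgebraicClosure ℚ} {m : ℕ} (hm : m ≠ 0)
    (ht : t ^ m = 1) : complexConjugation t = t⁻¹ := by
  apply complexEmbedding.toRingHom.injective
  show complexEmbedding (complexConjugation t) = complexEmbedding t⁻¹
  rw [complexEmbedding_complexConjugation, map_inv₀]
  have h1 : (complexEmbedding t) ^ m = 1 := by rw [← map_pow, ht, map_one]
  have h2 : ‖complexEmbedding t‖ = 1 := Complex.norm_eq_one_of_pow_eq_one h1 hm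
  exact (Complex.inv_eq_conj h2).symm

/-- The cyclotomic character of complex conjugation is `-1`. -/
theorem cycloChar_complexConjugation : cycloChar p complexConjugation = -1 := by
  have hp : p.Prime := Fact.out
  haveI : NeZero p := ⟨hp.ne_zero⟩
  haveI : Fact (1 < p) := ⟨hp.one_lt⟩
  have hval : ((-1 : ZMod p)).val = p - 1 := by
    obtain ⟨k, hk⟩ : ∃ k, p = k + 1 := ⟨p - 1, (Nat.succ_pred_eq_of_pos hp.pos).symm⟩
    subst hk
    rw [ZMod.val_neg_one]
    simp
  have h := modularCyclotomicCharacter.unique (AlgebraicClosure ℚ) (card_rootsOfUnity_eq_self p)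
    (complexConjugation : AlgebraicClosure ℚ ≃+* AlgebraicClosure ℚ) (c := -1)
    (fun t ht => by
      have htp : ((t : (AlgebraicClosure ℚ)ˣ) : AlgebraicClosure ℚ) ^ p = 1 := by
        have := (mem_rootsOfUnity p t).1 ht
        rw [← Units.val_pow_eq_pow_val, this, Units.val_one]
      have h0 : ((t : (AlgebraicClosure ℚ)ˣ) : AlgebraicClosure ℚ) ≠ 0 := t.ne_zero
      have h1 : ((t : (AlgebraicClosure ℚ)ˣ) : AlgebraicClosure ℚ) ^ (p - 1) *
          ((t : (AlgebraicClosure ℚ)ˣ) : AlgebraicClosure ℚ) = 1 := by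
        rw [← pow_succ, Nat.sub_add_cancel hp.pos, htp]
      rw [hval]
      show complexConjugation ((t : (AlgebraicClosure ℚ)ˣ) : AlgebraicClosure ℚ) = _
      rw [complexConjugation_root hp.ne_zero htp]
      exact (eq_inv_of_mul_eq_one_left h1).symm)
  apply Units.ext
  rw [Units.val_neg, Units.val_one]
  exact h.symm

theorem mu_ρ_complexConjugation (m : mu p) : (mu p).ρ complexConjugation m = -m := by
  rw [mu_ρ_apply, cycloChar_complexConjugation, Units.val_neg, Units.val_one, neg_smul, one_smul]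

end CC

section Herb

variable (p : ℕ) [Fact p.Prime] (F : IntermediateField ℚ (AlgebraicClosure ℚ)) [NumberField F]
  [IsGalois ℚ F] [FiniteDimensional ℚ F] (S : Finset Nat.Primes) (σ : _root_.Fermat.Agent.S55.PT.GQ)

/-- **EUL-HERB ∘ EUL-H0.** -/
theorem herb_H0
    {V : Type*} [AddCommGroup V] [Module (ZMod p) V] [Module.Finite (ZMod p) V]
    (g : V →ₗ[ZMod p] V) (π : ↥(sUnits ℚ F (primesT S)) →+ V) (hπ : Function.Surjective π)
    (hπk : ∀ a, π a = 0 → ∃ b, a = p • b)
    (hg : ∀ a b : ↥(sUnits ℚ F (primesT S)),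
      (b : Additive Fˣ) = unitsHom ℚ F (resF F σ) a → π b = g (π a))
    {W : Type*} [AddCommGroup W] [Module (ZMod p) W] [Module.Finite (ZMod p) W]
    (gμ : W →ₗ[ZMod p] W) (ι : W →+ Additive Fˣ) (hι : Function.Injective ι)
    (hιr : ∀ a, a ∈ ι.range ↔ p • a = 0)
    (hgμ : ∀ w, ι (gμ w) = unitsHom ℚ F (resF F σ) (ι w)) :
    g.charpoly *
        (pushH0 (A := (indRep F.fixingSubgroup (mu p)).dualTwist (cycloChar p))
          (B := (indRep F.fixingSubgroup (mu p)).dualTwist (cycloChar p))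
          (indRDual F.fixingSubgroup (mu p) σ)
          (indRDual_equivariant F.fixingSubgroup (mu p) (cycloChar p) σ)).charpoly =
      (pushH0 (A := indRep F.fixingSubgroup (mu p)) (B := indRep F.fixingSubgroup (mu p))
          (indR F.fixingSubgroup (mu p) σ)
          (indR_equivariant F.fixingSubgroup (mu p) σ)).charpoly *
        (minusR complexConjugation F.fixingSubgroup (mu p) σ).charpoly *
        ∏ q ∈ S, (pushH0
          (A := Rep.res (rl q) ((indRep F.fixingSubgroup (mu p)).dualTwist (cycloChar p)))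
          (B := Rep.res (rl q) ((indRep F.fixingSubgroup (mu p)).dualTwist (cycloChar p)))
          (indRDual F.fixingSubgroup (mu p) σ)
          (indRDual_res_equivariant (rl q) F.fixingSubgroup (mu p) (cycloChar p) σ)).charpoly := by
  haveI : Module.Finite (ZMod p) (mu p) := inferInstanceAs (Module.Finite (ZMod p) (ZMod p))
  have h1 : Module.finrank (ZMod p) (mu p) = 1 := Module.finrank_self (ZMod p)
  rw [charpoly_H0_glob_tdual F.fixingSubgroup (mu p) (cycloChar p) (mu_ρ_apply p) h1 σ,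
    ← charpoly_muModel p F gμ ι hι hιr σ hgμ,
    charpoly_minus F (mu p) (mu_ρ_complexConjugation p) h1 σ,
    charpoly_H0_loc_tdual F (mu p) (cycloChar p) (mu_ρ_apply p) h1 S σ]
  exact herbCharpoly ℚ F (primesT S) (resF F σ) p g π hπ hπk hg gμ ι hι hιr hgμ

end Herb

end Fermat.Agent.S56.H419

end

end
-- ===== PACK-END S56/H419/H0Herb.lean

-- ===== PACK-BEGIN S56/Euler/H184/KumInd.lean
section
/-
S56 / W-BASE / Euler characteristic, leaf EUL-KUM (helper184), part 2: induced modules.

For `U` normal of finite index in `G` and a representation `A` over a commutative ring: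
* `fixU U A` : the `U`-fixed vectors, with the action `fixUAct U A σ` of `σ : G`;
* `rTr U A σ` : right translation by `σ⁻¹` on `K.indG U A = (G ⧸ U →₀ A)` (the same formula as
  helper419's `indR`, for arbitrary coefficient rings), equivariant;
* `toInv U A : A^U ≃ (Ind_U A)^G` (`toInv_bijective`), `a ↦ (gU ↦ g a)`, which turns the action
  of `σ` into the right translation (`rTr_toInv`).
-/



set_option autoImplicit false
set_option linter.unusedSectionVars false
set_option linter.style.haveILetI false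

noncomputable section

namespace Fermat.Agent.S56.Euler.H184

open groupCohomology Fermat.Agent.S55.PT Fermat.Agent.S55.K

section Ind

variable {G : Type} [Group G] {k' : Type} [CommRing k'] (U : Subgroup G)
  (A : Rep.{0, 0, 0} k' G)

/-- The `U`-fixed vectors of `A`. -/
def fixU : Submodule k' A where
  carrier := {a | ∀ u ∈ U, A.ρ u a = a}
  add_mem' := by
    intro a b ha hb u hu
    rw [map_add, ha u hu, hb u hu]
  zero_mem' := by
    intro u _
    rw [map_zero]
  smul_mem' := by
    intro c a ha u hu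
    rw [map_smul, ha u hu]

variable {U A} in
theorem mem_fixU {a : A} : a ∈ fixU U A ↔ ∀ u ∈ U, A.ρ u a = a := Iff.rfl

/-- `A^U` is stable under `G` when `U` is normal. -/
theorem ρ_mem_fixU [U.Normal] (σ : G) {a : A} (ha : a ∈ fixU U A) : A.ρ σ a ∈ fixU U A := by
  intro u hu
  have h1 : σ⁻¹ * u * σ ∈ U := by
    have := (inferInstance : U.Normal).conj_mem u hu σ⁻¹
    simpa using this
  have h2 : u * σ = σ * (σ⁻¹ * u * σ) := by group
  calc A.ρ u (A.ρ σ a) = A.ρ (u * σ) a := by rw [map_mul]; rfl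
    _ = A.ρ (σ * (σ⁻¹ * u * σ)) a := by rw [h2]
    _ = A.ρ σ (A.ρ (σ⁻¹ * u * σ) a) := by rw [map_mul]; rfl
    _ = A.ρ σ a := by rw [ha _ h1]

/-- The action of `σ` on `A^U` (`U` normal). -/
def fixUAct [U.Normal] (σ : G) : ↥(fixU U A) →ₗ[k'] ↥(fixU U A) :=
  (A.ρ σ).restrict fun _ hm => ρ_mem_fixU U A σ hm

@[simp] theorem coe_fixUAct [U.Normal] (σ : G) (a : ↥(fixU U A)) :
    (fixUAct U A σ a : A) = A.ρ σ a.1 := rfl

/-- Evaluation of the diagonal action on `Ind_U A`. -/
theorem indρ_apply_smul (g : G) (f : (G ⧸ U) →₀ A) (x : G ⧸ U) :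
    (indρ (MonoidHom.id G) U A g f) (g • x) = A.ρ g (f x) := by
  show ((Finsupp.lmapDomain A k' (fun x : G ⧸ U => g • x)).comp
    (Finsupp.mapRange.linearMap (A.ρ g))) f (g • x) = _
  rw [LinearMap.comp_apply, Finsupp.lmapDomain_apply,
    Finsupp.mapDomain_apply (MulAction.injective g), Finsupp.mapRange.linearMap_apply,
    Finsupp.mapRange_apply]

/-- `g` fixes `f` iff `f (g • x) = g (f x)` for all `x`. -/
theorem indρ_eq_self_iff (g : G) (f : (G ⧸ U) →₀ A) :
    indρ (MonoidHom.id G) U A g f = f ↔ ∀ x : G ⧸ U, f (g • x) = A.ρ g (f x) := by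
  constructor
  · intro h x
    rw [← indρ_apply_smul U A g f x, h]
  · intro h
    ext x
    have hx : x = g • (g⁻¹ • x) := by rw [smul_inv_smul]
    rw [hx, indρ_apply_smul, h]

theorem mem_H0_indG_iff (f : (G ⧸ U) →₀ A) :
    (f : indG U A) ∈ LevelSys.H0 (indG U A) ↔
      ∀ (g : G) (x : G ⧸ U), f (g • x) = A.ρ g (f x) := by
  constructor
  · intro h g
    exact (indρ_eq_self_iff U A g f).1 (h g)
  · intro h g
    exact (indρ_eq_self_iff U A g f).2 (h g)

/-- the function `gU ↦ g a` attached to a `U`-fixed vector `a` -/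
def orbFun (a : ↥(fixU U A)) : G ⧸ U → A :=
  Quotient.lift (s := QuotientGroup.leftRel U) (fun g : G => A.ρ g a.1) (by
    intro x y hxy'
    have hxy : x⁻¹ * y ∈ U := QuotientGroup.leftRel_apply.mp hxy'
    have hy : y = x * (x⁻¹ * y) := by group
    show A.ρ x a.1 = A.ρ y a.1
    conv_rhs => rw [hy, map_mul]
    show A.ρ x a.1 = A.ρ x (A.ρ (x⁻¹ * y) a.1)
    rw [a.2 _ hxy])

@[simp] theorem orbFun_mk (a : ↥(fixU U A)) (g : G) :
    orbFun U A a (g : G ⧸ U) = A.ρ g a.1 := rfl

theorem orbFun_smul (a : ↥(fixU U A)) (g : G) (x : G ⧸ U) :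
    orbFun U A a (g • x) = A.ρ g (orbFun U A a x) := by
  induction x using QuotientGroup.induction_on with
  | H b =>
    show A.ρ (g * b) a.1 = A.ρ g (A.ρ b a.1)
    rw [map_mul]; rfl

/-- The element `∑_{gU} gU ⊗ g a` of `Ind_U A` attached to a `U`-fixed vector. -/
def toIndFun [U.FiniteIndex] (a : ↥(fixU U A)) : (G ⧸ U) →₀ A :=
  Finsupp.equivFunOnFinite.symm (orbFun U A a)

theorem toIndFun_apply [U.FiniteIndex] (a : ↥(fixU U A)) (x : G ⧸ U) :
    toIndFun U A a x = orbFun U A a x := rfl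

theorem toIndFun_mem [U.FiniteIndex] (a : ↥(fixU U A)) :
    (toIndFun U A a : indG U A) ∈ LevelSys.H0 (indG U A) := by
  rw [mem_H0_indG_iff]
  intro g x
  rw [toIndFun_apply, toIndFun_apply]
  exact orbFun_smul U A a g x

/-- **Shapiro in degree 0**: `A^U → (Ind_U A)^G`. -/
def toInv [U.FiniteIndex] : ↥(fixU U A) →+ ↥(LevelSys.H0 (indG U A)) where
  toFun a := ⟨toIndFun U A a, toIndFun_mem U A a⟩
  map_zero' := by
    apply Subtype.ext
    apply Finsupp.ext
    intro x
    induction x using QuotientGroup.induction_on with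
    | H g =>
      show A.ρ g (0 : A) = 0
      rw [map_zero]
  map_add' a b := by
    apply Subtype.ext
    apply Finsupp.ext
    intro x
    induction x using QuotientGroup.induction_on with
    | H g =>
      show A.ρ g (a.1 + b.1) = A.ρ g a.1 + A.ρ g b.1
      rw [map_add]

/-- The underlying finitely supported function of an invariant of `Ind_U A`. -/
def fsOf (f : ↥(LevelSys.H0 (indG U A))) : (G ⧸ U) →₀ A := f.1

theorem fsOf_injective : Function.Injective (fsOf U A) := fun _ _ h => Subtype.ext h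

theorem fsOf_smul (f : ↥(LevelSys.H0 (indG U A))) (g : G) (x : G ⧸ U) :
    fsOf U A f (g • x) = A.ρ g (fsOf U A f x) :=
  (mem_H0_indG_iff U A f.1).1 f.2 g x

theorem fsOf_toInv [U.FiniteIndex] (a : ↥(fixU U A)) :
    fsOf U A (toInv U A a) = toIndFun U A a := rfl

theorem toInv_apply_mk [U.FiniteIndex] (a : ↥(fixU U A)) (g : G) :
    fsOf U A (toInv U A a) (g : G ⧸ U) = A.ρ g a.1 := rfl

theorem toInv_apply_one [U.FiniteIndex] (a : ↥(fixU U A)) :
    fsOf U A (toInv U A a) ((1 : G) : G ⧸ U) = a.1 := by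
  rw [toInv_apply_mk, map_one]
  rfl

theorem toInv_injective [U.FiniteIndex] : Function.Injective (toInv U A) := by
  intro a b h
  apply Subtype.ext
  rw [← toInv_apply_one U A a, ← toInv_apply_one U A b, h]

theorem toInv_surjective [U.FiniteIndex] : Function.Surjective (toInv U A) := by
  intro f
  have hf := fsOf_smul U A f
  have h1 : fsOf U A f ((1 : G) : G ⧸ U) ∈ fixU U A := by
    intro u hu
    rw [← hf u ((1 : G) : G ⧸ U)]
    congr 1
    show ((u * 1 : G) : G ⧸ U) = ((1 : G) : G ⧸ U)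
    rw [mul_one, QuotientGroup.eq]
    simpa using hu
  refine ⟨⟨_, h1⟩, ?_⟩
  apply fsOf_injective
  apply Finsupp.ext
  intro x
  induction x using QuotientGroup.induction_on with
  | H g =>
    rw [toInv_apply_mk]
    show A.ρ g (fsOf U A f ((1 : G) : G ⧸ U)) = _
    rw [← hf g ((1 : G) : G ⧸ U)]
    congr 1
    show ((g * 1 : G) : G ⧸ U) = (g : G ⧸ U)
    rw [mul_one]

theorem toInv_nsmul [U.FiniteIndex] (n : ℕ) (a : ↥(fixU U A)) :
    toInv U A (n • a) = n • toInv U A a := map_nsmul _ _ _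

/-! ### right translations -/

/-- Right translation by `σ⁻¹` on `Ind_U A`: `single (gU) a ↦ single (g σ⁻¹ U) a`. -/
def rTr [U.Normal] (σ : G) : ((G ⧸ U) →₀ A) →ₗ[k'] ((G ⧸ U) →₀ A) :=
  Finsupp.lmapDomain A k' (Fermat.Agent.S56.H419.rightTr U σ)

@[simp] theorem rTr_single [U.Normal] (σ : G) (x : G ⧸ U) (a : A) :
    rTr U A σ (Finsupp.single x a) =
      Finsupp.single (Fermat.Agent.S56.H419.rightTr U σ x) a := by
  rw [rTr, Finsupp.lmapDomain_apply, Finsupp.mapDomain_single]

theorem rTr_apply [U.Normal] (σ : G) (f : (G ⧸ U) →₀ A) (x : G ⧸ U) :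
    rTr U A σ f x = f (x * (σ : G ⧸ U)) := by
  show Finsupp.mapDomain (Fermat.Agent.S56.H419.rightTr U σ) f x = _
  have h := Finsupp.mapDomain_apply (Fermat.Agent.S56.H419.rightTr U σ).injective f
    (x * (σ : G ⧸ U))
  rw [← h]
  congr 1
  simp

/-- Right translations commute with the diagonal action. -/
theorem rTr_equivariant [U.Normal] (σ g : G) (f : (G ⧸ U) →₀ A) :
    rTr U A σ (indρ (MonoidHom.id G) U A g f) = indρ (MonoidHom.id G) U A g (rTr U A σ f) := by
  have h : (rTr U A σ) ∘ₗ (indρ (MonoidHom.id G) U A g) =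
      (indρ (MonoidHom.id G) U A g) ∘ₗ (rTr U A σ) := by
    apply Finsupp.lhom_ext
    intro x a
    rw [LinearMap.comp_apply, LinearMap.comp_apply, indρ_single, rTr_single, rTr_single,
      indρ_single]
    congr 1
    exact Fermat.Agent.S56.H419.rightTr_smul U σ g x
  exact LinearMap.congr_fun h f

/-- **Intertwining**: under `A^U ≃ (Ind_U A)^G` the action of `σ` is the right translation. -/
theorem rTr_toInv [U.Normal] [U.FiniteIndex] (σ : G) (a : ↥(fixU U A)) :
    rTr U A σ (fsOf U A (toInv U A a)) = fsOf U A (toInv U A (fixUAct U A σ a)) := by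
  apply Finsupp.ext
  intro x
  induction x using QuotientGroup.induction_on with
  | H g =>
    rw [rTr_apply, toInv_apply_mk]
    show fsOf U A (toInv U A a) ((g * σ : G) : G ⧸ U) = A.ρ g (A.ρ σ a.1)
    rw [toInv_apply_mk, map_mul]
    rfl

/-- Right translations commute with coefficient maps. -/
theorem rTr_mapRange [U.Normal] {k'' : Type} [CommRing k''] (B : Rep.{0, 0, 0} k'' G)
    (φ : A →+ B) (σ : G) (f : (G ⧸ U) →₀ A) :
    Finsupp.mapRange.addMonoidHom φ (rTr U A σ f) =
      rTr U B σ (Finsupp.mapRange.addMonoidHom φ f) := by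
  induction f using Finsupp.induction_linear with
  | zero => simp
  | add v w hv hw => simp only [map_add, hv, hw]
  | single x a =>
    rw [rTr_single, Finsupp.mapRange.addMonoidHom_apply, Finsupp.mapRange_single,
      Finsupp.mapRange.addMonoidHom_apply, Finsupp.mapRange_single, rTr_single]

end Ind

end Fermat.Agent.S56.Euler.H184

end

end
-- ===== PACK-END S56/Euler/H184/KumInd.lean

-- ===== PACK-BEGIN S56/Euler/H184/Kum.lean
section
/-
S56 / W-BASE / Euler characteristic, leaf EUL-KUM = KUM-EQ (helper184).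
Route memo: `coord/S56-EULER-helper366.md` §1 (3b).

`p ∈ S`, `U` a NORMAL level of `globalLevels S` (`U = G_F`, `F/ℚ` finite Galois unramified outside
`S`), `𝔼 = K.sUnits S` the `S`-units of `ℚ̄`, `E_U = fixU U 𝔼 = 𝒪_{F,S}ˣ`.  The Kummer map

  `δ : E_U →+ H¹_S(G_ℚ, Ind_U μ_p)`     (`= H¹(G_{F,S}, μ_p)` by Shapiro)

* has kernel `p • E_U`;
* intertwines the Galois action of `σ ∈ G_ℚ` on `E_U` with the right translation
  `H419.indR U μ σ` on `Ind_U μ` (the `Gal(F/ℚ)`-module structure of `H¹_S(Ind_U μ)` used in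
  Tate's Euler characteristic formula);
* is onto as soon as `H¹_S(Ind_U 𝔼)` has no `p`-torsion (`NoPTorsH1E`, cochain form; this holds
  when `Cl_S(F)[p] = 0`), and in general its image consists of the classes dying in
  `H¹_S(Ind_U 𝔼)` (`mem_range_kumMap_iff`).

Hence `(H¹_S(Ind_U μ), δ, pushH1 (indR σ))` is a MODEL of `E_U / p` with the action of `σ`.

Main results: `kumMap`, `kumMap_eq_zero_iff`, `kumMap_equivariant`, `kumMap_surjective`,
`mem_range_kumMap_iff`, `kumEq : KumEqStatement p S`.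
-/




set_option autoImplicit false
set_option linter.unusedSectionVars false
set_option linter.style.haveILetI false

noncomputable section

namespace Fermat.Agent.S56.Euler.H184

open groupCohomology Fermat.Agent.S55 Fermat.Agent.S55.PT Fermat.Agent.S55.K Fermat.Agent.S55.Bridge ExtCitation

variable (p : ℕ) [Fact p.Prime] (S : Finset Nat.Primes)

/-! ### The statement -/

/-- `H¹_S(Ind_U 𝔼)[p] = 0`, cochain form (true when `Cl_S(K_U)[p] = 0`). -/
def NoPTorsH1E (U : Subgroup PT.GQ) : Prop :=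
  ∀ z ∈ (globalLevels S).Z1 (indG U (sUnits S)),
    p • z ∈ LevelSys.B1 (indG U (sUnits S)) → z ∈ LevelSys.B1 (indG U (sUnits S))

/-- **KUM-EQ.**  For every normal level `U` there is a Kummer map
`δ : E_U →+ H¹_S(Ind_U μ)` with kernel `p • E_U`, equivariant for `σ ↦ indR U μ σ`, and onto
when `H¹_S(Ind_U 𝔼)[p] = 0`. -/
def KumEqStatement : Prop :=
  pPrime p ∈ S → ∀ (U : Subgroup PT.GQ) [U.Normal], U ∈ (globalLevels S).levels →
    ∃ δ : ↥(fixU U (sUnits S)) →+ (globalLevels S).H1 (indRep U (mu p)),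
      (∀ e, δ e = 0 ↔ ∃ e' : ↥(fixU U (sUnits S)), e = p • e') ∧
      (∀ (σ : PT.GQ) (e : ↥(fixU U (sUnits S))),
        δ (fixUAct U (sUnits S) σ e) =
          pushH1 (A := indRep U (mu p)) (B := indRep U (mu p))
            (Fermat.Agent.S56.H419.indR U (mu p) σ)
            (Fermat.Agent.S56.H419.indR_equivariant U (mu p) σ) (globalLevels S) (δ e)) ∧
      (NoPTorsH1E p S U → Function.Surjective δ)

/-! ### The Kummer sequence of `Ind_U` -/

variable (U : Subgroup PT.GQ)

/-- `0 → Ind_U μ_p → Ind_U 𝔼 → Ind_U 𝔼` is a Kummer sequence for `globalLevels S` (`p ∈ S`). -/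
theorem isKummerSeq_ind (hpS : pPrime p ∈ S) (hU : U ∈ (globalLevels S).levels) :
    IsKummerSeq (M := indG U (muP p)) (E := indG U (sUnits S)) (globalLevels S) p
      (indMuToE p S U) where
  inj := H397.indMuToE_injective p S U
  equi := H397.indMuToE_equivariant p S U
  tors := H397.indMuToE_tors p S U
  kum := H397.kummer_ind (L := globalLevels S) (sUnits S)
    (globalLevels_normal_cofinal724 S : (globalLevels S).NormalCofinal) p
    (fun x hx => Fermat.Agent.S55.K.H724.kummer p S hpS x hx) hU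
  killed := H397.ind_nsmul_p p U

/-! ### Comparison of the two models of `Ind_U μ` -/

lemma toK_ofK (a : (PT.GQ ⧸ U) →₀ (muP p : Rep.{0, 0, 0} (ZMod p) PT.GQ)) :
    H723.toK p U (H723.ofK p U a) = a := by
  have h : (H723.toK p U) ∘ₗ (H723.ofK p U) = LinearMap.id := by
    apply Finsupp.lhom_ext
    intro x m
    rw [LinearMap.comp_apply, H723.ofK_single, H723.toK_single, LinearEquiv.apply_symm_apply]
    rfl
  exact LinearMap.congr_fun h a

/-- The transport `H¹_S(Ind_U μ_p) → H¹_S(Ind_U μ)` from the `K` model to the `PT` model. -/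
def h1OfK : (globalLevels S).H1 (indG U (muP p)) →ₗ[ZMod p] (globalLevels S).H1 (indRep U (mu p)) :=
  pushH1 (A := indG U (muP p)) (B := indRep U (mu p)) (H723.ofK p U) (H723.ofK_equivariant p U)
    (globalLevels S)

/-- The transport `H¹_S(Ind_U μ) → H¹_S(Ind_U μ_p)` from the `PT` model to the `K` model. -/
def h1ToK : (globalLevels S).H1 (indRep U (mu p)) →ₗ[ZMod p] (globalLevels S).H1 (indG U (muP p)) :=
  pushH1 (A := indRep U (mu p)) (B := indG U (muP p)) (H723.toK p U) (H723.toK_equivariant p U)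
    (globalLevels S)

lemma h1ToK_h1OfK (x : (globalLevels S).H1 (indG U (muP p))) :
    h1ToK p S U (h1OfK p S U x) = x := by
  obtain ⟨c, rfl⟩ := (globalLevels S).H1π_surjective _ x
  have hc : pushZ1 (A := indRep U (mu p)) (B := indG U (muP p)) (H723.toK p U)
      (H723.toK_equivariant p U) (globalLevels S)
      (pushZ1 (A := indG U (muP p)) (B := indRep U (mu p)) (H723.ofK p U)
        (H723.ofK_equivariant p U) (globalLevels S) c) = c := by
    apply Subtype.ext
    funext g
    exact toK_ofK p U _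
  exact congrArg ((globalLevels S).H1π (indG U (muP p))) hc

lemma h1OfK_h1ToK (x : (globalLevels S).H1 (indRep U (mu p))) :
    h1OfK p S U (h1ToK p S U x) = x := by
  obtain ⟨c, rfl⟩ := (globalLevels S).H1π_surjective _ x
  have hc : pushZ1 (A := indG U (muP p)) (B := indRep U (mu p)) (H723.ofK p U)
      (H723.ofK_equivariant p U) (globalLevels S)
      (pushZ1 (A := indRep U (mu p)) (B := indG U (muP p)) (H723.toK p U)
        (H723.toK_equivariant p U) (globalLevels S) c) = c := by
    apply Subtype.ext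
    funext g
    exact H723.ofK_toK p U _
  exact congrArg ((globalLevels S).H1π (indRep U (mu p))) hc

lemma h1OfK_injective : Function.Injective (h1OfK p S U) :=
  Function.LeftInverse.injective (h1ToK_h1OfK p S U)

lemma h1OfK_surjective : Function.Surjective (h1OfK p S U) :=
  Function.RightInverse.surjective (h1OfK_h1ToK p S U)

/-- Right translation in the `K` model, as an equivariant endomorphism of `Ind_U μ_p`. -/
lemma rTr_isEquivariant [U.Normal] (σ : PT.GQ) :
    IsEquivariant (A := indG U (muP p)) (B := indG U (muP p)) (rTr U (muP p) σ) :=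
  fun g a => rTr_equivariant U (muP p) σ g a

/-- `ofK` intertwines the right translations of the two models. -/
lemma ofK_rTr [U.Normal] (σ : PT.GQ) (a : (PT.GQ ⧸ U) →₀ (muP p : Rep.{0, 0, 0} (ZMod p) PT.GQ)) :
    H723.ofK p U (rTr U (muP p) σ a) =
      Fermat.Agent.S56.H419.indR U (mu p) σ (H723.ofK p U a) := by
  have h : (H723.ofK p U) ∘ₗ (rTr U (muP p) σ) =
      (Fermat.Agent.S56.H419.indR U (mu p) σ) ∘ₗ (H723.ofK p U) := by
    apply Finsupp.lhom_ext
    intro x m
    rw [LinearMap.comp_apply, LinearMap.comp_apply, rTr_single, H723.ofK_single,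
      H723.ofK_single, Fermat.Agent.S56.H419.indR_single]
  exact LinearMap.congr_fun h a

lemma h1OfK_rTr [U.Normal] (σ : PT.GQ) (x : (globalLevels S).H1 (indG U (muP p))) :
    h1OfK p S U (pushH1 (A := indG U (muP p)) (B := indG U (muP p)) (rTr U (muP p) σ)
        (rTr_isEquivariant p U σ) (globalLevels S) x) =
      pushH1 (A := indRep U (mu p)) (B := indRep U (mu p))
        (Fermat.Agent.S56.H419.indR U (mu p) σ)
        (Fermat.Agent.S56.H419.indR_equivariant U (mu p) σ) (globalLevels S)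
        (h1OfK p S U x) := by
  obtain ⟨c, rfl⟩ := (globalLevels S).H1π_surjective _ x
  have hc : pushZ1 (A := indG U (muP p)) (B := indRep U (mu p)) (H723.ofK p U)
      (H723.ofK_equivariant p U) (globalLevels S)
      (pushZ1 (A := indG U (muP p)) (B := indG U (muP p)) (rTr U (muP p) σ)
        (rTr_isEquivariant p U σ) (globalLevels S) c) =
      pushZ1 (A := indRep U (mu p)) (B := indRep U (mu p))
        (Fermat.Agent.S56.H419.indR U (mu p) σ)
        (Fermat.Agent.S56.H419.indR_equivariant U (mu p) σ) (globalLevels S)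
        (pushZ1 (A := indG U (muP p)) (B := indRep U (mu p)) (H723.ofK p U)
          (H723.ofK_equivariant p U) (globalLevels S) c) := by
    apply Subtype.ext
    funext g
    exact ofK_rTr p U σ _
  exact congrArg ((globalLevels S).H1π (indRep U (mu p))) hc

/-! ### The Kummer map -/

section KumMap

variable [U.Normal] (hpS : pPrime p ∈ S) (hU : U ∈ (globalLevels S).levels)

/-- The Kummer map in the `K` model. -/
def kumMapK : ↥(fixU U (sUnits S)) →+ (globalLevels S).H1 (indG U (muP p)) :=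
  haveI : U.FiniteIndex := H424.globalFiniteIndex S U hU
  (kumDelta (globalLevels S) p (indMuToE p S U) (isKummerSeq_ind p S U hpS hU)).comp
    (toInv U (sUnits S))

/-- **The Kummer map** `E_U →+ H¹_S(Ind_U μ)`. -/
def kumMap : ↥(fixU U (sUnits S)) →+ (globalLevels S).H1 (indRep U (mu p)) :=
  (h1OfK p S U).toAddMonoidHom.comp (kumMapK p S U hpS hU)

theorem kumMapK_eq_zero_iff (e : ↥(fixU U (sUnits S))) :
    kumMapK p S U hpS hU e = 0 ↔ ∃ e' : ↥(fixU U (sUnits S)), e = p • e' := by
  haveI : U.FiniteIndex := H424.globalFiniteIndex S U hU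
  show kumDelta (globalLevels S) p (indMuToE p S U) (isKummerSeq_ind p S U hpS hU)
    (toInv U (sUnits S) e) = 0 ↔ _
  rw [kumDelta_eq_zero_iff]
  constructor
  · rintro ⟨f, hf⟩
    obtain ⟨e', rfl⟩ := toInv_surjective U (sUnits S) f
    refine ⟨e', toInv_injective U (sUnits S) ?_⟩
    rw [hf, toInv_nsmul]
  · rintro ⟨e', rfl⟩
    exact ⟨toInv U (sUnits S) e', toInv_nsmul U (sUnits S) p e'⟩

/-- **Kernel of the Kummer map.** -/
theorem kumMap_eq_zero_iff (e : ↥(fixU U (sUnits S))) :
    kumMap p S U hpS hU e = 0 ↔ ∃ e' : ↥(fixU U (sUnits S)), e = p • e' := by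
  rw [← kumMapK_eq_zero_iff p S U hpS hU]
  show h1OfK p S U (kumMapK p S U hpS hU e) = 0 ↔ _
  constructor
  · intro h
    exact h1OfK_injective p S U (h.trans (map_zero _).symm)
  · intro h
    rw [h, map_zero]

theorem kumMapK_equivariant (σ : PT.GQ) (e : ↥(fixU U (sUnits S))) :
    kumMapK p S U hpS hU (fixUAct U (sUnits S) σ e) =
      pushH1 (A := indG U (muP p)) (B := indG U (muP p)) (rTr U (muP p) σ)
        (rTr_isEquivariant p U σ) (globalLevels S) (kumMapK p S U hpS hU e) := by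
  haveI : U.FiniteIndex := H424.globalFiniteIndex S U hU
  exact kumDelta_natural (isKummerSeq_ind p S U hpS hU) (rTr U (muP p) σ)
    (rTr_isEquivariant p U σ) (rTr U (sUnits S) σ).toAddMonoidHom
    (fun g a => rTr_equivariant U (sUnits S) σ g a)
    (fun m => rTr_mapRange U (muP p) (sUnits S) (muToE p S) σ m)
    (toInv U (sUnits S) e) (toInv U (sUnits S) (fixUAct U (sUnits S) σ e))
    (rTr_toInv U (sUnits S) σ e).symm

/-- **Equivariance of the Kummer map**: the Galois action on `E_U` becomes the right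
translation on `Ind_U μ`. -/
theorem kumMap_equivariant (σ : PT.GQ) (e : ↥(fixU U (sUnits S))) :
    kumMap p S U hpS hU (fixUAct U (sUnits S) σ e) =
      pushH1 (A := indRep U (mu p)) (B := indRep U (mu p))
        (Fermat.Agent.S56.H419.indR U (mu p) σ)
        (Fermat.Agent.S56.H419.indR_equivariant U (mu p) σ) (globalLevels S)
        (kumMap p S U hpS hU e) := by
  show h1OfK p S U (kumMapK p S U hpS hU (fixUAct U (sUnits S) σ e)) = _
  rw [kumMapK_equivariant, h1OfK_rTr]
  rfl

/-- **Image of the Kummer map** (`K` model): the classes which die in `H¹_S(Ind_U 𝔼)`. -/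
theorem mem_range_kumMapK_iff (c : ↥((globalLevels S).Z1 (indG U (muP p)))) :
    (globalLevels S).H1π (indG U (muP p)) c ∈ Set.range (kumMapK p S U hpS hU) ↔
      (fun g => indMuToE p S U ((c : PT.GQ → indG U (muP p)) g)) ∈
        LevelSys.B1 (indG U (sUnits S)) := by
  haveI : U.FiniteIndex := H424.globalFiniteIndex S U hU
  rw [← mem_range_kumDelta_iff (isKummerSeq_ind p S U hpS hU) c]
  constructor
  · rintro ⟨e, he⟩
    exact ⟨toInv U (sUnits S) e, he⟩
  · rintro ⟨f, hf⟩
    obtain ⟨e, rfl⟩ := toInv_surjective U (sUnits S) f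
    exact ⟨e, hf⟩

/-- **Image of the Kummer map**: the classes which die in `H¹_S(Ind_U 𝔼)`. -/
theorem mem_range_kumMap_iff (c : ↥((globalLevels S).Z1 (indRep U (mu p)))) :
    (globalLevels S).H1π (indRep U (mu p)) c ∈ Set.range (kumMap p S U hpS hU) ↔
      (fun g => indMuToE p S U (H723.toK p U ((c : PT.GQ → indRep U (mu p)) g))) ∈
        LevelSys.B1 (indG U (sUnits S)) := by
  refine Iff.trans ?_ (mem_range_kumMapK_iff p S U hpS hU
    (pushZ1 (A := indRep U (mu p)) (B := indG U (muP p))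
      (H723.toK p U) (H723.toK_equivariant p U) (globalLevels S) c))
  constructor
  · rintro ⟨e, he⟩
    refine ⟨e, ?_⟩
    have h1 : h1ToK p S U (kumMap p S U hpS hU e) = kumMapK p S U hpS hU e :=
      h1ToK_h1OfK p S U _
    rw [← h1, he]
    rfl
  · rintro ⟨e, he⟩
    refine ⟨e, ?_⟩
    show h1OfK p S U (kumMapK p S U hpS hU e) = _
    rw [he]
    exact h1OfK_h1ToK p S U ((globalLevels S).H1π (indRep U (mu p)) c)

/-- **Surjectivity of the Kummer map** when `H¹_S(Ind_U 𝔼)` has no `p`-torsion. -/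
theorem kumMap_surjective (hcl : NoPTorsH1E p S U) :
    Function.Surjective (kumMap p S U hpS hU) := by
  haveI : U.FiniteIndex := H424.globalFiniteIndex S U hU
  refine (h1OfK_surjective p S U).comp ?_
  exact (kumDelta_surjective (isKummerSeq_ind p S U hpS hU) hcl).comp
    (toInv_surjective U (sUnits S))

end KumMap

/-- **KUM-EQ** (leaf EUL-KUM of Tate's global Euler characteristic formula). -/
theorem kumEq : KumEqStatement p S := by
  intro hpS U _ hU
  exact ⟨kumMap p S U hpS hU, kumMap_eq_zero_iff p S U hpS hU,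
    kumMap_equivariant p S U hpS hU, kumMap_surjective p S U hpS hU⟩

end Fermat.Agent.S56.Euler.H184

end

end
-- ===== PACK-END S56/Euler/H184/Kum.lean

-- ===== PACK-BEGIN S56/H419/CharEulerAsm.lean
section






/-!
# S56 / W-BASE / BASE-BIG, leaf ASM (subtask 697, helper419): assembly of CHAR-EULER-BIG

    theorem charEulerBig_of : (∀ S, Euler.H2CPSpec p S) → Sha2IndSpec p → ClSpec p →
        P1CharSpec p → Euler.CharEulerBigSpec p

`X = Ind_U μ_p`, `U = G_F`, `F/ℚ` finite Galois unramified outside `S ∋ p`, `χ_p|_U = 1`,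
`R_σ = indR U μ σ`, `τ = σ|_F`.  The four characteristic polynomials of `H614.CharpolyId`:

* `P0` : `cp(R_σ | H⁰ X) = X - χ(σ)`                      (`charpoly_H0_ind_mu`, from `H0Final`);
* `P∞` : `cp(R_σ | X^{c=-1}) = permCharpoly (τ⁻¹ | InfinitePlace F)`  (`charpoly_minusMap_mu`);
* `P2` : `cp(R_σ | H²_S X) · (X - 1) = permCharpoly (primePerm ℚ F (primesT S) τ)`
         (`charpoly_H2_of_h2cp`, from `Euler.H2CPSpec p S`, `Ш²_S(X) = 0` and `H0Final`);
* `P1` : `cp(R_σ | H¹_S X) · (X - 1) = (X - χ(σ)) · permInf · permFin`   — INPUT `P1CharSpec p`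
         (KUM + HERB under CL, helper184).

Inputs, frozen here as `Prop`s (each in the weakest form the assembly needs):

* `P1CharSpec p`   — P1-CHAR (helper184, note #7952);
* `ClSpec p`       — CL: `∃ S ⊇ S₁, NoPTorsH1E p S U` (helper74 / helper833);
* `Sha2IndSpec p`  — SHA: `∃ S₁ ⊇ S₀, ∀ T ⊇ S₁, Ш²_T(Ind_U μ_p) = 0`; PROVED from Theorem D for
                     all `T` by helper726 (`sha2Ind_of`).

Nothing unproved in this file.
-/

set_option autoImplicit false
set_option linter.style.haveILetI false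
set_option linter.unusedSectionVars false

noncomputable section

open scoped Pointwise NumberField

namespace Fermat.Agent.S56.H419

open Fermat.Agent.S55.PT Fermat.Agent.S55.G Fermat.Agent.S56.H614 ExtCitation MulAction
  NumberField Polynomial groupCohomology

attribute [local instance] Fermat.Agent.S55.Bridge.isAlgebraic_Qbar
  Fermat.Agent.S55.Bridge.isGalois_Qbar

/-! ### `permCharpoly` of inverse permutations -/

section Symm

variable (k : Type*) [Field k] {X : Type*} [Finite X]

/-- Mutually inverse maps have the same `permCharpoly`. -/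
theorem permCharpoly_eq_of_inverse (σ₁ σ₂ : X → X) (h : ∀ x, σ₁ (σ₂ x) = x)
    (h' : ∀ x, σ₂ (σ₁ x) = x) : permCharpoly k σ₁ = permCharpoly k σ₂ := by
  classical
  letI : Fintype X := Fintype.ofFinite X
  rw [permCharpoly_eq_matrix, permCharpoly_eq_matrix, ← Matrix.charpoly_transpose]
  congr 1
  ext i j
  simp only [Matrix.transpose_apply, Matrix.of_apply]
  by_cases hij : σ₂ i = j
  · have : σ₁ j = i := by rw [← hij, h]
    rw [if_pos hij, if_pos this]
  · have : ¬ σ₁ j = i := by
      intro hc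
      apply hij
      rw [← hc, h']
    rw [if_neg hij, if_neg this]

end Symm

section PrimePermInv

variable (F : IntermediateField ℚ (AlgebraicClosure ℚ)) [NumberField F] [IsGalois ℚ F]
  [FiniteDimensional ℚ F] {k : Type} [Field k]

/-- `permCharpoly` of `primePerm τ⁻¹` and `primePerm τ` agree. -/
theorem permCharpoly_primePerm_inv (S : Finset Nat.Primes) (τ : F ≃ₐ[ℚ] F) :
    permCharpoly k (primePerm ℚ F (primesT S) τ⁻¹) =
      permCharpoly k (primePerm ℚ F (primesT S) τ) := by
  apply permCharpoly_eq_of_inverse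
  · intro w
    apply Subtype.ext
    show OrdH707.smulH ℚ F (τ⁻¹)⁻¹ (OrdH707.smulH ℚ F τ⁻¹ w.1) = w.1
    rw [← OrdH707.smulH_mul, inv_inv, mul_inv_cancel, OrdH707.smulH_one]
  · intro w
    apply Subtype.ext
    show OrdH707.smulH ℚ F τ⁻¹ (OrdH707.smulH ℚ F (τ⁻¹)⁻¹ w.1) = w.1
    rw [← OrdH707.smulH_mul, inv_inv, inv_mul_cancel, OrdH707.smulH_one]

end PrimePermInv

/-! ### the four terms for `X = Ind_U μ_p` -/

section Terms

variable (p : ℕ) [Fact p.Prime] (F : IntermediateField ℚ (AlgebraicClosure ℚ)) [NumberField F]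
  [IsGalois ℚ F] [FiniteDimensional ℚ F] (S : Finset Nat.Primes) (σ : _root_.Fermat.Agent.S56.GQ)

/-- **P0.** -/
theorem charpoly_H0_ind_mu (hχ : ∀ u ∈ F.fixingSubgroup, cycloChar p u = 1) :
    (pushH0 (A := indRep F.fixingSubgroup (mu p)) (B := indRep F.fixingSubgroup (mu p))
        (indR F.fixingSubgroup (mu p) σ)
        (indR_equivariant F.fixingSubgroup (mu p) σ)).charpoly =
      X - C (((cycloChar p σ : (ZMod p)ˣ) : ZMod p)) := by
  haveI : Module.Finite (ZMod p) (mu p) := inferInstanceAs (Module.Finite (ZMod p) (ZMod p))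
  have h1 : Module.finrank (ZMod p) (mu p) = 1 := Module.finrank_self (ZMod p)
  rw [charpoly_H0_glob_char F.fixingSubgroup (mu p) (cycloChar p) (mu_ρ_apply p) σ,
    finrank_invU_of_trivial F.fixingSubgroup (mu p) (cycloChar p) (mu_ρ_apply p) hχ, h1, pow_one]

/-- **P∞**, in the `minusMap` vocabulary of `H614.CharpolyId`. -/
theorem charpoly_minusMap_mu :
    (minusMap complexConjugation (A := indRep F.fixingSubgroup (mu p))
      (B := indRep F.fixingSubgroup (mu p)) (indR F.fixingSubgroup (mu p) σ)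
      (indR_equivariant F.fixingSubgroup (mu p) σ)).charpoly =
      permCharpoly (ZMod p) (fun w : InfinitePlace F => (resF F σ)⁻¹ • w) := by
  haveI : Module.Finite (ZMod p) (mu p) := inferInstanceAs (Module.Finite (ZMod p) (ZMod p))
  have h1 : Module.finrank (ZMod p) (mu p) = 1 := Module.finrank_self (ZMod p)
  exact charpoly_minus F (mu p) (mu_ρ_complexConjugation p) h1 σ

/-- the global `H⁰` of the Tate dual, for the transpose of `R_σ` -/
theorem charpoly_H0_glob_tdual_dualMap
    (T : Module.Dual (ZMod p) (indRep F.fixingSubgroup (mu p)) →ₗ[ZMod p]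
      Module.Dual (ZMod p) (indRep F.fixingSubgroup (mu p)))
    (hT : IsEquivariant (A := tdual p (indRep F.fixingSubgroup (mu p)))
      (B := tdual p (indRep F.fixingSubgroup (mu p))) T)
    (h : T = (indR F.fixingSubgroup (mu p) σ).dualMap) :
    (pushH0 (A := tdual p (indRep F.fixingSubgroup (mu p)))
      (B := tdual p (indRep F.fixingSubgroup (mu p))) T hT).charpoly = X - 1 := by
  haveI : Module.Finite (ZMod p) (mu p) := inferInstanceAs (Module.Finite (ZMod p) (ZMod p))
  have h1 : Module.finrank (ZMod p) (mu p) = 1 := Module.finrank_self (ZMod p)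
  have h2 : T = indRDual F.fixingSubgroup (mu p) σ⁻¹ := by
    rw [h, indRDual, inv_inv]
  subst h2
  exact charpoly_H0_glob_tdual F.fixingSubgroup (mu p) (cycloChar p) (mu_ρ_apply p) h1 σ⁻¹

/-- the local `H⁰` of the Tate dual, for the transpose of `R_σ` -/
theorem charpoly_H0_loc_tdual_dualMap
    (T : Module.Dual (ZMod p) (indRep F.fixingSubgroup (mu p)) →ₗ[ZMod p]
      Module.Dual (ZMod p) (indRep F.fixingSubgroup (mu p)))
    (hT : ∀ q : Nat.Primes,
      IsEquivariant (A := Rep.res (rl q) (tdual p (indRep F.fixingSubgroup (mu p))))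
        (B := Rep.res (rl q) (tdual p (indRep F.fixingSubgroup (mu p)))) T)
    (h : T = (indR F.fixingSubgroup (mu p) σ).dualMap) :
    ∏ q ∈ S, (pushH0 (A := Rep.res (rl q) (tdual p (indRep F.fixingSubgroup (mu p))))
      (B := Rep.res (rl q) (tdual p (indRep F.fixingSubgroup (mu p)))) T (hT q)).charpoly =
      permCharpoly (ZMod p) (primePerm ℚ F (primesT S) (resF F σ)) := by
  haveI : Module.Finite (ZMod p) (mu p) := inferInstanceAs (Module.Finite (ZMod p) (ZMod p))
  have h1 : Module.finrank (ZMod p) (mu p) = 1 := Module.finrank_self (ZMod p)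
  have h2 : T = indRDual F.fixingSubgroup (mu p) σ⁻¹ := by
    rw [h, indRDual, inv_inv]
  subst h2
  rw [← permCharpoly_primePerm_inv F S (resF F σ), ← map_inv]
  exact charpoly_H0_loc_tdual F (mu p) (cycloChar p) (mu_ρ_apply p) h1 S σ⁻¹

/-- `Ind_U μ_p` is smooth for the levels of `S` when `U = G_F` is a level on which `χ_p` is
trivial. -/
theorem isUSmooth_ind_mu (hF : F.IsUnramifiedOutside S)
    (hχ : ∀ u ∈ F.fixingSubgroup, cycloChar p u = 1) :
    (globalLevels S).IsUSmooth (indRep F.fixingSubgroup (mu p)) := by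
  have hμtriv : ∀ u ∈ F.fixingSubgroup, (mu p).ρ u = 1 := by
    intro u hu
    apply LinearMap.ext
    intro x
    rw [mu_ρ_apply, hχ u hu]
    simp
  exact isUSmooth_of_trivial (globalLevels S) (U := F.fixingSubgroup) ⟨F, hF, rfl⟩
    (fun u hu => indRep_ρ_eq_one F.fixingSubgroup (mu p) hμtriv u hu)

/-- **P2** from H2-CP: `cp(R_σ | H²_S X) · (X - 1) = permCharpoly (primePerm τ)`. -/
theorem charpoly_H2_of_h2cp (hp2 : p ≠ 2) (hpS : pPrime p ∈ S)
    (h2cp : Fermat.Agent.S56.Euler.H2CPSpec p S)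
    (hF : F.IsUnramifiedOutside S) (hχ : ∀ u ∈ F.fixingSubgroup, cycloChar p u = 1)
    (hsha : Sha2 (hrl S) (indRep F.fixingSubgroup (mu p)) = ⊥)
    [Module.Finite (ZMod p) (indRep F.fixingSubgroup (mu p))]
    [Module.Finite (ZMod p) ((globalLevels S).H2 (indRep F.fixingSubgroup (mu p)))] :
    (pushH2 (A := indRep F.fixingSubgroup (mu p)) (B := indRep F.fixingSubgroup (mu p))
        (indR F.fixingSubgroup (mu p) σ)
        (indR_equivariant F.fixingSubgroup (mu p) σ) (globalLevels S)).charpoly * (X - 1) =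
      permCharpoly (ZMod p) (primePerm ℚ F (primesT S) (resF F σ)) := by
  have h := h2cp hp2 hpS (indRep F.fixingSubgroup (mu p)) (indR F.fixingSubgroup (mu p) σ)
    (indR_equivariant F.fixingSubgroup (mu p) σ) (isUSmooth_ind_mu p F S hF hχ) hsha
    inferInstance inferInstance
  rw [charpoly_H0_glob_tdual_dualMap p F σ _ _ rfl] at h
  rw [h]
  exact charpoly_H0_loc_tdual_dualMap p F S σ _
    (fun q => (dualMap_equivariant (cycloChar p) (A := indRep F.fixingSubgroup (mu p))
      (B := indRep F.fixingSubgroup (mu p)) (indR F.fixingSubgroup (mu p) σ)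
      (indR_equivariant F.fixingSubgroup (mu p) σ)).res (rl q)) rfl

end Terms

/-! ### the frozen inputs -/

section Specs

variable (p : ℕ) [Fact p.Prime]

/-- (P1-CHAR, helper184) **the `H¹` term**: under `H¹_S(Ind_U 𝔼)[p] = 0` (CL), Kummer theory
identifies `H¹_S(Ind_U μ_p)` with `E_S(F)/p` and Herbrand's unit theorem gives its
characteristic polynomial. -/
def P1CharSpec : Prop :=
  p ≠ 2 → ∀ S : Finset Nat.Primes, pPrime p ∈ S →
    ∀ (F : IntermediateField ℚ (AlgebraicClosure ℚ)) [NumberField F] [IsGalois ℚ F]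
      [FiniteDimensional ℚ F],
      F.IsUnramifiedOutside S → (∀ u ∈ F.fixingSubgroup, cycloChar p u = 1) →
      Fermat.Agent.S56.Euler.H184.NoPTorsH1E p S F.fixingSubgroup →
      ∀ σ : _root_.Fermat.Agent.S56.GQ, ¬ p ∣ orderOf (σ : _root_.Fermat.Agent.S56.GQ ⧸ F.fixingSubgroup) →
        ∀ (_ : Module.Finite (ZMod p) ((globalLevels S).H1 (indRep F.fixingSubgroup (mu p)))),
          (pushH1 (A := indRep F.fixingSubgroup (mu p)) (B := indRep F.fixingSubgroup (mu p))
              (indR F.fixingSubgroup (mu p) σ)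
              (indR_equivariant F.fixingSubgroup (mu p) σ) (globalLevels S)).charpoly *
              (X - 1) =
            (X - C (((cycloChar p σ : (ZMod p)ˣ) : ZMod p))) *
              permCharpoly (ZMod p) (fun w : InfinitePlace F => (resF F σ)⁻¹ • w) *
              permCharpoly (ZMod p) (primePerm ℚ F (primesT S) (resF F σ))

/-- (CL) **killing the `p`-part of the `S`-class group**: every normal level of `S₁` satisfies
`NoPTorsH1E` for some bigger finite set of primes. -/
def ClSpec : Prop :=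
  p ≠ 2 → ∀ S₁ : Finset Nat.Primes, pPrime p ∈ S₁ →
    ∀ (U : Subgroup _root_.Fermat.Agent.S56.GQ) [U.Normal], U ∈ (globalLevels S₁).levels →
      (∀ u ∈ U, cycloChar p u = 1) →
      ∃ S : Finset Nat.Primes, S₁ ⊆ S ∧ Fermat.Agent.S56.Euler.H184.NoPTorsH1E p S U

/-- (SHA) **vanishing of `Ш²`** for `Ind_U μ_p`, for all big enough sets of primes. -/
def Sha2IndSpec : Prop :=
  ∀ S₀ : Finset Nat.Primes, pPrime p ∈ S₀ →
    ∀ (U : Subgroup _root_.Fermat.Agent.S56.GQ) [U.Normal], U ∈ (globalLevels S₀).levels →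
      (∀ u ∈ U, cycloChar p u = 1) →
      ∃ S₁ : Finset Nat.Primes, S₀ ⊆ S₁ ∧
        ∀ T : Finset Nat.Primes, S₁ ⊆ T → Sha2 (hrl T) (indRep U (mu p)) = ⊥

variable {p}

/-- SHA from Theorem D (helper726). -/
theorem sha2Ind_of (hD : ∀ T : Finset Nat.Primes, TheoremDSpec p T) : Sha2IndSpec p := by
  intro S₀ _ U hUn hU hχ
  refine Fermat.Agent.S56.Euler.H726.exists_sha2_indMu_eq_bot p S₀ (fun T _ => hD T) U hU hUn ?_
  intro u hu
  apply LinearMap.ext
  intro x
  rw [mu_ρ_apply, hχ u hu]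
  simp

end Specs

/-! ### the assembly -/

section Asm

variable {p : ℕ} [Fact p.Prime]

/-- **The equivariant Euler–Poincaré identity for `Ind_U μ_p` at one `S`**, from its four
terms. -/
theorem charpolyId_of_terms (hp2 : p ≠ 2) (S : Finset Nat.Primes) (hpS : pPrime p ∈ S)
    (F : IntermediateField ℚ (AlgebraicClosure ℚ)) [NumberField F] [IsGalois ℚ F]
    [FiniteDimensional ℚ F] (hF : F.IsUnramifiedOutside S)
    (hχ : ∀ u ∈ F.fixingSubgroup, cycloChar p u = 1)
    (h2cp : Fermat.Agent.S56.Euler.H2CPSpec p S)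
    (hsha : Sha2 (hrl S) (indRep F.fixingSubgroup (mu p)) = ⊥) (σ : _root_.Fermat.Agent.S56.GQ)
    (hP1 : ∀ (_ : Module.Finite (ZMod p)
        ((globalLevels S).H1 (indRep F.fixingSubgroup (mu p)))),
      (pushH1 (A := indRep F.fixingSubgroup (mu p)) (B := indRep F.fixingSubgroup (mu p))
          (indR F.fixingSubgroup (mu p) σ)
          (indR_equivariant F.fixingSubgroup (mu p) σ) (globalLevels S)).charpoly * (X - 1) =
        (X - C (((cycloChar p σ : (ZMod p)ˣ) : ZMod p))) *
          permCharpoly (ZMod p) (fun w : InfinitePlace F => (resF F σ)⁻¹ • w) *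
          permCharpoly (ZMod p) (primePerm ℚ F (primesT S) (resF F σ))) :
    CharpolyId (globalLevels S) complexConjugation (indRep F.fixingSubgroup (mu p))
      (indR F.fixingSubgroup (mu p) σ) (indR_equivariant F.fixingSubgroup (mu p) σ) := by
  intro hX hH1 hH2
  have e1 := hP1 hH1
  have e2 := charpoly_H2_of_h2cp p F S σ hp2 hpS h2cp hF hχ hsha
  have e0 := charpoly_H0_ind_mu p F σ hχ
  have e3 := charpoly_minusMap_mu p F σ
  have hne : (X - 1 : (ZMod p)[X]) ≠ 0 := by
    have := X_sub_C_ne_zero (1 : ZMod p)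
    rwa [map_one] at this
  apply mul_right_cancel₀ hne
  rw [e1, e0, e3, ← e2]
  ring

/-- **ASM: CHAR-EULER-BIG from H2-CP, SHA, CL and P1-CHAR.** -/
theorem charEulerBig_of (hH2 : ∀ S : Finset Nat.Primes, Fermat.Agent.S56.Euler.H2CPSpec p S)
    (hSha : Sha2IndSpec p) (hCl : ClSpec p) (hP1 : P1CharSpec p) :
    Fermat.Agent.S56.Euler.CharEulerBigSpec p := by
  intro hp2 S₀ hpS₀ U hUn hU hχ
  obtain ⟨S₁, hS₁, hsha⟩ := hSha S₀ hpS₀ U hU hχ
  have hU₁ : U ∈ (globalLevels S₁).levels := Fermat.Agent.S56.Euler.mem_levels_mono hS₁ hU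
  obtain ⟨S, hS, hcl⟩ := hCl hp2 S₁ (hS₁ hpS₀) U hU₁ hχ
  refine ⟨S, hS₁.trans hS, fun σ hσ => ?_⟩
  obtain ⟨F, hF, rfl⟩ := hU
  haveI : FiniteDimensional ℚ F := hF.1
  haveI : NumberField F := ⟨⟩
  haveI : IsGalois ℚ F := (InfiniteGalois.normal_iff_isGalois F).1 hUn
  have hFS : F.IsUnramifiedOutside S := hF.mono (hS₁.trans hS)
  exact charpolyId_of_terms hp2 S (hS (hS₁ hpS₀)) F hFS hχ (hH2 S) (hsha S hS) σ
    (fun hfin => hP1 hp2 S (hS (hS₁ hpS₀)) F hFS hχ hcl σ hσ hfin)

/-- **ASM with SHA discharged** (Theorem D for all `T` is an S55 by-product). -/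
theorem charEulerBig_of' (hH2 : ∀ S : Finset Nat.Primes, Fermat.Agent.S56.Euler.H2CPSpec p S)
    (hD : ∀ T : Finset Nat.Primes, TheoremDSpec p T) (hCl : ClSpec p) (hP1 : P1CharSpec p) :
    Fermat.Agent.S56.Euler.CharEulerBigSpec p :=
  charEulerBig_of hH2 (sha2Ind_of hD) hCl hP1

end Asm

end Fermat.Agent.S56.H419

end

end
-- ===== PACK-END S56/H419/CharEulerAsm.lean

-- ===== PACK-BEGIN S56/Euler/Big/AsmSpec.lean
section





/-!
# Row S56 / wall BASE — BASE-BIG: the arithmetic target CHAR-EULER-BIG, FROZEN leaves (helper366)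

`CHAR-EULER-BIG  ⇐  CE-H1 + CE-H2 + CL + SHA`      (glue: `Euler/Big/AsmGlue.lean`)

`F/ℚ` a finite Galois level of `S` containing `μ_p`, `U = G_F = F.fixingSubgroup`,
`X = Ind_U μ_p = indRep U (mu p)`, `R_σ = H419.indR U (mu p) σ`, `τ = σ|_F = H419.resF F σ`,
`P_∞(σ) = permCharpoly (τ⁻¹ on the infinite places of F)`,
`P_S(σ) = permCharpoly (primePerm ℚ F (primesT S) τ)` (the primes of `F` above `S`).

* `CEH1Spec p` (CE-H1 = KUM + HERB): if `H¹_S(Ind_U 𝔼)[p] = 0` (`H184.NoPTorsH1E`) then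
    `charpoly (R_σ | H¹_S X) · (T − 1) = (T − χ(σ)) · P_∞(σ) · P_S(σ)`.
  [`H184.kumEq`: `H¹_S X` is a model of `E_S(F)/p`; `Euler.H896.herbCharpoly` for `K = ℚ`, `L = F`,
  `T = primesT S`; the model of `μ_p(F)` has characteristic polynomial `T − χ(σ)`.]
* `CEH2Spec p` (CE-H2 = H2-CP + H0): if `Ш²_S(X) = 0` then
    `charpoly (R_σ | H²_S X) · (T − 1) = P_S(σ)`.
  [`H2CPSpec` for `(X, R_σ)`; `R_σ.dualMap = H419.indRDual U μ σ⁻¹`;
  `H419.charpoly_H0_loc_tdual`, `H419.charpoly_H0_glob_tdual` at `σ⁻¹`; a permutation and its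
  inverse have the same `permCharpoly`.]
* `CLSpec p` (CL): every normal level `U` of `S₁ ∋ p` has a finite `S ⊇ S₁` with
  `H¹_S(Ind_U 𝔼)[p] = 0`  (kill `Cl(F)` by finitely many primes; Hilbert 90 at finite level).
* SHA is `Euler.H726.exists_sha2_indMu_eq_bot` (on main).

Nothing unproved in this file.
-/

set_option autoImplicit false

open Polynomial

noncomputable section

namespace Fermat.Agent.S56.Euler

open Fermat.Agent.S56 Fermat.Agent.S55.PT Fermat.Agent.S56.H419 Fermat.Agent.S56.H614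
  Fermat.Agent.S55.G ExtCitation Module groupCohomology NumberField

variable (p : ℕ) [Fact p.Prime]

/-- (CE-H1) **the `H¹` term**: Kummer theory + the `S`-unit theorem. -/
def CEH1Spec : Prop :=
  p ≠ 2 → ∀ S : Finset Nat.Primes, pPrime p ∈ S →
    ∀ (F : IntermediateField ℚ (AlgebraicClosure ℚ)) [NumberField F] [IsGalois ℚ F]
      [FiniteDimensional ℚ F],
      F.IsUnramifiedOutside S → (∀ u ∈ F.fixingSubgroup, cycloChar p u = 1) →
      H184.NoPTorsH1E p S F.fixingSubgroup →
      ∀ (σ : _root_.Fermat.Agent.S56.GQ)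
        (_ : Module.Finite (ZMod p) ((globalLevels S).H1 (indRep F.fixingSubgroup (mu p)))),
        LinearMap.charpoly (pushH1 (A := indRep F.fixingSubgroup (mu p))
            (B := indRep F.fixingSubgroup (mu p)) (indR F.fixingSubgroup (mu p) σ)
            (indR_equivariant F.fixingSubgroup (mu p) σ) (globalLevels S)) * (X - 1) =
          (X - C ((cycloChar p σ : (ZMod p)ˣ) : ZMod p)) *
            permCharpoly (ZMod p) (fun w : InfinitePlace F => (resF F σ)⁻¹ • w) *
            permCharpoly (ZMod p) (primePerm ℚ F (primesT S) (resF F σ))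

/-- (CE-H2) **the `H²` term**: the equivariant tail of Poitou–Tate + the local `H⁰` package. -/
def CEH2Spec : Prop :=
  p ≠ 2 → ∀ S : Finset Nat.Primes, pPrime p ∈ S →
    ∀ (F : IntermediateField ℚ (AlgebraicClosure ℚ)) [NumberField F] [IsGalois ℚ F]
      [FiniteDimensional ℚ F],
      F.IsUnramifiedOutside S → (∀ u ∈ F.fixingSubgroup, cycloChar p u = 1) →
      Sha2 (hrl S) (indRep F.fixingSubgroup (mu p)) = ⊥ →
      ∀ (σ : _root_.Fermat.Agent.S56.GQ)
        (_ : Module.Finite (ZMod p) ((globalLevels S).H2 (indRep F.fixingSubgroup (mu p)))),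
        LinearMap.charpoly (pushH2 (A := indRep F.fixingSubgroup (mu p))
            (B := indRep F.fixingSubgroup (mu p)) (indR F.fixingSubgroup (mu p) σ)
            (indR_equivariant F.fixingSubgroup (mu p) σ) (globalLevels S)) * (X - 1) =
          permCharpoly (ZMod p) (primePerm ℚ F (primesT S) (resF F σ))

/-- (CL) **killing the class group**: for every normal level `U` of `S₁ ∋ p` there is a finite
`S ⊇ S₁` with `H¹_S(Ind_U 𝔼)[p] = 0`. -/
def CLSpec : Prop :=
  ∀ S₁ : Finset Nat.Primes, pPrime p ∈ S₁ →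
    ∀ U : Subgroup _root_.Fermat.Agent.S56.GQ, U.Normal → U ∈ (globalLevels S₁).levels →
      ∃ S : Finset Nat.Primes, S₁ ⊆ S ∧ H184.NoPTorsH1E p S U

end Fermat.Agent.S56.Euler

end

end
-- ===== PACK-END S56/Euler/Big/AsmSpec.lean

-- ===== PACK-BEGIN S56/Euler/Big/AsmGlue.lean
section




/-!
# Row S56 / wall BASE — BASE-BIG: CHAR-EULER-BIG from its leaves (helper366)

    theorem charEulerBig_of : (∀ T ∋ p, TheoremDSpec p T) → CEH1Spec p → CEH2Spec p → CLSpec p →
        CharEulerBigSpec p                                                           -- PROVED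

For a normal level `U = G_F` of `S₀ ∋ p` with `χ|_U = 1`: enlarge `S₀` to `S₁` with `Ш²_T(X) = 0`
for all `T ⊇ S₁` (`Euler.H726.exists_sha2_indMu_eq_bot`, needs Theorem D), then to `S ⊇ S₁` with
`H¹_S(Ind_U 𝔼)[p] = 0` (`CLSpec`).  Over `S`:

    charpoly (R_σ | H¹) · (T − 1) = (T − χσ) · P_∞ · P_S                    (CE-H1)
    charpoly (R_σ | H²) · (T − 1) = P_S                                     (CE-H2)
    charpoly (R_σ | H⁰) = T − χσ,   charpoly (R_σ | X^{c=−1}) = P_∞          (`H419/H0Final`)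

and `T − 1` is a non-zero-divisor.
-/

set_option autoImplicit false
set_option linter.style.haveILetI false

open Polynomial

noncomputable section

namespace Fermat.Agent.S56.Euler

open Fermat.Agent.S56 Fermat.Agent.S55.PT Fermat.Agent.S56.H419 Fermat.Agent.S56.H614
  Fermat.Agent.S55.G ExtCitation Module groupCohomology NumberField

attribute [local instance] Fermat.Agent.S55.Bridge.isAlgebraic_Qbar
  Fermat.Agent.S55.Bridge.isGalois_Qbar

variable {p : ℕ} [Fact p.Prime]

/-- The polynomial arithmetic of the assembly. -/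
lemma charpolyId_arith {R : Type*} [CommRing R] [IsDomain R] {a b c d P Q T x : R} (hx : x ≠ 0)
    (h1 : a * x = P * Q * T) (h2 : c * x = T) (h3 : b = P) (h4 : d = Q) : a = b * c * d := by
  apply mul_right_cancel₀ hx
  rw [h1, h3, h4, ← h2]
  ring

/-- **CHAR-EULER-BIG from CE-H1, CE-H2, CL and Theorem D.** -/
theorem charEulerBig_of (hD : ∀ T : Finset Nat.Primes, pPrime p ∈ T → TheoremDSpec p T)
    (h1 : CEH1Spec p) (h2 : CEH2Spec p) (hCL : CLSpec p) : CharEulerBigSpec p := by
  intro hp2 S₀ hpS₀ U hUn hU hχ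
  have hμtriv : ∀ u ∈ U, (mu p : Rep.{0, 0, 0} (ZMod p) _root_.Fermat.Agent.S56.GQ).ρ u = 1 := by
    intro u hu
    apply LinearMap.ext
    intro x
    rw [ofChar_ρ_apply, hχ u hu]
    simp
  obtain ⟨S₁, hS₁, hsha⟩ := H726.exists_sha2_indMu_eq_bot p S₀
    (fun T hT => hD T (hT hpS₀)) U hU hUn hμtriv
  obtain ⟨S, hS, hcl⟩ := hCL S₁ (hS₁ hpS₀) U hUn (mem_levels_mono hS₁ hU)
  have hpS : pPrime p ∈ S := hS (hS₁ hpS₀)
  refine ⟨S, hS₁.trans hS, fun σ _ => ?_⟩
  intro hX hH1 hH2
  have hsha2 : Sha2 (hrl S) (indRep U (mu p)) = ⊥ := hsha S hS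
  obtain ⟨F, hF, rfl⟩ := mem_levels_mono (hS₁.trans hS) hU
  haveI : FiniteDimensional ℚ F := hF.1
  haveI : NumberField F := ⟨⟩
  haveI : IsGalois ℚ F := (InfiniteGalois.normal_iff_isGalois F).1 hUn
  have e1 := h1 hp2 S hpS F hF hχ hcl σ hH1
  have e2 := h2 hp2 S hpS F hF hχ hsha2 σ hH2
  haveI : Module.Finite (ZMod p) (mu p) := inferInstanceAs (Module.Finite (ZMod p) (ZMod p))
  have hM1 : Module.finrank (ZMod p) (mu p) = 1 := Module.finrank_self (ZMod p)
  have e0 : LinearMap.charpoly (pushH0 (A := indRep F.fixingSubgroup (mu p))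
      (B := indRep F.fixingSubgroup (mu p)) (indR F.fixingSubgroup (mu p) σ)
      (indR_equivariant F.fixingSubgroup (mu p) σ)) =
      X - C ((cycloChar p σ : (ZMod p)ˣ) : ZMod p) := by
    rw [charpoly_H0_glob_char F.fixingSubgroup (mu p) (cycloChar p) (mu_ρ_apply p) σ,
      finrank_invU_of_trivial F.fixingSubgroup (mu p) (cycloChar p) (mu_ρ_apply p) hχ, hM1,
      pow_one]
  have einf : LinearMap.charpoly (minusMap (A := indRep F.fixingSubgroup (mu p))
      (B := indRep F.fixingSubgroup (mu p)) complexConjugation (indR F.fixingSubgroup (mu p) σ)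
      (indR_equivariant F.fixingSubgroup (mu p) σ)) =
      permCharpoly (ZMod p) (fun w : InfinitePlace F => (resF F σ)⁻¹ • w) :=
    charpoly_minus F (mu p) (mu_ρ_complexConjugation p) hM1 σ
  have hne : (X - 1 : (ZMod p)[X]) ≠ 0 := by
    have := X_sub_C_ne_zero (1 : ZMod p)
    rwa [map_one] at this
  exact charpolyId_arith hne e1 e2 e0 einf

end Fermat.Agent.S56.Euler

end

end
-- ===== PACK-END S56/Euler/Big/AsmGlue.lean

-- ===== PACK-BEGIN S56/Euler/H74/ClKum.lean
section



/-!
# S56 / W-BASE, leaf EUL-CL (helper74): adapter to helper184's `NoPTorsH1E`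

`exists_noPTorsH1E` : for a level `U` of `S₀` and any finite `S₁ ⊇ S₀` there is a finite
`S ⊇ S₁` such that `H184.NoPTorsH1E p T U` holds for ALL `T ⊇ S` (monotone form, as needed by
CHAR-EULER-BIG: first enlarge `S₀` to `S₁` by SHA, then to `S` by CL).

Nothing unproved in this file.
-/

set_option autoImplicit false

namespace Fermat.Agent.S56.Euler.H74

open Fermat.Agent.S55 Fermat.Agent.S55.PT

/-- Levels are monotone in the set of primes. -/
lemma mem_levels_mono {S₀ S₁ : Finset Nat.Primes} (h : S₀ ⊆ S₁) {U : Subgroup _root_.Fermat.Agent.S55.PT.GQ}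
    (hU : U ∈ (globalLevels S₀).levels) : U ∈ (globalLevels S₁).levels := by
  obtain ⟨F, hF, rfl⟩ := hU
  exact ⟨F, hF.mono h, rfl⟩

/-- **EUL-CL**, in the shape consumed by EUL-KUM / CHAR-EULER-BIG. -/
theorem exists_noPTorsH1E (p : ℕ) [Fact p.Prime] (S₀ S₁ : Finset Nat.Primes) (h : S₀ ⊆ S₁)
    (U : Subgroup _root_.Fermat.Agent.S55.PT.GQ) (hU : U ∈ (globalLevels S₀).levels) :
    ∃ S : Finset Nat.Primes, S₁ ⊆ S ∧ ∀ T : Finset Nat.Primes, S ⊆ T →
      H184.NoPTorsH1E p T U := by
  obtain ⟨S, hS, hcl⟩ := cl S₁ U (_root_.Fermat.Agent.S56.Euler.H74.mem_levels_mono h hU)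
  exact ⟨S, hS, fun T hT z hz _ => hcl T hT z hz⟩

end Fermat.Agent.S56.Euler.H74

end
-- ===== PACK-END S56/Euler/H74/ClKum.lean

-- ===== PACK-BEGIN S56/H419/CharEulerLeaves.lean
section




/-!
# S56 / W-BASE / BASE-BIG: the leaves CE-H2 and CL of `Euler/Big/AsmSpec.lean` (helper419)

* `ceH2_of  : (∀ S, Euler.H2CPSpec p S) → Euler.CEH2Spec p`   (H2-CP + the `H⁰` package);
* `clSpec   : Euler.CLSpec p`                                 (helper74's `exists_noPTorsH1E`);
* `clSpec'  : ClSpec p`                                       (the same, `H419` shape);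
* `charEulerBig_of_h1 : (∀ T ∋ p, TheoremDSpec p T) → (∀ S, Euler.H2CPSpec p S) →
      Euler.CEH1Spec p → Euler.CharEulerBigSpec p`           (only CE-H1 and S55 inputs left).

Nothing unproved in this file.
-/

set_option autoImplicit false
set_option linter.style.haveILetI false
set_option linter.unusedSectionVars false

noncomputable section

open scoped Pointwise NumberField

namespace Fermat.Agent.S56.H419

open Fermat.Agent.S55.PT Fermat.Agent.S55.G Fermat.Agent.S56.H614 ExtCitation MulAction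
  NumberField Polynomial groupCohomology

variable {p : ℕ} [Fact p.Prime]

/-- **CE-H2** from H2-CP. -/
theorem ceH2_of (hH2 : ∀ S : Finset Nat.Primes, Fermat.Agent.S56.Euler.H2CPSpec p S) :
    Fermat.Agent.S56.Euler.CEH2Spec p := by
  intro hp2 S hpS F _ _ _ hF hχ hsha σ hfin
  haveI : Module.Finite (ZMod p) (mu p) := inferInstanceAs (Module.Finite (ZMod p) (ZMod p))
  haveI : Finite (_root_.Fermat.Agent.S56.GQ ⧸ F.fixingSubgroup) := Subgroup.finite_quotient_of_finiteIndex
  haveI : Module.Finite (ZMod p) (indRep F.fixingSubgroup (mu p)) :=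
    inferInstanceAs (Module.Finite (ZMod p) ((_root_.Fermat.Agent.S56.GQ ⧸ F.fixingSubgroup) →₀ (mu p)))
  exact charpoly_H2_of_h2cp p F S σ hp2 hpS (hH2 S) hF hχ hsha

/-- **CL** (helper74), in the shape of `Euler/Big/AsmSpec.lean`. -/
theorem clSpec : Fermat.Agent.S56.Euler.CLSpec p := by
  intro S₁ _ U _ hU
  obtain ⟨S, hS, h⟩ := Fermat.Agent.S56.Euler.H74.exists_noPTorsH1E p S₁ S₁ subset_rfl U hU
  exact ⟨S, hS, h S subset_rfl⟩

/-- **CL** (helper74), in the shape of `H419/CharEulerAsm.lean`. -/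
theorem clSpec' : ClSpec p := by
  intro _ S₁ _ U _ hU _
  obtain ⟨S, hS, h⟩ := Fermat.Agent.S56.Euler.H74.exists_noPTorsH1E p S₁ S₁ subset_rfl U hU
  exact ⟨S, hS, h S subset_rfl⟩

/-- **CHAR-EULER-BIG from CE-H1, H2-CP and Theorem D.** -/
theorem charEulerBig_of_h1
    (hD : ∀ T : Finset Nat.Primes, pPrime p ∈ T → TheoremDSpec p T)
    (hH2 : ∀ S : Finset Nat.Primes, Fermat.Agent.S56.Euler.H2CPSpec p S)
    (h1 : Fermat.Agent.S56.Euler.CEH1Spec p) : Fermat.Agent.S56.Euler.CharEulerBigSpec p :=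
  Fermat.Agent.S56.Euler.charEulerBig_of hD h1 (ceH2_of hH2) clSpec

end Fermat.Agent.S56.H419

end

end
-- ===== PACK-END S56/H419/CharEulerLeaves.lean

-- ===== PACK-BEGIN S56/Euler/H184/Dict.lean
section
/-
S56 / W-BASE / Euler characteristic, leaf P1-CHAR, part 1 (helper184): the `S`-unit dictionary

`F/ℚ` a finite Galois level unramified outside `S`, `U = G_F = F.fixingSubgroup`.
The `T`-units of `F` in the sense of layer G (`G.sUnits ℚ F (primesT S)`, the vocabulary of
`Euler.H896.herbCharpoly`) are the `U`-invariants of the `S`-units `𝔼 = K.sUnits S` of `ℚ̄`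
(the vocabulary of the Kummer map `kumMap`):

  `dictE : G.sUnits ℚ F (primesT S) ≃+ fixU U 𝔼`,   `dictE (τ x) = σ • dictE x`  (`τ = σ|_F`).
-/





set_option autoImplicit false
set_option linter.unusedSectionVars false
set_option linter.style.haveILetI false

noncomputable section

namespace Fermat.Agent.S56.Euler.H184

open groupCohomology Fermat.Agent.S55 Fermat.Agent.S55.PT Fermat.Agent.S55.K
  Fermat.Agent.S55.Bridge ExtCitation NumberField IsDedekindDomain

attribute [local instance] Fermat.Agent.S55.Bridge.isAlgebraic_Qbar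
  Fermat.Agent.S55.Bridge.isGalois_Qbar

section Dict

variable (F : IntermediateField ℚ (AlgebraicClosure ℚ)) [NumberField F] [IsGalois ℚ F]
  [FiniteDimensional ℚ F] (S : Finset Nat.Primes)

/-- `x ∈ ℚ̄ˣ` is an `S`-unit iff it is a unit at every place over a prime outside `S`. -/
theorem isSUnit_iff_forall_liesOver (y : K.Qbarˣ) :
    K.IsSUnit S y ↔ ∀ ℓ : Nat.Primes, ℓ ∉ S → ∀ A : ValuationSubring (AlgebraicClosure ℚ),
      A.LiesOverPrime (ℓ : ℕ) → (y : K.Qbar) ∈ A ∧ ((y⁻¹ : K.Qbarˣ) : K.Qbar) ∈ A := by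
  constructor
  · intro h ℓ hℓ A hA
    exact h A (K.GO3H535.H371.outsideS_of_liesOver hℓ hA)
  · intro h
    apply K.GO3H535.H371.isSUnit_of_forall_liesOver
    intro q hq A hA
    rw [K.GO3H535.H371.unitAt_iff_mem y.ne_zero]
    have := h q hq A hA
    rwa [Units.val_inv_eq_inv_val] at this

/-- **The dictionary** between the `T`-units of `F` (layer G) and the `S`-units of `ℚ̄`
(layer K). -/
theorem mem_sUnits_primesT_iff (hF : F.IsUnramifiedOutside S) (x : Additive Fˣ) :
    x ∈ G.sUnits ℚ F (H419.primesT S) ↔ K.IsSUnit S (H419.unitToQbar F x.toMul) := by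
  rw [isSUnit_iff_forall_liesOver]
  have h1 := Bridge.forall_place_unit_iff_mem_sUnit
    (⟨F, hF, inferInstance⟩ : Tow.Level S) x
  rw [G.OrdH707.mem_sUnits_iff]
  have h2 : x ∈ G.sUnit S F ↔ ∀ w : HeightOneSpectrum (𝓞 F),
      w ∉ G.primesAbove ℚ F (H419.primesT S) →
        w.valuation F ((Additive.toMul x : Fˣ) : F) = 1 := by
    rw [G.mem_sUnit_iff]
    constructor
    · intro h w hw
      have hw' : ¬ G.IsAbove S F w := fun hab =>
        hw ((H419.mem_primesAbove_primesT_iff F S w).2 hab)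
      exact (G.ordAt_eq_zero_iff w x).1 (h ⟨w, hw'⟩)
    · intro h w
      rw [G.ordAt_eq_zero_iff]
      exact h w.1 (fun hab => w.2 ((H419.mem_primesAbove_primesT_iff F S w.1).1 hab))
  rw [← h2]
  exact h1.symm

end Dict

section DictMap

variable (F : IntermediateField ℚ (AlgebraicClosure ℚ)) [NumberField F] [IsGalois ℚ F]
  [FiniteDimensional ℚ F] (S : Finset Nat.Primes) (hF : F.IsUnramifiedOutside S)

/-- The element of `ℚ̄ˣ` (additively) underlying an element of `𝔼^U`. -/
def coeE (U : Subgroup PT.GQ) (e : ↥(fixU U (sUnits S))) : Additive K.Qbarˣ :=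
  ((e : (sUnits S)) : ↥(sUnitsSub S)).1

theorem coeE_injective (U : Subgroup PT.GQ) : Function.Injective (coeE S U) := by
  intro a b h
  apply Subtype.ext
  apply Subtype.ext
  exact h

theorem coeE_add (U : Subgroup PT.GQ) (a b : ↥(fixU U (sUnits S))) :
    coeE S U (a + b) = coeE S U a + coeE S U b := rfl

theorem coeE_nsmul (U : Subgroup PT.GQ) (n : ℕ) (a : ↥(fixU U (sUnits S))) :
    coeE S U (n • a) = n • coeE S U a := rfl

theorem coeE_fixUAct (U : Subgroup PT.GQ) [U.Normal] (σ : PT.GQ) (a : ↥(fixU U (sUnits S))) :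
    (coeE S U (fixUAct U (sUnits S) σ a)).toMul = σ • (coeE S U a).toMul := rfl

/-- The dictionary map `E_T(F) → 𝔼^U`. -/
def dictE : ↥(G.sUnits ℚ F (H419.primesT S)) →+ ↥(fixU F.fixingSubgroup (sUnits S)) where
  toFun x := ⟨⟨Additive.ofMul (H419.unitToQbar F (x : Additive Fˣ).toMul),
      (mem_sUnits_primesT_iff F S hF x).1 x.2⟩, by
    intro u hu
    apply Subtype.ext
    show Additive.ofMul (u • H419.unitToQbar F (x : Additive Fˣ).toMul) = _
    congr 1
    apply Units.ext
    exact hu ⟨_, ((x : Additive Fˣ).toMul : F).2⟩⟩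
  map_zero' := by
    apply coeE_injective
    show Additive.ofMul (H419.unitToQbar F (1 : Fˣ)) = 0
    rw [map_one]
    rfl
  map_add' a b := by
    apply coeE_injective
    show Additive.ofMul (H419.unitToQbar F ((a : Additive Fˣ).toMul * (b : Additive Fˣ).toMul)) = _
    rw [map_mul]
    rfl

theorem coeE_dictE (x : ↥(G.sUnits ℚ F (H419.primesT S))) :
    coeE S F.fixingSubgroup (dictE F S hF x) =
      Additive.ofMul (H419.unitToQbar F (x : Additive Fˣ).toMul) := rfl

theorem dictE_injective : Function.Injective (dictE F S hF) := by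
  intro a b h
  have h1 := congrArg (coeE S F.fixingSubgroup) h
  rw [coeE_dictE, coeE_dictE] at h1
  apply Subtype.ext
  exact Additive.toMul.injective (H419.unitToQbar_injective F (Additive.ofMul.injective h1))

theorem dictE_surjective : Function.Surjective (dictE F S hF) := by
  intro e
  have hfix : ∀ u ∈ F.fixingSubgroup,
      u (((coeE S F.fixingSubgroup e).toMul : K.Qbarˣ) : K.Qbar) =
        (((coeE S F.fixingSubgroup e).toMul : K.Qbarˣ) : K.Qbar) := by
    intro u hu
    have h1 := e.2 u hu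
    have h2 := congrArg (fun t : (sUnits S) => (((t : ↥(sUnitsSub S)).1.toMul : K.Qbarˣ) : K.Qbar)) h1
    exact h2
  have hmem : (((coeE S F.fixingSubgroup e).toMul : K.Qbarˣ) : K.Qbar) ∈ F := by
    have h3 : (((coeE S F.fixingSubgroup e).toMul : K.Qbarˣ) : K.Qbar) ∈
        IntermediateField.fixedField F.fixingSubgroup :=
      (IntermediateField.mem_fixedField_iff _ _).2 hfix
    rwa [InfiniteGalois.fixedField_fixingSubgroup F] at h3
  have hne : (⟨_, hmem⟩ : F) ≠ 0 := by
    intro h0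
    have := congrArg Subtype.val h0
    exact ((coeE S F.fixingSubgroup e).toMul : K.Qbarˣ).ne_zero this
  let z : Fˣ := Units.mk0 ⟨_, hmem⟩ hne
  have hz : H419.unitToQbar F z = (coeE S F.fixingSubgroup e).toMul := by
    apply Units.ext
    rfl
  have hzm : Additive.ofMul z ∈ G.sUnits ℚ F (H419.primesT S) := by
    rw [mem_sUnits_primesT_iff F S hF, toMul_ofMul, hz]
    exact ((e : (sUnits S)) : ↥(sUnitsSub S)).2
  refine ⟨⟨Additive.ofMul z, hzm⟩, ?_⟩
  apply coeE_injective
  rw [coeE_dictE]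
  show Additive.ofMul (H419.unitToQbar F z) = _
  rw [hz, ofMul_toMul]

/-- The dictionary is equivariant: `τ = σ|_F` on `E_T(F)` is `σ` on `𝔼^U`. -/
theorem dictE_unitsHom (σ : PT.GQ) (a b : ↥(G.sUnits ℚ F (H419.primesT S)))
    (hab : (b : Additive Fˣ) = G.unitsHom ℚ F (H419.resF F σ) a) :
    dictE F S hF b = fixUAct F.fixingSubgroup (sUnits S) σ (dictE F S hF a) := by
  apply coeE_injective
  apply Additive.toMul.injective
  rw [coeE_fixUAct, coeE_dictE, coeE_dictE, hab]
  apply Units.ext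
  exact H419.resF_apply_coe F σ _

end DictMap

end Fermat.Agent.S56.Euler.H184

end

end
-- ===== PACK-END S56/Euler/H184/Dict.lean

-- ===== PACK-BEGIN S56/Euler/H184/P1.lean
section
/-
S56 / W-BASE / Euler characteristic, leaf P1-CHAR (helper184): the `H¹` term of CHAR-EULER-BIG

`F/ℚ` a finite Galois level unramified outside `S ∋ p`, `U = G_F = F.fixingSubgroup`,
`X = Ind_U μ_p = indRep U (mu p)`, `X′ = X.dualTwist χ_p`, `σ ∈ G_ℚ`, `R_σ = H419.indR U μ σ`.
If `H¹_S(Ind_U 𝔼)[p] = 0` (`NoPTorsH1E p S U`, leaf EUL-CL) then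

  `charpoly(R_σ | H¹_S(X)) · charpoly(R_σ | H⁰(G_ℚ, X′))
      = charpoly(R_σ | H⁰(G_ℚ, X)) · charpoly(R_σ | X^{c=-1}) · ∏_{q ∈ S} charpoly(R_σ | H⁰(G_q, X′))`

(`p1Char`), and in explicit form (`p1Char_perm`)

  `charpoly(R_σ | H¹_S(X)) · (X - 1) = charpoly(R_σ | H⁰(G_ℚ, X)) ·
      permCharpoly (τ⁻¹ | InfinitePlace F) · permCharpoly (primePerm ℚ F (primesT S) τ)`.

Proof: `H419.herb_H0` (= `Euler.H896.herbCharpoly` + EUL-H0) applied to the model
`(H¹_S(X), kumMap ∘ dictE, pushH1 R_σ)` of `E_S(F)/p` (leaf EUL-KUM, `Kum.lean`, and the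
dictionary `Dict.lean`) and to the model `μ_p(F) = (Additive Fˣ)[p]` of the roots of unity.
-/


set_option autoImplicit false
set_option linter.unusedSectionVars false
set_option linter.style.haveILetI false

noncomputable section

namespace Fermat.Agent.S56.Euler.H184

open groupCohomology Fermat.Agent.S55 Fermat.Agent.S55.PT Fermat.Agent.S55.K
  Fermat.Agent.S55.Bridge ExtCitation NumberField IsDedekindDomain Polynomial

attribute [local instance] Fermat.Agent.S55.Bridge.isAlgebraic_Qbar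
  Fermat.Agent.S55.Bridge.isGalois_Qbar

/-! ### The model `μ_p(F) = (Additive Fˣ)[p]` -/

section MuModel

variable (p : ℕ) [Fact p.Prime] (F : Type) [Field F]

/-- The `p`-torsion of `Fˣ` (additively). -/
def torsP : AddSubgroup (Additive Fˣ) := (nsmulAddMonoidHom (α := Additive Fˣ) p).ker

theorem mem_torsP (a : Additive Fˣ) : a ∈ torsP p F ↔ p • a = 0 := Iff.rfl

/-- `μ_p(F)` is an `𝔽_p`-vector space. -/
abbrev torsPModule : Module (ZMod p) ↥(torsP p F) :=
  AddCommGroup.zmodModule (fun x => Subtype.ext ((mem_torsP p F x.1).1 x.2))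

theorem finite_torsP : Finite ↥(torsP p F) := by
  have hp : p.Prime := Fact.out
  haveI : NeZero p := ⟨hp.ne_zero⟩
  let f : ↥(torsP p F) → rootsOfUnity p F := fun w =>
    ⟨(w.1 : Additive Fˣ).toMul, by
      rw [mem_rootsOfUnity]
      have h := congrArg Additive.toMul ((mem_torsP p F w.1).1 w.2)
      rw [toMul_nsmul, toMul_zero] at h
      exact h⟩
  have hf : Function.Injective f := by
    intro a b h
    apply Subtype.ext
    exact Additive.toMul.injective (congrArg Subtype.val h)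
  exact Finite.of_injective f hf

/-- The endomorphism of `μ_p(F)` induced by an additive endomorphism of `Fˣ`. -/
def torsPEnd (f : Additive Fˣ →+ Additive Fˣ) :
    letI := torsPModule p F
    ↥(torsP p F) →ₗ[ZMod p] ↥(torsP p F) :=
  letI := torsPModule p F
  AddMonoidHom.toZModLinearMap p
    ((f.comp (torsP p F).subtype).codRestrict (torsP p F) (fun w => by
      rw [mem_torsP]
      show p • f w.1 = 0
      rw [← map_nsmul, (mem_torsP p F w.1).1 w.2, map_zero]))

theorem coe_torsPEnd (f : Additive Fˣ →+ Additive Fˣ) (w : ↥(torsP p F)) :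
    ((torsPEnd p F f w : ↥(torsP p F)) : Additive Fˣ) = f w.1 := rfl

end MuModel

/-! ### The `H¹` term -/

section Main

variable (p : ℕ) [Fact p.Prime] (F : IntermediateField ℚ (AlgebraicClosure ℚ)) [NumberField F]
  [IsGalois ℚ F] [FiniteDimensional ℚ F] (S : Finset Nat.Primes)
  (hF : F.IsUnramifiedOutside S) (hpS : pPrime p ∈ S)

omit [NumberField F] [IsGalois ℚ F] [FiniteDimensional ℚ F] in
theorem fixingSubgroup_mem_levels (hF : F.IsUnramifiedOutside S) :
    F.fixingSubgroup ∈ (globalLevels S).levels := ⟨F, hF, rfl⟩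

/-- The model map `E_T(F) → H¹_S(Ind_U μ_p)`. -/
def kumPi : ↥(G.sUnits ℚ F (H419.primesT S)) →+
    (globalLevels S).H1 (indRep F.fixingSubgroup (mu p)) :=
  (kumMap p S F.fixingSubgroup hpS (fixingSubgroup_mem_levels F S hF)).comp (dictE F S hF)

theorem kumPi_apply (x : ↥(G.sUnits ℚ F (H419.primesT S))) :
    kumPi p F S hF hpS x =
      kumMap p S F.fixingSubgroup hpS (fixingSubgroup_mem_levels F S hF) (dictE F S hF x) := rfl

theorem kumPi_surjective (hcl : NoPTorsH1E p S F.fixingSubgroup) :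
    Function.Surjective (kumPi p F S hF hpS) :=
  (kumMap_surjective p S F.fixingSubgroup hpS (fixingSubgroup_mem_levels F S hF) hcl).comp (dictE_surjective F S hF)

theorem kumPi_eq_zero (a : ↥(G.sUnits ℚ F (H419.primesT S)))
    (ha : kumPi p F S hF hpS a = 0) : ∃ b, a = p • b := by
  rw [kumPi_apply, kumMap_eq_zero_iff] at ha
  obtain ⟨e', he'⟩ := ha
  obtain ⟨b, rfl⟩ := dictE_surjective F S hF e'
  refine ⟨b, dictE_injective F S hF ?_⟩
  rw [he', map_nsmul]

theorem kumPi_equivariant (σ : PT.GQ) (a b : ↥(G.sUnits ℚ F (H419.primesT S)))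
    (hab : (b : Additive Fˣ) = G.unitsHom ℚ F (H419.resF F σ) a) :
    kumPi p F S hF hpS b =
      pushH1 (A := indRep F.fixingSubgroup (mu p)) (B := indRep F.fixingSubgroup (mu p))
        (H419.indR F.fixingSubgroup (mu p) σ)
        (H419.indR_equivariant F.fixingSubgroup (mu p) σ) (globalLevels S)
        (kumPi p F S hF hpS a) := by
  rw [kumPi_apply, kumPi_apply, dictE_unitsHom F S hF σ a b hab, kumMap_equivariant]

include hF hpS in
/-- **P1-CHAR** (`H⁰` form). -/
theorem p1Char (hcl : NoPTorsH1E p S F.fixingSubgroup) (σ : PT.GQ)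
    [Module.Finite (ZMod p) ((globalLevels S).H1 (indRep F.fixingSubgroup (mu p)))] :
    (pushH1 (A := indRep F.fixingSubgroup (mu p)) (B := indRep F.fixingSubgroup (mu p))
        (H419.indR F.fixingSubgroup (mu p) σ)
        (H419.indR_equivariant F.fixingSubgroup (mu p) σ) (globalLevels S)).charpoly *
        (pushH0 (A := (indRep F.fixingSubgroup (mu p)).dualTwist (cycloChar p))
          (B := (indRep F.fixingSubgroup (mu p)).dualTwist (cycloChar p))
          (H419.indRDual F.fixingSubgroup (mu p) σ)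
          (H419.indRDual_equivariant F.fixingSubgroup (mu p) (cycloChar p) σ)).charpoly =
      (pushH0 (A := indRep F.fixingSubgroup (mu p)) (B := indRep F.fixingSubgroup (mu p))
          (H419.indR F.fixingSubgroup (mu p) σ)
          (H419.indR_equivariant F.fixingSubgroup (mu p) σ)).charpoly *
        (H419.minusR complexConjugation F.fixingSubgroup (mu p) σ).charpoly *
        ∏ q ∈ S, (pushH0
          (A := Rep.res (rl q) ((indRep F.fixingSubgroup (mu p)).dualTwist (cycloChar p)))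
          (B := Rep.res (rl q) ((indRep F.fixingSubgroup (mu p)).dualTwist (cycloChar p)))
          (H419.indRDual F.fixingSubgroup (mu p) σ)
          (H419.indRDual_res_equivariant (rl q) F.fixingSubgroup (mu p) (cycloChar p)
            σ)).charpoly := by
  letI := torsPModule p F
  haveI : Finite ↥(torsP p F) := finite_torsP p F
  haveI : Module.Finite (ZMod p) ↥(torsP p F) := Module.Finite.of_finite
  exact H419.herb_H0 p F S σ
    (pushH1 (A := indRep F.fixingSubgroup (mu p)) (B := indRep F.fixingSubgroup (mu p))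
        (H419.indR F.fixingSubgroup (mu p) σ)
        (H419.indR_equivariant F.fixingSubgroup (mu p) σ) (globalLevels S))
    (kumPi p F S hF hpS) (kumPi_surjective p F S hF hpS hcl)
    (kumPi_eq_zero p F S hF hpS) (kumPi_equivariant p F S hF hpS σ)
    (torsPEnd p F (G.unitsHom ℚ F (H419.resF F σ))) (torsP p F).subtype
    Subtype.val_injective
    (fun a => ⟨fun ⟨w, hw⟩ => hw ▸ w.2, fun h => ⟨⟨a, h⟩, rfl⟩⟩)
    (fun w => rfl)

end Main

end Fermat.Agent.S56.Euler.H184

end

end
-- ===== PACK-END S56/Euler/H184/P1.lean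

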