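import Fermat.Agent.Pack.S43GC.G0E20L1
import Fermat.Agent.Pack.S43GC.G0E20L0
import Fermat.Agent.Pack.S43GC.G0E3L0
import Fermat.Agent.Pack.S43GC.G0E10L2
import Fermat.Agent.Pack.S43GC.G0E5L1
import Fermat.Agent.Pack.S43GC.G0E16L2
import Fermat.Agent.Pack.S43GC.G0E5L2
import Fermat.Agent.Pack.S43GC.G0E3L2
import Fermat.Agent.Pack.S43GC.G0E19L2
import Fermat.Agent.Pack.S43GC.G0E20L2
import Fermat.Agent.Pack.S43GC.G0E20L3
import Fermat.Agent.Pack.S43GC.G0E19L0
import Fermat.Agent.Pack.S43GC.G0E19L1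
import Fermat.Agent.Pack.S43GC.G0E16L0
import Fermat.Agent.Pack.S43GC.G0E12L2
import Fermat.Agent.Pack.S43GC.G0E8L1
import Fermat.Agent.Pack.S43GC.G0E5L3
import Fermat.Agent.Pack.S43GC.G0E0L3
import Fermat.Agent.Pack.S43GC.G0E1L0
import Fermat.Agent.Pack.S43GC.G0E1L2
import Fermat.Agent.Pack.S43GC.G0E16L1
import Fermat.Agent.Pack.S43GC.G0E18L2
import Fermat.Agent.Pack.S43GC.G0E18L0
import Fermat.Agent.Pack.S43GC.G0E17L1
import Fermat.Agent.Pack.S43GC.G0E17L0
import Fermat.Agent.Pack.S43GC.G0E7L3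
import Fermat.Agent.Pack.Fast891

-- ===== PACK-BEGIN S55/KG/JDivCoreH604.lean
section


/-!
# S55, layer KG: semi-local divisibility, finite-level core (helper604)

* `zmod_torsion_div` : in a group `≃+ ZMod t` with `p^K ∣ t`, every class killed by `m`,
  `p^K ∤ m`, is divisible by `p`;
* `card_locSub` : `|D₀| = |locSub φ H x| · c` with `0 < c ≤ [G : H]`;
* `pow_dvd_of_mul` : `p^(K+c) ∣ b·i`, `0 < i ≤ p^c` ⇒ `p^K ∣ b`;
* `jDivCore` : if `p^(K+c)` divides all local degrees `|Gal(F_q/ℚ_q)|`, `q ∈ S`, `[G : H] ≤ p^c`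
  and `p^K ∤ m`, then every class of `H²(H, J(F))` killed by `m` is divisible by `p`.
-/

set_option autoImplicit false

open CategoryTheory groupCohomology

namespace Fermat.Agent.S55.KG.H604

open Fermat.Agent.S55 Fermat.Agent.S55.Tow Fermat.Agent.S55.E1.Lim

/-- In a cyclic group of order `t`, `p^K ∣ t`, every class killed by `m` with `p^K ∤ m` is
divisible by `p`. -/
theorem zmod_torsion_div {A : Type} [AddCommGroup A] (t m p K : ℕ) (hp : p.Prime)
    (hK : p ^ K ∣ t) (hm : ¬ p ^ K ∣ m) (e : A ≃+ ZMod t) (c : A) (hc : m • c = 0) :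
    ∃ w : A, c = p • w := by
  obtain ⟨a, ha⟩ := ZMod.intCast_surjective (e c)
  have h1 : ((m * a : ℤ) : ZMod t) = 0 := by
    have h2 : e (m • c) = 0 := by rw [hc, map_zero]
    rw [map_nsmul, ← ha] at h2
    rw [Int.cast_mul, Int.cast_natCast]
    rwa [nsmul_eq_mul] at h2
  have h3 : (t : ℤ) ∣ m * a := (ZMod.intCast_zmod_eq_zero_iff_dvd _ _).1 h1
  have h4 : p ^ K ∣ m * a.natAbs := by
    have h5 : ((p ^ K : ℕ) : ℤ) ∣ m * a := (Int.natCast_dvd_natCast.2 hK).trans h3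
    have h6 := Int.natAbs_dvd_natAbs.2 h5
    rwa [Int.natAbs_mul, Int.natAbs_natCast, Int.natAbs_natCast] at h6
  have h7 : p ∣ a.natAbs := by
    by_contra hna
    have hcop : Nat.Coprime (p ^ K) a.natAbs :=
      Nat.Coprime.pow_left K ((Nat.Prime.coprime_iff_not_dvd hp).2 hna)
    exact hm (hcop.dvd_of_dvd_mul_right h4)
  have h8 : (p : ℤ) ∣ a := Int.natCast_dvd.2 h7
  obtain ⟨a', rfl⟩ := h8
  refine ⟨e.symm ((a' : ℤ) : ZMod t), ?_⟩
  apply e.injective
  rw [map_nsmul, AddEquiv.apply_symm_apply, ← ha, nsmul_eq_mul, Int.cast_mul, Int.cast_natCast]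

/-- `p^(K+c) ∣ b·i`, `0 < i ≤ p^c` ⇒ `p^K ∣ b`. -/
theorem pow_dvd_of_mul (p K c b i : ℕ) (hp : p.Prime) (hi : i ≠ 0) (hic : i ≤ p ^ c)
    (h : p ^ (K + c) ∣ b * i) : p ^ K ∣ b := by
  have : Fact p.Prime := ⟨hp⟩
  rcases eq_or_ne b 0 with rfl | hb
  · exact dvd_zero _
  have h1 : K + c ≤ padicValNat p (b * i) :=
    (padicValNat_dvd_iff_le (Nat.mul_ne_zero hb hi)).1 h
  rw [padicValNat.mul hb hi] at h1
  have h2 : padicValNat p i ≤ c := by
    have h3 : p ^ padicValNat p i ≤ p ^ c :=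
      (Nat.le_of_dvd (Nat.pos_of_ne_zero hi) pow_padicValNat_dvd).trans hic
    exact (Nat.pow_le_pow_iff_right hp.one_lt).1 h3
  exact (padicValNat_dvd_iff_le hb).2 (by omega)

section Abstract

variable {G D₀ : Type} [Group G] [Group D₀]

/-- `|D₀| = |locSub φ H x| · c` with `0 < c ≤ [G : H]`. -/
theorem card_locSub [Finite G] (φ : D₀ →* G) (H : Subgroup G) (x : G) :
    ∃ c : ℕ, c ≠ 0 ∧ c ≤ H.index ∧ Nat.card D₀ = Nat.card ↥(locSub φ H x) * c := by
  have hH : H.index ≠ 0 := Subgroup.index_ne_zero_of_finite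
  have h1 : (locSub φ H x).index = H.relIndex ((MulAut.conj x⁻¹).toMonoidHom.comp φ).range :=
    Subgroup.index_comap H _
  have h2 : H.relIndex ((MulAut.conj x⁻¹).toMonoidHom.comp φ).range ≤ H.index := by
    have h3 := Subgroup.relIndex_le_of_le_right (H := H)
      (le_top : ((MulAut.conj x⁻¹).toMonoidHom.comp φ).range ≤ ⊤)
      (by rw [Subgroup.relIndex_top_right]; exact hH)
    rwa [Subgroup.relIndex_top_right] at h3
  have h4 : H.relIndex ((MulAut.conj x⁻¹).toMonoidHom.comp φ).range ≠ 0 := by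
    unfold Subgroup.relIndex
    exact Subgroup.index_ne_zero_of_finite
  refine ⟨(locSub φ H x).index, by rw [h1]; exact h4, by rw [h1]; exact h2, ?_⟩
  exact (Subgroup.card_mul_index _).symm

end Abstract

variable {S : Finset Nat.Primes}

/-- **Semi-local divisibility at finite level.** -/
theorem jDivCore (L : Level S) (H : Subgroup L.Gal) (p : ℕ) (hp : p.Prime) (m K c : ℕ)
    (hm : ¬ p ^ K ∣ m) (hH : H.index ≤ p ^ c)
    (hdec : ∀ q ∈ S, p ^ (K + c) ∣ Nat.card (L.Dec q))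
    (y : groupCohomology (Rep.res H.subtype (Jtot L)) 2) (hy : m • y = 0) :
    ∃ w : groupCohomology (Rep.res H.subtype (Jtot L)) 2, y = p • w := by
  refine jCore_div L H 2 m p (fun q x z hz => ?_) y hy
  obtain ⟨i, hi0, hiH, hcard⟩ := card_locSub (L.decHom q.1) H x
  have h1 : p ^ K ∣ Nat.card ↥(jSub L H q.1 x) := by
    refine pow_dvd_of_mul p K c _ i hp hi0 (hiH.trans hH) ?_
    rw [← hcard]
    exact hdec q.1 q.2
  obtain ⟨e⟩ := (locUnits_data L q.1 (jSub L H q.1 x)).2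
  exact zmod_torsion_div _ m p K hp h1 hm e z hz

end Fermat.Agent.S55.KG.H604

end
-- ===== PACK-END S55/KG/JDivCoreH604.lean

-- ===== PACK-BEGIN S55/K/AR/JH604.lean
section



/-!
# S55, layer K, block AR, leaves AR-J3 and AR-JDIV (helper604)

* `h3JLeaf : H3JLeaf S p`   — `H³(H, J(F)) = 0` (even without the `p`-primary restriction);
* `j2DivLeaf : J2DivLeaf S p` — semi-local divisibility at finite level.

Both are UNCONDITIONAL (the hypothesis `LocalSpec p` of the leaf is not used): they follow from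
the semi-local core `KG.H604.jCore` (Mackey–Shapiro), helper964's local class-module data and
Tate's theorem.
-/

set_option autoImplicit false

open CategoryTheory groupCohomology

namespace Fermat.Agent.S55.K.AR.H604

open Fermat.Agent.S55 Fermat.Agent.S55.Tow Fermat.Agent.S55.E1.Lim

variable (S : Finset Nat.Primes) (p : ℕ)

/-- `H³(H, J(F)) = 0`. -/
theorem h3JVanish : H3JVanish S p := fun L H y _ =>
  @Subsingleton.elim _ (KG.H604.jH3 S L H) y 0

/-- **AR-J3.** -/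
theorem h3JLeaf : H3JLeaf S p := fun _ _ => h3JVanish S p

/-- Semi-local divisibility at finite level. -/
theorem j2Div (hp : p.Prime) : J2Div S p := by
  intro L H b c hH hdec y hy
  have hK : ¬ p ^ (b + 1) ∣ p ^ b := fun h =>
    absurd (Nat.le_of_dvd (pow_pos hp.pos b) h)
      (not_le.2 (Nat.pow_lt_pow_right hp.one_lt (Nat.lt_succ_self b)))
  obtain ⟨w, hw⟩ := KG.H604.jDivCore L H p hp (p ^ b) (b + 1) c hK hH hdec y hy
  exact ⟨w, hw.symm⟩

/-- **AR-JDIV.** -/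
theorem j2DivLeaf : J2DivLeaf S p := fun hp _ => j2Div S p hp

end Fermat.Agent.S55.K.AR.H604

end
-- ===== PACK-END S55/K/AR/JH604.lean

-- ===== PACK-BEGIN S55/K/AR/CokerH635.lean
section


/-!
# S55 / layer K / block AR, leaf AR-COKER (helper635)

`cokerLeaf : CokerLeaf S p`  (GO4 in the tower): of two classes of `H²(Gal(F/K), J(F))[p]` a
non-trivial combination comes, at a higher level, from `H²(Gal(F'/K), E(F'))[p]`.

Chase (blueprint `coord/S55-K-AR.md` §2), on top of the library of `E2H79.lean` (helper79):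
`c_i := jTot_* x_i ∈ H²(H, C)[p]`; C2 ⇒ `a c₁ + b c₂ = 0`, `(a, b) ≢ 0 mod p`; `z := a x₁ + b x₂`;
`jC1_* z` dies in `H²(C)` ⇒ CAP2 ⇒ `inf z = diag_* w`, `w` `p`-primary; `diag_* (p w) = 0` ⇒
HASSE ⇒ `p · inf w = 0`.
-/

set_option autoImplicit false

open CategoryTheory

namespace Fermat.Agent.S55.K.AR.H635

open Fermat.Agent.S55 Fermat.Agent.S55.Tow Fermat.Agent.S55.E1.Lim Fermat.Agent.S55.K.AR

noncomputable section

attribute [local instance 10000] Rep.hV2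

/-! ## The comparison (restriction) map for `K ≤ K'` -/

section General

variable {Γ Γ' : Type} [Group Γ] [Group Γ']

/-- Restriction `Hⁿ(K', A) → Hⁿ(K, A)` for `K ≤ K'`. -/
def kap {K K' : Subgroup Γ} (hK : K ≤ K') (A : Rep.{0} ℤ Γ) (n : ℕ) :
    Hn K' A n →ₗ[ℤ] Hn K A n :=
  (groupCohomology.map (A := T.resSub A K') (B := T.resSub A K) (Subgroup.inclusion hK)
    (H79.inclSemi hK A) n).hom

/-- `kap` is natural in the coefficients. -/
lemma kap_coe {K K' : Subgroup Γ} (hK : K ≤ K') {A B : Rep.{0} ℤ Γ} (f : A ⟶ B) (n : ℕ)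
    (x : Hn K' A n) : kap hK B n (coe K' f n x) = coe K f n (kap hK A n x) := by
  have h1 := groupCohomology.map_comp (A := T.resSub A K') (B := T.resSub B K')
    (C := T.resSub B K) (MonoidHom.id K') (Subgroup.inclusion hK)
    ((Rep.resFunctor K'.subtype).map f) (H79.inclSemi hK B) n
  have h2 := groupCohomology.map_comp (A := T.resSub A K') (B := T.resSub A K)
    (C := T.resSub B K) (Subgroup.inclusion hK) (MonoidHom.id K)
    (H79.inclSemi hK A) ((Rep.resFunctor K.subtype).map f) n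
  have h3 : groupCohomology.map (A := T.resSub A K') (B := T.resSub B K)
      ((MonoidHom.id K').comp (Subgroup.inclusion hK))
      ((Rep.resFunctor (Subgroup.inclusion hK)).map ((Rep.resFunctor K'.subtype).map f) ≫
        H79.inclSemi hK B) n =
      groupCohomology.map (A := T.resSub A K') (B := T.resSub B K)
      ((Subgroup.inclusion hK).comp (MonoidHom.id K))
      ((Rep.resFunctor (MonoidHom.id K)).map (H79.inclSemi hK A) ≫
        (Rep.resFunctor K.subtype).map f) n := by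
    refine groupCohomology.map_congr rfl (LinearMap.ext fun a => ?_) n
    rfl
  rw [h1, h2] at h3
  exact congrArg (fun m => m.hom x) h3

/-- Transitivity of inflation through `kap`. -/
lemma kap_infSub {Γ'' : Type} [Group Γ''] (π : Γ' →* Γ) (π' : Γ'' →* Γ') (π'' : Γ'' →* Γ)
    (hπ : ∀ g, π'' g = π (π' g)) (H : Subgroup Γ) {A : Rep.{0} ℤ Γ} {A' : Rep.{0} ℤ Γ'}
    {A'' : Rep.{0} ℤ Γ''} (t : Rep.res π A ⟶ A') (t' : Rep.res π' A' ⟶ A'')
    (t'' : Rep.res π'' A ⟶ A'') (ht : ∀ a : A.V, t''.hom a = t'.hom (t.hom a)) (n : ℕ)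
    (hle : H.comap π'' ≤ (H.comap π).comap π') (x : Hn H A n) :
    kap hle A'' n (infSub π' (H.comap π) t' n (infSub π H t n x)) = infSub π'' H t'' n x := by
  have h1 := groupCohomology.map_comp (A := T.resSub A H) (B := T.resSub A' (H.comap π))
    (C := T.resSub A'' ((H.comap π).comap π')) (projSub π H) (projSub π' (H.comap π))
    (semiSub π H t) (semiSub π' (H.comap π) t') n
  have h2 := groupCohomology.map_comp (A := T.resSub A H)
    (B := T.resSub A'' ((H.comap π).comap π')) (C := T.resSub A'' (H.comap π''))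
    ((projSub π H).comp (projSub π' (H.comap π))) (Subgroup.inclusion hle)
    ((Rep.resFunctor (projSub π' (H.comap π))).map (semiSub π H t) ≫ semiSub π' (H.comap π) t')
    (H79.inclSemi hle A'') n
  have h3 : groupCohomology.map (A := T.resSub A H) (B := T.resSub A'' (H.comap π''))
      (((projSub π H).comp (projSub π' (H.comap π))).comp (Subgroup.inclusion hle))
      ((Rep.resFunctor (Subgroup.inclusion hle)).map
        ((Rep.resFunctor (projSub π' (H.comap π))).map (semiSub π H t) ≫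
          semiSub π' (H.comap π) t') ≫ H79.inclSemi hle A'') n =
      groupCohomology.map (A := T.resSub A H) (B := T.resSub A'' (H.comap π''))
        (projSub π'' H) (semiSub π'' H t'') n := by
    have hfg : ((projSub π H).comp (projSub π' (H.comap π))).comp (Subgroup.inclusion hle) =
        projSub π'' H := by
      refine MonoidHom.ext fun g => Subtype.ext ?_
      exact (hπ g).symm
    refine groupCohomology.map_congr hfg ?_ n
    refine LinearMap.ext fun a => ?_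
    exact (ht a).symm
  have h4 := (congrArg (fun m => m ≫ groupCohomology.map (A := T.resSub A'' ((H.comap π).comap π'))
    (B := T.resSub A'' (H.comap π'')) (Subgroup.inclusion hle) (H79.inclSemi hle A'') n) h1).symm.trans
      (h2.symm.trans h3)
  exact congrArg (fun m => m.hom x) h4

end General

/-! ## Cyclic bookkeeping -/

section Arith

variable {A : Type} [AddCommGroup A]

/-- Two `p`-torsion multiples of a `p`-primary element are dependent modulo `p`. -/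
lemma exists_dependent (p : ℕ) (hp : p.Prime) (g c₁ c₂ : A) (hg : ∃ k : ℕ, p ^ k • g = 0)
    (h₁ : ∃ n : ℕ, c₁ = n • g) (h₂ : ∃ n : ℕ, c₂ = n • g) (hc₁ : p • c₁ = 0)
    (hc₂ : p • c₂ = 0) :
    ∃ a b : ℕ, (¬ p ∣ a ∨ ¬ p ∣ b) ∧ a • c₁ + b • c₂ = 0 := by
  by_cases h0 : c₁ = 0
  · exact ⟨1, 0, Or.inl (fun h => hp.one_lt.ne' (Nat.dvd_one.1 h)), by simp [h0]⟩
  obtain ⟨k, hk⟩ := hg
  obtain ⟨n₁, rfl⟩ := h₁
  obtain ⟨n₂, rfl⟩ := h₂
  -- the order of `g`
  obtain ⟨j, -, hj⟩ := (Nat.dvd_prime_pow hp).1 (addOrderOf_dvd_of_nsmul_eq_zero hk)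
  have hjpos : j ≠ 0 := by
    rintro rfl
    rw [pow_zero, AddMonoid.addOrderOf_eq_one_iff] at hj
    apply h0
    rw [hj, smul_zero]
  obtain ⟨i, rfl⟩ : ∃ i, j = i + 1 := ⟨j - 1, by omega⟩
  have hdiv : ∀ n : ℕ, p • n • g = 0 → p ^ i ∣ n := by
    intro n hn
    rw [← mul_nsmul'] at hn
    have h1 : p ^ (i + 1) ∣ p * n := by
      rw [← hj]
      exact addOrderOf_dvd_of_nsmul_eq_zero hn
    rw [pow_succ, mul_comm] at h1
    exact Nat.dvd_of_mul_dvd_mul_left hp.pos h1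
  obtain ⟨m₁, rfl⟩ := hdiv n₁ hc₁
  obtain ⟨m₂, rfl⟩ := hdiv n₂ hc₂
  have hm₁ : ¬ p ∣ m₁ := by
    rintro ⟨u, rfl⟩
    apply h0
    have h2 : p ^ i * (p * u) = u * p ^ (i + 1) := by ring
    rw [h2, mul_nsmul', ← hj, addOrderOf_nsmul_eq_zero, smul_zero]
  refine ⟨m₂, (p - 1) * m₁, Or.inr ?_, ?_⟩
  · intro h
    rcases (Nat.Prime.dvd_mul hp).1 h with h3 | h3
    · have := Nat.le_of_dvd (Nat.sub_pos_of_lt hp.one_lt) h3
      have := hp.one_lt
      omega
    · exact hm₁ h3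
  · rw [← mul_nsmul', ← mul_nsmul', ← add_nsmul]
    have h4 : m₂ * (p ^ i * m₁) + (p - 1) * m₁ * (p ^ i * m₂) = (m₁ * m₂) * p ^ (i + 1) := by
      have hp1 : p - 1 + 1 = p := Nat.sub_add_cancel hp.one_lt.le
      calc m₂ * (p ^ i * m₁) + (p - 1) * m₁ * (p ^ i * m₂)
          = (m₁ * m₂) * (p ^ i * (p - 1 + 1)) := by ring
        _ = (m₁ * m₂) * p ^ (i + 1) := by rw [hp1, pow_succ]
    rw [h4, mul_nsmul', ← hj, addOrderOf_nsmul_eq_zero, smul_zero]

end Arith

/-! ## The tower -/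

section Tower

variable {S : Finset Nat.Primes}

lemma trJ_trans {L L' L'' : Level S} (h : L ≤ L') (h' : L' ≤ L'') (q : Nat.Primes)
    (f : (L.J q).V) :
    (Level.trJ (h.trans h') q).hom f = (Level.trJ h' q).hom ((Level.trJ h q).hom f) := by
  apply L''.J_ext q
  intro g
  show Level.inclLoc (h.trans h') q (L.Jeval q f (Level.proj (h.trans h') g)) =
    Level.inclLoc h' q (Level.inclLoc h q (L.Jeval q f (Level.proj h (Level.proj h' g))))
  rw [H79.proj_trans_apply]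
  apply L''.locCoe_injective q
  rfl

lemma trJtot_trans {L L' L'' : Level S} (h : L ≤ L') (h' : L' ≤ L'') (x : (Jtot L).V) :
    (trJtot (h.trans h')).hom x = (trJtot h').hom ((trJtot h).hom x) := by
  apply piRep_ext
  intro q
  exact trJ_trans h h' q.1 (piTo x q)

/-- The class `z ∈ H²(H, J(F))` comes, at a higher level, from `H²(E)[p]`. -/
def Cok (p : ℕ) (L : Level S) (H : Subgroup L.Gal) (z : Hn H (Jtot L) 2) : Prop :=
  ∃ (L' : Level S) (h : L ≤ L') (y : Hn (up h H) (E1.Lim.sUnits L') 2), p • y = 0 ∧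
    coe (up h H) (diagTot L') 2 y = infUp h H (trJtot h) 2 z

lemma Cok.descend {p : ℕ} {L L' : Level S} (h : L ≤ L') (H : Subgroup L.Gal)
    (z : Hn H (Jtot L) 2) (hz : Cok p L' (up h H) (infUp h H (trJtot h) 2 z)) : Cok p L H z := by
  obtain ⟨L'', h', y, hy, hyz⟩ := hz
  have hle : H.comap (Level.proj (h.trans h')) ≤ (H.comap (Level.proj h)).comap (Level.proj h') := by
    intro g hg
    show Level.proj h (Level.proj h' g) ∈ H
    rw [← H79.proj_trans_apply]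
    exact hg
  refine ⟨L'', h.trans h', kap hle (E1.Lim.sUnits L'') 2 y, ?_, ?_⟩
  · rw [← map_nsmul, hy, map_zero]
  · have h1 := kap_coe hle (diagTot L'') 2 y
    have h2 := kap_infSub (Level.proj h) (Level.proj h') (Level.proj (h.trans h'))
      (H79.proj_trans_apply h h') H (trJtot h) (trJtot h') (trJtot (h.trans h'))
      (trJtot_trans h h') 2 hle z
    rw [← h1, hyz]
    exact h2

variable {p : ℕ} (c : Ctx S p)

/-- The core of the argument, at a level containing `μ_p`. -/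
lemma coker_of_hasMu (hp : p.Prime) (hses : SesExact c) (hcyc : H2CCyclic c) (hcap : CapH2 c)
    (hhasse : HasseTower S p) (L : Level S) (hμ : L.HasMu p) (H : Subgroup L.Gal)
    (x₁ x₂ : Hn H (Jtot L) 2) (hx₁ : p • x₁ = 0) (hx₂ : p • x₂ = 0) :
    ∃ a b : ℕ, (¬ p ∣ a ∨ ¬ p ∣ b) ∧ Cok p L H (a • x₁ + b • x₂) := by
  -- the images in `H²(C)` are dependent
  obtain ⟨g, hg, hgen⟩ := hcyc L hμ H
  have hc₁ : p • coe H (jTot c.D L) 2 x₁ = 0 := by rw [← map_nsmul, hx₁, map_zero]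
  have hc₂ : p • coe H (jTot c.D L) 2 x₂ = 0 := by rw [← map_nsmul, hx₂, map_zero]
  obtain ⟨a, b, hab, hdep⟩ := exists_dependent p hp g _ _ hg
    (hgen _ ⟨1, by rw [pow_one]; exact hc₁⟩) (hgen _ ⟨1, by rw [pow_one]; exact hc₂⟩) hc₁ hc₂
  refine ⟨a, b, hab, ?_⟩
  -- `z := a x₁ + b x₂`
  obtain ⟨z, hzdef⟩ : ∃ z, z = a • x₁ + b • x₂ := ⟨_, rfl⟩
  rw [← hzdef]
  have hz : p • z = 0 := by
    rw [hzdef, smul_add, smul_comm p a, smul_comm p b, hx₁, hx₂, smul_zero, smul_zero, add_zero]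
  have hz0 : coe H (jTot c.D L) 2 z = 0 := by
    rw [hzdef, map_add, map_nsmul, map_nsmul]
    exact hdep
  -- capitulation
  have hs0 : coe H (inclC1 c.D L) 2 (coe H (jC1 c.D L) 2 z) = 0 := by
    rw [← H79.coe_comp, jC1_inclC1]
    exact hz0
  have hsp : IsPPrim p (coe H (jC1 c.D L) 2 z) :=
    ⟨1, by rw [pow_one, ← map_nsmul, hz, map_zero]⟩
  obtain ⟨L₂, h₂, hcap2⟩ := hcap L H _ hsp hs0
  have hz2 : coe (up h₂ H) (jC1 c.D L₂) 2 (infUp h₂ H (trJtot h₂) 2 z) = 0 := by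
    rw [← H79.infSub_coe (Level.proj h₂) H (jC1 c.D L) (jC1 c.D L₂) (trJtot h₂)
      (trC1 c.h7 h₂) (fun a => trC1_jC1 c.h7 h₂ a) 2 z]
    exact hcap2
  obtain ⟨w₀, hw₀⟩ : ∃ w₀ : Hn (up h₂ H) (E1.Lim.sUnits L₂) 2,
      coe (up h₂ H) (diagTot L₂) 2 w₀ = infUp h₂ H (trJtot h₂) 2 z :=
    H79.exists_of_coe_eq_zero (X := ses c.h4 L₂) (hses L₂) (up h₂ H) 2 _ hz2
  -- a `p`-primary lift
  have hz2p : p ^ 1 • infUp h₂ H (trJtot h₂) 2 z = 0 := by
    rw [pow_one, ← map_nsmul, hz, map_zero]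
  obtain ⟨e, k, he1, hdvd⟩ := H79.exists_pprim_mul p hp (Nat.card (up h₂ H)) Nat.card_pos 1
  have hw₁p : p ^ k • e • w₀ = 0 := by
    rw [← mul_nsmul']
    exact H79.nsmul_eq_zero_of_dvd hdvd (H79.card_smul_eq_zero _ _ w₀)
  have hw₁ : coe (up h₂ H) (diagTot L₂) 2 (e • w₀) = infUp h₂ H (trJtot h₂) 2 z := by
    rw [map_nsmul, hw₀, H79.nsmul_eq_of_modEq he1 hz2p, one_nsmul]
  -- Hasse for `p • w₁`
  have hpw : IsPPrim p (p • e • w₀) := ⟨k, by rw [smul_comm, hw₁p, smul_zero]⟩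
  have hpw0 : coe (up h₂ H) (diagTot L₂) 2 (p • e • w₀) = 0 := by
    rw [map_nsmul, hw₁, ← map_nsmul, hz, map_zero]
  obtain ⟨L₃, h₃, hh⟩ := hhasse L₂ (up h₂ H) _ hpw hpw0
  refine Cok.descend h₂ H z ⟨L₃, h₃, infUp h₃ (up h₂ H) (trS h₃) 2 (e • w₀), ?_, ?_⟩
  · rw [← map_nsmul]
    exact hh
  · rw [← H79.infSub_coe (Level.proj h₃) (up h₂ H) (diagTot L₂) (diagTot L₃) (trS h₃)
      (trJtot h₃) (fun a => H79.trJtot_diagTot h₃ a) 2, hw₁]

/-- **AR-COKER**. -/
theorem cokerLeaf (S : Finset Nat.Primes) (p : ℕ) : CokerLeaf S p := by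
  intro c hses hcyc hcap hhasse hmu L H x₁ x₂ hx₁ hx₂
  obtain ⟨hp, -, -⟩ := c.adm
  obtain ⟨⟨L₀, hL₀⟩, hdir⟩ := hmu
  obtain ⟨L₁, h₁, h₀₁⟩ := hdir L L₀
  obtain ⟨a, b, hab, hcok⟩ := coker_of_hasMu c hp hses hcyc hcap hhasse L₁ (hL₀.mono h₀₁)
    (up h₁ H) (infUp h₁ H (trJtot h₁) 2 x₁) (infUp h₁ H (trJtot h₁) 2 x₂)
    (by rw [← map_nsmul, hx₁, map_zero]) (by rw [← map_nsmul, hx₂, map_zero])
  refine ⟨a, b, hab, ?_⟩
  have h2 : Cok p L H (a • x₁ + b • x₂) := by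
    apply Cok.descend h₁ H
    rw [map_add, map_nsmul, map_nsmul]
    exact hcok
  exact h2

end Tower

end

end Fermat.Agent.S55.K.AR.H635

end
-- ===== PACK-END S55/K/AR/CokerH635.lean

-- ===== PACK-BEGIN S55/G/LocH897/Trans.lean
section




/-!
# S55 / layer G (helper897): the Galois group acts transitively on the places above `q`

If the finite group `Γ` acts on the number field `L` with fixed field `ℚ`, then two places
`𝔪, 𝔫` of `L` above `S` (maximal ideals of `L ⊗ ℚ_S`) over the same rational prime are conjugate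
under `Γ` (`exists_sPlaceSMul_eq`), and conversely conjugate places lie over the same prime
(`primeOf_sPlaceSMul`).
-/

set_option autoImplicit false
set_option linter.style.haveILetI false

open scoped TensorProduct

namespace Fermat.Agent.S55.G.LocH897

open Fermat.Agent.S55 Fermat.Agent.S55.G Fermat.Agent.S55.G.PL0H713

variable (S : Finset Nat.Primes) (Γ L : Type) [Group Γ] [Field L] [NumberField L]
  [MulSemiringAction Γ L]

/-- The image of `y : ℚ_S` in `L_𝔪` only depends on its component at the prime below `𝔪`. -/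
lemma mk_one_tmul (𝔪 : SPlace S L) (y : QS S) :
    LocField.mk S 𝔪 ((1 : L) ⊗ₜ[ℚ] y) = ofQq S L 𝔪 (QS.toPi S y (primeOf S L 𝔪)) := by
  rw [mk_tmul, map_one, one_mul, ofQS_eq]

/-- **Transitivity.**  Places over the same rational prime are Galois-conjugate. -/
theorem exists_sPlaceSMul_eq [Finite Γ]
    (hfix : ∀ x : L, (∀ g : Γ, g • x = x) → ∃ c : ℚ, algebraMap ℚ L c = x)
    (𝔪 𝔫 : SPlace S L) (h : primeOf S L 𝔪 = primeOf S L 𝔫) :
    ∃ g : Γ, sPlaceSMul S Γ g 𝔪 = 𝔫 := by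
  classical
  by_contra hne0
  have hne : ∀ g : Γ, sPlaceSMul S Γ g 𝔪 ≠ 𝔫 := fun g hg => hne0 ⟨g, hg⟩
  haveI : Fintype Γ := Fintype.ofFinite Γ
  haveI := isReduced_AS S L
  haveI := _root_.Fermat.Agent.S55.G.LocH897.isArtinianRing_AS S L
  -- an element `x ∈ 𝔫` with `x ≡ 1` modulo every other maximal ideal
  obtain ⟨x, hx⟩ := exists_forall_sub_mem_maximal (R := AS S L)
    (fun 𝔫' _ => if 𝔫' = 𝔫.asIdeal then 0 else 1)
  have hx𝔫 : x ∈ 𝔫.asIdeal := by
    have := hx 𝔫.asIdeal 𝔫.isMaximal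
    rwa [if_pos rfl, sub_zero] at this
  have hx𝔪 : ∀ g : Γ, asRingAut Γ S L g x - 1 ∈ 𝔪.asIdeal := by
    intro g
    have h1 := hx (sPlaceSMul S Γ g⁻¹ 𝔪).asIdeal (sPlaceSMul S Γ g⁻¹ 𝔪).isMaximal
    rw [if_neg (fun hh => hne g⁻¹ (MaximalSpectrum.ext hh))] at h1
    rw [mem_sPlaceSMul_iff', inv_inv, map_sub, map_one] at h1
    exact h1
  -- its norm
  set N : AS S L := ∏ g : Γ, asRingAut Γ S L g x with hN
  have hN𝔫 : N ∈ 𝔫.asIdeal := by
    refine Ideal.mem_of_dvd _ (Finset.dvd_prod_of_mem _ (Finset.mem_univ (1 : Γ))) ?_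
    rw [map_one]
    exact hx𝔫
  have hN𝔪 : LocField.mk S 𝔪 N = 1 := by
    rw [hN, map_prod]
    refine Finset.prod_eq_one fun g _ => ?_
    have := (LocField.mk_eq_zero_iff S 𝔪 _).2 (hx𝔪 g)
    rw [map_sub, map_one, sub_eq_zero] at this
    exact this
  have hNinv : ∀ g : Γ, (asAut S Γ L g).toLinearMap N = N := by
    intro g
    show asRingAut Γ S L g N = N
    rw [hN, map_prod]
    refine Fintype.prod_bijective (fun h => g * h) (Group.mulLeft_bijective g) _ _ fun h => ?_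
    rw [map_mul, RingAut.mul_apply]
  obtain ⟨y, hy⟩ := exists_tmul_of_invariant Γ L (QS S) hfix
    (fun g => (asAut S Γ L g).toLinearMap) (fun g a b => asAut_tmul S Γ L g a b) N hNinv
  have h0 : QS.toPi S y (primeOf S L 𝔫) = 0 := by
    have h1 := (LocField.mk_eq_zero_iff S 𝔫 N).2 hN𝔫
    rw [hy, mk_one_tmul] at h1
    exact (map_eq_zero_iff _ (ofQq S L 𝔫).injective).1 h1
  have h1 : QS.toPi S y (primeOf S L 𝔪) = 1 := by
    have h2 := hN𝔪
    rw [hy, mk_one_tmul] at h2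
    exact (ofQq S L 𝔪).injective (h2.trans (map_one _).symm)
  rw [h] at h1
  rw [h0] at h1
  exact zero_ne_one h1

/-- Conjugate places lie over the same rational prime. -/
theorem primeOf_sPlaceSMul (g : Γ) (𝔪 : SPlace S L) :
    primeOf S L (sPlaceSMul S Γ g 𝔪) = primeOf S L 𝔪 := by
  by_contra hne
  set q := primeOf S L 𝔪 with hq
  set e : AS S L := (1 : L) ⊗ₜ[ℚ] (single S q 1) with he
  have h1 : LocField.mk S 𝔪 e = 1 := by
    rw [he, mk_one_tmul, single_apply_same, map_one]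
  have hmem : e - 1 ∈ (sPlaceSMul S Γ g 𝔪).asIdeal := by
    rw [mem_sPlaceSMul_iff']
    have hinv : asRingAut Γ S L g⁻¹ e = e := by
      rw [he, asRingAut_apply, asAut_tmul, smul_one]
    rw [map_sub, map_one, hinv]
    have := sub_eq_zero.2 h1
    rw [← map_one (LocField.mk S 𝔪), ← map_sub] at this
    exact (LocField.mk_eq_zero_iff S 𝔪 _).1 this
  have h2 : LocField.mk S (sPlaceSMul S Γ g 𝔪) e = 1 := by
    have := (LocField.mk_eq_zero_iff S (sPlaceSMul S Γ g 𝔪) _).2 hmem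
    rw [map_sub, map_one, sub_eq_zero] at this
    exact this
  rw [he, mk_one_tmul, single_apply_ne S q _ hne, map_zero] at h2
  exact zero_ne_one h2

end Fermat.Agent.S55.G.LocH897

end
-- ===== PACK-END S55/G/LocH897/Trans.lean

-- ===== PACK-BEGIN S55/G/LocH897/TowEv.lean
section






/-!
# S55 / G-ADAPTER, J-bridge (helper897), part 1: the evaluation maps `F ⊗ ℚ_S → ℚ̄_q`

For a tower level `L : Tow.Level S` with field `F = L.F` and `q ∈ S`:
* `evQ L q : AS S L.F →ₐ[ℚ] PadicAlgCl q`, `x ⊗ y ↦ ι_q(x) · y_q`;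
* `evQ_equivariant` : `evQ (mk (loc τ) • r) = τ (evQ r)` for `τ ∈ Gal(ℚ̄_q/ℚ_q)`;
* `range_evQ` : the range of `evQ` is the local level `F_q = primeLocalLevel q F`.
-/

set_option autoImplicit false
set_option linter.style.haveILetI false
set_option linter.unusedSectionVars false

open scoped TensorProduct

namespace Fermat.Agent.S55.G.LocH897

open Fermat.Agent.S55 Fermat.Agent.S55.Tow Fermat.Agent.S55.Bridge.H175 Fermat.Agent.S55.E1.H594
open Fermat.Agent.S55.G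

noncomputable section

variable {S : Finset Nat.Primes} (L : Level S)

/-- `ℚ̄_q` for `q : Nat.Primes`. -/
abbrev Om (q : Nat.Primes) : Type := PadicAlgCl (q : ℕ)

theorem isScalarTower_Om (q : Nat.Primes) : IsScalarTower ℚ (Qq q) (Om q) :=
  IsScalarTower.of_algebraMap_eq' (Subsingleton.elim _ _)

/-- `ι_q : F → ℚ̄_q`. -/
def embF (q : Nat.Primes) : L.F →ₐ[ℚ] Om q := (padicEmbedding (q : ℕ)).comp L.F.val

lemma embF_apply (q : Nat.Primes) (x : L.F) : embF L q x = padicEmbedding (q : ℕ) (x : Qbar) := rfl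

/-- `ℚ_S → ℚ_q → ℚ̄_q`. -/
def projOm (q : S) : QS S →ₐ[ℚ] Om q.1 :=
  haveI := isScalarTower_Om q.1
  (IsScalarTower.toAlgHom ℚ (Qq q.1) (Om q.1)).comp (QS.proj S q)

lemma projOm_apply (q : S) (y : QS S) :
    projOm q y = algebraMap (Qq q.1) (Om q.1) (QS.toPi S y q) := rfl

/-- The evaluation `F ⊗ ℚ_S → ℚ̄_q`, `x ⊗ y ↦ ι_q(x) · y_q`. -/
def evQ (q : S) : AS S L.F →ₐ[ℚ] Om q.1 :=
  Algebra.TensorProduct.lift (embF L q.1) (projOm q) (fun _ _ => Commute.all _ _)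

@[simp] lemma evQ_tmul (q : S) (x : L.F) (y : QS S) :
    evQ L q (x ⊗ₜ[ℚ] y) = padicEmbedding (q.1 : ℕ) (x : Qbar) *
      algebraMap (Qq q.1) (Om q.1) (QS.toPi S y q) := by
  simp [evQ, embF_apply, projOm_apply]

/-- An element of the Prelude local Galois group as an automorphism of `ℚ̄_q`. -/
def toAut (q : Nat.Primes) (τ : GQp q) : Om q ≃ₐ[Qq q] Om q := τ

lemma toAut_mul (q : Nat.Primes) (τ τ' : GQp q) (ω : Om q) :
    toAut q (τ * τ') ω = toAut q τ (toAut q τ' ω) := rfl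

lemma padicEmbedding_locQ (q : Nat.Primes) (τ : GQp q) (x : Qbar) :
    padicEmbedding (q : ℕ) (locQ q τ x) = toAut q τ (padicEmbedding (q : ℕ) x) :=
  padicEmbedding_localGaloisToGlobal (q : ℕ) τ x

/-- The composite `Gal(ℚ̄_q/ℚ_q) → G_ℚ → Gal(F/ℚ)`. -/
def locGal (q : Nat.Primes) : GQp q →* L.Gal := (QuotientGroup.mk' L.U).comp (locQ q)

lemma locGal_apply (q : Nat.Primes) (τ : GQp q) :
    locGal L q τ = (QuotientGroup.mk (locQ q τ) : L.Gal) := rfl

lemma locGal_eq_decHom (q : Nat.Primes) (τ : GQp q) :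
    locGal L q τ = L.decHom q (QuotientGroup.mk τ) := rfl

/-- Equivariance of the evaluation map. -/
theorem evQ_equivariant (q : S) (τ : GQp q.1) (r : AS S L.F) :
    evQ L q (asRingAut L.Gal S L.F (locGal L q.1 τ) r) = toAut q.1 τ (evQ L q r) := by
  induction r using TensorProduct.induction_on with
  | zero => simp
  | tmul x y =>
    rw [asRingAut_apply, asAut_tmul, evQ_tmul, evQ_tmul, map_mul, AlgEquiv.commutes,
      locGal_apply, level_mk_smul, padicEmbedding_locQ]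
  | add a b ha hb => simp only [map_add, ha, hb]

/-! ### The range of the evaluation map is the local level -/

open PL0H713 in
lemma evQ_one_tmul_single (q : S) (y : Qq q.1) :
    evQ L q ((1 : L.F) ⊗ₜ[ℚ] single S q y) = algebraMap (Qq q.1) (Om q.1) y := by
  rw [evQ_tmul, single_apply_same]
  simp

lemma evQ_tmul_one (q : S) (x : L.F) :
    evQ L q (x ⊗ₜ[ℚ] (1 : QS S)) = padicEmbedding (q.1 : ℕ) (x : Qbar) := by
  rw [evQ_tmul, map_one (QS.toPi S), Pi.one_apply, map_one, mul_one]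

/-- The range of `evQ` as a `ℚ_q`-subalgebra of `ℚ̄_q`. -/
def evRange (q : S) : Subalgebra (Qq q.1) (Om q.1) where
  carrier := Set.range (evQ L q)
  mul_mem' := by rintro _ _ ⟨a, rfl⟩ ⟨b, rfl⟩; exact ⟨a * b, map_mul _ _ _⟩
  add_mem' := by rintro _ _ ⟨a, rfl⟩ ⟨b, rfl⟩; exact ⟨a + b, map_add _ _ _⟩
  one_mem' := ⟨1, map_one _⟩
  zero_mem' := ⟨0, map_zero _⟩
  algebraMap_mem' := fun y => ⟨_, evQ_one_tmul_single L q y⟩

lemma mem_evRange (q : S) (ω : Om q.1) : ω ∈ evRange L q ↔ ∃ r, evQ L q r = ω := Iff.rfl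

/-- `evQ` takes values in the local level `F_q`. -/
theorem evQ_mem_primeLocalLevel (q : S) (r : AS S L.F) :
    evQ L q r ∈ primeLocalLevel q.1 L.F := by
  induction r using TensorProduct.induction_on with
  | zero => rw [map_zero]; exact zero_mem _
  | tmul x y =>
    rw [evQ_tmul]
    exact mul_mem (padicEmbedding_mem_localLevel x.2)
      (IntermediateField.algebraMap_mem _ _)
  | add a b ha hb => rw [map_add]; exact add_mem ha hb

/-- Every element of the local level `F_q` is a value of `evQ`. -/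
theorem exists_evQ_eq (q : S) (ω : Om q.1) (hω : ω ∈ primeLocalLevel q.1 L.F) :
    ∃ r, evQ L q r = ω := by
  have h1 : (primeLocalLevel q.1 L.F).toSubalgebra =
      Algebra.adjoin (Qq q.1) ((padicEmbedding (q.1 : ℕ)) '' (L.F : Set Qbar)) :=
    IntermediateField.adjoin_toSubalgebra _
  have h2 : Algebra.adjoin (Qq q.1) ((padicEmbedding (q.1 : ℕ)) '' (L.F : Set Qbar)) ≤
      evRange L q := by
    refine Algebra.adjoin_le ?_
    rintro _ ⟨x, hx, rfl⟩
    exact ⟨_, evQ_tmul_one L q ⟨x, hx⟩⟩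
  have h3 : ω ∈ (primeLocalLevel q.1 L.F).toSubalgebra := hω
  rw [h1] at h3
  exact h2 h3

end

end Fermat.Agent.S55.G.LocH897

end
-- ===== PACK-END S55/G/LocH897/TowEv.lean

-- ===== PACK-BEGIN S55/G/LocH897/TowDec.lean
section


/-!
# S55 / G-ADAPTER, J-bridge (helper897), part 2: the decomposition group of `ker evQ`

An element `s ∈ Gal(F/ℚ)` stabilising the kernel of `evQ : F ⊗ ℚ_S → ℚ̄_q` is the restriction of
an element of the local Galois group `Gal(ℚ̄_q/ℚ_q)` (`exists_locGal_eq`).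
-/

set_option autoImplicit false
set_option linter.style.haveILetI false
set_option linter.unusedSectionVars false

open scoped TensorProduct

namespace Fermat.Agent.S55.G.LocH897

open Fermat.Agent.S55 Fermat.Agent.S55.Tow Fermat.Agent.S55.Bridge.H175 Fermat.Agent.S55.E1.H594
open Fermat.Agent.S55.G

noncomputable section

variable {S : Finset Nat.Primes} (L : Level S) (q : S)

/-- `evQ` with values in the local level `F_q`. -/
def evE : AS S L.F →+* primeLocalLevel q.1 L.F :=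
  (evQ L q).toRingHom.codRestrict (primeLocalLevel q.1 L.F) (evQ_mem_primeLocalLevel L q)

lemma coe_evE (r : AS S L.F) : ((evE L q r : primeLocalLevel q.1 L.F) : Om q.1) = evQ L q r := rfl

lemma evE_surjective : Function.Surjective (evE L q) := by
  rintro ⟨ω, hω⟩
  obtain ⟨r, hr⟩ := exists_evQ_eq L q ω hω
  exact ⟨r, Subtype.ext hr⟩

lemma evE_eq_zero_iff (r : AS S L.F) : evE L q r = 0 ↔ evQ L q r = 0 := by
  rw [← coe_evE, ← ZeroMemClass.coe_eq_zero]

section Stab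

variable (s : L.Gal)
  (hs : ∀ x, evQ L q (asRingAut L.Gal S L.F s x) = 0 ↔ evQ L q x = 0)

/-- The ring endomorphism of `F_q` induced by `s` (which stabilises `ker evQ`). -/
def sbarRing : primeLocalLevel q.1 L.F →+* primeLocalLevel q.1 L.F :=
  (evE L q).liftOfSurjective (evE_surjective L q)
    ⟨(evE L q).comp ((asRingAut L.Gal S L.F s : AS S L.F ≃+* AS S L.F) : AS S L.F →+* AS S L.F),
      fun x hx => by
        rw [RingHom.mem_ker] at hx ⊢
        rw [RingHom.comp_apply, evE_eq_zero_iff]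
        exact (hs x).2 ((evE_eq_zero_iff L q x).1 hx)⟩

lemma sbarRing_evE (r : AS S L.F) :
    sbarRing L q s hs (evE L q r) = evE L q (asRingAut L.Gal S L.F s r) :=
  RingHom.liftOfSurjective_comp_apply _ (evE_surjective L q) _ r

open PL0H713 in
/-- The `ℚ_q`-algebra endomorphism of `F_q` induced by `s`. -/
def sbarAlg : primeLocalLevel q.1 L.F →ₐ[Qq q.1] primeLocalLevel q.1 L.F :=
  { sbarRing L q s hs with
    commutes' := fun y => by
      have h1 : algebraMap (Qq q.1) (primeLocalLevel q.1 L.F) y =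
          evE L q ((1 : L.F) ⊗ₜ[ℚ] single S q y) :=
        Subtype.ext (evQ_one_tmul_single L q y).symm
      show sbarRing L q s hs _ = _
      rw [h1, sbarRing_evE, asRingAut_apply, asAut_tmul, smul_one] }

lemma sbarAlg_evE (r : AS S L.F) :
    sbarAlg L q s hs (evE L q r) = evE L q (asRingAut L.Gal S L.F s r) :=
  sbarRing_evE L q s hs r

/-- The automorphism of `F_q` over `ℚ_q` induced by `s`. -/
def sbarEquiv : primeLocalLevel q.1 L.F ≃ₐ[Qq q.1] primeLocalLevel q.1 L.F :=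
  haveI := Bridge.H175.level_normal L
  haveI := Bridge.H175.level_finiteDimensional L
  haveI := finiteDimensional_primeLocalLevel q.1 L.F
  AlgEquiv.ofBijective (sbarAlg L q s hs) (Algebra.IsAlgebraic.algHom_bijective _)

lemma sbarEquiv_evE (r : AS S L.F) :
    sbarEquiv L q s hs (evE L q r) = evE L q (asRingAut L.Gal S L.F s r) :=
  sbarRing_evE L q s hs r

/-- **Decomposition groups.**  An element of `Gal(F/ℚ)` stabilising `ker evQ` comes from the
local Galois group. -/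
theorem exists_locGal_eq (s : L.Gal)
    (hs : ∀ x, evQ L q (asRingAut L.Gal S L.F s x) = 0 ↔ evQ L q x = 0) :
    ∃ τ : GQp q.1, locGal L q.1 τ = s := by
  obtain ⟨τ, hτ⟩ := QuotientGroup.mk_surjective ((decEquiv L q.1).symm (sbarEquiv L q s hs))
  refine ⟨τ, ?_⟩
  have hτ' : decEquiv L q.1 (QuotientGroup.mk τ) = sbarEquiv L q s hs := by
    rw [hτ, MulEquiv.apply_symm_apply]
  haveI := E1.H594.level_faithfulSMul L
  apply FaithfulSMul.eq_of_smul_eq_smul (α := L.F)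
  intro x
  apply Subtype.ext
  apply (padicEmbedding (q.1 : ℕ)).toRingHom.injective
  show padicEmbedding (q.1 : ℕ) ((locGal L q.1 τ • x : L.F) : Qbar) =
    padicEmbedding (q.1 : ℕ) ((s • x : L.F) : Qbar)
  have h1 : padicEmbedding (q.1 : ℕ) ((locGal L q.1 τ • x : L.F) : Qbar) =
      toAut q.1 τ (padicEmbedding (q.1 : ℕ) (x : Qbar)) := by
    rw [locGal_apply, level_mk_smul, padicEmbedding_locQ]
  have h2 := decEquiv_mk_apply_coe L q.1 τ (evE L q (x ⊗ₜ[ℚ] (1 : QS S)))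
  rw [hτ', sbarEquiv_evE, coe_evE, coe_evE, asRingAut_apply, asAut_tmul, evQ_tmul_one,
    evQ_tmul_one] at h2
  rw [h1]
  exact h2.symm

end Stab

end

end Fermat.Agent.S55.G.LocH897

end
-- ===== PACK-END S55/G/LocH897/TowDec.lean

-- ===== PACK-BEGIN S55/G/Rec/Tow/H417/Closed.lean
section
/-
S55 / REC2-TOW (helper417, sub-architect): CLOSED FORMS of the TOW block — the targets
`Gd1Spec`, `Gd3Spec`, `Gd8Spec` from the arithmetic inputs only, all pure-algebra leaves and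
assemblies being discharged by the landed proofs
(H323 ALG-B, H371 ALG-CM, H953 ALG-INF, H781 gd1_of, H139 up_of, H417 ALG-A/KERJ/T4'/GD3).

  `kerJ      : p.Prime → ∀ I : SemiLocalInv p, KerJSpec p I`
  `totExact  : p.Prime → ∀ I : SemiLocalInv p, G.PClassUpperSpec → TotExactSpec p I`
  `gd3       : p.Prime → SemiLocalInv p → Gd3Spec p`
  `gd8       : G.PClassUpperSpec → Gd8Spec p`
  `gd1       : p.Prime → SemiLocalInv p → G.PClassUpperSpec → DescSpec → G.SIndepSpec →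
                 RamSpec p → Gd1Spec p`
-/












set_option autoImplicit false

namespace Fermat.Agent.S55.G.Rec.TOW.H417

open Fermat.Agent.S55

/-- KERJ, closed. -/
theorem kerJ {p : ℕ} (hp : p.Prime) (I : SemiLocalInv p) : KerJSpec p I :=
  kerJ_of p hp I G.SesSpecH604.classShortExactSpec H323.h2Exact pPrimaryLift T.H572.cardTorsion

/-- T4', closed (modulo G-UP). -/
theorem totExact {p : ℕ} (hp : p.Prime) (I : SemiLocalInv p) (hUP : G.PClassUpperSpec) :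
    TotExactSpec p I :=
  totExact_of p I (kerJ hp I) (H139.up_of p hUP) exactCount T.H572.cardTorsion

/-- **GD3** from the semilocal invariants. -/
theorem gd3 {p : ℕ} (hp : p.Prime) (I : SemiLocalInv p) : Gd3Spec p :=
  gd3_of p I (kerJ hp I) H323.resCoeffNat

/-- **GD8** from G-UP. -/
theorem gd8 {p : ℕ} (hUP : G.PClassUpperSpec) : Gd8Spec p :=
  H953.gd8 p (H139.up_of p hUP)

/-- **GD1** from the semilocal invariants, G-UP, descent, independence of `S` and the auxiliary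
level. -/
theorem gd1 {p : ℕ} (hp : p.Prime) (I : SemiLocalInv p) (hUP : G.PClassUpperSpec)
    (hDesc : DescSpec) (hSInd : G.SIndepSpec) (hRam : RamSpec p) : Gd1Spec p :=
  H781.gd1_of p I (kerJ hp I) (totExact hp I hUP) (H139.up_of p hUP) hDesc hSInd hRam
    H323.resTop H323.resCoeffNat H371.classModuleOfSylow H953.infResLift H323.resMapNat
    T.H572.resIndex

end Fermat.Agent.S55.G.Rec.TOW.H417

end
-- ===== PACK-END S55/G/Rec/Tow/H417/Closed.lean

-- ===== PACK-BEGIN S55/G/Rec/HP/LocEmb.lean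
section





/-!
# S55 / REC / HP : the intrinsic places `𝔪 ∈ SPlace S F` as embedded places `(q, g)`

For a finite normal `F/ℚ` inside `ℚ̄` and a place `𝔪` of `F` above `S` (a maximal ideal of
`F ⊗ ℚ_S`), we choose an embedding `φ : F_𝔪 → ℚ̄_q` over `ℚ_q` and `g ∈ G_ℚ` with
`φ ∘ toLoc = ι_q ∘ g⁻¹` on `F` (`PlaceEmb`).  Then, for an open `U ⊇ G_F`:

* `ρ τ := (g · loc τ · g⁻¹)|_F` maps `V = locSub q g U` ONTO the decomposition group
  `decomp S (lvlGal U F) 𝔪`, compatibly with the actions on `F_𝔪` and `ℚ̄_q` (via `φ`);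
* the elements of `ℚ̄_q` fixed by `ker ρ` lie in `φ(F_𝔪)`.
-/

set_option autoImplicit false
set_option linter.unusedSectionVars false
set_option linter.style.haveILetI false

noncomputable section

namespace Fermat.Agent.S55.G.Rec.HP

open groupCohomology Fermat.Agent.S55.Bridge.H175 Fermat.Agent.S55.G

local notation "Qb" => AlgebraicClosure ℚ
local notation "GQ" => (AlgebraicClosure ℚ ≃ₐ[ℚ] AlgebraicClosure ℚ)

/-- An embedded model of the place `𝔪` of `F`: `φ : F_𝔪 ↪ ℚ̄_q` over `ℚ_q` and `g ∈ G_ℚ` such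
that `φ ∘ toLoc = ι_q ∘ g⁻¹` on `F`. -/
structure PlaceEmb (S : Finset Nat.Primes) (F : IntermediateField ℚ Qb)
    (𝔪 : SPlace S ↥F) (q : ℕ) [Fact q.Prime] where
  /-- the conjugating element -/
  g : GQ
  /-- the embedding of the local field -/
  φ : LocField S 𝔪 →+* PadicAlgCl q
  /-- the structure map -/
  ι₀ : ℚ_[q] →+* LocField S 𝔪
  φ_toLoc : ∀ x : F, φ (toLoc S 𝔪 x) = padicEmbedding q (g⁻¹ (x : Qb))
  φ_ι₀ : ∀ z : ℚ_[q], φ (ι₀ z) = algebraMap ℚ_[q] (PadicAlgCl q) z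
  ofQS_mem : ∀ y : QS S, ∃ z : ℚ_[q], LocField.ofQS S 𝔪 y = ι₀ z
  ι₀_mem : ∀ z : ℚ_[q], ∃ y : QS S, ι₀ z = LocField.ofQS S 𝔪 y

section Exists

variable (S : Finset Nat.Primes) (F : IntermediateField ℚ Qb) [FiniteDimensional ℚ F]
  (𝔪 : SPlace S ↥F)

lemma normal_Qb : Normal ℚ Qb := by
  have : Algebra.IsAlgebraic ℚ Qb := AlgebraicClosure.isAlgebraic ℚ
  have : IsAlgClosure ℚ Qb := ⟨inferInstance, inferInstance⟩
  exact IsAlgClosure.normal ℚ Qb

/-- Every ring homomorphism `F → ℚ̄_q` is `ι_q ∘ g⁻¹` for some `g ∈ G_ℚ`. -/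
lemma exists_conj_of_ringHom (q : ℕ) [Fact q.Prime] (j : ↥F →+* PadicAlgCl q) :
    ∃ g : GQ, ∀ x : F, j x = padicEmbedding q (g⁻¹ (x : Qb)) := by
  have hnorm : Normal ℚ Qb := normal_Qb
  let jA : ↥F →ₐ[ℚ] PadicAlgCl q := j.toRatAlgHom
  have hjA : ∀ x, jA x = j x := fun _ => rfl
  have hinj : Function.Injective (padicEmbedding q) := (padicEmbedding q).injective
  have hrange : ∀ x : F, jA x ∈ (padicEmbedding q).range := by
    intro x
    have hx : IsIntegral ℚ x := Algebra.IsIntegral.isIntegral x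
    obtain ⟨b', hb'⟩ := Fermat.Agent.S55.Bridge.mem_range_padicEmbedding_of_root q
      (minpoly ℚ x) (minpoly.ne_zero hx) (jA x) (by
        rw [Polynomial.aeval_algHom_apply, minpoly.aeval, map_zero])
    exact ⟨b', hb'⟩
  let e := AlgEquiv.ofInjective (padicEmbedding q) hinj
  let j' : ↥F →ₐ[ℚ] Qb := (e.symm : _ →ₐ[ℚ] Qb).comp (jA.codRestrict _ hrange)
  have hj' : ∀ x : F, padicEmbedding q (j' x) = j x := by
    intro x
    have h1 : (e (j' x) : PadicAlgCl q) = jA x := by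
      change (e (e.symm (jA.codRestrict _ hrange x)) : PadicAlgCl q) = _
      rw [AlgEquiv.apply_symm_apply]
      rfl
    exact h1
  let G₀ : GQ := AlgEquiv.ofBijective (j'.liftNormal Qb) (AlgHom.normal_bijective ℚ Qb Qb _)
  have hG₀ : ∀ x : F, G₀ (x : Qb) = j' x := by
    intro x
    exact j'.liftNormal_commutes Qb x
  refine ⟨G₀⁻¹, fun x => ?_⟩
  rw [inv_inv, hG₀, hj']

/-- Existence of an embedded model of every place. -/
theorem exists_placeEmb :
    ∃ (q : ℕ) (_ : Fact q.Prime), Nonempty (PlaceEmb S F 𝔪 q) := by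
  have hq : Fact (Nat.Prime ((PL0H713.primeOf S ↥F 𝔪).1 : ℕ)) := ⟨(PL0H713.primeOf S ↥F 𝔪).1.2⟩
  refine ⟨((PL0H713.primeOf S ↥F 𝔪).1 : ℕ), hq, ?_⟩
  let alg : Algebra ℚ_[((PL0H713.primeOf S ↥F 𝔪).1 : ℕ)] (LocField S 𝔪) :=
    PL0H713.algQq S ↥F 𝔪
  have hfin : Module.Finite ℚ_[((PL0H713.primeOf S ↥F 𝔪).1 : ℕ)] (LocField S 𝔪) :=
    PL0H713.finite_locField S ↥F 𝔪
  have halg : Algebra.IsAlgebraic ℚ_[((PL0H713.primeOf S ↥F 𝔪).1 : ℕ)] (LocField S 𝔪) :=
    Algebra.IsAlgebraic.of_finite _ _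
  let φ₀ : LocField S 𝔪 →ₐ[ℚ_[((PL0H713.primeOf S ↥F 𝔪).1 : ℕ)]]
      PadicAlgCl ((PL0H713.primeOf S ↥F 𝔪).1 : ℕ) := IsAlgClosed.lift
  obtain ⟨g, hg⟩ := exists_conj_of_ringHom F ((PL0H713.primeOf S ↥F 𝔪).1 : ℕ)
    ((φ₀ : LocField S 𝔪 →+* _).comp (toLoc S 𝔪))
  exact ⟨{
    g := g
    φ := φ₀
    ι₀ := PL0H713.ofQq S ↥F 𝔪
    φ_toLoc := fun x => hg x
    φ_ι₀ := fun z => φ₀.commutes z
    ofQS_mem := fun y => ⟨_, PL0H713.ofQS_eq S ↥F 𝔪 y⟩
    ι₀_mem := fun z => ⟨_, PL0H713.ofQq_apply S ↥F 𝔪 z⟩ }⟩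

end Exists

section Claims

variable {S : Finset Nat.Primes} {F : IntermediateField ℚ Qb} [FiniteDimensional ℚ F]
  [Normal ℚ F] {𝔪 : SPlace S ↥F} {q : ℕ} [Fact q.Prime] (P : PlaceEmb S F 𝔪 q)
  (U : Subgroup GQ)

/-- `ρ τ = (g · loc τ · g⁻¹)|_F`. -/
def PlaceEmb.rho : ↥(locSub q P.g U) →* ↥(lvlGal U F) := (lvlHom U F).comp (locHom q P.g U)

lemma PlaceEmb.rho_smul_coe (τ : ↥(locSub q P.g U)) (x : F) :
    ((P.rho U τ • x : F) : Qb) = P.g (localGaloisToGlobal q τ (P.g⁻¹ (x : Qb))) := by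
  change ((lvlHom U F (locHom q P.g U τ) • x : F) : Qb) = _
  rw [lvlHom_smul_coe, locHom_coe]
  rfl

lemma PlaceEmb.φ_injective : Function.Injective P.φ := P.φ.injective

lemma PlaceEmb.φ_toLoc_rho (τ : ↥(locSub q P.g U)) (x : F) :
    P.φ (toLoc S 𝔪 (P.rho U τ • x)) =
      (τ : PadicAlgCl q ≃ₐ[ℚ_[q]] PadicAlgCl q) (P.φ (toLoc S 𝔪 x)) := by
  rw [P.φ_toLoc, P.φ_toLoc, P.rho_smul_coe, ← padicEmbedding_localGaloisToGlobal]
  congr 1
  exact AlgEquiv.symm_apply_apply P.g _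

lemma PlaceEmb.φ_ofQS_fixed (τ : PadicAlgCl q ≃ₐ[ℚ_[q]] PadicAlgCl q) (y : QS S) :
    τ (P.φ (LocField.ofQS S 𝔪 y)) = P.φ (LocField.ofQS S 𝔪 y) := by
  obtain ⟨z, hz⟩ := P.ofQS_mem y
  rw [hz, P.φ_ι₀, τ.commutes]

lemma PlaceEmb.φ_mk_asAut (τ : ↥(locSub q P.g U)) (a : AS S ↥F) :
    P.φ (LocField.mk S 𝔪 (asAut S ↥(lvlGal U F) ↥F (P.rho U τ) a)) =
      (τ : PadicAlgCl q ≃ₐ[ℚ_[q]] PadicAlgCl q) (P.φ (LocField.mk S 𝔪 a)) := by
  induction a using TensorProduct.induction_on with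
  | zero => simp
  | tmul x y =>
    rw [asAut_tmul, PL0H713.mk_tmul, PL0H713.mk_tmul, map_mul, map_mul, map_mul,
      P.φ_toLoc_rho, P.φ_ofQS_fixed]
  | add a b ha hb => simp only [map_add, ha, hb]

lemma PlaceEmb.rho_mem_decomp (τ : ↥(locSub q P.g U)) :
    P.rho U τ ∈ decomp S ↥(lvlGal U F) 𝔪 := by
  rw [mem_decomp_iff]
  refine MaximalSpectrum.ext (Ideal.ext fun a => ?_)
  rw [mem_sPlaceSMul_iff, ← LocField.mk_eq_zero_iff, ← LocField.mk_eq_zero_iff,
    ← map_eq_zero_iff P.φ P.φ_injective, ← map_eq_zero_iff P.φ P.φ_injective,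
    ← map_inv, P.φ_mk_asAut]
  exact map_eq_zero_iff _ (AlgEquiv.injective _)

/-- `ρ` with values in the decomposition group. -/
def PlaceEmb.rhoD : ↥(locSub q P.g U) →* ↥(decomp S ↥(lvlGal U F) 𝔪) :=
  (P.rho U).codRestrict _ (P.rho_mem_decomp U)

@[simp] lemma PlaceEmb.rhoD_coe (τ : ↥(locSub q P.g U)) :
    ((P.rhoD U τ : ↥(decomp S ↥(lvlGal U F) 𝔪)) : ↥(lvlGal U F)) = P.rho U τ := rfl

/-- `φ` intertwines the action of `ρ τ` on `F_𝔪` with the action of `τ` on `ℚ̄_q`. -/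
lemma PlaceEmb.φ_locAut (τ : ↥(locSub q P.g U)) (y : LocField S 𝔪) :
    P.φ (locAut S ↥(lvlGal U F) 𝔪 (P.rhoD U τ) y) =
      (τ : PadicAlgCl q ≃ₐ[ℚ_[q]] PadicAlgCl q) (P.φ y) := by
  obtain ⟨a, rfl⟩ := LocField.mk_surjective S 𝔪 y
  rw [locAut_mk]
  exact P.φ_mk_asAut U τ a

variable {U} in
/-- Elements of `Gal(ℚ̄_q / F_q)` lie in `V` and in the kernel of `ρ`. -/
lemma PlaceEmb.rhoD_of_fixing (hFU : F.fixingSubgroup ≤ U)
    (τ : PadicAlgCl q ≃ₐ[ℚ_[q]] PadicAlgCl q) (hτ : τ ∈ (localLevel q F).fixingSubgroup) :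
    ∃ h : τ ∈ locSub q P.g U, P.rhoD U ⟨τ, h⟩ = 1 := by
  have h1 : localGaloisToGlobal q τ ∈ F.fixingSubgroup :=
    (mem_fixingSubgroup_localLevel_iff q F τ).1 hτ
  have h2 : ∀ x : F, P.g (localGaloisToGlobal q τ (P.g⁻¹ (x : Qb))) = (x : Qb) := by
    intro x
    have hx : P.g⁻¹ (x : Qb) ∈ F := apply_mem_of_normal F _ x.2
    rw [(IntermediateField.mem_fixingSubgroup_iff F _).1 h1 _ hx]
    exact AlgEquiv.apply_symm_apply P.g _
  have h3 : P.g * localGaloisToGlobal q τ * P.g⁻¹ ∈ F.fixingSubgroup := by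
    rw [IntermediateField.mem_fixingSubgroup_iff]
    intro x hx
    exact h2 ⟨x, hx⟩
  refine ⟨hFU h3, ?_⟩
  apply Subtype.ext
  apply Subtype.ext
  apply AlgEquiv.ext
  intro x
  apply Subtype.ext
  change ((P.rho U ⟨τ, hFU h3⟩ • x : F) : Qb) = _
  rw [P.rho_smul_coe]
  exact h2 x

lemma isGalois_padicAlgCl473 (q : ℕ) [Fact q.Prime] : IsGalois ℚ_[q] (PadicAlgCl q) := by
  have := normal_padicAlgCl q
  exact isGalois_iff.mpr ⟨inferInstance, inferInstance⟩

/-- `F_q = ℚ_q · ι(F) ⊆ φ(F_𝔪)`. -/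
lemma PlaceEmb.localLevel_le_range (a : PadicAlgCl q) (ha : a ∈ localLevel q F) :
    a ∈ Set.range P.φ := by
  let E : IntermediateField ℚ_[q] (PadicAlgCl q) :=
    P.φ.fieldRange.toIntermediateField (fun z => ⟨P.ι₀ z, P.φ_ι₀ z⟩)
  have hE : ∀ b, b ∈ E ↔ b ∈ Set.range P.φ := fun b => Iff.rfl
  have hle : localLevel q F ≤ E := by
    unfold localLevel
    rw [IntermediateField.adjoin_le_iff]
    rintro _ ⟨x, hx, rfl⟩
    have hgx : P.g x ∈ F := apply_mem_of_normal F _ hx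
    refine (hE _).2 ⟨toLoc S 𝔪 ⟨P.g x, hgx⟩, ?_⟩
    rw [P.φ_toLoc]
    congr 1
    exact AlgEquiv.symm_apply_apply P.g x
  exact (hE a).1 (hle ha)

variable {U} in
/-- The elements of `ℚ̄_q` fixed by `ker ρ` lie in `φ(F_𝔪)`. -/
lemma PlaceEmb.mem_range_φ_of_fixed (hFU : F.fixingSubgroup ≤ U) (a : PadicAlgCl q)
    (h : ∀ τ : ↥(locSub q P.g U), P.rhoD U τ = 1 →
      (τ : PadicAlgCl q ≃ₐ[ℚ_[q]] PadicAlgCl q) a = a) :
    a ∈ Set.range P.φ := by
  have := isGalois_padicAlgCl473 q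
  apply P.localLevel_le_range
  rw [← InfiniteGalois.fixedField_fixingSubgroup (localLevel q F)]
  rintro ⟨τ, hτ⟩
  obtain ⟨hV, h1⟩ := P.rhoD_of_fixing hFU τ hτ
  exact h ⟨τ, hV⟩ h1

variable {U} in
/-- `ρ : V → decomp 𝔪` is surjective. -/
lemma PlaceEmb.rhoD_surjective (hFU : F.fixingSubgroup ≤ U) :
    Function.Surjective (P.rhoD U) := by
  intro σ
  obtain ⟨u, hu⟩ := lvlHom_surjective U F (σ : ↥(lvlGal U F))
  have hnorm := normal_padicAlgCl q
  letI a1 : Algebra ℚ_[q] (LocField S 𝔪) := P.ι₀.toAlgebra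
  letI a2 : Algebra (LocField S 𝔪) (PadicAlgCl q) := P.φ.toAlgebra
  haveI : IsScalarTower ℚ_[q] (LocField S 𝔪) (PadicAlgCl q) :=
    IsScalarTower.of_algebraMap_eq (fun z => (P.φ_ι₀ z).symm)
  let ψ : LocField S 𝔪 →ₐ[ℚ_[q]] PadicAlgCl q :=
    { toRingHom := P.φ.comp ((locAut S ↥(lvlGal U F) 𝔪 σ : LocField S 𝔪 ≃+* LocField S 𝔪) :
        LocField S 𝔪 →+* LocField S 𝔪)
      commutes' := by
        intro z
        change P.φ (locAut S ↥(lvlGal U F) 𝔪 σ (P.ι₀ z)) = _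
        obtain ⟨y, hy⟩ := P.ι₀_mem z
        have h1 : locAut S ↥(lvlGal U F) 𝔪 σ (LocField.ofQS S 𝔪 y) = LocField.ofQS S 𝔪 y := by
          change locAut S ↥(lvlGal U F) 𝔪 σ (LocField.mk S 𝔪 (asIncl S ↥F y)) = _
          rw [locAut_mk, asAut_asIncl]
          rfl
        rw [hy, h1, ← hy, P.φ_ι₀] }
  let τ : PadicAlgCl q ≃ₐ[ℚ_[q]] PadicAlgCl q :=
    AlgEquiv.ofBijective (ψ.liftNormal (PadicAlgCl q))
      (AlgHom.normal_bijective ℚ_[q] (PadicAlgCl q) (PadicAlgCl q) _)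
  have hτ : ∀ y : LocField S 𝔪, τ (P.φ y) = P.φ (locAut S ↥(lvlGal U F) 𝔪 σ y) := by
    intro y
    exact ψ.liftNormal_commutes (PadicAlgCl q) y
  -- the action of `g · loc τ · g⁻¹` on `F`
  have h2 : ∀ x : F, P.g (localGaloisToGlobal q τ (P.g⁻¹ (x : Qb))) =
      (((σ : ↥(lvlGal U F)) • x : F) : Qb) := by
    intro x
    have e1 : padicEmbedding q (localGaloisToGlobal q τ (P.g⁻¹ (x : Qb))) =
        padicEmbedding q (P.g⁻¹ ((((σ : ↥(lvlGal U F)) • x : F)) : Qb)) := by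
      rw [padicEmbedding_localGaloisToGlobal, ← P.φ_toLoc, hτ, locAut_toLoc, P.φ_toLoc]
    have e2 := (padicEmbedding q).injective e1
    rw [e2]
    exact AlgEquiv.apply_symm_apply P.g _
  have h3 : ∀ x : F, (P.g * localGaloisToGlobal q τ * P.g⁻¹) (x : Qb) = (u : GQ) (x : Qb) := by
    intro x
    rw [← lvlHom_smul_coe, hu]
    exact h2 x
  have hV : τ ∈ locSub q P.g U := by
    rw [mem_locSub]
    have hfix : P.g * localGaloisToGlobal q τ * P.g⁻¹ * (u : GQ)⁻¹ ∈ F.fixingSubgroup := by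
      rw [IntermediateField.mem_fixingSubgroup_iff]
      intro x hx
      have hx' : (u : GQ)⁻¹ x ∈ F := apply_mem_of_normal F _ hx
      change (P.g * localGaloisToGlobal q τ * P.g⁻¹) ((u : GQ)⁻¹ x) = x
      rw [h3 ⟨_, hx'⟩]
      exact AlgEquiv.apply_symm_apply (u : GQ) x
    have := U.mul_mem (hFU hfix) u.2
    rwa [inv_mul_cancel_right] at this
  refine ⟨⟨τ, hV⟩, ?_⟩
  apply Subtype.ext
  apply Subtype.ext
  apply AlgEquiv.ext
  intro x
  apply Subtype.ext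
  change ((P.rho U ⟨τ, hV⟩ • x : F) : Qb) = _
  rw [P.rho_smul_coe]
  exact h2 x

end Claims

end Fermat.Agent.S55.G.Rec.HP

end
end
-- ===== PACK-END S55/G/Rec/HP/LocEmb.lean

-- ===== PACK-BEGIN S55/G/Rec/HP/LocalGlue.lean
section




/-!
# S55 / REC / HP : leaf HP-LG, `localGlue : LocalGlueSpec`

If the absolute localisations `locBr q g U [c]` of a level class vanish at all places `(q, g)`,
then the intrinsic localisations `locMapL S (lvlGal U F) 𝔪 2 [f]` of the finite-level class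
vanish at all places `𝔪 ∈ SPlace S F`.
-/

set_option autoImplicit false
set_option linter.unusedSectionVars false
set_option linter.style.haveILetI false

noncomputable section

namespace Fermat.Agent.S55.G.Rec.HP

open groupCohomology CategoryTheory Fermat.Agent.S55.Bridge.H175 Fermat.Agent.S55.G

local notation "Qb" => AlgebraicClosure ℚ
local notation "GQ" => (AlgebraicClosure ℚ ≃ₐ[ℚ] AlgebraicClosure ℚ)

section

variable {S : Finset Nat.Primes} {F : IntermediateField ℚ Qb} [FiniteDimensional ℚ F]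
  [Normal ℚ F] {𝔪 : SPlace S ↥F} {q : ℕ} [Fact q.Prime] (P : PlaceEmb S F 𝔪 q)
  (U : Subgroup GQ)

/-- The coefficient map `F_𝔪ˣ → ℚ̄_qˣ` induced by `φ`, additively. -/
def PlaceEmb.φU : Additive (LocField S 𝔪)ˣ →+ Additive (PadicAlgCl q)ˣ :=
  MonoidHom.toAdditive (Units.map (P.φ : LocField S 𝔪 →* PadicAlgCl q))

lemma PlaceEmb.φU_coe (y : Additive (LocField S 𝔪)ˣ) :
    (((P.φU y).toMul : (PadicAlgCl q)ˣ) : PadicAlgCl q) = P.φ ((y.toMul : (LocField S 𝔪)ˣ)) :=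
  rfl

lemma PlaceEmb.φU_injective : Function.Injective P.φU := by
  intro y y' h
  apply Additive.toMul.injective
  apply Units.ext
  apply P.φ_injective
  have := congrArg (fun z : Additive (PadicAlgCl q)ˣ => ((z.toMul : (PadicAlgCl q)ˣ) :
    PadicAlgCl q)) h
  exact this

/-- Equivariance of `φU`. -/
lemma PlaceEmb.φU_equivariant (τ : ↥(locSub q P.g U)) (y : Additive (LocField S 𝔪)ˣ) :
    P.φU ((LocRep S ↥(lvlGal U F) 𝔪).ρ (P.rhoD U τ) y) =
      (lModOn q (locSub q P.g U)).ρ τ (P.φU y) := by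
  apply Additive.toMul.injective
  apply Units.ext
  change P.φ (locAut S ↥(lvlGal U F) 𝔪 (P.rhoD U τ) ((y.toMul : (LocField S 𝔪)ˣ))) =
    (τ : PadicAlgCl q ≃ₐ[ℚ_[q]] PadicAlgCl q) (P.φ ((y.toMul : (LocField S 𝔪)ˣ)))
  exact P.φ_locAut U τ _

variable {U} in
lemma PlaceEmb.φU_range (hFU : F.fixingSubgroup ≤ U) (a : Additive (PadicAlgCl q)ˣ)
    (h : ∀ τ : ↥(locSub q P.g U), P.rhoD U τ = 1 →
      (lModOn q (locSub q P.g U)).ρ τ a = a) :
    ∃ y, P.φU y = a := by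
  have h' : ∀ τ : ↥(locSub q P.g U), P.rhoD U τ = 1 →
      (τ : PadicAlgCl q ≃ₐ[ℚ_[q]] PadicAlgCl q) ((a.toMul : (PadicAlgCl q)ˣ) : PadicAlgCl q) =
        ((a.toMul : (PadicAlgCl q)ˣ) : PadicAlgCl q) := by
    intro τ hτ
    have := congrArg (fun z : Additive (PadicAlgCl q)ˣ => ((z.toMul : (PadicAlgCl q)ˣ) :
      PadicAlgCl q)) (h τ hτ)
    exact this
  obtain ⟨y₀, hy₀⟩ := P.mem_range_φ_of_fixed hFU _ h'
  have hy₀0 : y₀ ≠ 0 := by
    rintro rfl
    rw [map_zero] at hy₀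
    exact Units.ne_zero (a.toMul) hy₀.symm
  refine ⟨Additive.ofMul (Units.mk0 y₀ hy₀0), ?_⟩
  apply Additive.toMul.injective
  apply Units.ext
  exact hy₀

/-- The pullback formula: the absolute localisation of an inflated cocycle is the `(ρ, φ)`-
inflation of the intrinsic localisation. -/
lemma PlaceEmb.locCochain₂_infl (f : ↥(lvlGal U F) × ↥(lvlGal U F) → Additive (↥F)ˣ)
    (τ τ' : ↥(locSub q P.g U)) :
    locCochain₂ q P.g U (gInflCochain₂ U F f) (τ, τ') =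
      P.φU (lToLoc S 𝔪 (f (P.rho U τ, P.rho U τ'))) := by
  apply Additive.toMul.injective
  apply Units.ext
  change padicEmbedding q (P.g⁻¹ ((((f (lvlHom U F (locHom q P.g U τ),
    lvlHom U F (locHom q P.g U τ'))).toMul : (↥F)ˣ) : F) : Qb)) = _
  rw [← P.φ_toLoc]
  rfl

end

/-- **HP-LG.** -/
theorem localGlue : LocalGlueSpec := by
  intro U F _ _ hFU f c hinf hloc S 𝔪
  obtain ⟨q, hq, ⟨P⟩⟩ := exists_placeEmb S F 𝔪
  -- the intrinsic local cocycle
  set Γ := ↥(lvlGal U F) with hΓ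
  set floc : cocycles₂ (LocRep S Γ 𝔪) :=
    (mapCocycles₂ (decomp S Γ 𝔪).subtype (lToLocRepHom S Γ 𝔪)).hom f with hfloc
  have hfloc_apply : ∀ d d' : ↥(decomp S Γ 𝔪),
      (floc : ↥(decomp S Γ 𝔪) × ↥(decomp S Γ 𝔪) → _) (d, d') =
        lToLoc S 𝔪 ((f : Γ × Γ → Additive (↥F)ˣ) ((d : Γ), (d' : Γ))) := by
    intro d d'
    rfl
  have hgoal : (locMapL S Γ 𝔪 2).hom ((H2π (LRep Γ ↥F)).hom f) = (H2π (LocRep S Γ 𝔪)).hom floc :=
    congr($(H2π_comp_map (decomp S Γ 𝔪).subtype (lToLocRepHom S Γ 𝔪)) f)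
  rw [hgoal, H2π_eq_zero_iff]
  -- the absolute local coboundary
  have h0 := hloc q P.g
  rw [locBr_mk, continuousH2π_eq_zero_iff, mem_levelCoboundaries₂_iff] at h0
  obtain ⟨b, hblev, hb⟩ := h0
  have hb' : ∀ τ τ' : ↥(locSub q P.g U),
      (lModOn q (locSub q P.g U)).ρ τ (b τ') - b (τ * τ') + b τ =
        P.φU ((floc : ↥(decomp S Γ 𝔪) × ↥(decomp S Γ 𝔪) → _) (P.rhoD U τ, P.rhoD U τ')) := by
    intro τ τ'
    have h1 := congrFun hb (τ, τ')
    rw [d₁₂_hom_apply, coe_locCocycles₂, hinf] at h1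
    rw [h1, P.locCochain₂_infl U, hfloc_apply]
    rfl
  -- Hilbert 90 on `ker ρ`
  set e : (lModOn q (locSub q P.g U)).V :=
    P.φU ((floc : ↥(decomp S Γ 𝔪) × ↥(decomp S Γ 𝔪) → _) (1, 1)) with he
  have hH90 : ∃ a : (lModOn q (locSub q P.g U)).V, ∀ n : ↥(locSub q P.g U), P.rhoD U n = 1 →
      b n - e = (lModOn q (locSub q P.g U)).ρ n a - a := by
    obtain ⟨Fb, hFbfin, hFb⟩ := hblev
    have hnQ : Normal ℚ Qb := normal_Qb
    have hgal := isGalois_padicAlgCl473 q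
    let F₁ : IntermediateField ℚ Qb := IntermediateField.normalClosure ℚ ↥(F ⊔ Fb) Qb
    have hle : F ⊔ Fb ≤ F₁ := IntermediateField.le_normalClosure _
    have hF₁fin : FiniteDimensional ℚ F₁ := normalClosure.is_finiteDimensional ..
    have hF₁norm : Normal ℚ F₁ := normalClosure.normal ..
    let E' : IntermediateField ℚ_[q] (PadicAlgCl q) := localLevel q F₁
    have hE'fin : FiniteDimensional ℚ_[q] E' := finiteDimensional_localLevel q F₁
    have hE'norm : Normal ℚ_[q] E' := normal_localLevel q F₁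
    let V₀ : Subgroup (PadicAlgCl q ≃ₐ[ℚ_[q]] PadicAlgCl q) :=
      ((P.rhoD U).ker).map (locSub q P.g U).subtype
    have hE' : E'.fixingSubgroup ≤ V₀ := by
      intro τ hτ
      have h1 : τ ∈ (localLevel q F).fixingSubgroup :=
        IntermediateField.fixingSubgroup_antitone
          (localLevel_mono (le_sup_left.trans hle)) hτ
      obtain ⟨hV, h2⟩ := P.rhoD_of_fixing hFU τ h1
      exact ⟨⟨τ, hV⟩, h2, rfl⟩
    have hV₀mem : ∀ n : ↥V₀, (n : PadicAlgCl q ≃ₐ[ℚ_[q]] PadicAlgCl q) ∈ locSub q P.g U := by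
      intro n
      obtain ⟨x, -, hx⟩ := n.2
      rw [← hx]
      exact x.2
    have hV₀ker : ∀ n : ↥V₀, P.rhoD U ⟨n, hV₀mem n⟩ = 1 := by
      intro n
      obtain ⟨x, hxk, hx⟩ := n.2
      have : x = ⟨n, hV₀mem n⟩ := Subtype.ext hx
      rw [← this]
      exact hxk
    have hne : ∀ n : ↥V₀, (lModOn q (locSub q P.g U)).ρ ⟨n, hV₀mem n⟩ e = e := by
      intro n
      rw [he, ← P.φU_equivariant U, hV₀ker n, map_one]
      rfl
    let β : ↥V₀ → (PadicAlgCl q)ˣ := fun n =>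
      Additive.toMul ((b ⟨n, hV₀mem n⟩ - e : (lModOn q (locSub q P.g U)).V) :
        Additive (PadicAlgCl q)ˣ)
    have hcoc : ∀ n n' : ↥V₀, β (n * n') =
        (n : PadicAlgCl q ≃ₐ[ℚ_[q]] PadicAlgCl q) • β n' * β n := by
      intro n n'
      have h1 := hb' ⟨n, hV₀mem n⟩ ⟨n', hV₀mem n'⟩
      rw [hV₀ker n, hV₀ker n', ← he] at h1
      apply Additive.ofMul.injective
      change b (⟨n, hV₀mem n⟩ * ⟨n', hV₀mem n'⟩) - e =
        (lModOn q (locSub q P.g U)).ρ ⟨n, hV₀mem n⟩ (b ⟨n', hV₀mem n'⟩ - e) +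
          (b ⟨n, hV₀mem n⟩ - e)
      rw [map_sub, hne n]
      have h2 : b (⟨n, hV₀mem n⟩ * ⟨n', hV₀mem n'⟩) =
          (lModOn q (locSub q P.g U)).ρ ⟨n, hV₀mem n⟩ (b ⟨n', hV₀mem n'⟩) +
            b ⟨n, hV₀mem n⟩ - e := by
        rw [← h1]; abel
      rw [h2]; abel
    have hconst : ∀ n s : ↥V₀,
        (s : PadicAlgCl q ≃ₐ[ℚ_[q]] PadicAlgCl q) ∈ E'.fixingSubgroup → β (n * s) = β n := by
      intro n s hs
      have h1 : localGaloisToGlobal q (s : PadicAlgCl q ≃ₐ[ℚ_[q]] PadicAlgCl q) ∈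
          Fb.fixingSubgroup :=
        IntermediateField.fixingSubgroup_antitone (le_sup_right.trans hle)
          ((mem_fixingSubgroup_localLevel_iff q F₁ _).1 hs)
      have h2 := hFb ⟨n, hV₀mem n⟩ ⟨s, hV₀mem s⟩ h1
      change Additive.toMul ((b (⟨n, hV₀mem n⟩ * ⟨s, hV₀mem s⟩) - e :
        (lModOn q (locSub q P.g U)).V) : Additive (PadicAlgCl q)ˣ) = _
      rw [h2]
      rfl
    obtain ⟨a, ha⟩ := exists_hilbert90_level V₀ E' hE' β hcoc hconst
    refine ⟨(Additive.ofMul a : Additive (PadicAlgCl q)ˣ), fun n hn => ?_⟩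
    have hnV₀ : (n : PadicAlgCl q ≃ₐ[ℚ_[q]] PadicAlgCl q) ∈ V₀ := ⟨n, hn, rfl⟩
    have h3 := ha ⟨n, hnV₀⟩
    apply Additive.toMul.injective
    exact h3
  obtain ⟨a, ha⟩ := hH90
  exact mem_coboundaries₂_of_infl (lModOn q (locSub q P.g U)) (LocRep S Γ 𝔪) (P.rhoD U)
    (P.rhoD_surjective hFU) P.φU P.φU_injective (P.φU_equivariant U) (P.φU_range hFU)
    floc floc.2 b hb' a ha

end Fermat.Agent.S55.G.Rec.HP

end
end
-- ===== PACK-END S55/G/Rec/HP/LocalGlue.lean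

-- ===== PACK-BEGIN S55/G/Rec/Tow/H894/LocLink.lean
section


/-!
# S55 / REC2-TOW / FR-INJ (helper894), part 3: the local link for `J_S`, abstract group

Generalisation of helper473's `HP.localGlue` (`HP/LocalGlue.lean`) in two directions:

* the finite group is an ABSTRACT `Γ` acting on the level field `F` (e.g. `M.Gal = G_ℚ ⧸ U_M` of a
  Tower level, or a subgroup of it), linked to a subgroup `V ≤ G_{ℚ_q}` by a homomorphism
  `ρ : V →* Γ` with `ρ τ = (g · loc τ · g⁻¹)|_F` (`LocLink`);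
* the coefficients are `J_S(F) = (F ⊗ ℚ_S)ˣ` instead of `Fˣ`.

`locMapJ_eq_zero_of_link` : if the cochain `(τ, τ') ↦ φ (mk (yc (ρ τ, ρ τ')))` on `V` with values
in `ℚ̄_qˣ` is a level coboundary, then the intrinsic localisation `locMapJ S Γ 𝔪 2 [yc]`
vanishes.
-/

set_option autoImplicit false
set_option linter.unusedSectionVars false
set_option linter.style.haveILetI false

noncomputable section

namespace Fermat.Agent.S55.G.Rec.TOW.H894

open groupCohomology CategoryTheory Fermat.Agent.S55.Bridge.H175 Fermat.Agent.S55.G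
open Fermat.Agent.S55.G.Rec Fermat.Agent.S55.G.Rec.HP

local notation "Qb" => AlgebraicClosure ℚ
local notation "GQ" => (AlgebraicClosure ℚ ≃ₐ[ℚ] AlgebraicClosure ℚ)

/-- A link between a subgroup `V` of the local Galois group and an abstract group `Γ` acting on
the level field `F`, relative to an embedded place `P = (φ, g)`:
`ρ τ` acts on `F` as `g · loc τ · g⁻¹`, and every `τ` such that `g · loc τ · g⁻¹` acts on `F` as
an element `d` of `Γ` lies in `V` with `ρ τ = d`. -/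
structure LocLink {S : Finset Nat.Primes} {F : IntermediateField ℚ Qb}
    {𝔪 : SPlace S ↥F} {q : ℕ} [Fact q.Prime] (P : PlaceEmb S F 𝔪 q)
    (Γ : Type) [Group Γ] [MulSemiringAction Γ ↥F]
    (V : Subgroup (PadicAlgCl q ≃ₐ[ℚ_[q]] PadicAlgCl q)) where
  /-- the homomorphism `τ ↦ (g · loc τ · g⁻¹)|_F` -/
  ρ : ↥V →* Γ
  smul_coe : ∀ (τ : ↥V) (x : F),
    ((ρ τ • x : F) : Qb) = P.g (localGaloisToGlobal q τ (P.g⁻¹ (x : Qb)))
  full : ∀ (τ : PadicAlgCl q ≃ₐ[ℚ_[q]] PadicAlgCl q) (d : Γ),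
    (∀ x : F, P.g (localGaloisToGlobal q τ (P.g⁻¹ (x : Qb))) = ((d • x : F) : Qb)) →
      ∃ hτ : τ ∈ V, ρ ⟨τ, hτ⟩ = d

section Claims

variable {S : Finset Nat.Primes} {F : IntermediateField ℚ Qb} [FiniteDimensional ℚ F]
  [Normal ℚ F] {𝔪 : SPlace S ↥F} {q : ℕ} [Fact q.Prime] {P : PlaceEmb S F 𝔪 q}
  {Γ : Type} [Group Γ] [MulSemiringAction Γ ↥F]
  {V : Subgroup (PadicAlgCl q ≃ₐ[ℚ_[q]] PadicAlgCl q)} (K : LocLink P Γ V)

lemma LocLink.φ_toLoc_rho (τ : ↥V) (x : F) :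
    P.φ (toLoc S 𝔪 (K.ρ τ • x)) =
      (τ : PadicAlgCl q ≃ₐ[ℚ_[q]] PadicAlgCl q) (P.φ (toLoc S 𝔪 x)) := by
  rw [P.φ_toLoc, P.φ_toLoc, K.smul_coe, ← padicEmbedding_localGaloisToGlobal]
  congr 1
  exact AlgEquiv.symm_apply_apply P.g _

lemma LocLink.φ_mk_asAut (τ : ↥V) (a : AS S ↥F) :
    P.φ (LocField.mk S 𝔪 (asAut S Γ ↥F (K.ρ τ) a)) =
      (τ : PadicAlgCl q ≃ₐ[ℚ_[q]] PadicAlgCl q) (P.φ (LocField.mk S 𝔪 a)) := by
  induction a using TensorProduct.induction_on with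
  | zero => simp
  | tmul x y =>
    rw [asAut_tmul, PL0H713.mk_tmul, PL0H713.mk_tmul, map_mul, map_mul, map_mul,
      K.φ_toLoc_rho, P.φ_ofQS_fixed]
  | add a b ha hb => simp only [map_add, ha, hb]

lemma LocLink.rho_mem_decomp (τ : ↥V) : K.ρ τ ∈ decomp S Γ 𝔪 := by
  rw [mem_decomp_iff]
  refine MaximalSpectrum.ext (Ideal.ext fun a => ?_)
  rw [mem_sPlaceSMul_iff, ← LocField.mk_eq_zero_iff, ← LocField.mk_eq_zero_iff,
    ← map_eq_zero_iff P.φ P.φ_injective, ← map_eq_zero_iff P.φ P.φ_injective,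
    ← map_inv, K.φ_mk_asAut]
  exact map_eq_zero_iff _ (AlgEquiv.injective _)

/-- `ρ` with values in the decomposition group. -/
def LocLink.rhoD : ↥V →* ↥(decomp S Γ 𝔪) :=
  K.ρ.codRestrict _ K.rho_mem_decomp

@[simp] lemma LocLink.rhoD_coe (τ : ↥V) : ((K.rhoD τ : ↥(decomp S Γ 𝔪)) : Γ) = K.ρ τ := rfl

/-- `φ` intertwines the action of `ρ τ` on `F_𝔪` with the action of `τ` on `ℚ̄_q`. -/
lemma LocLink.φ_locAut (τ : ↥V) (y : LocField S 𝔪) :
    P.φ (locAut S Γ 𝔪 (K.rhoD τ) y) =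
      (τ : PadicAlgCl q ≃ₐ[ℚ_[q]] PadicAlgCl q) (P.φ y) := by
  obtain ⟨a, rfl⟩ := LocField.mk_surjective S 𝔪 y
  rw [locAut_mk]
  exact K.φ_mk_asAut τ a

/-- Elements of `Gal(ℚ̄_q / F_q)` lie in `V` and in the kernel of `ρ`. -/
lemma LocLink.rhoD_of_fixing
    (τ : PadicAlgCl q ≃ₐ[ℚ_[q]] PadicAlgCl q) (hτ : τ ∈ (localLevel q F).fixingSubgroup) :
    ∃ h : τ ∈ V, K.rhoD ⟨τ, h⟩ = 1 := by
  have h1 : localGaloisToGlobal q τ ∈ F.fixingSubgroup :=
    (mem_fixingSubgroup_localLevel_iff q F τ).1 hτ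
  have h2 : ∀ x : F, P.g (localGaloisToGlobal q τ (P.g⁻¹ (x : Qb))) = (((1 : Γ) • x : F) : Qb) := by
    intro x
    have hx : P.g⁻¹ (x : Qb) ∈ F := apply_mem_of_normal F _ x.2
    rw [(IntermediateField.mem_fixingSubgroup_iff F _).1 h1 _ hx, one_smul]
    exact AlgEquiv.apply_symm_apply P.g _
  obtain ⟨hV, h3⟩ := K.full τ 1 h2
  exact ⟨hV, Subtype.ext h3⟩

/-- The elements of `ℚ̄_q` fixed by `ker ρ` lie in `φ(F_𝔪)`. -/
lemma LocLink.mem_range_φ_of_fixed (a : PadicAlgCl q)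
    (h : ∀ τ : ↥V, K.rhoD τ = 1 → (τ : PadicAlgCl q ≃ₐ[ℚ_[q]] PadicAlgCl q) a = a) :
    a ∈ Set.range P.φ := by
  have := isGalois_padicAlgCl473 q
  apply P.localLevel_le_range
  rw [← InfiniteGalois.fixedField_fixingSubgroup (localLevel q F)]
  rintro ⟨τ, hτ⟩
  obtain ⟨hV, h1⟩ := K.rhoD_of_fixing τ hτ
  exact h ⟨τ, hV⟩ h1

/-- `ρ : V → decomp 𝔪` is surjective. -/
lemma LocLink.rhoD_surjective : Function.Surjective K.rhoD := by
  intro σ
  have hnorm := normal_padicAlgCl q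
  letI a1 : Algebra ℚ_[q] (LocField S 𝔪) := P.ι₀.toAlgebra
  letI a2 : Algebra (LocField S 𝔪) (PadicAlgCl q) := P.φ.toAlgebra
  haveI : IsScalarTower ℚ_[q] (LocField S 𝔪) (PadicAlgCl q) :=
    IsScalarTower.of_algebraMap_eq (fun z => (P.φ_ι₀ z).symm)
  let ψ : LocField S 𝔪 →ₐ[ℚ_[q]] PadicAlgCl q :=
    { toRingHom := P.φ.comp ((locAut S Γ 𝔪 σ : LocField S 𝔪 ≃+* LocField S 𝔪) :
        LocField S 𝔪 →+* LocField S 𝔪)
      commutes' := by
        intro z
        change P.φ (locAut S Γ 𝔪 σ (P.ι₀ z)) = _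
        obtain ⟨y, hy⟩ := P.ι₀_mem z
        have h1 : locAut S Γ 𝔪 σ (LocField.ofQS S 𝔪 y) = LocField.ofQS S 𝔪 y := by
          change locAut S Γ 𝔪 σ (LocField.mk S 𝔪 (asIncl S ↥F y)) = _
          rw [locAut_mk, asAut_asIncl]
          rfl
        rw [hy, h1, ← hy, P.φ_ι₀] }
  let τ : PadicAlgCl q ≃ₐ[ℚ_[q]] PadicAlgCl q :=
    AlgEquiv.ofBijective (ψ.liftNormal (PadicAlgCl q))
      (AlgHom.normal_bijective ℚ_[q] (PadicAlgCl q) (PadicAlgCl q) _)
  have hτ : ∀ y : LocField S 𝔪, τ (P.φ y) = P.φ (locAut S Γ 𝔪 σ y) := by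
    intro y
    exact ψ.liftNormal_commutes (PadicAlgCl q) y
  -- the action of `g · loc τ · g⁻¹` on `F`
  have h2 : ∀ x : F, P.g (localGaloisToGlobal q τ (P.g⁻¹ (x : Qb))) =
      (((σ : Γ) • x : F) : Qb) := by
    intro x
    have e1 : padicEmbedding q (localGaloisToGlobal q τ (P.g⁻¹ (x : Qb))) =
        padicEmbedding q (P.g⁻¹ ((((σ : Γ) • x : F)) : Qb)) := by
      rw [padicEmbedding_localGaloisToGlobal, ← P.φ_toLoc, hτ, locAut_toLoc, P.φ_toLoc]
    have e2 := (padicEmbedding q).injective e1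
    rw [e2]
    exact AlgEquiv.apply_symm_apply P.g _
  obtain ⟨hV, h3⟩ := K.full τ (σ : Γ) h2
  exact ⟨⟨τ, hV⟩, Subtype.ext h3⟩

/-- Equivariance of `φU`. -/
lemma LocLink.φU_equivariant (τ : ↥V) (y : Additive (LocField S 𝔪)ˣ) :
    P.φU ((LocRep S Γ 𝔪).ρ (K.rhoD τ) y) = (lModOn q V).ρ τ (P.φU y) := by
  apply Additive.toMul.injective
  apply Units.ext
  change P.φ (locAut S Γ 𝔪 (K.rhoD τ) ((y.toMul : (LocField S 𝔪)ˣ))) =
    (τ : PadicAlgCl q ≃ₐ[ℚ_[q]] PadicAlgCl q) (P.φ ((y.toMul : (LocField S 𝔪)ˣ)))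
  exact K.φ_locAut τ _

lemma LocLink.φU_range (a : Additive (PadicAlgCl q)ˣ)
    (h : ∀ τ : ↥V, K.rhoD τ = 1 → (lModOn q V).ρ τ a = a) :
    ∃ y, P.φU y = a := by
  have h' : ∀ τ : ↥V, K.rhoD τ = 1 →
      (τ : PadicAlgCl q ≃ₐ[ℚ_[q]] PadicAlgCl q) ((a.toMul : (PadicAlgCl q)ˣ) : PadicAlgCl q) =
        ((a.toMul : (PadicAlgCl q)ˣ) : PadicAlgCl q) := by
    intro τ hτ
    have := congrArg (fun z : Additive (PadicAlgCl q)ˣ => ((z.toMul : (PadicAlgCl q)ˣ) :
      PadicAlgCl q)) (h τ hτ)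
    exact this
  obtain ⟨y₀, hy₀⟩ := K.mem_range_φ_of_fixed _ h'
  have hy₀0 : y₀ ≠ 0 := by
    rintro rfl
    rw [map_zero] at hy₀
    exact Units.ne_zero (a.toMul) hy₀.symm
  refine ⟨Additive.ofMul (Units.mk0 y₀ hy₀0), ?_⟩
  apply Additive.toMul.injective
  apply Units.ext
  exact hy₀

/-- The cochain on `V` with values in `ℚ̄_qˣ` attached to a 2-cochain of `Γ` with values in
`J_S(F)`: `(τ, τ') ↦ φ (mk (yc (ρ τ, ρ τ')))`. -/
def LocLink.evCochain (yc : Γ × Γ → Additive (AS S ↥F)ˣ) : ↥V × ↥V → lModOn q V :=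
  fun p => P.φU (jToLoc S 𝔪 (yc (K.ρ p.1, K.ρ p.2)))

/-- **Local link for `J_S`.**  If the cochain `(τ, τ') ↦ φ (mk (yc (ρ τ, ρ τ')))` is a level
coboundary on `V`, the intrinsic localisation of `[yc]` at `𝔪` vanishes. -/
theorem LocLink.locMapJ_eq_zero (yc : cocycles₂ (JRep Γ S ↥F))
    (hcob : K.evCochain (yc : Γ × Γ → Additive (AS S ↥F)ˣ) ∈
      levelCoboundaries₂ (lHom q V) (lModOn q V)) :
    (locMapJ S Γ 𝔪 2).hom ((H2π (JRep Γ S ↥F)).hom yc) = 0 := by
  -- the intrinsic local cocycle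
  set floc : cocycles₂ (LocRep S Γ 𝔪) :=
    (mapCocycles₂ (decomp S Γ 𝔪).subtype (jToLocRepHom S Γ 𝔪)).hom yc with hfloc
  have hfloc_apply : ∀ d d' : ↥(decomp S Γ 𝔪),
      (floc : ↥(decomp S Γ 𝔪) × ↥(decomp S Γ 𝔪) → _) (d, d') =
        jToLoc S 𝔪 ((yc : Γ × Γ → Additive (AS S ↥F)ˣ) ((d : Γ), (d' : Γ))) := by
    intro d d'
    rfl
  have hgoal : (locMapJ S Γ 𝔪 2).hom ((H2π (JRep Γ S ↥F)).hom yc) =
      (H2π (LocRep S Γ 𝔪)).hom floc :=
    congr($(H2π_comp_map (decomp S Γ 𝔪).subtype (jToLocRepHom S Γ 𝔪)) yc)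
  rw [hgoal, H2π_eq_zero_iff]
  -- the absolute local coboundary
  rw [mem_levelCoboundaries₂_iff] at hcob
  obtain ⟨b, hblev, hb⟩ := hcob
  have hb' : ∀ τ τ' : ↥V,
      (lModOn q V).ρ τ (b τ') - b (τ * τ') + b τ =
        P.φU ((floc : ↥(decomp S Γ 𝔪) × ↥(decomp S Γ 𝔪) → _) (K.rhoD τ, K.rhoD τ')) := by
    intro τ τ'
    have h1 := congrFun hb (τ, τ')
    rw [d₁₂_hom_apply] at h1
    rw [h1, hfloc_apply]
    rfl
  -- Hilbert 90 on `ker ρ`
  set e : (lModOn q V).V :=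
    P.φU ((floc : ↥(decomp S Γ 𝔪) × ↥(decomp S Γ 𝔪) → _) (1, 1)) with he
  have hH90 : ∃ a : (lModOn q V).V, ∀ n : ↥V, K.rhoD n = 1 →
      b n - e = (lModOn q V).ρ n a - a := by
    obtain ⟨Fb, hFbfin, hFb⟩ := hblev
    have hnQ : Normal ℚ Qb := normal_Qb
    have hgal := isGalois_padicAlgCl473 q
    let F₁ : IntermediateField ℚ Qb := IntermediateField.normalClosure ℚ ↥(F ⊔ Fb) Qb
    have hle : F ⊔ Fb ≤ F₁ := IntermediateField.le_normalClosure _
    have hF₁fin : FiniteDimensional ℚ F₁ := normalClosure.is_finiteDimensional ..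
    have hF₁norm : Normal ℚ F₁ := normalClosure.normal ..
    let E' : IntermediateField ℚ_[q] (PadicAlgCl q) := localLevel q F₁
    have hE'fin : FiniteDimensional ℚ_[q] E' := finiteDimensional_localLevel q F₁
    have hE'norm : Normal ℚ_[q] E' := normal_localLevel q F₁
    let V₀ : Subgroup (PadicAlgCl q ≃ₐ[ℚ_[q]] PadicAlgCl q) :=
      (K.rhoD.ker).map V.subtype
    have hE' : E'.fixingSubgroup ≤ V₀ := by
      intro τ hτ
      have h1 : τ ∈ (localLevel q F).fixingSubgroup :=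
        IntermediateField.fixingSubgroup_antitone
          (localLevel_mono (le_sup_left.trans hle)) hτ
      obtain ⟨hV, h2⟩ := K.rhoD_of_fixing τ h1
      exact ⟨⟨τ, hV⟩, h2, rfl⟩
    have hV₀mem : ∀ n : ↥V₀, (n : PadicAlgCl q ≃ₐ[ℚ_[q]] PadicAlgCl q) ∈ V := by
      intro n
      obtain ⟨x, -, hx⟩ := n.2
      rw [← hx]
      exact x.2
    have hV₀ker : ∀ n : ↥V₀, K.rhoD ⟨n, hV₀mem n⟩ = 1 := by
      intro n
      obtain ⟨x, hxk, hx⟩ := n.2
      have : x = ⟨n, hV₀mem n⟩ := Subtype.ext hx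
      rw [← this]
      exact hxk
    have hne : ∀ n : ↥V₀, (lModOn q V).ρ ⟨n, hV₀mem n⟩ e = e := by
      intro n
      rw [he, ← K.φU_equivariant, hV₀ker n, map_one]
      rfl
    let β : ↥V₀ → (PadicAlgCl q)ˣ := fun n =>
      Additive.toMul ((b ⟨n, hV₀mem n⟩ - e : (lModOn q V).V) :
        Additive (PadicAlgCl q)ˣ)
    have hcoc : ∀ n n' : ↥V₀, β (n * n') =
        (n : PadicAlgCl q ≃ₐ[ℚ_[q]] PadicAlgCl q) • β n' * β n := by
      intro n n'
      have h1 := hb' ⟨n, hV₀mem n⟩ ⟨n', hV₀mem n'⟩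
      rw [hV₀ker n, hV₀ker n', ← he] at h1
      apply Additive.ofMul.injective
      change b (⟨n, hV₀mem n⟩ * ⟨n', hV₀mem n'⟩) - e =
        (lModOn q V).ρ ⟨n, hV₀mem n⟩ (b ⟨n', hV₀mem n'⟩ - e) +
          (b ⟨n, hV₀mem n⟩ - e)
      rw [map_sub, hne n]
      have h2 : b (⟨n, hV₀mem n⟩ * ⟨n', hV₀mem n'⟩) =
          (lModOn q V).ρ ⟨n, hV₀mem n⟩ (b ⟨n', hV₀mem n'⟩) +
            b ⟨n, hV₀mem n⟩ - e := by
        rw [← h1]; abel
      rw [h2]; abel
    have hconst : ∀ n s : ↥V₀,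
        (s : PadicAlgCl q ≃ₐ[ℚ_[q]] PadicAlgCl q) ∈ E'.fixingSubgroup → β (n * s) = β n := by
      intro n s hs
      have h1 : localGaloisToGlobal q (s : PadicAlgCl q ≃ₐ[ℚ_[q]] PadicAlgCl q) ∈
          Fb.fixingSubgroup :=
        IntermediateField.fixingSubgroup_antitone (le_sup_right.trans hle)
          ((mem_fixingSubgroup_localLevel_iff q F₁ _).1 hs)
      have h2 := hFb ⟨n, hV₀mem n⟩ ⟨s, hV₀mem s⟩ h1
      change Additive.toMul ((b (⟨n, hV₀mem n⟩ * ⟨s, hV₀mem s⟩) - e :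
        (lModOn q V).V) : Additive (PadicAlgCl q)ˣ) = _
      rw [h2]
      rfl
    obtain ⟨a, ha⟩ := exists_hilbert90_level V₀ E' hE' β hcoc hconst
    refine ⟨(Additive.ofMul a : Additive (PadicAlgCl q)ˣ), fun n hn => ?_⟩
    have hnV₀ : (n : PadicAlgCl q ≃ₐ[ℚ_[q]] PadicAlgCl q) ∈ V₀ := ⟨n, hn, rfl⟩
    have h3 := ha ⟨n, hnV₀⟩
    apply Additive.toMul.injective
    exact h3
  obtain ⟨a, ha⟩ := hH90
  exact mem_coboundaries₂_of_infl (lModOn q V) (LocRep S Γ 𝔪) K.rhoD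
    K.rhoD_surjective P.φU P.φU_injective K.φU_equivariant K.φU_range
    floc floc.2 b hb' a ha

/-- `ρ` is trivial on the elements whose global image fixes the level `F`. -/
lemma LocLink.rhoD_eq_one_of_lHom (τ : ↥V) (hτ : lHom q V τ ∈ F.fixingSubgroup) :
    K.rhoD τ = 1 := by
  obtain ⟨_, h⟩ := K.rhoD_of_fixing (τ : PadicAlgCl q ≃ₐ[ℚ_[q]] PadicAlgCl q)
    ((mem_fixingSubgroup_localLevel_iff q F _).2 hτ)
  exact h

/-- **Local link for `J_S`, converse** (inflation of a coboundary).  If the intrinsic localisation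
of `[yc]` at `𝔪` vanishes, the cochain `(τ, τ') ↦ φ (mk (yc (ρ τ, ρ τ')))` is a level
coboundary on `V`. -/
theorem LocLink.evCochain_mem_levelCoboundaries₂ (yc : cocycles₂ (JRep Γ S ↥F))
    (h0 : (locMapJ S Γ 𝔪 2).hom ((H2π (JRep Γ S ↥F)).hom yc) = 0) :
    K.evCochain (yc : Γ × Γ → Additive (AS S ↥F)ˣ) ∈
      levelCoboundaries₂ (lHom q V) (lModOn q V) := by
  have hgoal : (locMapJ S Γ 𝔪 2).hom ((H2π (JRep Γ S ↥F)).hom yc) =
      (H2π (LocRep S Γ 𝔪)).hom
        ((mapCocycles₂ (decomp S Γ 𝔪).subtype (jToLocRepHom S Γ 𝔪)).hom yc) :=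
    congr($(H2π_comp_map (decomp S Γ 𝔪).subtype (jToLocRepHom S Γ 𝔪)) yc)
  rw [hgoal, H2π_eq_zero_iff] at h0
  obtain ⟨b₀, hb₀⟩ := h0
  obtain ⟨b, hb⟩ : ∃ b : ↥(decomp S Γ 𝔪) → Additive (LocField S 𝔪)ˣ,
      ∀ d d' : ↥(decomp S Γ 𝔪), locRepr S Γ 𝔪 d (b d') - b (d * d') + b d =
        jToLoc S 𝔪 ((yc : Γ × Γ → Additive (AS S ↥F)ˣ) ((d : Γ), (d' : Γ))) := by
    refine ⟨b₀, fun d d' => ?_⟩
    have h2 := congrFun hb₀ (d, d')
    rw [d₁₂_hom_apply] at h2
    exact h2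
  rw [mem_levelCoboundaries₂_iff]
  set β : ↥V → (lModOn q V).V := fun τ => P.φU (b (K.rhoD τ)) with hβ
  refine ⟨β, ⟨F, inferInstance, fun τ s hs => ?_⟩, ?_⟩
  · simp only [hβ, map_mul, K.rhoD_eq_one_of_lHom s hs, mul_one]
  · funext p
    obtain ⟨τ, τ'⟩ := p
    rw [d₁₂_hom_apply]
    have e1 : (lModOn q V).ρ τ (β τ') =
        (P.φU (locRepr S Γ 𝔪 (K.rhoD τ) (b (K.rhoD τ'))) : (lModOn q V).V) :=
      (K.φU_equivariant τ _).symm
    have e2 : β (τ * τ') = (P.φU (b (K.rhoD τ * K.rhoD τ')) : (lModOn q V).V) := by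
      simp only [hβ, map_mul]
    have e3 : P.φU (locRepr S Γ 𝔪 (K.rhoD τ) (b (K.rhoD τ'))) -
        P.φU (b (K.rhoD τ * K.rhoD τ')) + P.φU (b (K.rhoD τ)) =
        P.φU (locRepr S Γ 𝔪 (K.rhoD τ) (b (K.rhoD τ')) - b (K.rhoD τ * K.rhoD τ') +
          b (K.rhoD τ)) := by
      rw [map_add, map_sub]
    change (lModOn q V).ρ τ (β τ') - β (τ * τ') + β τ = _
    rw [e1, e2]
    exact e3.trans (congrArg P.φU (hb (K.rhoD τ) (K.rhoD τ')))

end Claims

end Fermat.Agent.S55.G.Rec.TOW.H894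

end
end
-- ===== PACK-END S55/G/Rec/Tow/H894/LocLink.lean

-- ===== PACK-BEGIN S55/Inv/GO4/Spec.lean
section




/-!
# S55 / `InvSpec` / GO4: the DICTIONARY `K.AR.CokerTower → Inv.CokerESpec`, FROZEN INTERFACE
(sub-architect helper3; blueprint with proofs: `coord/S55-INV-GO4.md`)

    K.AR.CokerTower S p  ──(GO4-SHAP)──▶  FLCokerSpec p S ─┐
                                                            ├─(GO4-ASM, helper3)─▶ Inv.CokerESpec p S
    K.AR.DecUnbounded S p ──(GO4-LD)──▶  LocDescSpec p S  ─┘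
                                                  (then `Inv.H99.globCoker_of_cokerE` ⇒ INV-COK)

* `FLCokerSpec p S` (finite level, INDUCED form; finite groups and Mathlib `groupCohomology` only):
  for levels `K₀ ≤ L` and two families `t, t'` of `p`-torsion classes in
  `H²(Dec_q(L), (Gal(K₀/ℚ) →₀ L_qˣ))`, `q ∈ S`, there are `(a, b) ≢ (0, 0) mod p`, `L' ≥ L` and a
  `p`-torsion class `e ∈ H²(Gal(L'/ℚ), (Gal(K₀/ℚ) →₀ E_S(L')))` whose localisation at every `q`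
  is the inflation of `a t_q + b t'_q`.
* `LocDescSpec p S` (local descent to the `S`-tower): every level-constant 2-cocycle of `G_q` with
  values in `Ind_{K₀.U} ℚ̄_qˣ` whose class is killed by `p` is cohomologous to `locM τ` for a
  2-cocycle `τ` of some `Dec_q(L)`, `L ≥ K₀` an `S`-LEVEL, with values in `(Gal(K₀/ℚ) →₀ L_qˣ)`,
  of class killed by `p`.  (The local level system consists of ALL number fields; the point is
  that the `p`-torsion of `Br` of a local field is split by the `S`-ramified extensions, since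
  `p ∈ S`: their local degrees have unbounded `p`-part.)

Leaves (producers prove `theorem … : XxxLeaf p S` in `Fermat/Agent/S55/Inv/GO4/<Leaf>H<seat>.lean`,
namespace `Fermat.Agent.S55.Inv.GO4.H<seat>`):
  `ShapLeaf`   (GO4-SHAP)  finite Shapiro (`T.All.shapiroRecognition`) + functoriality;
  `LocDescLeaf` (GO4-LD)   KC layer (`KC.IsWCF` for `indR W ℚ̄_qˣ`, `QInf`) + orbit decomposition.
-/

set_option autoImplicit false

noncomputable section

namespace Fermat.Agent.S55.Inv.GO4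

open Fermat.Agent.S55 Fermat.Agent.S55.Tow Fermat.Agent.S55.E1.Lim groupCohomology
open Fermat.Agent.S55.PT

variable (p : ℕ) (S : Finset Nat.Primes)

/-- **GO4, finite level, induced form.** -/
def FLCokerSpec : Prop :=
  ∀ (K₀ L : Level S) (h : K₀ ≤ L) (t t' : ∀ q : S, groupCohomology (semiLoc h q.1) 2),
    (∀ q : S, p • t q = 0) → (∀ q : S, p • t' q = 0) →
    ∃ a b : ℕ, (¬ p ∣ a ∨ ¬ p ∣ b) ∧
      ∃ (L' : Level S) (h' : L ≤ L') (e : groupCohomology (indF (h.trans h') (sUnits L')) 2),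
        p • e = 0 ∧
        ∀ q : S, locH2 (h.trans h') q.1 e = inflLoc h q.1 h' (a • t q + b • t' q)

/-- **Local descent to the `S`-tower.** -/
def LocDescSpec : Prop :=
  ∀ (K₀ : Level S) (q : S)
    (X : Gl q.1 × Gl q.1 → K.ind (rl q.1) K₀.U (Tow.unitsQpbar q.1)),
    X ∈ (localLevels q.1).Z2 (K.ind (rl q.1) K₀.U (Tow.unitsQpbar q.1)) →
    p • X ∈ (localLevels q.1).B2 (K.ind (rl q.1) K₀.U (Tow.unitsQpbar q.1)) →
    ∃ (L : Level S) (h : K₀ ≤ L) (τ : L.Dec q.1 × L.Dec q.1 → (semiLoc h q.1).V),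
      τ ∈ cocycles₂ (semiLoc h q.1) ∧ p • τ ∈ coboundaries₂ (semiLoc h q.1) ∧
      X - locM h q.1 τ ∈ (localLevels q.1).B2 (K.ind (rl q.1) K₀.U (Tow.unitsQpbar q.1))

/-- leaf **GO4-SHAP**: tower form (subgroups, `J = ∏ Coind`) ⇒ induced form. -/
def ShapLeaf : Prop := K.AR.CokerTower S p → FLCokerSpec p S

/-- leaf **GO4-LD**: local descent, from the unboundedness of the local `p`-degrees in the
`S`-tower (`K.AR.DecUnbounded`, leaf AR-DEG) and the closed local theory (layers KC, L). -/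
def LocDescLeaf : Prop := p.Prime → K.AR.DecUnbounded S p → LocDescSpec p S

/-- **GO4-ASM** (helper3, `Inv/GO4/Asm.lean`): the assembly, exact type. -/
def AsmSpec : Prop :=
  ∀ [Fact p.Prime], FLCokerSpec p S → LocDescSpec p S → Inv.CokerESpec p S

end Fermat.Agent.S55.Inv.GO4

end

end
-- ===== PACK-END S55/Inv/GO4/Spec.lean

-- ===== PACK-BEGIN S55/Inv/GO4/Asm.lean
section




/-!
# S55 / GO4 dictionary: the ASSEMBLY (helper3)

`go4_of : FLCokerSpec p S → LocDescSpec p S → Inv.H99.GO4Spec p S`, hence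
`globCoker_of_fl : p ≠ 2 → pPrime p ∈ S → FLCokerSpec p S → LocDescSpec p S → Inv.GlobCokerSpec p S`
and, with the two leaves,
`globCoker_of_tower : … → ShapLeaf p S → LocDescLeaf p S → K.AR.CokerTower S p →
   K.AR.DecUnbounded S p → Inv.GlobCokerSpec p S`.
-/

set_option autoImplicit false
set_option maxHeartbeats 400000
set_option linter.unusedSectionVars false

noncomputable section

namespace Fermat.Agent.S55.Inv.GO4

open Fermat.Agent.S55 Fermat.Agent.S55.Tow Fermat.Agent.S55.E1.Lim groupCohomology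
open Fermat.Agent.S55.PT CategoryTheory

variable {S : Finset Nat.Primes}

/-! ## 1. The levels are directed -/

/-- the compositum of two levels -/
def lSup (L L' : Level S) : Level S where
  F := L.F ⊔ L'.F
  unram := L.unram.sup L'.unram
  normalU := by
    rw [IntermediateField.fixingSubgroup_sup]
    haveI := L.normalU
    haveI := L'.normalU
    exact Subgroup.normal_inf_normal _ _

lemma le_lSup_left (L L' : Level S) : L ≤ lSup L L' :=
  show L.F ≤ L.F ⊔ L'.F from le_sup_left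

lemma le_lSup_right (L L' : Level S) : L' ≤ lSup L L' :=
  show L'.F ≤ L.F ⊔ L'.F from le_sup_right

lemma exists_level_ge {ι : Type} [Finite ι] (f : ι → Level S) (L₀ : Level S) :
    ∃ L : Level S, L₀ ≤ L ∧ ∀ i, f i ≤ L := by
  haveI : Nonempty (Level S) := ⟨L₀⟩
  haveI : IsDirectedOrder (Level S) :=
    ⟨fun a a' => ⟨lSup a a', le_lSup_left a a', le_lSup_right a a'⟩⟩
  obtain ⟨M, hM⟩ := Finite.exists_le f
  exact ⟨lSup L₀ M, le_lSup_left L₀ M, fun i => (hM i).trans (le_lSup_right L₀ M)⟩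

/-! ## 2. Classes and cocycles -/

section Coh

variable {G H : Type} [Group G] [Group H] {A : Rep.{0} ℤ H} {B : Rep.{0} ℤ G}
  (f : G →* H) (φ : Rep.res f A ⟶ B)

lemma map_H2π (x : cocycles₂ A) :
    (groupCohomology.map f φ 2).hom (H2π A x) = H2π B (mapCocycles₂ f φ x) :=
  H2π_comp_map_apply f φ x

lemma mapCocycles₂_fun (x : cocycles₂ A) :
    (⇑(mapCocycles₂ f φ x) : G × G → B) = fun g => φ.hom (x (f g.1, f g.2)) := rfl

lemma exists_H2π (e : groupCohomology A 2) : ∃ ε : cocycles₂ A, H2π A ε = e :=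
  H2_induction_on (C := fun e => ∃ ε : cocycles₂ A, H2π A ε = e) e (fun ε => ⟨ε, rfl⟩)

lemma nsmul_mem_coboundaries₂_of (n : ℕ) (x : cocycles₂ A) (h : n • H2π A x = 0) :
    n • (⇑x : H × H → A) ∈ coboundaries₂ A := by
  rw [← map_nsmul] at h
  exact (H2π_eq_zero_iff (n • x)).1 h

lemma nsmul_H2π_eq_zero (n : ℕ) (x : cocycles₂ A)
    (h : n • (⇑x : H × H → A) ∈ coboundaries₂ A) : n • H2π A x = 0 := by
  rw [← map_nsmul]
  exact (H2π_eq_zero_iff (n • x)).2 h

end Coh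

/-! ## 3. The assembly -/

lemma comb_eq {M : Type} [AddCommGroup M] (a b : ℕ) (x x' y t t' : M) :
    (a : ℤ) • x + (b : ℤ) • x' - y =
      (a : ℤ) • (x - t) + (b : ℤ) • (x' - t') - (y - (a • t + b • t')) := by
  rw [smul_sub, smul_sub, natCast_zsmul t a, natCast_zsmul t' b]
  abel

theorem go4_core (p : ℕ) (S : Finset Nat.Primes)
    (hFL : FLCokerSpec p S) (hLD : LocDescSpec p S) (K₀ : Level S)
    (X X' : ∀ v : ↥S, Gl v.1 × Gl v.1 → BLoc K₀ v.1)
    (hX : ∀ v : ↥S, X v ∈ (localLevels v.1).Z2 (BLoc K₀ v.1) ∧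
      p • X v ∈ (localLevels v.1).B2 (BLoc K₀ v.1))
    (hX' : ∀ v : ↥S, X' v ∈ (localLevels v.1).Z2 (BLoc K₀ v.1) ∧
      p • X' v ∈ (localLevels v.1).B2 (BLoc K₀ v.1)) :
    ∃ a b : ℤ, ¬ ((p : ℤ) ∣ a ∧ (p : ℤ) ∣ b) ∧
      ∃ y : Tow.GQ × Tow.GQ → EGlob K₀, y ∈ (globalLevels S).Z2 (EGlob K₀) ∧
        p • y ∈ (globalLevels S).B2 (EGlob K₀) ∧
        ∀ v : ↥S, (a • X v + b • X' v -
          (fun x : Gl v.1 × Gl v.1 => (K.indLocE v.1 S K₀.U).toAddMonoidHom
            (y (rl v.1 x.1, rl v.1 x.2)))) ∈ (localLevels v.1).B2 (BLoc K₀ v.1) := by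
  -- local descent
  choose L₁ h₁ τ₁ hc₁ hp₁ hX₁ using fun v : ↥S => hLD K₀ v (X v) (hX v).1 (hX v).2
  choose L₂ h₂ τ₂ hc₂ hp₂ hX₂ using fun v : ↥S => hLD K₀ v (X' v) (hX' v).1 (hX' v).2
  obtain ⟨L, hK, hL⟩ := exists_level_ge (fun i : ↥S ⊕ ↥S => Sum.elim L₁ L₂ i) K₀
  have hL₁ : ∀ v, L₁ v ≤ L := fun v => hL (Sum.inl v)
  have hL₂ : ∀ v, L₂ v ≤ L := fun v => hL (Sum.inr v)
  -- the cocycles inflated to `L`
  let c₁ : ∀ v : ↥S, cocycles₂ (semiLoc hK v.1) := fun v =>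
    mapCocycles₂ (Level.projDec (hL₁ v) v.1) (semiLocTr (h₁ v) v.1 (hL₁ v)) ⟨τ₁ v, hc₁ v⟩
  let c₂ : ∀ v : ↥S, cocycles₂ (semiLoc hK v.1) := fun v =>
    mapCocycles₂ (Level.projDec (hL₂ v) v.1) (semiLocTr (h₂ v) v.1 (hL₂ v)) ⟨τ₂ v, hc₂ v⟩
  have hc₁t : ∀ v : ↥S, p • H2π (semiLoc hK v.1) (c₁ v) = 0 := fun v => by
    have h0 : p • H2π (semiLoc (h₁ v) v.1) ⟨τ₁ v, hc₁ v⟩ = 0 :=
      nsmul_H2π_eq_zero p ⟨τ₁ v, hc₁ v⟩ (hp₁ v)
    have h1 := map_H2π (Level.projDec (hL₁ v) v.1) (semiLocTr (h₁ v) v.1 (hL₁ v))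
      ⟨τ₁ v, hc₁ v⟩
    show p • H2π (semiLoc ((h₁ v).trans (hL₁ v)) v.1)
      (mapCocycles₂ (Level.projDec (hL₁ v) v.1) (semiLocTr (h₁ v) v.1 (hL₁ v))
        ⟨τ₁ v, hc₁ v⟩) = 0
    rw [← h1, ← map_nsmul, h0, map_zero]
  have hc₂t : ∀ v : ↥S, p • H2π (semiLoc hK v.1) (c₂ v) = 0 := fun v => by
    have h0 : p • H2π (semiLoc (h₂ v) v.1) ⟨τ₂ v, hc₂ v⟩ = 0 :=
      nsmul_H2π_eq_zero p ⟨τ₂ v, hc₂ v⟩ (hp₂ v)
    have h1 := map_H2π (Level.projDec (hL₂ v) v.1) (semiLocTr (h₂ v) v.1 (hL₂ v))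
      ⟨τ₂ v, hc₂ v⟩
    show p • H2π (semiLoc ((h₂ v).trans (hL₂ v)) v.1)
      (mapCocycles₂ (Level.projDec (hL₂ v) v.1) (semiLocTr (h₂ v) v.1 (hL₂ v))
        ⟨τ₂ v, hc₂ v⟩) = 0
    rw [← h1, ← map_nsmul, h0, map_zero]
  -- the finite-level statement
  obtain ⟨a, b, hab, L', h', e, hpe, hloc⟩ :=
    hFL K₀ L hK (fun v => H2π (semiLoc hK v.1) (c₁ v)) (fun v => H2π (semiLoc hK v.1) (c₂ v))
      hc₁t hc₂t
  obtain ⟨ε, rfl⟩ := exists_H2π e
  have hεp : p • (⇑ε : L'.Gal × L'.Gal → (indF (hK.trans h') (sUnits L')).V) ∈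
      coboundaries₂ (indF (hK.trans h') (sUnits L')) := nsmul_mem_coboundaries₂_of p ε hpe
  have hyZ : infE (hK.trans h') ⇑ε ∈ (globalLevels S).Z2 (EGlob K₀) :=
    infE_mem_Z2 (hK.trans h') ε.2
  have hyB : p • infE (hK.trans h') ⇑ε ∈ (globalLevels S).B2 (EGlob K₀) := by
    rw [← infE_nsmul]
    exact infE_mem_B2 (hK.trans h') hεp
  have hab' : ¬ ((p : ℤ) ∣ (a : ℤ) ∧ (p : ℤ) ∣ (b : ℤ)) := by
    rintro ⟨ha, hb⟩
    rcases hab with h | h
    · exact h (Int.natCast_dvd_natCast.1 ha)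
    · exact h (Int.natCast_dvd_natCast.1 hb)
  have hyloc : ∀ v : ↥S, (a : ℤ) • X v + (b : ℤ) • X' v -
      (fun x : Gl v.1 × Gl v.1 => (K.indLocE v.1 S K₀.U).toAddMonoidHom
        (infE (hK.trans h') ⇑ε (rl v.1 x.1, rl v.1 x.2))) ∈
      (localLevels v.1).B2 (BLoc K₀ v.1) := by
    intro v
    -- localisation at `v`
    have e1 : (fun x : Gl v.1 × Gl v.1 => (K.indLocE v.1 S K₀.U).toAddMonoidHom
        (infE (hK.trans h') ⇑ε (rl v.1 x.1, rl v.1 x.2))) =
        locM (hK.trans h') v.1 (fun d : L'.Dec v.1 × L'.Dec v.1 =>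
          (locF (hK.trans h') v.1).hom (ε (L'.decHom v.1 d.1, L'.decHom v.1 d.2))) :=
      indLocE_infE (hK.trans h') v.1 ⇑ε
    have e2 : H2π (semiLoc (hK.trans h') v.1)
          (mapCocycles₂ (L'.decHom v.1) (locF (hK.trans h') v.1) ε) =
        H2π (semiLoc (hK.trans h') v.1)
          (mapCocycles₂ (Level.projDec h' v.1) (semiLocTr hK v.1 h')
            (a • c₁ v + b • c₂ v)) := by
      rw [← map_H2π, ← map_H2π, map_add, map_nsmul, map_nsmul]
      exact hloc v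
    have e3 := locM_mem_B2 (hK.trans h') v.1 ((H2π_eq_iff _ _).1 e2)
    rw [locM_sub, mapCocycles₂_fun, mapCocycles₂_fun] at e3
    have s2 : (⇑(a • c₁ v + b • c₂ v) : L.Dec v.1 × L.Dec v.1 → (semiLoc hK v.1).V) =
        a • ⇑(c₁ v) + b • ⇑(c₂ v) := rfl
    have s3 : locM hK v.1 ⇑(c₁ v) = locM (h₁ v) v.1 (τ₁ v) := by
      have := mapCocycles₂_fun (Level.projDec (hL₁ v) v.1) (semiLocTr (h₁ v) v.1 (hL₁ v))
        ⟨τ₁ v, hc₁ v⟩
      show locM hK v.1 ⇑(mapCocycles₂ (Level.projDec (hL₁ v) v.1)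
        (semiLocTr (h₁ v) v.1 (hL₁ v)) ⟨τ₁ v, hc₁ v⟩) = _
      rw [this]
      exact locM_infl (h₁ v) v.1 (hL₁ v) (τ₁ v)
    have s4 : locM hK v.1 ⇑(c₂ v) = locM (h₂ v) v.1 (τ₂ v) := by
      have := mapCocycles₂_fun (Level.projDec (hL₂ v) v.1) (semiLocTr (h₂ v) v.1 (hL₂ v))
        ⟨τ₂ v, hc₂ v⟩
      show locM hK v.1 ⇑(mapCocycles₂ (Level.projDec (hL₂ v) v.1)
        (semiLocTr (h₂ v) v.1 (hL₂ v)) ⟨τ₂ v, hc₂ v⟩) = _
      rw [this]
      exact locM_infl (h₂ v) v.1 (hL₂ v) (τ₂ v)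
    rw [locM_infl hK v.1 h' ⇑(a • c₁ v + b • c₂ v), s2, locM_add, locM_nsmul, locM_nsmul, s3, s4,
      ← e1] at e3
    -- combine
    have f1 := ((localLevels v.1).B2 (BLoc K₀ v.1)).smul_mem (a : ℤ) (hX₁ v)
    have f2 := ((localLevels v.1).B2 (BLoc K₀ v.1)).smul_mem (b : ℤ) (hX₂ v)
    have f3 := ((localLevels v.1).B2 (BLoc K₀ v.1)).sub_mem
      (((localLevels v.1).B2 (BLoc K₀ v.1)).add_mem f1 f2) e3
    rw [comb_eq a b (X v) (X' v) _ (locM (h₁ v) v.1 (τ₁ v)) (locM (h₂ v) v.1 (τ₂ v))]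
    exact f3
  have hy : ∃ y : Tow.GQ × Tow.GQ → EGlob K₀, y = infE (hK.trans h') ⇑ε := ⟨_, rfl⟩
  obtain ⟨y, hy⟩ := hy
  rw [← hy] at hyZ hyB hyloc
  exact ⟨(a : ℤ), (b : ℤ), hab', y, hyZ, hyB, hyloc⟩

/-- **GO4 from the finite-level statements.** -/
theorem go4_of (p : ℕ) [Fact p.Prime] (S : Finset Nat.Primes)
    (hFL : FLCokerSpec p S) (hLD : LocDescSpec p S) : Inv.H99.GO4Spec p S := by
  intro _hp2 _hpS U hU hUn _hμ X X' hX hX'
  obtain ⟨F, hF, rfl⟩ := hU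
  exact go4_core p S hFL hLD ⟨F, hF, hUn⟩ X X' hX hX'

/-- **INV-COK from the finite-level statements.** -/
theorem globCoker_of_fl (p : ℕ) [Fact p.Prime] (S : Finset Nat.Primes) (hp2 : p ≠ 2)
    (hpS : ExtCitation.pPrime p ∈ S) (hFL : FLCokerSpec p S) (hLD : LocDescSpec p S) :
    Inv.GlobCokerSpec p S :=
  Inv.H99.globCoker_of_GO4 p S hp2 hpS (go4_of p S hFL hLD)

/-- **INV-COK from the tower** (modulo the two leaves GO4-SHAP, GO4-LD). -/
theorem globCoker_of_tower (p : ℕ) [Fact p.Prime] (S : Finset Nat.Primes) (hp2 : p ≠ 2)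
    (hpS : ExtCitation.pPrime p ∈ S) (hShap : ShapLeaf p S) (hLDL : LocDescLeaf p S)
    (hCok : K.AR.CokerTower S p) (hDeg : K.AR.DecUnbounded S p) :
    Inv.GlobCokerSpec p S :=
  globCoker_of_fl p S hp2 hpS (hShap hCok) (hLDL (Fact.out : p.Prime) hDeg)

end Fermat.Agent.S55.Inv.GO4

end

end
-- ===== PACK-END S55/Inv/GO4/Asm.lean

-- ===== PACK-BEGIN S55/Inv/GO4/ShapH593.lean
section





/-!
# S55 / `InvSpec` / GO4-SHAP : `shapLeaf : ShapLeaf p S`  (helper593)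

`K.AR.CokerTower S p → FLCokerSpec p S`  (finite Shapiro, `coord/S55-INV-GO4.md` §2).

For levels `K₀ ≤ L` (`h`), `Q = Gal(K₀/ℚ)`, `H = Gal(L/K₀) = ker (proj h)`:

* `alpha h H hH X n : Hⁿ(Gal(L/ℚ), (Q →₀ X)) → Hⁿ(H, X)` (restriction + coefficient at `1 ∈ Q`),
  bijective (`alpha_bijective`), natural in `X` (`alpha_coe`) and in the level (`alpha_infl`);
* `beta h q n : Hⁿ(Gal(L/ℚ), (Q →₀ J_q(L))) → Hⁿ(Dec_q(L), (Q →₀ L_qˣ))` (restriction along
  `decHom` + coefficientwise evaluation at `1`), bijective (`beta_bijective`), compatible with the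
  localisation (`beta_diag`) and the inflations (`beta_infl`).
-/

set_option autoImplicit false
set_option linter.unusedSectionVars false
set_option linter.style.haveILetI false

open CategoryTheory groupCohomology

noncomputable section

namespace Fermat.Agent.S55.Inv.GO4.H593

open Fermat.Agent.S55 Fermat.Agent.S55.Tow Fermat.Agent.S55.E1.Lim Fermat.Agent.S55.Inv.GO4
open Fermat.Agent.S55.K.AR

attribute [local instance 10000] Rep.hV2

variable {S : Finset Nat.Primes}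

section Tower

variable {K₀ L : Level S} (h : K₀ ≤ L)

lemma proj_surjective : Function.Surjective (Level.proj h) := by
  intro g
  induction g using QuotientGroup.induction_on with
  | H g => exact ⟨QuotientGroup.mk g, rfl⟩

/-- `H` is the kernel of `Gal(L/ℚ) → Gal(K₀/ℚ)`. -/
def IsKer (H : Subgroup L.Gal) : Prop := ∀ g, g ∈ H ↔ Level.proj h g = 1

lemma isKer_relGal : IsKer h (Level.relGal h) := fun _ => MonoidHom.mem_ker

lemma isKer_up {L' : Level S} (h' : L ≤ L') {H : Subgroup L.Gal} (hH : IsKer h H) :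
    IsKer (h.trans h') (up h' H) := fun g => by
  rw [← proj_proj h h' g, ← hH]
  exact Subgroup.mem_comap

/-! ### `α` -/

/-- coefficient at `1 ∈ Gal(K₀/ℚ)` -/
def alphaC (H : Subgroup L.Gal) (hH : IsKer h H) (X : Rep.{0} ℤ L.Gal) :
    Rep.res H.subtype (indF h X) ⟶ T.resSub X H :=
  ev1Q (Level.proj h) H (fun g hg => (hH g).1 hg) X

/-- `α_X : Hⁿ(Gal(L/ℚ), (Q →₀ X)) → Hⁿ(H, X)`. -/
def alpha (H : Subgroup L.Gal) (hH : IsKer h H) (X : Rep.{0} ℤ L.Gal) (n : ℕ) :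
    groupCohomology (indF h X) n →ₗ[ℤ] Hn H X n :=
  (groupCohomology.map H.subtype (alphaC h H hH X) n).hom

theorem alpha_bijective (H : Subgroup L.Gal) (hH : IsKer h H) (X : Rep.{0} ℤ L.Gal) (n : ℕ) :
    Function.Bijective (alpha h H hH X n) :=
  ev1Q_bijective (Level.proj h) (proj_surjective h) H hH X n

/-- `α` is natural in the coefficients. -/
theorem alpha_coe (H : Subgroup L.Gal) (hH : IsKer h H) {X Y : Rep.{0} ℤ L.Gal} (f : X ⟶ Y)
    (n : ℕ) (x : groupCohomology (indF h X) n) :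
    alpha h H hH Y n ((T.coeffMap (indFMap h f) n).hom x) = coe H f n (alpha h H hH X n x) :=
  H998.map_map_eq (A := indF h X) (B := indF h Y) (B' := T.resSub X H) (C := T.resSub Y H)
    (MonoidHom.id L.Gal) H.subtype H.subtype (MonoidHom.id ↥H)
    (indFMap h f) (alphaC h H hH Y) (alphaC h H hH X) ((Rep.resFunctor H.subtype).map f)
    (fun _ => rfl) (fun _ => rfl) n x

/-- `α` commutes with inflation. -/
theorem alpha_infl {L' : Level S} (h' : L ≤ L') (H : Subgroup L.Gal) (hH : IsKer h H)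
    {X : Rep.{0} ℤ L.Gal} {X' : Rep.{0} ℤ L'.Gal} (t : Rep.res (Level.proj h') X ⟶ X')
    (n : ℕ) (x : groupCohomology (indF h X) n) :
    alpha (h.trans h') (up h' H) (isKer_up h h' hH) X' n
        ((groupCohomology.map (Level.proj h') (indFTr h h' t) n).hom x) =
      infUp h' H t n (alpha h H hH X n x) :=
  H998.map_map_eq (A := indF h X) (B := indF (h.trans h') X') (B' := T.resSub X H)
    (C := T.resSub X' (up h' H))
    (Level.proj h') (up h' H).subtype H.subtype (projSub (Level.proj h') H)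
    (indFTr h h' t) (alphaC (h.trans h') (up h' H) (isKer_up h h' hH) X') (alphaC h H hH X)
    (semiSub (Level.proj h') H t)
    (fun _ => rfl) (fun _ => rfl) n x

/-! ### `β` -/

/-- coefficientwise evaluation at `1 ∈ Gal(L/ℚ)` -/
def betaC (q : Nat.Primes) : Rep.res (L.decHom q) (indF h (L.J q)) ⟶ semiLoc h q :=
  evC (Level.proj h) (L.decHom q) (L.locUnits q)

/-- `β_q : Hⁿ(Gal(L/ℚ), (Q →₀ J_q(L))) → Hⁿ(Dec_q(L), (Q →₀ L_qˣ))`. -/
def beta (q : Nat.Primes) (n : ℕ) :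
    groupCohomology (indF h (L.J q)) n →ₗ[ℤ] groupCohomology (semiLoc h q) n :=
  (groupCohomology.map (L.decHom q) (betaC h q) n).hom

theorem beta_bijective (q : Nat.Primes) (n : ℕ) : Function.Bijective (beta h q n) :=
  evC_bijective (Level.proj h) (L.decHom q) (L.decHom_injective q) (L.locUnits q) n

/-- `β ∘ (Ind (diag_q ∘ incl))_* = loc_q`. -/
theorem beta_diag (q : Nat.Primes) (e : groupCohomology (indF h (sUnits L)) 2) :
    beta h q 2 ((T.coeffMap (indFMap h (sIncl L ≫ L.diag q)) 2).hom e) = locH2 h q e :=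
  H998.map_comp_apply (X := indF h (sUnits L)) (X' := indF h (L.J q)) (X'' := semiLoc h q)
    (MonoidHom.id L.Gal) (L.decHom q) (L.decHom q)
    (indFMap h (sIncl L ≫ L.diag q)) (betaC h q) (locF h q) (fun _ => rfl)
    (fun x => by
      apply dInd_ext
      intro y
      show L.embFun q ((sIncl L).hom (toFs _ _ x y)) =
        L.embFun q (L.units.ρ 1 ((sIncl L).hom (toFs _ _ x y)))
      rw [map_one]
      rfl) 2 e

/-- `β` commutes with inflation. -/
theorem beta_infl {L' : Level S} (h' : L ≤ L') (q : Nat.Primes)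
    (z : groupCohomology (indF h (L.J q)) 2) :
    beta (h.trans h') q 2
        ((groupCohomology.map (Level.proj h') (indFTr h h' (Level.trJ h' q)) 2).hom z) =
      inflLoc h q h' (beta h q 2 z) :=
  H998.map_map_eq (A := indF h (L.J q)) (B := indF (h.trans h') (L'.J q))
    (B' := semiLoc h q) (C := semiLoc (h.trans h') q)
    (Level.proj h') (L'.decHom q) (L.decHom q) (Level.projDec h' q)
    (indFTr h h' (Level.trJ h' q)) (betaC (h.trans h') q) (betaC h q) (semiLocTr h q h')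
    (fun d => Level.proj_decHom h' q d)
    (fun a => by
      apply dInd_ext
      intro y
      show Level.inclLoc h' q (L.Jeval q (toFs _ _ a y) (Level.proj h' 1)) =
        Level.inclLoc h' q (L.Jeval q (toFs _ _ a y) 1)
      rw [map_one]) 2 z

end Tower


/-! ### The product `J = ∏_q J_q` -/

section Prod

variable {L : Level S} (H : Subgroup L.Gal)

/-- the projection `J(L) ⟶ J_q(L)` -/
def pj (L : Level S) (q : S) : Jtot L ⟶ L.J q.1 := piProj (fun q : S => L.J q.1) q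

lemma pj_apply (L : Level S) (q : S) (x : (Jtot L).V) : (pj L q).hom x = piTo x q := rfl

/-- `H²(H, J(L)) → ∏_q H²(H, J_q(L))` is bijective. -/
theorem prod_bijective (n : ℕ) :
    Function.Bijective (fun (x : Hn H (Jtot L) n) (q : S) => coe H (pj L q) n x) :=
  T.H635.finiteProd ℤ ↥H S (fun q : S => T.resSub (L.J q.1) H) (T.resSub (Jtot L) H)
    (fun q => (Rep.resFunctor H.subtype).map (pj L q))
    Function.bijective_id n

/-- `coe` is functorial. -/
theorem coe_comp_apply {A B C : Rep.{0} ℤ L.Gal} (f : A ⟶ B) (g : B ⟶ C) (n : ℕ)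
    (x : Hn H A n) : coe H g n (coe H f n x) = coe H (f ≫ g) n x :=
  H998.map_comp_apply (X := T.resSub A H) (X' := T.resSub B H) (X'' := T.resSub C H)
    (MonoidHom.id ↥H) (MonoidHom.id ↥H) (MonoidHom.id ↥H)
    ((Rep.resFunctor H.subtype).map f) ((Rep.resFunctor H.subtype).map g)
    ((Rep.resFunctor H.subtype).map (f ≫ g)) (fun _ => rfl) (fun _ => rfl) n x

end Prod

/-! ### The leaf -/

/-- **GO4-SHAP.** -/
theorem shapLeaf (p : ℕ) (S : Finset Nat.Primes) : ShapLeaf p S := by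
  intro hCT K₀ L h t t' ht ht'
  have hH : IsKer h (Level.relGal h) := isKer_relGal h
  -- preimages under `β`
  have hβ := fun q : S => beta_bijective h q.1 2
  choose u hu using fun q : S => (hβ q).2 (t q)
  choose u' hu' using fun q : S => (hβ q).2 (t' q)
  have hpu : ∀ q : S, p • u q = 0 := fun q =>
    (hβ q).1 (by rw [map_nsmul, hu, ht, map_zero])
  have hpu' : ∀ q : S, p • u' q = 0 := fun q =>
    (hβ q).1 (by rw [map_nsmul, hu', ht', map_zero])
  -- the classes `x_q`, `x'_q` and their products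
  have hprod := prod_bijective (Level.relGal h) 2
  obtain ⟨x, hx⟩ := hprod.2 (fun q : S => alpha h _ hH (L.J q.1) 2 (u q))
  obtain ⟨x', hx'⟩ := hprod.2 (fun q : S => alpha h _ hH (L.J q.1) 2 (u' q))
  have hxq : ∀ q : S, coe (Level.relGal h) (pj L q) 2 x =
      alpha h _ hH (L.J q.1) 2 (u q) := fun q => congrFun hx q
  have hxq' : ∀ q : S, coe (Level.relGal h) (pj L q) 2 x' =
      alpha h _ hH (L.J q.1) 2 (u' q) := fun q => congrFun hx' q
  have hpx : p • x = 0 := by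
    apply hprod.1
    funext q
    show coe (Level.relGal h) (pj L q) 2 (p • x) =
      coe (Level.relGal h) (pj L q) 2 0
    rw [map_nsmul, hxq, ← map_nsmul, hpu, map_zero, map_zero]
  have hpx' : p • x' = 0 := by
    apply hprod.1
    funext q
    show coe (Level.relGal h) (pj L q) 2 (p • x') =
      coe (Level.relGal h) (pj L q) 2 0
    rw [map_nsmul, hxq', ← map_nsmul, hpu', map_zero, map_zero]
  -- the tower statement
  obtain ⟨a, b, hab, L', h', y, hy, hyx⟩ := hCT L (Level.relGal h) x x' hpx hpx'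
  have hH' : IsKer (h.trans h') (up h' (Level.relGal h)) := isKer_up h h' hH
  have hα' := alpha_bijective (h.trans h') _ hH' (sUnits L') 2
  obtain ⟨e, he⟩ := hα'.2 y
  refine ⟨a, b, hab, L', h', e, hα'.1 (by rw [map_nsmul, he, hy, map_zero]), fun q => ?_⟩
  have hαJ := alpha_bijective (h.trans h') _ hH' (L'.J q.1) 2
  have h1 : (T.coeffMap (indFMap (h.trans h') (sIncl L' ≫ L'.diag q.1)) 2).hom e =
      (groupCohomology.map (Level.proj h') (indFTr h h' (Level.trJ h' q.1)) 2).hom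
        (a • u q + b • u' q) := by
    apply hαJ.1
    rw [alpha_coe, he, alpha_infl h h' _ hH]
    have h2 : coe (up h' (Level.relGal h)) (sIncl L' ≫ L'.diag q.1) 2 y =
        coe (up h' (Level.relGal h)) (pj L' q) 2
          (coe (up h' (Level.relGal h)) (diagTot L') 2 y) :=
      (coe_comp_apply (up h' (Level.relGal h)) (diagTot L')
        (pj L' q) 2 y).symm
    rw [h2, hyx, H998.coe_infUp h' (Level.relGal h) (pj L q)
      (pj L' q) (trJtot h') (Level.trJ h' q.1) (fun _ => rfl) 2]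
    congr 1
    rw [map_add, map_nsmul, map_nsmul, map_add, map_nsmul, map_nsmul, hxq, hxq']
  rw [← beta_diag, h1, beta_infl, map_add, map_nsmul, map_nsmul, hu, hu']

end Fermat.Agent.S55.Inv.GO4.H593

end

end
-- ===== PACK-END S55/Inv/GO4/ShapH593.lean

-- ===== PACK-BEGIN S55/Inv/GO4/H978/Descent.lean
section



/-!
# S55 / `InvSpec` / GO4-LD, step LD-c (helper978): descent to the finite quotient, PROOF

`descent : DescentStatement`.
-/

set_option autoImplicit false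

noncomputable section

namespace Fermat.Agent.S55.Inv.GO4.H978

open Fermat.Agent.S55 Fermat.Agent.S55.Tow Fermat.Agent.S55.PT groupCohomology
open Fermat.Agent.S55.KC

/-- **LD-c** (descent to `Dec_q(L)`), exact statement: a 2-cocycle `X'` of `G_q` with values in
`K.ind (rl q) K₀.U ℚ̄_qˣ` which is inflated from the normal level `L.V q` is `locM h q τ` for a
2-cocycle `τ` of `Dec_q(L)` with values in `semiLoc h q`; if `p • X'` is a coboundary at level
`L.V q`, then `p • τ` is a coboundary. -/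
def DescentStatement : Prop :=
  ∀ (S : Finset Nat.Primes) (K₀ L : Level S) (h : K₀ ≤ L) (q : Nat.Primes) (p : ℕ)
    (X' : Gl q × Gl q → K.ind (rl q) K₀.U (Tow.unitsQpbar q)),
    X' ∈ KC.Z2At (L.V q) (K.ind (rl q) K₀.U (Tow.unitsQpbar q)) →
    KC.IsCobAt₂ (L.V q) (K.ind (rl q) K₀.U (Tow.unitsQpbar q)) (p • X') →
    ∃ τ : L.Dec q × L.Dec q → (semiLoc h q).V,
      τ ∈ cocycles₂ (semiLoc h q) ∧ p • τ ∈ coboundaries₂ (semiLoc h q) ∧ locM h q τ = X'

variable {S : Finset Nat.Primes}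

section Proj

variable (L : Level S) (q : Nat.Primes)

open Classical in
/-- a retraction `ℚ̄_qˣ → L_qˣ` of the inclusion (zero outside the invariants) -/
def locProj (a : (unitsQpbar q).V) : (L.locUnits q).V :=
  if ha : ∀ g ∈ L.V q, (unitsQpbar q).ρ g a = a then L.locMk q a ha else 0

lemma locProj_zero : locProj L q 0 = 0 := by
  unfold locProj
  split_ifs with h
  · apply L.locCoe_injective q
    rw [Level.locCoe_mk, map_zero]
  · rfl

lemma locCoe_locProj {a : (unitsQpbar q).V} (ha : ∀ g ∈ L.V q, (unitsQpbar q).ρ g a = a) :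
    L.locCoe q (locProj L q a) = a := by
  unfold locProj
  rw [dif_pos ha, Level.locCoe_mk]

end Proj

section Main

variable {K₀ L : Level S} (h : K₀ ≤ L) (q : Nat.Primes)

/-- `Λ = mapRange locCoe : (Q →₀ L_qˣ) → (Q →₀ ℚ̄_qˣ)`, raw form -/
def lamR : (K₀.Gal →₀ (L.locUnits q).V) →+ ((Tow.GQ ⧸ K₀.U) →₀ (Tow.unitsQpbar q).V) :=
  Finsupp.mapRange.addMonoidHom (L.locCoe q).toAddMonoidHom

lemma lamR_apply (t : K₀.Gal →₀ (L.locUnits q).V) (x : K₀.Gal) :
    lamR (K₀ := K₀) q t x = L.locCoe q (t x) := rfl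

lemma lamR_single (x : K₀.Gal) (a : (L.locUnits q).V) :
    lamR (K₀ := K₀) q (Finsupp.single x a) = Finsupp.single x (L.locCoe q a) :=
  Finsupp.mapRange_single (hf := map_zero _)

lemma lamR_injective : Function.Injective (lamR (K₀ := K₀) (L := L) q) := by
  intro t t' htt
  refine Finsupp.ext fun x => ?_
  apply L.locCoe_injective q
  have := DFunLike.congr_fun htt x
  exact this

lemma lamR_mapRange_locProj (b : (Tow.GQ ⧸ K₀.U) →₀ (Tow.unitsQpbar q).V)
    (hb : ∀ x, ∀ s ∈ L.V q, (unitsQpbar q).ρ s (b x) = b x) :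
    lamR (K₀ := K₀) q (Finsupp.mapRange (locProj L q) (locProj_zero L q) b) = b := by
  refine Finsupp.ext fun x => ?_
  rw [lamR_apply, Finsupp.mapRange_apply]
  exact locCoe_locProj L q (hb x)

/-- `Λ`, typed -/
def lam : (semiLoc h q).V →+ K.ind (rl q) K₀.U (Tow.unitsQpbar q) := lamR q

lemma lam_injective : Function.Injective (lam h q) := lamR_injective q

lemma locM_eq_lam (τ : L.Dec q × L.Dec q → (semiLoc h q).V) (σ σ' : Gl q) :
    locM h q τ (σ, σ') = lam h q (τ ((QuotientGroup.mk σ : L.Dec q),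
      (QuotientGroup.mk σ' : L.Dec q))) := rfl

/-- the action of `Dec_q(L)` on `semiLoc`, on `single` -/
lemma semiLoc_ρ_single (σ : Gl q) (x : K₀.Gal) (a : (L.locUnits q).V) :
    (semiLoc h q).ρ (QuotientGroup.mk σ : L.Dec q)
      (Finsupp.single x a : K₀.Gal →₀ (L.locUnits q).V) =
      (Finsupp.single (rl q σ • x)
        ((L.locUnits q).ρ (QuotientGroup.mk σ : L.Dec q) a) : K₀.Gal →₀ (L.locUnits q).V) := by
  have h1 := dInd_ρ_single (decTo h q) (L.locUnits q) (QuotientGroup.mk σ : L.Dec q) x a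
  rw [h1]
  induction x using QuotientGroup.induction_on with
  | H g => rfl

/-- compatibility of `Λ` with the actions -/
lemma lam_ρ (σ : Gl q) (t : (semiLoc h q).V) :
    lam h q ((semiLoc h q).ρ (QuotientGroup.mk σ : L.Dec q) t) =
      (K.ind (rl q) K₀.U (Tow.unitsQpbar q)).ρ σ (lam h q t) := by
  have key : (lam h q).comp ((semiLoc h q).ρ (QuotientGroup.mk σ : L.Dec q)).toAddMonoidHom =
      (((K.ind (rl q) K₀.U (Tow.unitsQpbar q)).ρ σ).toAddMonoidHom).comp (lam h q) := by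
    refine Finsupp.addHom_ext fun x a => ?_
    show lamR q ((semiLoc h q).ρ (QuotientGroup.mk σ : L.Dec q)
        (Finsupp.single x a : K₀.Gal →₀ (L.locUnits q).V)) =
      (K.ind (rl q) K₀.U (Tow.unitsQpbar q)).ρ σ
        (lamR q (Finsupp.single x a : K₀.Gal →₀ (L.locUnits q).V))
    rw [semiLoc_ρ_single, lamR_single, lamR_single, ind_ρ_single]
    rfl
  exact DFunLike.congr_fun key t

include h in
/-- `V = L.V q` acts trivially on `GQ ⧸ K₀.U` -/
lemma rl_smul_eq_of_mem {s : Gl q} (hs : s ∈ L.V q) (x : Tow.GQ ⧸ K₀.U) : rl q s • x = x :=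
  smul_quot_eq_of_mem K₀.U (Level.U_anti h (Subgroup.mem_comap.1 hs)) x

include h in
/-- an element of `B` fixed by `V` has coefficients in the invariants -/
lemma coeff_fixed {b : (Tow.GQ ⧸ K₀.U) →₀ (Tow.unitsQpbar q).V}
    (hb : ∀ s ∈ L.V q, (K.ind (rl q) K₀.U (Tow.unitsQpbar q)).ρ s b = b) (x : Tow.GQ ⧸ K₀.U) :
    ∀ s ∈ L.V q, (unitsQpbar q).ρ s (b x) = b x := by
  intro s hs
  have h1 := actG_apply (φ := rl q) (U := K₀.U) (Tow.unitsQpbar q).V
    (fun h => ((Tow.unitsQpbar q).ρ h).toAddMonoidHom) s b x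
  rw [rl_smul_eq_of_mem h q hs x] at h1
  have h2 : actG (φ := rl q) (U := K₀.U) (Tow.unitsQpbar q).V
      (fun h => ((Tow.unitsQpbar q).ρ h).toAddMonoidHom) s b = b := hb s hs
  rw [h2] at h1
  exact h1.symm

/-- the lift of a `V`-fixed element of `B` -/
def lift (b : K.ind (rl q) K₀.U (Tow.unitsQpbar q)) : (semiLoc h q).V :=
  (Finsupp.mapRange (locProj L q) (locProj_zero L q)
    (b : (Tow.GQ ⧸ K₀.U) →₀ (Tow.unitsQpbar q).V) : K₀.Gal →₀ (L.locUnits q).V)

lemma lam_lift {b : K.ind (rl q) K₀.U (Tow.unitsQpbar q)}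
    (hb : ∀ s ∈ L.V q, (K.ind (rl q) K₀.U (Tow.unitsQpbar q)).ρ s b = b) :
    lam h q (lift h q b) = b :=
  lamR_mapRange_locProj q b (fun x => coeff_fixed h q hb x)

end Main

/-- **LD-c.** -/
theorem descent : DescentStatement := by
  intro S K₀ L h q p X' hX' hpX'
  obtain ⟨hcoc, hat⟩ := hX'
  obtain ⟨y, hy, hdy⟩ := hpX'
  -- representatives
  have hout : ∀ σ : Gl q, ∃ s ∈ L.V q,
      (QuotientGroup.mk σ : L.Dec q).out = σ * s := by
    intro σ
    obtain ⟨s, hs⟩ := QuotientGroup.mk_out_eq_mul (L.V q) σ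
    exact ⟨s.1, s.2, hs⟩
  have hXout : ∀ σ σ' : Gl q, X' ((QuotientGroup.mk σ : L.Dec q).out,
      (QuotientGroup.mk σ' : L.Dec q).out) = X' (σ, σ') := by
    intro σ σ'
    obtain ⟨s, hs, e⟩ := hout σ
    obtain ⟨s', hs', e'⟩ := hout σ'
    rw [e, e']
    exact (hat σ σ' s s' hs hs').1
  have hyout : ∀ σ : Gl q, y ((QuotientGroup.mk σ : L.Dec q).out) = y σ := by
    intro σ
    obtain ⟨s, hs, e⟩ := hout σ
    rw [e]
    exact (hy σ s hs).1
  -- the descended cochains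
  let τ : L.Dec q × L.Dec q → (semiLoc h q).V := fun d => lift h q (X' (d.1.out, d.2.out))
  let c : L.Dec q → (semiLoc h q).V := fun d => lift h q (y d.out)
  have hτ : ∀ σ σ' : Gl q, lam h q (τ ((QuotientGroup.mk σ : L.Dec q),
      (QuotientGroup.mk σ' : L.Dec q))) = X' (σ, σ') := by
    intro σ σ'
    show lam h q (lift h q (X' (_, _))) = _
    rw [lam_lift h q (fun s hs => (hat _ _ s s hs hs).2)]
    exact hXout σ σ'
  have hc : ∀ σ : Gl q, lam h q (c (QuotientGroup.mk σ : L.Dec q)) = y σ := by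
    intro σ
    show lam h q (lift h q (y _)) = _
    rw [lam_lift h q (fun s hs => (hy _ s hs).2)]
    exact hyout σ
  refine ⟨τ, ?_, ?_, ?_⟩
  · rw [mem_cocycles₂_iff]
    rw [mem_cocycles₂_iff] at hcoc
    intro g g' g''
    induction g using QuotientGroup.induction_on with
    | H σ =>
      induction g' using QuotientGroup.induction_on with
      | H σ' =>
        induction g'' using QuotientGroup.induction_on with
        | H σ'' =>
          apply lam_injective h q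
          rw [map_add, map_add, lam_ρ, hτ, hτ]
          have e1 : ((QuotientGroup.mk σ : L.Dec q) * (QuotientGroup.mk σ' : L.Dec q)) =
              (QuotientGroup.mk (σ * σ') : L.Dec q) := rfl
          have e2 : ((QuotientGroup.mk σ' : L.Dec q) * (QuotientGroup.mk σ'' : L.Dec q)) =
              (QuotientGroup.mk (σ' * σ'') : L.Dec q) := rfl
          rw [e1, e2, hτ, hτ]
          exact hcoc σ σ' σ''
  · refine ⟨c, ?_⟩
    funext ⟨g, g'⟩
    induction g using QuotientGroup.induction_on with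
    | H σ =>
      induction g' using QuotientGroup.induction_on with
      | H σ' =>
        apply lam_injective h q
        rw [d₁₂_hom_apply]
        simp only [Pi.smul_apply]
        rw [map_add, map_sub, lam_ρ, map_nsmul, hτ, hc, hc]
        have e1 : ((QuotientGroup.mk σ : L.Dec q) * (QuotientGroup.mk σ' : L.Dec q)) =
            (QuotientGroup.mk (σ * σ') : L.Dec q) := rfl
        rw [e1, hc]
        have := congrFun hdy (σ, σ')
        rw [d₁₂_hom_apply] at this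
        simpa using this
  · funext ⟨σ, σ'⟩
    rw [locM_eq_lam, hτ]

end Fermat.Agent.S55.Inv.GO4.H978

end

end
-- ===== PACK-END S55/Inv/GO4/H978/Descent.lean

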