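import Fermat.Agent.Pack.S43GC.G0E21L0
import Fermat.Agent.Pack.S43GC.G0E20L0
import Fermat.Agent.Pack.S43GC.G0E21L1
import Fermat.Agent.Pack.S43GC.G0E20L1
import Fermat.Agent.Pack.S43GC.G0E16L3
import Fermat.Agent.Pack.S43GC.G0E16L1
import Fermat.Agent.Pack.S43GC.G0E3L1
import Fermat.Agent.Pack.S43GC.G0E8L3
import Fermat.Agent.Pack.S43GC.G0E17L3
import Fermat.Agent.Pack.S43GC.G0E7L3
import Fermat.Agent.Pack.S43GC.G0E21L3
import Fermat.Agent.Pack.S43GC.G0E11L2
import Fermat.Agent.Pack.S43GC.G0E11L1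
import Fermat.Agent.Pack.S43GC.G0E21L2
import Fermat.Agent.Pack.S43GC.G0E14L1
import Fermat.Agent.Pack.S43GC.G0E19L0
import Fermat.Agent.Pack.S43GC.G0E4L1
import Fermat.Agent.Pack.Fast891

-- ===== PACK-BEGIN S55/K/AR/ClosedH4.lean
section
/-
S55 moonshot — LAYER K, block AR: CLOSURE of the arithmetic core.          helper4 (architect).
No `sorry`.

All the leaves of `K/AR/Spec.lean` are on main (owners: helper635 SES, COKER, WR; helper837 CAP;
helper748 C1, C2; helper501 KAPPA; helper604/helper577 J3, JDIV; helper181 DEG, MU, HASSE;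
helper939 (c), (d); helper206 E3; helper79 E2; helper587 DICT).  This file plugs them into
`K/AR/Assembly.lean`:

* `leaves`    : the structure `Leaves S p`;
* `towers`    : E3, E2, HASSE, COKER, WEAK RECIPROCITY in the tower, from `Tow.GlobalSpecFin S p`;
* `go12`      : GO1 + GO2 for the levels of index prime to `p`;
* `surj2Glob` : **input A3 of layer D** (`PT.Surj2GlobSpec p S`) from `Tow.GlobalSpecFin S p`
                ALONE (`Tow.LocalSpec p` is closed on main, helper964).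
-/
















set_option autoImplicit false

noncomputable section

namespace Fermat.Agent.S55.K.AR.H4

open Fermat.Agent.S55 Fermat.Agent.S55.Tow Fermat.Agent.S55.K.AR ExtCitation

variable {S : Finset Nat.Primes} {p : ℕ}

/-- **All the leaves of the arithmetic core.** -/
theorem leaves (S : Finset Nat.Primes) (p : ℕ) [Fact p.Prime] : Leaves S p where
  ses := H635.sesLeaf S p
  cap1 := H837.capH1 S p
  cap2 := H837.capH2 S p
  h1C := H748.h1CLeaf
  h2C := H748.h2CLeaf
  kappa := H501.kappaLeaf S p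
  h3J := H604.h3JLeaf S p
  j2Div := H604.j2DivLeaf S p
  dec := H181.decLeaf S p
  muDir := H181.muDirLeaf S p
  surjJC := H939.surjJC
  kerDiv := H939.kerDiv
  hasse := H181.hasseLeaf S p
  e3 := H206.e3Leaf S p
  e2 := H79.e2Leaf S p
  coker := H635.cokerLeaf S p
  weakRecip := H635.weakRecipLeaf S p

/-- `Tow.LocalSpec p`, closed (helper964). -/
theorem localSpec (p : ℕ) [Fact p.Prime] : LocalSpec p :=
  Fermat.Agent.S55.LocalSpec.H964.localSpec p (Fact.out : p.Prime).ne_zero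

/-- The context of the arithmetic core from the target of layer G. -/
def ctxOf [Fact p.Prime] (D : TowerDatum S) (hD : D.IsGoodFin p) (hp2 : p ≠ 2)
    (hpS : pPrime p ∈ S) : Ctx S p :=
  ⟨D, hD, ⟨(Fact.out : p.Prime), hp2, hpS⟩⟩

/-- **The tower statements** E3, E2, HASSE (GO3), COKER (GO4), WEAK RECIPROCITY (GO5), from the
target of layer G. -/
theorem towers [Fact p.Prime] (hG : GlobalSpecFin S p) (hp2 : p ≠ 2) (hpS : pPrime p ∈ S) :
    E3Tower S p ∧ E2Tower S p ∧ HasseTower S p ∧ CokerTower S p ∧ WeakRecipTower S p := by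
  obtain ⟨D, hD⟩ := hG
  exact towers_of_leaves (leaves S p) (ctxOf D hD hp2 hpS) (localSpec p)

/-- **GO3 in the tower** (Hasse principle for the `p`-primary part of `H²(E)`). -/
theorem hasseTower [Fact p.Prime] (hG : GlobalSpecFin S p) (hp2 : p ≠ 2) (hpS : pPrime p ∈ S) :
    HasseTower S p := (towers hG hp2 hpS).2.2.1

/-- **GO4 in the tower.** -/
theorem cokerTower [Fact p.Prime] (hG : GlobalSpecFin S p) (hp2 : p ≠ 2) (hpS : pPrime p ∈ S) :
    CokerTower S p := (towers hG hp2 hpS).2.2.2.1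

/-- **GO5 in the tower.** -/
theorem weakRecipTower [Fact p.Prime] (hG : GlobalSpecFin S p) (hp2 : p ≠ 2)
    (hpS : pPrime p ∈ S) : WeakRecipTower S p := (towers hG hp2 hpS).2.2.2.2

/-- **GO1 + GO2** for the levels of index prime to `p`. -/
theorem go12 [Fact p.Prime] (hG : GlobalSpecFin S p) (hp2 : p ≠ 2) (hpS : pPrime p ∈ S) :
    GO12Coprime S p :=
  go12_of_tower p S (H587.dictE3 S p) (H587.dictE2 S p) (towers hG hp2 hpS).1
    (towers hG hp2 hpS).2.1

/-- **INPUT A3 OF LAYER D** (`H²_S` is right exact: `cd_p(G_S) ≤ 2`) from the target of layer G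
alone. -/
theorem surj2Glob (p : ℕ) [Fact p.Prime] (S : Finset Nat.Primes) (hG : GlobalSpecFin S p)
    (hp2 : p ≠ 2) (hpS : pPrime p ∈ S) : Fermat.Agent.S55.PT.Surj2GlobSpec p S :=
  surj2Glob_of_leaves p S (leaves S p) (H587.dictE3 S p) (H587.dictE2 S p) hG (localSpec p)
    hp2 hpS

end Fermat.Agent.S55.K.AR.H4

end

end
-- ===== PACK-END S55/K/AR/ClosedH4.lean

-- ===== PACK-BEGIN S55/G/LocH897/TowOrb.lean
section


/-!
# S55 / G-ADAPTER, J-bridge (helper897), part 3: places of a tower level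

For a tower level `L` and `q ∈ S`: `placeQ L q` is the place of `F = L.F` above `q` cut out by
the Prelude embedding `ℚ̄ → ℚ̄_q` (the kernel of `evQ`).  Every place of `F` above `S` is
conjugate under `Gal(F/ℚ)` to exactly one `placeQ L q` (`evQ_cover`, `evQ_disj`).
-/

set_option autoImplicit false
set_option linter.style.haveILetI false
set_option linter.unusedSectionVars false

open scoped TensorProduct

namespace Fermat.Agent.S55.G.LocH897

open Fermat.Agent.S55 Fermat.Agent.S55.Tow Fermat.Agent.S55.Bridge.H175 Fermat.Agent.S55.E1.H594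
open Fermat.Agent.S55.G Fermat.Agent.S55.G.PL0H713

noncomputable section

variable {S : Finset Nat.Primes} (L : Level S) (q : S)

/-- The place of `F` above `q` given by the Prelude embedding `ι_q : ℚ̄ → ℚ̄_q`. -/
def placeQ : SPlace S L.F where
  asIdeal := RingHom.ker (evQ L q)
  isMaximal := by
    haveI := _root_.Fermat.Agent.S55.G.LocH897.isArtinianRing_AS S L.F
    haveI : (RingHom.ker (evQ L q)).IsPrime := RingHom.ker_isPrime (evQ L q)
    exact IsArtinianRing.isMaximal_of_isPrime _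

lemma mem_placeQ (x : AS S L.F) : x ∈ (placeQ L q).asIdeal ↔ evQ L q x = 0 := RingHom.mem_ker

/-- The place `placeQ L q` lies over `q`. -/
theorem primeOf_placeQ : primeOf S L.F (placeQ L q) = q := by
  by_contra hne
  have h1 : LocField.mk S (placeQ L q) ((1 : L.F) ⊗ₜ[ℚ] single S q 1) = 0 := by
    rw [mk_one_tmul, single_apply_ne S q _ hne, map_zero]
  rw [LocField.mk_eq_zero_iff, mem_placeQ, evQ_one_tmul_single, map_one] at h1
  exact one_ne_zero h1

lemma level_hfix (x : L.F) (hx : ∀ g : L.Gal, g • x = x) : ∃ c : ℚ, algebraMap ℚ L.F c = x :=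
  (level_isGaloisGroup L).isInvariant.isInvariant x hx

/-- Every place above `S` is conjugate to some `placeQ L q`. -/
theorem evQ_cover (𝔫 : Ideal (AS S L.F)) (h𝔫 : 𝔫.IsMaximal) :
    ∃ (q : S) (g : L.Gal), ∀ x, x ∈ 𝔫 ↔ evQ L q (asRingAut L.Gal S L.F g x) = 0 := by
  set 𝔫' : SPlace S L.F := ⟨𝔫, h𝔫⟩ with h𝔫'
  obtain ⟨g, hg⟩ := exists_sPlaceSMul_eq S L.Gal L.F (level_hfix L)
    (placeQ L (primeOf S L.F 𝔫')) 𝔫' (primeOf_placeQ L _)
  refine ⟨primeOf S L.F 𝔫', g⁻¹, fun x => ?_⟩
  rw [← mem_placeQ, ← mem_sPlaceSMul_iff', hg]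

/-- The places `placeQ L q`, `q ∈ S`, are pairwise non-conjugate. -/
theorem evQ_disj (i j : S) (g : L.Gal)
    (h : ∀ x, evQ L j x = 0 ↔ evQ L i (asRingAut L.Gal S L.F g x) = 0) : i = j := by
  have h1 : sPlaceSMul S L.Gal g⁻¹ (placeQ L i) = placeQ L j := by
    refine MaximalSpectrum.ext (Ideal.ext fun x => ?_)
    rw [mem_sPlaceSMul_iff', inv_inv, mem_placeQ, mem_placeQ, h]
  have h2 := primeOf_sPlaceSMul S L.Gal L.F g⁻¹ (placeQ L i)
  rw [h1, primeOf_placeQ, primeOf_placeQ] at h2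
  exact h2.symm

end

end Fermat.Agent.S55.G.LocH897

end
-- ===== PACK-END S55/G/LocH897/TowOrb.lean

-- ===== PACK-BEGIN S55/G/LocH897/TowJ.lean
section


/-!
# S55 / G-ADAPTER, J-bridge (helper897), part 4: `J_S(F) ≅ ∏_{q ∈ S} J_q(F)`

For a tower level `L : Tow.Level S` (field `F = L.F`, group `L.Gal`):
* `jTow L q : G.JRep L.Gal S L.F ⟶ L.J q` : the morphism `(F ⊗ ℚ_S)ˣ → Coind_{D_q} F_qˣ`,
  `b ↦ (g ↦ evQ (g • b))`, of `Rep ℤ L.Gal`;
* `jTow_bijective` : `b ↦ (jTow L q b)_{q ∈ S}` is bijective.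
-/

set_option autoImplicit false
set_option linter.style.haveILetI false
set_option linter.unusedSectionVars false

open scoped TensorProduct
open CategoryTheory

namespace Fermat.Agent.S55.G.LocH897

open Fermat.Agent.S55 Fermat.Agent.S55.Tow Fermat.Agent.S55.Bridge.H175 Fermat.Agent.S55.E1.H594
open Fermat.Agent.S55.G Fermat.Agent.S55.G.PL0H713

noncomputable section

/-- The element of `ℚ̄_q` underlying a vector of `unitsQpbar q`. -/
def oval (q : Nat.Primes) (x : (unitsQpbar q).V) : Om q :=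
  ((Additive.toMul (show Additive (Om q)ˣ from x) : (Om q)ˣ) : Om q)

lemma oval_injective (q : Nat.Primes) : Function.Injective (oval q) := by
  intro x y h
  have h1 : (Additive.toMul (show Additive (Om q)ˣ from x) : (Om q)ˣ) =
      Additive.toMul (show Additive (Om q)ˣ from y) := Units.ext h
  exact Additive.toMul.injective h1

lemma oval_ne_zero (q : Nat.Primes) (x : (unitsQpbar q).V) : oval q x ≠ 0 :=
  (Additive.toMul (show Additive (Om q)ˣ from x) : (Om q)ˣ).ne_zero

lemma oval_ρ (q : Nat.Primes) (τ : GQp q) (x : (unitsQpbar q).V) :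
    oval q ((unitsQpbar q).ρ τ x) = toAut q τ (oval q x) := rfl

variable {S : Finset Nat.Primes} (L : Level S) (q : S)

/-- `evQ` on units, additively. -/
def evUnits : Additive (AS S L.F)ˣ →ₗ[ℤ] (unitsQpbar q.1).V :=
  (Units.map ((evQ L q : AS S L.F →+* Om q.1) : AS S L.F →* Om q.1)).toAdditive.toIntLinearMap

lemma oval_evUnits (b : Additive (AS S L.F)ˣ) :
    oval q.1 (evUnits L q b) = evQ L q ((b.toMul : (AS S L.F)ˣ) : AS S L.F) := rfl

lemma locGal_eq_one_of_mem (τ : GQp q.1) (hτ : τ ∈ L.V q.1) : locGal L q.1 τ = 1 := by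
  rw [locGal_apply]
  exact (QuotientGroup.eq_one_iff _).2 hτ

lemma evUnits_fixed (b : Additive (AS S L.F)ˣ) (τ : GQp q.1) (hτ : τ ∈ L.V q.1) :
    (unitsQpbar q.1).ρ τ (evUnits L q b) = evUnits L q b := by
  apply oval_injective
  rw [oval_ρ, oval_evUnits, ← evQ_equivariant, locGal_eq_one_of_mem L q τ hτ, map_one]
  rfl

/-- The value at `g` of the image of `b ∈ J_S(F)` in `J_q(F) = Coind F_qˣ`. -/
def jTowFun (b : Additive (AS S L.F)ˣ) (g : L.Gal) : (L.locUnits q.1).V :=
  L.locMk q.1 (evUnits L q (jRepr L.Gal S L.F g b)) (fun τ hτ => evUnits_fixed L q _ τ hτ)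

lemma oval_jTowFun (b : Additive (AS S L.F)ˣ) (g : L.Gal) :
    oval q.1 (L.locCoe q.1 (jTowFun L q b g)) =
      evQ L q (asRingAut L.Gal S L.F g ((b.toMul : (AS S L.F)ˣ) : AS S L.F)) := rfl

lemma locCoe_oval_injective {x y : (L.locUnits q.1).V}
    (h : oval q.1 (L.locCoe q.1 x) = oval q.1 (L.locCoe q.1 y)) : x = y :=
  L.locCoe_injective q.1 (oval_injective q.1 h)

lemma jTowFun_mul (b : Additive (AS S L.F)ˣ) (d : L.Dec q.1) (g : L.Gal) :
    jTowFun L q b (L.decHom q.1 d * g) = (L.locUnits q.1).ρ d (jTowFun L q b g) := by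
  obtain ⟨τ, rfl⟩ := QuotientGroup.mk_surjective d
  apply locCoe_oval_injective
  rw [oval_jTowFun, L.locUnits_ρ_coe, oval_ρ, oval_jTowFun, ← evQ_equivariant, map_mul,
    RingAut.mul_apply]
  rfl

lemma jTowFun_add (b b' : Additive (AS S L.F)ˣ) (g : L.Gal) :
    jTowFun L q (b + b') g = jTowFun L q b g + jTowFun L q b' g := by
  apply L.locCoe_injective q.1
  show evUnits L q (jRepr L.Gal S L.F g (b + b')) =
    evUnits L q (jRepr L.Gal S L.F g b) + evUnits L q (jRepr L.Gal S L.F g b')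
  rw [map_add, map_add]

lemma jTowFun_smul (c : ℤ) (b : Additive (AS S L.F)ˣ) (g : L.Gal) :
    jTowFun L q (c • b) g = c • jTowFun L q b g := by
  apply L.locCoe_injective q.1
  show evUnits L q (jRepr L.Gal S L.F g (c • b)) = c • evUnits L q (jRepr L.Gal S L.F g b)
  rw [map_smul, map_smul]

/-- The map `J_S(F) → J_q(F)`, `ℤ`-linear. -/
def jTowLin : Additive (AS S L.F)ˣ →ₗ[ℤ] (L.J q.1).V where
  toFun b := ⟨fun g => jTowFun L q b g, fun d g => jTowFun_mul L q b d g⟩
  map_add' b b' := Subtype.ext (funext fun g => jTowFun_add L q b b' g)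
  map_smul' c b := Subtype.ext (funext fun g => jTowFun_smul L q c b g)

lemma Jeval_jTowLin (b : Additive (AS S L.F)ˣ) (g : L.Gal) :
    L.Jeval q.1 (jTowLin L q b) g = jTowFun L q b g := rfl

/-- **The J-bridge morphism** `J_S(F) = (F ⊗ ℚ_S)ˣ ⟶ J_q(F) = Coind_{D_q} F_qˣ`. -/
def jTow : JRep L.Gal S L.F ⟶ L.J q.1 :=
  Rep.ofHom
    { toLinearMap := jTowLin L q
      isIntertwining' := fun h => by
        refine LinearMap.ext fun b => ?_
        apply L.J_ext q.1
        intro g
        show jTowFun L q (jRepr L.Gal S L.F h b) g = jTowFun L q b (g * h)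
        apply L.locCoe_injective q.1
        show evUnits L q (jRepr L.Gal S L.F g (jRepr L.Gal S L.F h b)) =
          evUnits L q (jRepr L.Gal S L.F (g * h) b)
        rw [map_mul]
        rfl }

lemma jTow_hom_apply (b : Additive (AS S L.F)ˣ) : (jTow L q).hom b = jTowLin L q b := rfl

/-! ### Bijectivity -/

/-- The value of an element of `F_qˣ` (a `Gal(ℚ̄_q/F_q)`-invariant unit of `ℚ̄_q`) is a value
of `evQ`. -/
lemma exists_evQ_eq_oval (x : (L.locUnits q.1).V) :
    ∃ r, evQ L q r = oval q.1 (L.locCoe q.1 x) := by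
  haveI := isGalois_padicAlgCl' q.1
  haveI := normal_primeLocalLevel L q.1
  have hx : L.locCoe q.1 x ∈ Representation.invariants
      ((unitsQpbar q.1).ρ.comp (L.V q.1).subtype) := x.2
  obtain ⟨a, ha⟩ := (mem_invariants_units_iff (k := Qq q.1) (K' := Om q.1)
    (hNn := Tow.Level.normalV L q.1)
    (primeLocalLevel q.1 L.F) (L.V q.1) (level_V_eq L q.1) (L.locCoe q.1 x)).1 hx
  obtain ⟨r, hr⟩ := exists_evQ_eq L q (a : Om q.1) a.2
  exact ⟨r, hr.trans ha⟩

/-- **The J-bridge.**  Every family `(F_q)_{q ∈ S}`, `F_q ∈ J_q(F) = Coind_{D_q} F_qˣ`, is the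
image of a unique `S`-idèle `b ∈ J_S(F) = (F ⊗ ℚ_S)ˣ`. -/
theorem jTow_existsUnique (F : ∀ q : S, (L.J q.1).V) :
    ∃! b : Additive (AS S L.F)ˣ, ∀ q : S, jTowLin L q b = F q := by
  haveI := isReduced_AS S L.F
  haveI := _root_.Fermat.Agent.S55.G.LocH897.isArtinianRing_AS S L.F
  obtain ⟨b, hb, hbu⟩ := existsUnique_ev_units (asRingAut L.Gal S L.F) (ι := S)
    (Ω := fun q => Om q.1) (fun q => (evQ L q : AS S L.F →+* Om q.1))
    (T := fun q => GQp q.1) (fun q => locGal L q.1) (fun q τ ω => toAut q.1 τ ω)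
    (fun q τ r => evQ_equivariant L q τ r)
    (fun q s hs => exists_locGal_eq L q s hs)
    (evQ_cover L) (evQ_disj L)
    (fun q g => oval q.1 (L.locCoe q.1 (L.Jeval q.1 (F q) g)))
    (fun q g => exists_evQ_eq_oval L q _)
    (fun q τ g => by
      rw [locGal_eq_decHom, L.Jeval_mul, L.locUnits_ρ_coe, oval_ρ])
    (fun q g => oval_ne_zero _ _)
  refine ⟨Additive.ofMul b, fun q => ?_, fun c hc => ?_⟩
  · apply L.J_ext q.1
    intro g
    apply locCoe_oval_injective
    rw [Jeval_jTowLin, oval_jTowFun]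
    exact hb q g
  · apply Additive.toMul.injective
    refine hbu (Additive.toMul c) fun q g => ?_
    have := congrArg (fun f => oval q.1 (L.locCoe q.1 (L.Jeval q.1 f g))) (hc q)
    exact this

/-- **The J-bridge**: `b ↦ (jTow L q b)_{q ∈ S}` is a bijection
`J_S(F) → ∏_{q ∈ S} J_q(F)`. -/
theorem jTow_bijective :
    Function.Bijective (fun (b : (JRep L.Gal S L.F).V) (q : S) => (jTow L q).hom b) := by
  constructor
  · intro b b' h
    obtain ⟨c, -, hcu⟩ := jTow_existsUnique L (fun q => jTowLin L q b')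
    rw [hcu b' (fun _ => rfl)]
    exact hcu b (fun q => congrFun h q)
  · intro F
    obtain ⟨b, hb, -⟩ := jTow_existsUnique L F
    exact ⟨b, funext hb⟩

end

end Fermat.Agent.S55.G.LocH897

end
-- ===== PACK-END S55/G/LocH897/TowJ.lean

-- ===== PACK-BEGIN S55/G/LocH897/TowJInv.lean
section


/-!
# S55 / G-ADAPTER, J-bridge (helper897), part 5: the inverse maps `J_q(F) → J_S(F)`

* `jEquiv L : J_S(F) ≃ₗ[ℤ] ∏_{q ∈ S} J_q(F)`;
* `jTowInv L q : L.J q ⟶ G.JRep L.Gal S L.F` (in `Rep ℤ L.Gal`), the inclusion of the `q`-component;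
* `jTow_jTowInv_same`, `jTow_jTowInv_ne`, `sum_jTowInv_jTow`.
-/

set_option autoImplicit false
set_option linter.style.haveILetI false
set_option linter.unusedSectionVars false

open scoped TensorProduct
open CategoryTheory

namespace Fermat.Agent.S55.G.LocH897

open Fermat.Agent.S55 Fermat.Agent.S55.Tow Fermat.Agent.S55.Bridge.H175 Fermat.Agent.S55.E1.H594
open Fermat.Agent.S55.G Fermat.Agent.S55.G.PL0H713

noncomputable section

variable {S : Finset Nat.Primes} (L : Level S)

/-- `b ↦ (jTow L q b)_{q ∈ S}` as a linear map. -/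
def jAll : Additive (AS S L.F)ˣ →ₗ[ℤ] (∀ q : S, (L.J q.1).V) :=
  LinearMap.pi (fun q => jTowLin L q)

lemma jAll_apply (b : Additive (AS S L.F)ˣ) (q : S) : jAll L b q = jTowLin L q b := rfl

lemma jAll_bijective : Function.Bijective (jAll L) := jTow_bijective L

/-- **The J-bridge** as a linear equivalence `J_S(F) ≃ ∏_{q ∈ S} J_q(F)`. -/
def jEquiv : Additive (AS S L.F)ˣ ≃ₗ[ℤ] (∀ q : S, (L.J q.1).V) :=
  LinearEquiv.ofBijective (jAll L) (jAll_bijective L)

lemma jEquiv_apply (b : Additive (AS S L.F)ˣ) (q : S) : jEquiv L b q = jTowLin L q b := rfl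

lemma jAll_ρ (h : L.Gal) (b : Additive (AS S L.F)ˣ) (q : S) :
    jAll L (jRepr L.Gal S L.F h b) q = (L.J q.1).ρ h (jAll L b q) :=
  Rep.hom_comm_apply (jTow L q) h b

section Inv

variable (q : S)

open Classical in
/-- The inclusion of the `q`-component `J_q(F) → J_S(F)`, `ℤ`-linear. -/
def jInvLin : (L.J q.1).V →ₗ[ℤ] Additive (AS S L.F)ˣ :=
  (jEquiv L).symm.toLinearMap ∘ₗ LinearMap.single ℤ (fun q : S => (L.J q.1).V) q

open Classical in
lemma jAll_jInvLin (x : (L.J q.1).V) :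
    jAll L (jInvLin L q x) = Pi.single (M := fun q : S => (L.J q.1).V) q x :=
  (jEquiv L).apply_symm_apply _

lemma jTowLin_jInvLin_same (x : (L.J q.1).V) : jTowLin L q (jInvLin L q x) = x := by
  classical
  have := congrFun (jAll_jInvLin L q x) q
  rw [Pi.single_eq_same] at this
  exact this

lemma jTowLin_jInvLin_ne {q' : S} (h : q' ≠ q) (x : (L.J q.1).V) :
    jTowLin L q' (jInvLin L q x) = 0 := by
  classical
  have := congrFun (jAll_jInvLin L q x) q'
  rw [Pi.single_eq_of_ne h] at this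
  exact this

lemma jInvLin_ρ (h : L.Gal) (x : (L.J q.1).V) :
    jInvLin L q ((L.J q.1).ρ h x) = jRepr L.Gal S L.F h (jInvLin L q x) := by
  classical
  apply (jAll_bijective L).1
  funext q'
  rw [jAll_ρ, jAll_jInvLin, jAll_jInvLin]
  by_cases hq : q' = q
  · subst hq
    rw [Pi.single_eq_same, Pi.single_eq_same]
  · rw [Pi.single_eq_of_ne hq, Pi.single_eq_of_ne hq, map_zero]

/-- **The inclusion of the `q`-component** `J_q(F) ⟶ J_S(F)` in `Rep ℤ L.Gal`. -/
def jTowInv : L.J q.1 ⟶ JRep L.Gal S L.F :=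
  Rep.ofHom
    { toLinearMap := jInvLin L q
      isIntertwining' := fun h => LinearMap.ext fun x => jInvLin_ρ L q h x }

lemma jTowInv_hom_apply (x : (L.J q.1).V) : (jTowInv L q).hom x = jInvLin L q x := rfl

theorem jTow_jTowInv_same (x : (L.J q.1).V) :
    (jTow L q).hom ((jTowInv L q).hom x) = x := jTowLin_jInvLin_same L q x

theorem jTow_jTowInv_ne {q' : S} (h : q' ≠ q) (x : (L.J q.1).V) :
    (jTow L q').hom ((jTowInv L q).hom x) = 0 := jTowLin_jInvLin_ne L q h x

end Inv

/-- Every `S`-idèle is the sum of its components. -/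
theorem sum_jTowInv_jTow (b : (JRep L.Gal S L.F).V) :
    ∑ q : S, (jTowInv L q).hom ((jTow L q).hom b) = b := by
  classical
  apply (jAll_bijective L).1
  funext q'
  show jAll L (∑ q : S, jInvLin L q (jTowLin L q b)) q' = jAll L b q'
  rw [map_sum, Finset.sum_apply]
  rw [Finset.sum_eq_single q']
  · rw [jAll_jInvLin, Pi.single_eq_same]
    rfl
  · intro q _ hq
    rw [jAll_jInvLin, Pi.single_eq_of_ne (Ne.symm hq)]
  · intro h
    exact absurd (Finset.mem_univ q') h

/-- A family of local components is recovered from its sum. -/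
theorem jTow_sum_jTowInv (x : ∀ q : S, (L.J q.1).V) (q' : S) :
    (jTow L q').hom (∑ q : S, (jTowInv L q).hom (x q)) = x q' := by
  classical
  rw [map_sum, Finset.sum_eq_single q']
  · exact jTow_jTowInv_same L q' (x q')
  · intro q _ hq
    exact jTow_jTowInv_ne L q (Ne.symm hq) (x q)
  · intro h
    exact absurd (Finset.mem_univ q') h

end

end Fermat.Agent.S55.G.LocH897

end
-- ===== PACK-END S55/G/LocH897/TowJInv.lean

-- ===== PACK-BEGIN S55/G/LocH897/TowJCompat.lean
section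



/-!
# S55 / G-ADAPTER, J-bridge (helper897), part 6: compatibilities

* `jTow_unitsDiag` : the bridge `J_S(F) → J_q(F)` sends the diagonal image of `u ∈ Fˣ`
  (`G.unitsDiag`) to the tower diagonal `Level.diag q` of `u` (via `levelUnitsIso`);
* `jTow_jMap` : for `F ≤ F'` the bridge intertwines the base change `G.jMap` with `Level.trJ`.
-/

set_option autoImplicit false
set_option linter.style.haveILetI false
set_option linter.unusedSectionVars false

open scoped TensorProduct
open CategoryTheory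

namespace Fermat.Agent.S55.G.LocH897

open Fermat.Agent.S55 Fermat.Agent.S55.Tow Fermat.Agent.S55.Bridge.H175 Fermat.Agent.S55.E1.H594
open Fermat.Agent.S55.G Fermat.Agent.S55.G.PL0H713

noncomputable section

variable {S : Finset Nat.Primes}

/-- The element of `ℚ̄` underlying a vector of `unitsQbar`. -/
def gval (x : unitsQbar.V) : Qbar :=
  ((Additive.toMul (show Additive Qbarˣ from x) : Qbarˣ) : Qbar)

lemma oval_embQbar (q : Nat.Primes) (x : unitsQbar.V) :
    oval q (embQbar q x) = padicEmbedding (q : ℕ) (gval x) := rfl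

lemma gval_ρ (σ : GQ) (x : unitsQbar.V) : gval (unitsQbar.ρ σ x) = σ (gval x) := rfl

section Diag

variable (L : Level S) (q : S)

lemma gval_levelUnits (u : Additive (L.F)ˣ) :
    gval (L.unitsCoe ((levelUnitsIso L).hom.hom u)) = (((u.toMul : (L.F)ˣ) : L.F) : Qbar) := rfl

/-- The bridge is compatible with the diagonal embeddings of `Fˣ`. -/
theorem jTow_unitsDiag (u : Additive (L.F)ˣ) :
    (jTow L q).hom (unitsDiag S L.F u) = (L.diag q.1).hom ((levelUnitsIso L).hom.hom u) := by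
  apply L.J_ext q.1
  intro g
  apply locCoe_oval_injective
  obtain ⟨σ, rfl⟩ := QuotientGroup.mk_surjective g
  rw [jTow_hom_apply, Jeval_jTowLin, oval_jTowFun, L.Jeval_diag, L.locCoe_embFun, oval_embQbar,
    L.units_ρ_coe, gval_ρ, gval_levelUnits]
  have h1 : (((unitsDiag S L.F u).toMul : (AS S L.F)ˣ) : AS S L.F) =
      asDiag S L.F ((u.toMul : (L.F)ˣ) : L.F) := rfl
  rw [h1, asRingAut_apply, asAut_asDiag, asDiag_apply, evQ_tmul_one, level_mk_smul]

end Diag

section Trans

variable {L L' : Level S} (h : L ≤ L') (q : S)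

/-- `evQ` is compatible with the base change `F ⊗ ℚ_S → F' ⊗ ℚ_S` and the Galois actions. -/
lemma evQ_asMap (g : L'.Gal) (r : AS S L.F) :
    letI := levelAlgebra h
    evQ L' q (asRingAut L'.Gal S L'.F g (asMap S L.F L'.F r)) =
      evQ L q (asRingAut L.Gal S L.F (Level.proj h g) r) := by
  letI := levelAlgebra h
  induction r using TensorProduct.induction_on with
  | zero => simp
  | tmul x y =>
    rw [asMap_tmul, asRingAut_apply, asAut_tmul, asRingAut_apply, asAut_tmul, evQ_tmul, evQ_tmul]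
    have h1 : g • (algebraMap L.F L'.F x) = levelIncl h ((Level.proj h g) • x) :=
      (levelIncl_proj_smul h g x).symm
    rw [h1, coe_levelIncl]
  | add a b ha hb => simp only [map_add, ha, hb]

/-- The bridge intertwines the base change `J_S(F) → J_S(F')` with `Level.trJ`. -/
theorem jTow_jMap (b : Additive (AS S L.F)ˣ) :
    letI := levelAlgebra h
    (jTow L' q).hom (jMap S L.F L'.F b) = (Level.trJ h q.1).hom ((jTow L q).hom b) := by
  letI := levelAlgebra h
  apply L'.J_ext q.1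
  intro g
  apply locCoe_oval_injective
  rw [jTow_hom_apply, Jeval_jTowLin, oval_jTowFun, coe_jMap_apply, evQ_asMap h q g]
  rfl

end Trans

section Cat

variable (L : Level S)

/-- `jTowInv q ≫ jTow q = 𝟙`. -/
theorem jTowInv_comp_jTow (q : S) : jTowInv L q ≫ jTow L q = 𝟙 (L.J q.1) := by
  ext x
  exact jTow_jTowInv_same L q x

/-- `jTowInv q ≫ jTow q' = 0` for `q' ≠ q`. -/
theorem jTowInv_comp_jTow_of_ne {q q' : S} (h : q' ≠ q) : jTowInv L q ≫ jTow L q' = 0 := by
  ext x
  exact jTow_jTowInv_ne L q h x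

/-- The decomposition group of the place `placeQ L q` (in the sense of `G/DefsLocal.lean`) is the
image of the tower decomposition group `L.Dec q`. -/
theorem decomp_placeQ (q : S) :
    _root_.Fermat.Agent.S55.G.decomp S L.Gal (placeQ L q) = (L.decHom q.1).range := by
  ext s
  rw [mem_Gdecomp_iff]
  constructor
  · intro hs
    obtain ⟨τ, hτ⟩ := exists_locGal_eq L q s (fun x => by
      rw [← mem_placeQ, ← mem_placeQ]
      exact hs x)
    exact ⟨QuotientGroup.mk τ, hτ⟩
  · rintro ⟨d, rfl⟩ x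
    obtain ⟨τ, rfl⟩ := QuotientGroup.mk_surjective d
    rw [mem_placeQ, mem_placeQ, ← locGal_eq_decHom, evQ_equivariant]
    exact map_eq_zero_iff _ (toAut q.1 τ).injective

end Cat

end

end Fermat.Agent.S55.G.LocH897

end
-- ===== PACK-END S55/G/LocH897/TowJCompat.lean

-- ===== PACK-BEGIN S55/GAD/Iso.lean
section
/-
S55 / G-ADAPTER (helper955): **GAD-ISO** — the comparison isomorphism
`isoC L : G.CRep S L.Gal L.F ≅ GAD.CT L` between the layer-G `S`-idèle class module
`(J_S(F) × Div^S(F)) / Fˣ`, `J_S(F) = (F ⊗ ℚ_S)ˣ`, and the class module of the concrete tower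
datum `(∏_{q ∈ S} J_q(F) × Div^S(F)) / Fˣ`, `J_q(F) = Coind_{D_q} F_qˣ`.
Built on helper897's J-bridge (`G/LocH897/TowJ*.lean`).
-/




set_option autoImplicit false
set_option linter.unusedSectionVars false

open CategoryTheory

namespace Fermat.Agent.S55.GAD

open Fermat.Agent.S55 Fermat.Agent.S55.Tow Fermat.Agent.S55.G Fermat.Agent.S55.G.LocH897
open scoped Fermat.Agent.S55.E1.H594

noncomputable section

variable {S : Finset Nat.Primes} (L : Level S)

/-! ### The isomorphism on `J × Div` -/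

/-- `J_S(F) × Div^S(F) ≃ ∏_{q ∈ S} J_q(F) × Div^S(F)`. -/
def jdLinEquiv : G.JD S L.F ≃ₗ[ℤ] JDV L :=
  LinearEquiv.prodCongr (jEquiv L) (LinearEquiv.refl ℤ (PrimeOut S L.F →₀ ℤ))

lemma jdLinEquiv_fst (y : G.JD S L.F) (q : S) : (jdLinEquiv L y).1 q = (jTow L q).hom y.1 := rfl

lemma jdLinEquiv_snd (y : G.JD S L.F) : (jdLinEquiv L y).2 = y.2 := rfl

lemma jdLinEquiv_equivariant (g : L.Gal) (y : G.JD S L.F) :
    jdLinEquiv L (G.jdRepr S L.Gal L.F g y) = _root_.Fermat.Agent.S55.GAD.jdRepr L g (jdLinEquiv L y) :=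
  Prod.ext (funext fun q => jAll_ρ L g y.1 q) rfl

lemma toField_levelUnitsIso (u : Additive (L.F)ˣ) :
    toField L ((E1.H594.levelUnitsIso L).hom.hom u) = u :=
  Rep.inv_hom_apply _ _ (E1.H594.levelUnitsIso L) u

lemma levelUnitsIso_toField (x : L.units.V) :
    (E1.H594.levelUnitsIso L).hom.hom (toField L x) = x :=
  Rep.hom_inv_apply _ _ (E1.H594.levelUnitsIso L) x

/-- The comparison is compatible with the diagonal embeddings of `Fˣ`. -/
lemma jdLinEquiv_diagHom (u : Additive (L.F)ˣ) :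
    jdLinEquiv L (G.diagHom S L.F u) = diagT L ((E1.H594.levelUnitsIso L).hom.hom u) := by
  refine Prod.ext (funext fun q => ?_) ?_
  · exact jTow_unitsDiag L q u
  · show ordHom S L.F u = ordHom S L.F (toField L ((E1.H594.levelUnitsIso L).hom.hom u))
    rw [toField_levelUnitsIso]

lemma jdLinEquiv_diagT (x : L.units.V) :
    jdLinEquiv L (G.diagHom S L.F (toField L x)) = diagT L x := by
  rw [jdLinEquiv_diagHom, levelUnitsIso_toField]

lemma map_principal :
    (G.principal S L.F).map (jdLinEquiv L : G.JD S L.F →ₗ[ℤ] JDV L) = princ L := by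
  apply le_antisymm
  · rintro _ ⟨_, ⟨u, rfl⟩, rfl⟩
    exact ⟨_, (jdLinEquiv_diagHom L u).symm⟩
  · rintro _ ⟨x, rfl⟩
    exact ⟨_, ⟨toField L x, rfl⟩, jdLinEquiv_diagT L x⟩

/-! ### The isomorphism on class modules -/

/-- `C_S(F) ≃ C(L)` on underlying groups. -/
def cLinEquiv : G.CS S L.F ≃ₗ[ℤ] (CT L).V :=
  Submodule.Quotient.equiv (G.principal S L.F) (princ L) (jdLinEquiv L) (map_principal L)

lemma cLinEquiv_mk (y : G.JD S L.F) :
    cLinEquiv L (Submodule.Quotient.mk y) = mkC L (jdLinEquiv L y) := rfl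

lemma cLinEquiv_equivariant (g : L.Gal) (c : G.CS S L.F) :
    cLinEquiv L (G.cRepr S L.Gal L.F g c) = (CT L).ρ g (cLinEquiv L c) := by
  obtain ⟨y, rfl⟩ := Submodule.Quotient.mk_surjective _ c
  exact congrArg (mkC L) (jdLinEquiv_equivariant L g y)

/-- **GAD-ISO.**  The comparison isomorphism `C_S(F) ≅ C(L)` in `Rep ℤ Gal(F/ℚ)`. -/
def isoC : G.CRep S L.Gal L.F ≅ CT L :=
  Rep.mkIso (Representation.Equiv.mk (cLinEquiv L)
    (fun g => LinearMap.ext fun c => cLinEquiv_equivariant L g c))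

lemma isoC_hom_apply (c : G.CS S L.F) : (isoC L).hom.hom c = cLinEquiv L c := rfl

lemma isoC_hom_mk (y : G.JD S L.F) :
    (isoC L).hom.hom (Submodule.Quotient.mk y) = mkC L (jdLinEquiv L y) := rfl

lemma isoC_inv_mkC (y : G.JD S L.F) :
    (isoC L).inv.hom (mkC L (jdLinEquiv L y)) = Submodule.Quotient.mk y := by
  rw [← isoC_hom_mk]
  exact Rep.inv_hom_apply _ _ (isoC L) _

/-- The comparison isomorphism on `J × Div`, in `Rep ℤ Gal(F/ℚ)`. -/
def isoJD : G.JDRep S L.Gal L.F ≅ Rep.of (_root_.Fermat.Agent.S55.GAD.jdRepr L) :=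
  Rep.mkIso (Representation.Equiv.mk (jdLinEquiv L)
    (fun g => LinearMap.ext fun y => jdLinEquiv_equivariant L g y))

lemma isoJD_hom_apply (y : G.JD S L.F) : (isoJD L).hom.hom y = jdLinEquiv L y := rfl

/-- The comparison isomorphisms commute with the quotient maps. -/
lemma quotRepHom_isoC :
    G.quotRepHom S L.Gal L.F ≫ (isoC L).hom = (isoJD L).hom ≫ mkCHom L := by
  ext y
  rfl

/-! ### Compatibility with the maps `j_q` -/

/-- The class of an `S`-idèle `b` corresponds to `∑_q j_q (b_q)`. -/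
lemma isoC_jToC (b : (G.JRep L.Gal S L.F).V) :
    (isoC L).hom.hom ((G.jToCRepHom S L.Gal L.F).hom b) =
      ∑ q : S, (jT L q.1).hom ((jTow L q).hom b) := by
  rw [sum_jT]
  rfl

/-- `j_q` of the concrete datum is the inclusion of the `q`-component of `J_S(F)` followed by
`J_S(F) → C_S(F) ≅ C(L)`. -/
lemma jTowInv_jToC_isoC (q : S) :
    jTowInv L q ≫ G.jToCRepHom S L.Gal L.F ≫ (isoC L).hom = jT L q.1 := by
  ext x
  show (isoC L).hom.hom ((G.jToCRepHom S L.Gal L.F).hom ((jTowInv L q).hom x)) = (jT L q.1).hom x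
  rw [isoC_jToC]
  classical
  rw [Finset.sum_eq_single q]
  · rw [jTow_jTowInv_same]
  · intro q' _ hq'
    rw [jTow_jTowInv_ne L q hq', map_zero]
  · intro hq
    exact absurd (Finset.mem_univ q) hq

lemma jT_comp_isoC_inv (q : S) :
    jT L q.1 ≫ (isoC L).inv = jTowInv L q ≫ G.jToCRepHom S L.Gal L.F := by
  rw [← jTowInv_jToC_isoC, Category.assoc, Category.assoc, Iso.hom_inv_id, Category.comp_id]

/-! ### Compatibility with the transition maps -/

section Transition

variable {L} {L' : Level S} (h : L ≤ L')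

/-- The two `Algebra L.F L'.F` structures in use (helper594's and `GAD`'s) coincide. -/
lemma levelAlgebra_eq_h594 : GAD.levelAlgebra h = E1.H594.levelAlgebra h := rfl

/-- `GAD.divTr` is helper773's base change of divisors `G.DescH773.divBase`. -/
lemma divTr_eq_divBase (d : PrimeOut S L.F →₀ ℤ) :
    divTr h d = @DescH773.divBase S L.F L'.F _ _ _ _ (E1.H594.levelAlgebra h) d := by
  ext w
  rfl

/-- `G.jMap` is helper773's `jBase`. -/
lemma jMap_eq_jBase (b : Additive (AS S L.F)ˣ) :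
    @G.jMap S L.F L'.F _ _ _ _ (E1.H594.levelAlgebra h) b =
      @DescH773.jBase S L.F L'.F _ _ _ _ (E1.H594.levelAlgebra h) b := rfl

lemma jdLinEquiv_jdBase (y : G.JD S L.F) :
    jdLinEquiv L' (@DescH773.jdBase S L.F L'.F _ _ _ _ (E1.H594.levelAlgebra h) y) =
      trJD h (jdLinEquiv L y) := by
  refine Prod.ext (funext fun q => ?_) ?_
  · exact jTow_jMap h q y.1
  · exact (divTr_eq_divBase h y.2).symm

/-- **The comparison isomorphisms intertwine** helper773's base change `C_S(F) → C_S(F')`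
(`G.DescH773.cBase`) **with the transition map** `trT h` of the concrete datum. -/
theorem isoC_cBase (c : G.CS S L.F) :
    (isoC L').hom.hom (@DescH773.cBase S L.F L'.F _ _ _ _ (E1.H594.levelAlgebra h) c) =
      (trT h).hom ((isoC L).hom.hom c) := by
  obtain ⟨y, rfl⟩ := Submodule.Quotient.mk_surjective _ c
  exact congrArg (mkC L') (jdLinEquiv_jdBase h y)

/-- The base change `C_S(F) → C_S(F')` as a morphism `Res (C_S(F)) ⟶ C_S(F')` of
`Rep ℤ Gal(F'/ℚ)`, by transport of `trT h`. -/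
def cTrG : Rep.res (Level.proj h) (G.CRep S L.Gal L.F) ⟶ G.CRep S L'.Gal L'.F :=
  (Rep.resFunctor (Level.proj h)).map (isoC L).hom ≫ trT h ≫ (isoC L').inv

lemma cTrG_apply (c : G.CS S L.F) :
    (cTrG h).hom c = @DescH773.cBase S L.F L'.F _ _ _ _ (E1.H594.levelAlgebra h) c := by
  show (isoC L').inv.hom ((trT h).hom ((isoC L).hom.hom c)) = _
  rw [← isoC_cBase]
  exact Rep.inv_hom_apply _ _ (isoC L') _

lemma cTrG_comp_isoC :
    cTrG h ≫ (isoC L').hom = (Rep.resFunctor (Level.proj h)).map (isoC L).hom ≫ trT h := by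
  rw [cTrG, Category.assoc, Category.assoc, Iso.inv_hom_id, Category.comp_id]

end Transition

end

end Fermat.Agent.S55.GAD

end
-- ===== PACK-END S55/GAD/Iso.lean

-- ===== PACK-BEGIN S55/GAD/IsoH897.lean
section



/-!
# S55 / G-ADAPTER, leaf GAD-ISO (helper897): `G.CRep S L.Gal L.F ≅ GAD.CT L`

The comparison isomorphism between the `S`-idèle class group of layer G (tensor model
`(J_S(F) × Div^S(F)) / Fˣ`, `J_S(F) = (F ⊗ ℚ_S)ˣ`) and the class module of the concrete tower
datum (`CT L = (∏_{q ∈ S} J_q(L) × Div^S(F)) / L.units`), induced by the J-bridge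
`Ψ_L = (jTow L q)_q` (`G/LocH897/TowJ.lean`).

* `psiJD L : G.JD S L.F ≃ₗ[ℤ] GAD.JDV L`  (`Ψ_L × id`), equivariant, maps principal elements to
  principal elements;
* `cIso L : G.CRep S L.Gal L.F ≅ GAD.CT L`;
* `cIso_jToC` : `Φ ∘ jToCRepHom = mkC ∘ (Ψ, 0)`;  `cIso_quot` : `Φ (class of y) = mkC (psiJD y)`.
-/

set_option autoImplicit false
set_option linter.style.haveILetI false
set_option linter.unusedSectionVars false

open CategoryTheory

namespace Fermat.Agent.S55.GAD.H897

open Fermat.Agent.S55 Fermat.Agent.S55.Tow Fermat.Agent.S55.E1.H594 Fermat.Agent.S55.G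
open Fermat.Agent.S55.GAD Fermat.Agent.S55.G.LocH897

noncomputable section

variable {S : Finset Nat.Primes} (L : Level S)

/-- `Ψ_L × id : J_S(F) × Div^S(F) ≃ ∏_q J_q(L) × Div^S(F)`. -/
def psiJD : JD S L.F ≃ₗ[ℤ] JDV L :=
  LinearEquiv.prodCongr (jEquiv L) (LinearEquiv.refl ℤ (PrimeOut S L.F →₀ ℤ))

lemma psiJD_fst (y : JD S L.F) (q : S) : (psiJD L y).1 q = (jTow L q).hom y.1 := rfl

lemma psiJD_snd (y : JD S L.F) : (psiJD L y).2 = y.2 := rfl

lemma psiJD_equivariant (g : L.Gal) (y : JD S L.F) :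
    psiJD L (G.jdRepr S L.Gal L.F g y) = GAD.jdRepr L g (psiJD L y) := by
  refine Prod.ext (funext fun q => ?_) rfl
  exact Rep.hom_comm_apply (jTow L q) g y.1

lemma toField_levelUnitsIso (u : Additive (L.F)ˣ) :
    toField L ((levelUnitsIso L).hom.hom u) = u :=
  Rep.inv_hom_apply _ _ (levelUnitsIso L) u

lemma psiJD_diagHom (u : Additive (L.F)ˣ) :
    psiJD L (diagHom S L.F u) = diagT L ((levelUnitsIso L).hom.hom u) := by
  refine Prod.ext (funext fun q => ?_) ?_
  · exact jTow_unitsDiag L q u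
  · show ordHom S L.F u = ordHom S L.F (toField L ((levelUnitsIso L).hom.hom u))
    rw [_root_.Fermat.Agent.S55.GAD.H897.toField_levelUnitsIso]

lemma levelUnitsIso_toField (x : L.units.V) :
    (levelUnitsIso L).hom.hom (toField L x) = x :=
  Rep.hom_inv_apply _ _ (levelUnitsIso L) x

/-- `Ψ_L × id` maps the principal idèles onto the principal elements of the tower datum. -/
lemma map_principal : (principal S L.F).map (psiJD L).toLinearMap = princ L := by
  apply le_antisymm
  · rintro _ ⟨_, ⟨u, rfl⟩, rfl⟩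
    exact ⟨(levelUnitsIso L).hom.hom u, (psiJD_diagHom L u).symm⟩
  · rintro _ ⟨x, rfl⟩
    refine ⟨diagHom S L.F (toField L x), ⟨toField L x, rfl⟩, ?_⟩
    show psiJD L (diagHom S L.F (toField L x)) = diagT L x
    rw [psiJD_diagHom, _root_.Fermat.Agent.S55.GAD.H897.levelUnitsIso_toField]

/-- The comparison `C_S(F) ≃ C(L)` as a linear equivalence. -/
def cLinEquiv : CS S L.F ≃ₗ[ℤ] (JDV L ⧸ princ L) :=
  Submodule.Quotient.equiv (principal S L.F) (princ L) (psiJD L) (_root_.Fermat.Agent.S55.GAD.H897.map_principal L)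

lemma cLinEquiv_mk (y : JD S L.F) :
    _root_.Fermat.Agent.S55.GAD.H897.cLinEquiv L ((principal S L.F).mkQ y) = (princ L).mkQ (psiJD L y) := rfl

/-- The comparison as an equivalence of representations. -/
def cEquiv : (cRepr S L.Gal L.F).Equiv ((GAD.jdRepr L).quotient (princ L) (princ_stable L)) :=
  Representation.Equiv.mk (_root_.Fermat.Agent.S55.GAD.H897.cLinEquiv L) (fun g => LinearMap.ext fun c => by
    obtain ⟨y, rfl⟩ := Submodule.mkQ_surjective (principal S L.F) c
    exact congrArg (princ L).mkQ (psiJD_equivariant L g y))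

/-- **GAD-ISO.**  The comparison isomorphism `Φ_L : G.CRep S L.Gal L.F ≅ GAD.CT L`. -/
def cIso : CRep S L.Gal L.F ≅ CT L := Rep.mkIso (cEquiv L)

/-- `Φ (class of y) = class of (Ψ × id) y`. -/
theorem cIso_quot (y : JD S L.F) :
    (cIso L).hom.hom ((quotRepHom S L.Gal L.F).hom y) = mkC L (psiJD L y) := rfl

/-- `Φ ∘ jToCRepHom = mkC ∘ (Ψ, 0)`. -/
theorem cIso_jToC (b : Additive (AS S L.F)ˣ) :
    (cIso L).hom.hom ((jToCRepHom S L.Gal L.F).hom b) =
      mkC L (fun q => (jTow L q).hom b, 0) := rfl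

/-! ### Transport of cohomology -/

/-- The comparison isomorphism restricted to a subgroup. -/
def cIsoRes (H : Subgroup L.Gal) :
    Rep.res H.subtype (CRep S L.Gal L.F) ≅ Rep.res H.subtype (CT L) :=
  (Rep.resFunctor H.subtype).mapIso (cIso L)

/-- `Hⁿ(H, C_S(F)) ≅ Hⁿ(H, C(L))` for every subgroup `H ≤ Gal(F/ℚ)`. -/
def cohIso (H : Subgroup L.Gal) (n : ℕ) :
    groupCohomology (Rep.res H.subtype (CRep S L.Gal L.F)) n ≅
      groupCohomology (Rep.res H.subtype (CT L)) n :=
  (groupCohomology.functor ℤ H n).mapIso (cIsoRes L H)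

lemma cohIso_hom (H : Subgroup L.Gal) (n : ℕ) :
    (cohIso L H n).hom = groupCohomology.map (MonoidHom.id H) (cIsoRes L H).hom n := rfl

/-- `Hⁿ(Gal(F/ℚ), C_S(F)) ≅ Hⁿ(Gal(F/ℚ), C(L))`. -/
def cohIsoTop (n : ℕ) :
    groupCohomology (CRep S L.Gal L.F) n ≅ groupCohomology (CT L) n :=
  (groupCohomology.functor ℤ L.Gal n).mapIso (cIso L)

lemma cohIsoTop_hom (n : ℕ) :
    (cohIsoTop L n).hom = groupCohomology.map (MonoidHom.id L.Gal) (cIso L).hom n := rfl

/-! ### Compatibility with the transition maps -/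

section Trans

variable {L} {L' : Level S} (h : L ≤ L')

/-- The base change `J_S(F) × Div^S(F) → J_S(F') × Div^S(F')` of layer G
(`jMap × divExt`) for levels `L ≤ L'`. -/
def trG : JD S L.F →+ JD S L'.F :=
  (@jMap S L.F L'.F _ _ _ _ (GAD.levelAlgebra h)).prodMap (divTr h)

lemma trG_fst (y : JD S L.F) :
    (trG h y).1 = @jMap S L.F L'.F _ _ _ _ (GAD.levelAlgebra h) y.1 := rfl

lemma trG_snd (y : JD S L.F) : (trG h y).2 = divTr h y.2 := rfl

/-- The J-bridge intertwines `jMap` (w.r.t. `GAD.levelAlgebra`) and `Level.trJ`. -/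
lemma jTow_jMap' (q : S) (b : Additive (AS S L.F)ˣ) :
    (jTow L' q).hom (@jMap S L.F L'.F _ _ _ _ (GAD.levelAlgebra h) b) =
      (Level.trJ h q.1).hom ((jTow L q).hom b) :=
  jTow_jMap h q b

/-- `(Ψ_{L'} × id) ∘ tr_G = trJD ∘ (Ψ_L × id)`. -/
lemma psiJD_trG (y : JD S L.F) : psiJD L' (trG h y) = trJD h (psiJD L y) :=
  Prod.ext (funext fun q => jTow_jMap' h q y.1) rfl

/-- **`Φ_{L'} ∘ tr_G = trT ∘ Φ_L`** on classes. -/
theorem trT_cIso (y : JD S L.F) :
    (trT h).hom ((cIso L).hom.hom ((quotRepHom S L.Gal L.F).hom y)) =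
      (cIso L').hom.hom ((quotRepHom S L'.Gal L'.F).hom (trG h y)) := by
  rw [cIso_quot, cIso_quot, trT_mkC, psiJD_trG]

end Trans

end

end Fermat.Agent.S55.GAD.H897

end
-- ===== PACK-END S55/GAD/IsoH897.lean

-- ===== PACK-BEGIN S55/G/Exist/IdxH901Pow121.lean
section
/-
S55, layer G, block EXIST, leaf EX-POW (helper901): helper121's `Exist121.PowIndexSpec`
(exact type) from G-PL1.  Sorry-free.
-/



set_option autoImplicit false
set_option linter.unusedSectionVars false

open scoped NumberField TensorProduct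

namespace Fermat.Agent.S55.G.Exist.H901

open Fermat.Agent.S55.G

variable (S : Finset Nat.Primes) (K : Type) [Field K] [NumberField K]

/-- `[ker ord : p · ker ord]` (helper121's form) is `[E_S : p E_S]` (helper233's form). -/
theorem relIndex_pKer_eq (p : ℕ) :
    (Exist121.pKer (ordHom S K) p).relIndex (ordHom S K).ker =
      (AddMonoidHom.range (nsmulAddMonoidHom (α := sUnit S K) p)).index := by
  let e : sUnit S K ≃+ (ordHom S K).ker :=
    { toFun := fun x => ⟨x.1, x.2⟩
      invFun := fun x => ⟨x.1, x.2⟩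
      left_inv := fun _ => rfl
      right_inv := fun _ => rfl
      map_add' := fun _ _ => rfl }
  have h : (AddMonoidHom.range (nsmulAddMonoidHom (α := sUnit S K) p)).map
      (e : sUnit S K →+ (ordHom S K).ker) =
        (Exist121.pKer (ordHom S K) p).addSubgroupOf (ordHom S K).ker := by
    ext y
    rw [AddSubgroup.mem_map, AddSubgroup.mem_addSubgroupOf]
    constructor
    · rintro ⟨_, ⟨x, rfl⟩, rfl⟩
      exact ⟨x.1, x.2, rfl⟩
    · rintro ⟨x, hx, hxy⟩
      exact ⟨p • (⟨x, hx⟩ : sUnit S K), ⟨⟨x, hx⟩, rfl⟩, Subtype.ext hxy⟩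
  rw [AddSubgroup.relIndex, ← h, AddSubgroup.index_map_equiv]

/-- **EX-POW** (`Exist121.PowIndexSpec`, exact type) from G-PL1. -/
theorem powIndexSpec_of (hPP : PlacePrimeSpec) : Exist121.PowIndexSpec := by
  intro p hp hp2 S K _ _ hpS hζ
  rw [relIndex_pKer_eq]
  exact powIndex_eq_of S K hPP p hp2 hpS hζ

end Fermat.Agent.S55.G.Exist.H901

end
-- ===== PACK-END S55/G/Exist/IdxH901Pow121.lean

-- ===== PACK-BEGIN S55/G/LocH897/Conc.lean
section




/-!
# S55 / J-bridge (helper897), part 7: classes concentrated at one prime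

For `r ∈ S` and `S' = S ∖ {r}` the projection `J_S(F) → J_{S'}(F)` (`G.jRes`) has a section
`jSec`, and `J_S(F) = J_r(F) × J_{S'}(F)`:

* `extA : 𝔸_{S'}(F) → 𝔸_S(F)` : extension by zero (linear, multiplicative, equivariant),
  `asRes_extA`, `extA_asRes`;
* `jSec L r : G.JRep Γ S' F ⟶ G.JRep Γ S F` : extension by `1` at `r`;
* `jTow_comp_jTowInv_add : jTow L r ≫ jTowInv L r + jRes ≫ jSec = 𝟙`;
* `eq_of_jRes_eq_zero` : a class `y ∈ Hⁿ(Gal(F/ℚ), J_S(F))` whose image in
  `Hⁿ(Gal(F/ℚ), J_{S∖{r}}(F))` vanishes is the image of its `r`-component: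
  `y = (jTowInv r)_* ((jTow r)_* y)`; in particular `(jTow q)_* y = 0` for `q ≠ r`
  (`jTow_eq_zero_of_jRes_eq_zero`) and `y = 0` as soon as `(jTow r)_* y = 0`.
-/

set_option autoImplicit false
set_option linter.style.haveILetI false
set_option linter.unusedSectionVars false

open scoped TensorProduct
open CategoryTheory

namespace Fermat.Agent.S55.G.LocH897

open Fermat.Agent.S55 Fermat.Agent.S55.Tow Fermat.Agent.S55.Bridge.H175 Fermat.Agent.S55.E1.H594
open Fermat.Agent.S55.G Fermat.Agent.S55.G.PL0H713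

noncomputable section

/-! ### Extension by zero -/

section Ext

variable (S S' : Finset Nat.Primes)

open Classical in
/-- Extension by zero `ℚ_{S'} → ℚ_S`. -/
def ext0 : QS S' →ₗ[ℚ] QS S where
  toFun y := (QS.toPi S).symm
    (fun q : S => if hq : q.1 ∈ S' then QS.toPi S' y ⟨q.1, hq⟩ else 0)
  map_add' y z := by
    apply QS_ext
    intro q
    simp only [AlgEquiv.apply_symm_apply, map_add, Pi.add_apply]
    split_ifs <;> simp
  map_smul' c y := by
    apply QS_ext
    intro q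
    simp only [AlgEquiv.apply_symm_apply, map_smul, Pi.smul_apply, RingHom.id_apply]
    split_ifs <;> simp

variable {S S'}

lemma ext0_apply_mem (y : QS S') (q : S) (hq : q.1 ∈ S') :
    QS.toPi S (ext0 S S' y) q = QS.toPi S' y ⟨q.1, hq⟩ := by
  simp [ext0, hq]

lemma ext0_apply_not_mem (y : QS S') (q : S) (hq : q.1 ∉ S') :
    QS.toPi S (ext0 S S' y) q = 0 := by
  simp [ext0, hq]

lemma ext0_mul (y z : QS S') : ext0 S S' (y * z) = ext0 S S' y * ext0 S S' z := by
  apply QS_ext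
  intro q
  have hR : QS.toPi S (ext0 S S' y * ext0 S S' z) q =
      QS.toPi S (ext0 S S' y) q * QS.toPi S (ext0 S S' z) q := by
    rw [map_mul (QS.toPi S)]
    rfl
  rw [hR]
  by_cases hq : q.1 ∈ S'
  · rw [ext0_apply_mem _ q hq, ext0_apply_mem _ q hq, ext0_apply_mem _ q hq,
      map_mul (QS.toPi S')]
    rfl
  · rw [ext0_apply_not_mem _ q hq, ext0_apply_not_mem _ q hq, zero_mul]

lemma res_ext0 (h : S' ⊆ S) (y : QS S') : QS.res h (ext0 S S' y) = y := by
  apply QS_ext
  intro q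
  rw [QS.res_apply, ext0_apply_mem y ⟨q.1, h q.2⟩ q.2]

variable (S S') (F : Type) [Field F] [CharZero F]

/-- Extension by zero `𝔸_{S'}(F) → 𝔸_S(F)`. -/
def extA : AS S' F →ₗ[ℚ] AS S F := TensorProduct.map LinearMap.id (ext0 S S')

variable {S S'}

@[simp] lemma extA_tmul (x : F) (y : QS S') :
    extA S S' F (x ⊗ₜ[ℚ] y) = x ⊗ₜ[ℚ] ext0 S S' y := rfl

lemma extA_mul (a b : AS S' F) : extA S S' F (a * b) = extA S S' F a * extA S S' F b := by
  induction a using TensorProduct.induction_on with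
  | zero => simp
  | add a a' ha ha' => rw [add_mul, map_add, ha, ha', map_add, add_mul]
  | tmul x y =>
    induction b using TensorProduct.induction_on with
    | zero => simp
    | add b b' hb hb' => rw [mul_add, map_add, hb, hb', map_add, mul_add]
    | tmul x' y' =>
      rw [Algebra.TensorProduct.tmul_mul_tmul, extA_tmul, extA_tmul, extA_tmul,
        Algebra.TensorProduct.tmul_mul_tmul, ext0_mul]

lemma asRes_extA (h : S' ⊆ S) (a : AS S' F) : asRes h F (extA S S' F a) = a := by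
  induction a using TensorProduct.induction_on with
  | zero => simp
  | add a a' ha ha' => rw [map_add, map_add, ha, ha']
  | tmul x y => rw [extA_tmul, asRes_tmul, res_ext0]

variable {Γ : Type} [Group Γ] [MulSemiringAction Γ F]

lemma extA_asAut (g : Γ) (a : AS S' F) :
    extA S S' F (asAut S' Γ F g a) = asAut S Γ F g (extA S S' F a) := by
  induction a using TensorProduct.induction_on with
  | zero => simp
  | add a a' ha ha' => simp only [map_add, ha, ha']
  | tmul x y => rw [asAut_tmul, extA_tmul, extA_tmul, asAut_tmul]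

end Ext

/-! ### Removing one prime -/

section Erase

variable {S : Finset Nat.Primes} (r : S) (F : Type) [Field F] [CharZero F]

/-- The idempotent `e_r = 1 ⊗ 1_r` of `𝔸_S(F)`. -/
def idemAt : AS S F := (1 : F) ⊗ₜ[ℚ] single S r 1

lemma idemAt_mul_self : idemAt r F * idemAt r F = idemAt r F := by
  rw [idemAt, Algebra.TensorProduct.tmul_mul_tmul, one_mul, ← single_mul, one_mul]

lemma res_single_erase : QS.res (Finset.erase_subset r.1 S) (single S r 1) = 0 := by
  apply QS_ext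
  intro q
  rw [QS.res_apply, map_zero, Pi.zero_apply]
  apply single_apply_ne
  intro hq
  exact (Finset.mem_erase.1 q.2).1 (congrArg Subtype.val hq)

lemma asRes_idemAt : asRes (Finset.erase_subset r.1 S) F (idemAt r F) = 0 := by
  rw [idemAt, asRes_tmul, res_single_erase, TensorProduct.tmul_zero]

lemma ext0_res (y : QS S) :
    ext0 S (S.erase r.1) (QS.res (Finset.erase_subset r.1 S) y) = y * (1 - single S r 1) := by
  apply QS_ext
  intro q
  have hR : QS.toPi S (y * (1 - single S r 1)) q =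
      QS.toPi S y q * (1 - QS.toPi S (single S r 1) q) := by
    rw [map_mul (QS.toPi S), map_sub (QS.toPi S), map_one (QS.toPi S)]
    rfl
  rw [hR]
  by_cases hq : q = r
  · subst hq
    rw [single_apply_same, sub_self, mul_zero]
    exact ext0_apply_not_mem _ q (fun h => (Finset.mem_erase.1 h).1 rfl)
  · rw [single_apply_ne S r q hq, sub_zero, mul_one]
    have hq' : q.1 ∈ S.erase r.1 :=
      Finset.mem_erase.2 ⟨fun h => hq (Subtype.ext h), q.2⟩
    rw [ext0_apply_mem _ q hq']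
    rfl

lemma extA_asRes (x : AS S F) :
    extA S (S.erase r.1) F (asRes (Finset.erase_subset r.1 S) F x) = x * (1 - idemAt r F) := by
  induction x using TensorProduct.induction_on with
  | zero => simp
  | add a a' ha ha' => rw [map_add, map_add, ha, ha', add_mul]
  | tmul a y =>
    rw [asRes_tmul, extA_tmul, ext0_res, idemAt, mul_sub (a ⊗ₜ[ℚ] y), mul_one,
      Algebra.TensorProduct.tmul_mul_tmul, mul_one, mul_sub y, mul_one, TensorProduct.tmul_sub]

lemma extA_one : extA S (S.erase r.1) F 1 = 1 - idemAt r F := by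
  have := extA_asRes r F 1
  rwa [map_one, one_mul] at this

lemma extA_mul_idemAt (a : AS (S.erase r.1) F) : extA S (S.erase r.1) F a * idemAt r F = 0 := by
  have h1 : extA S (S.erase r.1) F a = extA S (S.erase r.1) F a * (1 - idemAt r F) := by
    conv_lhs => rw [← mul_one a, extA_mul, extA_one]
  rw [h1, mul_assoc, sub_mul, one_mul, idemAt_mul_self, sub_self, mul_zero]

/-- Extension by `1` at `r` on units. -/
def secUnits : (AS (S.erase r.1) F)ˣ →* (AS S F)ˣ where
  toFun v :=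
    { val := extA S (S.erase r.1) F v + idemAt r F
      inv := extA S (S.erase r.1) F (v⁻¹ : (AS (S.erase r.1) F)ˣ) + idemAt r F
      val_inv := by
        rw [add_mul, mul_add, mul_add, ← extA_mul, Units.mul_inv, extA_mul_idemAt,
          mul_comm (idemAt r F), extA_mul_idemAt, idemAt_mul_self, extA_one]
        ring
      inv_val := by
        rw [add_mul, mul_add, mul_add, ← extA_mul, Units.inv_mul, extA_mul_idemAt,
          mul_comm (idemAt r F), extA_mul_idemAt, idemAt_mul_self, extA_one]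
        ring }
  map_one' := by
    apply Units.ext
    show extA S (S.erase r.1) F 1 + idemAt r F = 1
    rw [extA_one]
    ring
  map_mul' v w := by
    apply Units.ext
    show extA S (S.erase r.1) F (v * w) + idemAt r F =
      (extA S (S.erase r.1) F v + idemAt r F) * (extA S (S.erase r.1) F w + idemAt r F)
    rw [add_mul, mul_add, mul_add, ← extA_mul, extA_mul_idemAt,
      mul_comm (idemAt r F), extA_mul_idemAt, idemAt_mul_self]
    ring

lemma coe_secUnits (v : (AS (S.erase r.1) F)ˣ) :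
    ((secUnits r F v : (AS S F)ˣ) : AS S F) = extA S (S.erase r.1) F v + idemAt r F := rfl

/-- Extension by `1` at `r`, additively: the section `J_{S∖{r}}(F) → J_S(F)` of `jRes`. -/
def jSecAdd : Additive (AS (S.erase r.1) F)ˣ →+ Additive (AS S F)ˣ :=
  MonoidHom.toAdditive (secUnits r F)

lemma coe_jSecAdd (v : Additive (AS (S.erase r.1) F)ˣ) :
    (((jSecAdd r F v).toMul : (AS S F)ˣ) : AS S F) =
      extA S (S.erase r.1) F ((v.toMul : (AS (S.erase r.1) F)ˣ) : AS (S.erase r.1) F) +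
        idemAt r F := rfl

lemma jRes_jSecAdd (v : Additive (AS (S.erase r.1) F)ˣ) :
    jRes (Finset.erase_subset r.1 S) F (jSecAdd r F v) = v := by
  apply Additive.toMul.injective
  apply Units.ext
  rw [coe_jRes_apply, coe_jSecAdd, map_add, asRes_extA, asRes_idemAt, add_zero]

lemma coe_jSecAdd_jRes (u : Additive (AS S F)ˣ) :
    (((jSecAdd r F (jRes (Finset.erase_subset r.1 S) F u)).toMul : (AS S F)ˣ) : AS S F) =
      ((u.toMul : (AS S F)ˣ) : AS S F) * (1 - idemAt r F) + idemAt r F := by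
  rw [coe_jSecAdd, coe_jRes_apply, extA_asRes]

variable (Γ : Type) [Group Γ] [MulSemiringAction Γ F]

lemma asAut_idemAt (g : Γ) : asAut S Γ F g (idemAt r F) = idemAt r F := by
  rw [idemAt, asAut_tmul, smul_one]

lemma jSecAdd_equivariant (g : Γ) (v : Additive (AS (S.erase r.1) F)ˣ) :
    jSecAdd r F (jRepr Γ (S.erase r.1) F g v) = jRepr Γ S F g (jSecAdd r F v) := by
  apply Additive.toMul.injective
  apply Units.ext
  show extA S (S.erase r.1) F (asAut (S.erase r.1) Γ F g _) + idemAt r F =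
    asAut S Γ F g (extA S (S.erase r.1) F _ + idemAt r F)
  rw [extA_asAut, map_add, asAut_idemAt]

/-- The section `J_{S∖{r}}(F) ⟶ J_S(F)` of `jRes` in `Rep ℤ Γ`. -/
def jSec : JRep Γ (S.erase r.1) F ⟶ JRep Γ S F :=
  Rep.ofHom ⟨(jSecAdd r F).toIntLinearMap,
    fun g => LinearMap.ext fun v => jSecAdd_equivariant r F Γ g v⟩

lemma jSec_hom_apply (v : Additive (AS (S.erase r.1) F)ˣ) :
    (jSec r F Γ).hom v = jSecAdd r F v := rfl

/-- `jSec` is a section of `jRes`. -/
theorem jSec_comp_jRes [NumberField F] :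
    jSec r F Γ ≫ G.Rec.TOW.jResRepHom Γ F (Finset.erase_subset r.1 S) = 𝟙 _ := by
  ext v
  exact jRes_jSecAdd r F v

end Erase

/-! ### The decomposition `J_S(F) = J_r(F) × J_{S∖{r}}(F)` for a tower level -/

section Level

variable {S : Finset Nat.Primes} (L : Level S) (r : S)

lemma evQ_idemAt_same : evQ L r (idemAt r L.F) = 1 := by
  rw [idemAt, evQ_one_tmul_single, map_one]

lemma evQ_idemAt_ne {q : S} (h : q ≠ r) : evQ L q (idemAt r L.F) = 0 := by
  rw [idemAt, evQ_tmul, single_apply_ne S r q h, map_zero, mul_zero]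

lemma asRingAut_idemAt (g : L.Gal) : asRingAut L.Gal S L.F g (idemAt r L.F) = idemAt r L.F := by
  rw [asRingAut_apply, asAut_idemAt]

lemma evQ_extA (a : AS (S.erase r.1) L.F) : evQ L r (extA S (S.erase r.1) L.F a) = 0 := by
  have h := congrArg (evQ L r) (extA_mul_idemAt r L.F a)
  rwa [map_mul, evQ_idemAt_same, mul_one, map_zero] at h

/-- The `r`-component of an element of the image of the section is trivial. -/
lemma jTowLin_jSecAdd_same (v : Additive (AS (S.erase r.1) L.F)ˣ) :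
    jTowLin L r (jSecAdd r L.F v) = 0 := by
  apply L.J_ext r.1
  intro g
  apply locCoe_oval_injective
  rw [Jeval_jTowLin, oval_jTowFun, coe_jSecAdd, map_add, asRingAut_idemAt, map_add,
    evQ_idemAt_same, asRingAut_apply, ← extA_asAut, evQ_extA, zero_add]
  rfl

/-- The components at `q ≠ r` only depend on the image in `J_{S∖{r}}(F)`. -/
lemma jTowLin_jSecAdd_jRes_ne {q : S} (h : q ≠ r) (u : Additive (AS S L.F)ˣ) :
    jTowLin L q (jSecAdd r L.F (jRes (Finset.erase_subset r.1 S) L.F u)) = jTowLin L q u := by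
  apply L.J_ext q.1
  intro g
  apply locCoe_oval_injective
  rw [Jeval_jTowLin, Jeval_jTowLin, oval_jTowFun, oval_jTowFun, coe_jSecAdd_jRes, map_add,
    map_mul, map_sub, map_one, asRingAut_idemAt, map_add, map_mul, map_sub, map_one,
    evQ_idemAt_ne L r h, sub_zero, mul_one, add_zero]

/-- **Decomposition** `b = incl_r (pr_r b) + sec (res b)` in `J_S(F)`. -/
theorem jInvLin_add_jSecAdd (b : Additive (AS S L.F)ˣ) :
    jInvLin L r (jTowLin L r b) +
      jSecAdd r L.F (jRes (Finset.erase_subset r.1 S) L.F b) = b := by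
  apply (jAll_bijective L).1
  funext q
  rw [map_add, Pi.add_apply, jAll_apply, jAll_apply, jAll_apply]
  by_cases h : q = r
  · subst h
    rw [jTowLin_jInvLin_same, jTowLin_jSecAdd_same, add_zero]
  · rw [jTowLin_jInvLin_ne L r h, zero_add, jTowLin_jSecAdd_jRes_ne L r h]

/-- The decomposition in `Rep ℤ Gal(F/ℚ)`. -/
theorem jTow_comp_jTowInv_add :
    jTow L r ≫ jTowInv L r +
      G.Rec.TOW.jResRepHom L.Gal L.F (Finset.erase_subset r.1 S) ≫ jSec r L.F L.Gal = 𝟙 _ := by
  ext b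
  exact jInvLin_add_jSecAdd L r b

/-- **Concentration.**  A class of `Hⁿ(Gal(F/ℚ), J_S(F))` which dies in
`Hⁿ(Gal(F/ℚ), J_{S∖{r}}(F))` is the image of its `r`-component. -/
theorem eq_of_jRes_eq_zero (n : ℕ) (y : groupCohomology (JRep L.Gal S L.F) n)
    (hy : (T.coeffMap (G.Rec.TOW.jResRepHom L.Gal L.F (Finset.erase_subset r.1 S)) n).hom y
      = 0) :
    y = (T.coeffMap (jTowInv L r) n).hom ((T.coeffMap (jTow L r) n).hom y) := by
  have h : (T.coeffMap (jTow L r ≫ jTowInv L r +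
      G.Rec.TOW.jResRepHom L.Gal L.F (Finset.erase_subset r.1 S) ≫ jSec r L.F L.Gal) n).hom y =
      (T.coeffMap (𝟙 (JRep L.Gal S L.F)) n).hom y :=
    congrArg (fun f => (T.coeffMap f n).hom y) (jTow_comp_jTowInv_add L r)
  rw [T.H635.coeffMap_id_apply, T.H635.coeffMap_add, T.H635.coeffMap_comp,
    T.H635.coeffMap_comp] at h
  have h2 : (T.coeffMap (jTow L r) n ≫ T.coeffMap (jTowInv L r) n +
      T.coeffMap (G.Rec.TOW.jResRepHom L.Gal L.F (Finset.erase_subset r.1 S)) n ≫
        T.coeffMap (jSec r L.F L.Gal) n).hom y =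
      (T.coeffMap (jTowInv L r) n).hom ((T.coeffMap (jTow L r) n).hom y) +
        (T.coeffMap (jSec r L.F L.Gal) n).hom
          ((T.coeffMap (G.Rec.TOW.jResRepHom L.Gal L.F (Finset.erase_subset r.1 S)) n).hom y)
      := rfl
  rw [h2, hy, map_zero, add_zero] at h
  exact h.symm

/-- A class concentrated at `r` with trivial `r`-component is trivial. -/
theorem eq_zero_of_isAt {y : groupCohomology (JRep L.Gal S L.F) 2}
    (hy : G.Rec.TOW.IsAt S L.Gal L.F r.1 y) (h0 : (T.coeffMap (jTow L r) 2).hom y = 0) :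
    y = 0 := by
  rw [eq_of_jRes_eq_zero L r 2 y hy, h0, map_zero]

/-- A class concentrated at `r` has trivial components at all `q ≠ r`. -/
theorem jTow_eq_zero_of_isAt {y : groupCohomology (JRep L.Gal S L.F) 2}
    (hy : G.Rec.TOW.IsAt S L.Gal L.F r.1 y) {q : S} (h : q ≠ r) :
    (T.coeffMap (jTow L q) 2).hom y = 0 := by
  rw [eq_of_jRes_eq_zero L r 2 y hy, T.H635.coeffMap_comp_apply,
    jTowInv_comp_jTow_of_ne L h, T.H635.coeffMap_zero_apply]

end Level

end

end Fermat.Agent.S55.G.LocH897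

end
-- ===== PACK-END S55/G/LocH897/Conc.lean

-- ===== PACK-BEGIN S55/G/PL1H173/Lattice.lean
section


/-!
# S55 layer G, leaf G-PL1 (helper173): integrality over `ℤ_S` in `L ⊗ ℚ_S`

* `ZS S = ∏_{q ∈ S} ℤ_q`, `zsIncl : ZS S →+* L ⊗ ℚ_S`;
* `exists_bound`: every element of `L ⊗ ℚ_S` has `S`-integral coordinates after multiplication
  by a non-zero natural number;
* `isIntegralElem_of_forall_mem_intRing`: an element which is integral at every place is
  integral over `ℤ_S`;
* `exists_bound_pow`: the powers of an element which is integral over `ℤ_S` have bounded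
  denominators.
-/

set_option autoImplicit false
set_option linter.unusedSectionVars false
set_option linter.style.haveILetI false

open scoped NumberField TensorProduct
open IsDedekindDomain

namespace Fermat.Agent.S55.G.PL1H173

open Fermat.Agent.S55.G Fermat.Agent.S55.G.PL0H713

variable (S : Finset Nat.Primes) (L : Type) [Field L] [NumberField L]

/-- `ℤ_S = ∏_{q ∈ S} ℤ_q`. -/
abbrev ZS : Type := ∀ q : S, @PadicInt (q.1 : ℕ) ⟨q.1.2⟩

/-- The inclusion `ℤ_S → ℚ_S`. -/
noncomputable def zsToQS : ZS S →+* QS S :=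
  ((QS.toPi S).symm : (∀ q : S, Qq q.1) →+* QS S).comp
    (RingHom.pi fun q : S =>
      (@PadicInt.Coe.ringHom (q.1 : ℕ) ⟨q.1.2⟩).comp
        (Pi.evalRingHom (fun q : S => @PadicInt (q.1 : ℕ) ⟨q.1.2⟩) q))

lemma toPi_zsToQS (u : ZS S) (q : S) :
    QS.toPi S (zsToQS S u) q = ((u q : @PadicInt (q.1 : ℕ) ⟨q.1.2⟩) : Qq q.1) := rfl

lemma isSInt_zsToQS (u : ZS S) : IsSInt S (zsToQS S u) := by
  intro q
  rw [toPi_zsToQS]
  exact (u q).2

/-- The structure map `ℤ_S → L ⊗ ℚ_S`. -/
noncomputable def zsIncl : ZS S →+* AS S L :=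
  ((asIncl S L : QS S →ₐ[ℚ] AS S L) : QS S →+* AS S L).comp (zsToQS S)

lemma zsIncl_apply (u : ZS S) : zsIncl S L u = asIncl S L (zsToQS S u) := rfl

lemma mk_comp_zsIncl (𝔪 : SPlace S L) :
    (LocField.mk S 𝔪).comp (zsIncl S L) =
      (ofZq S L 𝔪).comp
        (Pi.evalRingHom (fun q : S => @PadicInt (q.1 : ℕ) ⟨q.1.2⟩) (primeOf S L 𝔪)) := by
  refine RingHom.ext fun u => ?_
  change LocField.ofQS S 𝔪 (zsToQS S u) = _
  rw [ofQS_eq, toPi_zsToQS]
  rfl

/-! ### Bounded denominators -/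

lemma toPi_nsmul (D : ℕ) (y : QS S) (q : S) :
    QS.toPi S (D • y) q = (D : Qq q.1) * QS.toPi S y q := by
  rw [map_nsmul, Pi.smul_apply, nsmul_eq_mul]

lemma IsSInt.nsmul {y : QS S} (hy : IsSInt S y) (D : ℕ) : IsSInt S (D • y) := by
  intro q
  haveI : Fact (Nat.Prime (q.1 : ℕ)) := ⟨q.1.2⟩
  rw [toPi_nsmul, norm_mul]
  have h1 : ‖((D : ℕ) : ℚ_[(q.1 : ℕ)])‖ ≤ 1 := by
    have := Padic.norm_int_le_one (p := (q.1 : ℕ)) (D : ℤ)
    simpa using this
  exact mul_le_one₀ h1 (norm_nonneg _) (hy q)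

/-- Clearing the denominators of an element of `ℚ_S` at a finite set of primes. -/
lemma exists_nsmul_norm_le_one (y : QS S) (T : Finset S) :
    ∃ D : ℕ, D ≠ 0 ∧ ∀ q ∈ T, ‖QS.toPi S (D • y) q‖ ≤ 1 := by
  classical
  induction T using Finset.induction_on with
  | empty => exact ⟨1, one_ne_zero, fun q hq => absurd hq (Finset.notMem_empty q)⟩
  | insert q₀ T hq₀ ih =>
    obtain ⟨D, hD0, hD⟩ := ih
    haveI : Fact (Nat.Prime (q₀.1 : ℕ)) := ⟨q₀.1.2⟩
    have h1 : (1 : ℝ) < ((q₀.1 : ℕ) : ℝ) := by exact_mod_cast q₀.1.2.one_lt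
    obtain ⟨e, he⟩ := pow_unbounded_of_one_lt ‖QS.toPi S y q₀‖ h1
    refine ⟨D * (q₀.1 : ℕ) ^ e, mul_ne_zero hD0 (pow_ne_zero _ q₀.1.2.ne_zero), ?_⟩
    intro q hq
    haveI : Fact (Nat.Prime (q.1 : ℕ)) := ⟨q.1.2⟩
    rcases Finset.mem_insert.1 hq with rfl | hqT
    · rw [toPi_nsmul, norm_mul]
      have h2 : ‖((D * (q.1 : ℕ) ^ e : ℕ) : ℚ_[(q.1 : ℕ)])‖ ≤ ((q.1 : ℕ) : ℝ) ^ (-(e : ℤ)) := by
        push_cast
        rw [norm_mul, Padic.norm_p_pow]
        have h3 : ‖((D : ℕ) : ℚ_[(q.1 : ℕ)])‖ ≤ 1 := by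
          have := Padic.norm_int_le_one (p := (q.1 : ℕ)) (D : ℤ)
          simpa using this
        calc ‖((D : ℕ) : ℚ_[(q.1 : ℕ)])‖ * ((q.1 : ℕ) : ℝ) ^ (-(e : ℤ))
            ≤ 1 * ((q.1 : ℕ) : ℝ) ^ (-(e : ℤ)) :=
              mul_le_mul_of_nonneg_right h3 (zpow_nonneg (by positivity) _)
          _ = _ := one_mul _
      have hpos : (0 : ℝ) < ((q.1 : ℕ) : ℝ) ^ e := pow_pos (by linarith) _
      calc ‖((D * (q.1 : ℕ) ^ e : ℕ) : ℚ_[(q.1 : ℕ)])‖ * ‖QS.toPi S y q‖
          ≤ ((q.1 : ℕ) : ℝ) ^ (-(e : ℤ)) * ((q.1 : ℕ) : ℝ) ^ e :=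
            mul_le_mul h2 he.le (norm_nonneg _) (zpow_nonneg (by positivity) _)
        _ = 1 := by
          rw [zpow_neg, zpow_natCast, inv_mul_cancel₀ hpos.ne']
    · have h4 := hD q hqT
      rw [mul_comm, mul_smul, toPi_nsmul, norm_mul]
      have h5 : ‖(((q₀.1 : ℕ) ^ e : ℕ) : ℚ_[(q.1 : ℕ)])‖ ≤ 1 := by
        have := Padic.norm_int_le_one (p := (q.1 : ℕ)) (((q₀.1 : ℕ) ^ e : ℕ) : ℤ)
        simpa using this
      exact mul_le_one₀ h5 (norm_nonneg _) h4

lemma exists_nsmul_isSInt (y : QS S) : ∃ D : ℕ, D ≠ 0 ∧ IsSInt S (D • y) := by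
  obtain ⟨D, hD0, hD⟩ := exists_nsmul_norm_le_one S y Finset.univ
  exact ⟨D, hD0, fun q => hD q (Finset.mem_univ q)⟩

/-- Clearing the denominators of a finite family in `ℚ_S`. -/
lemma exists_nsmul_isSInt_finset {ι : Type*} (s : Finset ι) (f : ι → QS S) :
    ∃ D : ℕ, D ≠ 0 ∧ ∀ i ∈ s, IsSInt S (D • f i) := by
  classical
  induction s using Finset.induction_on with
  | empty => exact ⟨1, one_ne_zero, fun i hi => absurd hi (Finset.notMem_empty i)⟩
  | insert a s ha ih =>
    obtain ⟨D, hD0, hD⟩ := ih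
    obtain ⟨D', hD'0, hD'⟩ := exists_nsmul_isSInt S (f a)
    refine ⟨D * D', mul_ne_zero hD0 hD'0, ?_⟩
    intro i hi
    rcases Finset.mem_insert.1 hi with rfl | his
    · rw [mul_smul]
      exact hD'.nsmul S D
    · rw [mul_comm, mul_smul]
      exact (hD i his).nsmul S D'

/-- `c` has `S`-integral coordinates after multiplication by `D`. -/
def Bdd (D : ℕ) (c : AS S L) : Prop := ∀ i, IsSInt S (co S L i (D • c))

lemma exists_bound (c : AS S L) : ∃ D : ℕ, D ≠ 0 ∧ Bdd S L D c := by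
  obtain ⟨D, hD0, hD⟩ := exists_nsmul_isSInt_finset S Finset.univ (fun i => co S L i c)
  refine ⟨D, hD0, fun i => ?_⟩
  rw [map_nsmul]
  exact hD i (Finset.mem_univ i)

lemma Bdd.mul_left {D : ℕ} {c : AS S L} (h : Bdd S L D c) (D' : ℕ) : Bdd S L (D' * D) c := by
  intro i
  rw [mul_smul, map_nsmul]
  exact (h i).nsmul S D'

/-! ### Integrality over `ℤ_S` -/

/-- An element of `L ⊗ ℚ_S` which is integral at every place is integral over `ℤ_S`. -/
theorem isIntegralElem_of_forall_mem_intRing (β : AS S L)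
    (h : ∀ 𝔪 : SPlace S L, LocField.mk S 𝔪 β ∈ intRing S L 𝔪) :
    (zsIncl S L).IsIntegralElem β := by
  classical
  haveI : Finite (SPlace S L) := finite_sPlace S L
  letI : Fintype (SPlace S L) := Fintype.ofFinite _
  haveI := isArtinianRing_AS S L
  -- local polynomials
  have hloc : ∀ 𝔪 : SPlace S L, ∃ P : Polynomial (ZS S), P.Monic ∧
      Polynomial.eval₂ (zsIncl S L) β P ∈ 𝔪.asIdeal := by
    intro 𝔪
    haveI : Fact (Nat.Prime ((primeOf S L 𝔪).1 : ℕ)) := ⟨(primeOf S L 𝔪).1.2⟩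
    obtain ⟨p, hp, hpz⟩ := (mem_intRing_iff S L 𝔪 _).1 (h 𝔪)
    have hsurj : Function.Surjective
        (Pi.evalRingHom (fun q : S => @PadicInt (q.1 : ℕ) ⟨q.1.2⟩) (primeOf S L 𝔪)) :=
      Function.surjective_eval _
    obtain ⟨P, hPmap, -, hPmonic⟩ :=
      Polynomial.lifts_and_degree_eq_and_monic (Polynomial.mem_lifts_of_surjective hsurj p) hp
    refine ⟨P, hPmonic, ?_⟩
    rw [← LocField.mk_eq_zero_iff, Polynomial.hom_eval₂, mk_comp_zsIncl, ← Polynomial.eval₂_map,
      hPmap]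
    exact hpz
  choose P hPmonic hPmem using hloc
  -- the product lies in the Jacobson radical
  have hjac : Polynomial.eval₂ (zsIncl S L) β (∏ 𝔪, P 𝔪) ∈ Ideal.jacobson (⊥ : Ideal (AS S L)) := by
    rw [Ideal.jacobson, Ideal.mem_sInf]
    rintro J ⟨-, hJ⟩
    let 𝔪₀ : SPlace S L := ⟨J, hJ⟩
    have h1 : LocField.mk S 𝔪₀ (Polynomial.eval₂ (zsIncl S L) β (∏ 𝔪, P 𝔪)) = 0 := by
      rw [Polynomial.eval₂_finsetProd, map_prod]
      exact Finset.prod_eq_zero (Finset.mem_univ 𝔪₀)
        ((LocField.mk_eq_zero_iff S 𝔪₀ _).2 (hPmem 𝔪₀))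
    exact (LocField.mk_eq_zero_iff S 𝔪₀ _).1 h1
  obtain ⟨k, hk⟩ := IsArtinianRing.isNilpotent_jacobson_bot (R := AS S L)
  refine ⟨(∏ 𝔪, P 𝔪) ^ k, (Polynomial.monic_prod_of_monic _ _ (fun 𝔪 _ => hPmonic 𝔪)).pow k, ?_⟩
  rw [Polynomial.eval₂_pow]
  have h2 := Ideal.pow_mem_pow hjac k
  rw [hk] at h2
  exact h2

/-- The powers of an element which is integral over `ℤ_S` have bounded denominators. -/
theorem exists_bound_pow (β : AS S L) (hβ : (zsIncl S L).IsIntegralElem β) :
    ∃ D : ℕ, D ≠ 0 ∧ ∀ j : ℕ, Bdd S L D (β ^ j) := by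
  classical
  letI : Algebra (ZS S) (AS S L) := (zsIncl S L).toAlgebra
  have hint : IsIntegral (ZS S) β := hβ
  obtain ⟨t, ht⟩ := hint.fg_adjoin_singleton
  choose Dfun hD0 hD using exists_bound S L
  -- the lattice of elements bounded by `D`
  let D : ℕ := ∏ g ∈ t, Dfun g
  have hD0' : D ≠ 0 := Finset.prod_ne_zero_iff.2 (fun g _ => hD0 g)
  let Lat : Submodule (ZS S) (AS S L) :=
    { carrier := {c | Bdd S L D c}
      add_mem' := fun {a b} ha hb i => by
        rw [smul_add, map_add]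
        exact (ha i).add (hb i)
      zero_mem' := fun i => by
        rw [smul_zero, map_zero]
        exact isSInt_zero S
      smul_mem' := fun u c hc i => by
        have h1 : (D • (u • c) : AS S L) = (D • c) * asIncl S L (zsToQS S u) := by
          change (D • (zsIncl S L u * c) : AS S L) = _
          rw [zsIncl_apply, mul_comm, smul_mul_assoc]
        rw [h1, co_mul_asIncl]
        exact (hc i).mul (isSInt_zsToQS S u) }
  have hsub : ∀ g ∈ t, g ∈ Lat := by
    intro g hg
    have h1 : D = (∏ g' ∈ t.erase g, Dfun g') * Dfun g := by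
      rw [mul_comm]
      exact (Finset.mul_prod_erase t Dfun hg).symm
    change Bdd S L D g
    rw [h1]
    exact (hD g).mul_left S L _
  have hle : Submodule.span (ZS S) (t : Set (AS S L)) ≤ Lat := Submodule.span_le.2 hsub
  refine ⟨D, hD0', fun j => ?_⟩
  have h2 : β ^ j ∈ (Algebra.adjoin (ZS S) {β}).toSubmodule :=
    Subalgebra.pow_mem _ (Algebra.self_mem_adjoin_singleton _ β) j
  rw [← ht] at h2
  exact hle h2

end Fermat.Agent.S55.G.PL1H173

end
-- ===== PACK-END S55/G/PL1H173/Lattice.lean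

-- ===== PACK-BEGIN S55/G/PL1H173/Inj.lean
section


/-!
# S55 layer G, leaf G-PL1 (helper173): `primeAt` is injective

Two places of `L ⊗ ℚ_S` inducing the same prime of `𝓞 L` are equal.
-/

set_option autoImplicit false
set_option linter.unusedSectionVars false
set_option linter.style.haveILetI false

open scoped NumberField TensorProduct
open IsDedekindDomain WithZero

namespace Fermat.Agent.S55.G.PL1H173

open Fermat.Agent.S55.G Fermat.Agent.S55.G.PL0H713

variable (S : Finset Nat.Primes) (L : Type) [Field L] [NumberField L]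

lemma primeOf_eq_of_primeAt_eq (𝔪 𝔪' : SPlace S L) (h : primeAt S L 𝔪 = primeAt S L 𝔪') :
    primeOf S L 𝔪' = primeOf S L 𝔪 := by
  apply primeOf_eq_of_mem_primeAt
  rw [h]
  exact natCast_primeOf_mem_primeAt S L 𝔪'

lemma asIdeal_le_of_primeAt_eq (𝔪 𝔪' : SPlace S L) (h : primeAt S L 𝔪 = primeAt S L 𝔪') :
    𝔪.asIdeal ≤ 𝔪'.asIdeal := by
  intro a ha
  by_contra hne
  have h0 : LocField.mk S 𝔪 a = 0 := (LocField.mk_eq_zero_iff S 𝔪 a).2 ha
  have hγ : locVal S L 𝔪' (LocField.mk S 𝔪' a) ≠ 0 :=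
    (Valuation.ne_zero_iff _).2 (fun h1 => hne ((LocField.mk_eq_zero_iff S 𝔪' a).1 h1))
  obtain ⟨x, hx, hx'⟩ := exists_approx₂ S L 𝔪 𝔪' (primeOf_eq_of_primeAt_eq S L 𝔪 𝔪' h) a
    _ _ hγ hγ
  rw [h0, zero_sub, Valuation.map_neg, locVal_toLoc, h, ← locVal_toLoc] at hx
  have h2 : LocField.mk S 𝔪' a = (LocField.mk S 𝔪' a - toLoc S 𝔪' x) + toLoc S 𝔪' x := by ring
  have h3 := Valuation.map_add_lt _ hx' hx
  rw [← h2] at h3
  exact lt_irrefl _ h3

/-- **Injectivity** of `𝔪 ↦ primeAt 𝔪`. -/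
theorem primeAt_injective : Function.Injective (primeAt S L) := by
  intro 𝔪 𝔪' h
  apply MaximalSpectrum.ext
  haveI := 𝔪.isMaximal
  exact Ideal.IsMaximal.eq_of_le 𝔪.isMaximal 𝔪'.isMaximal.ne_top
    (asIdeal_le_of_primeAt_eq S L 𝔪 𝔪' h)

end Fermat.Agent.S55.G.PL1H173

end
-- ===== PACK-END S55/G/PL1H173/Inj.lean

-- ===== PACK-BEGIN S55/G/PL1H173/Surj.lean
section



/-!
# S55 layer G, leaf G-PL1 (helper173): every prime above `S` comes from a place

`exists_place_of_isAbove`: for every prime `w` of `𝓞 L` above `S` there is a place `𝔪` of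
`L ⊗ ℚ_S` with `primeAt 𝔪 = w`.
-/

set_option autoImplicit false
set_option linter.unusedSectionVars false
set_option linter.style.haveILetI false

open scoped NumberField TensorProduct
open IsDedekindDomain WithZero

namespace Fermat.Agent.S55.G.PL1H173

open Fermat.Agent.S55.G Fermat.Agent.S55.G.PL0H713

variable (S : Finset Nat.Primes) (L : Type) [Field L] [NumberField L]

/-- Prime avoidance: if no place induces `w`, some non-zero element of `w` is a unit at every
place. -/
lemma exists_mem_notMem_primeAt (w : HeightOneSpectrum (𝓞 L)) (hw : IsAbove S L w)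
    (hne : ∀ 𝔪 : SPlace S L, primeAt S L 𝔪 ≠ w) :
    ∃ a : 𝓞 L, a ≠ 0 ∧ a ∈ w.asIdeal ∧ ∀ 𝔪 : SPlace S L, a ∉ (primeAt S L 𝔪).asIdeal := by
  classical
  haveI : Finite (SPlace S L) := finite_sPlace S L
  letI : Fintype (SPlace S L) := Fintype.ofFinite _
  let s : Finset (HeightOneSpectrum (𝓞 L)) := Finset.univ.image (primeAt S L)
  have hav := Ideal.subset_union_prime (s := s) (f := fun v => v.asIdeal) w w
    (fun i _ _ _ => i.isPrime) (I := w.asIdeal)
  have hnot : ¬ ((w.asIdeal : Set (𝓞 L)) ⊆ ⋃ i ∈ (↑s : Set (HeightOneSpectrum (𝓞 L))),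
      (i.asIdeal : Set (𝓞 L))) := by
    intro hsub
    obtain ⟨i, his, hle⟩ := hav.1 hsub
    obtain ⟨𝔪, -, rfl⟩ := Finset.mem_image.1 his
    have heq : w.asIdeal = (primeAt S L 𝔪).asIdeal :=
      Ideal.IsMaximal.eq_of_le w.isMaximal (primeAt S L 𝔪).isPrime.ne_top hle
    exact hne 𝔪 (HeightOneSpectrum.ext heq.symm)
  obtain ⟨a, haw, hau⟩ := Set.not_subset.1 hnot
  have ha : ∀ 𝔪 : SPlace S L, a ∉ (primeAt S L 𝔪).asIdeal := by
    intro 𝔪 hmem
    apply hau
    simp only [Set.mem_iUnion]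
    exact ⟨primeAt S L 𝔪, Finset.mem_coe.2 (Finset.mem_image_of_mem _ (Finset.mem_univ 𝔪)), hmem⟩
  by_cases ha0 : a = 0
  · obtain ⟨q, -, hq⟩ := hw
    refine ⟨((q : ℕ) : 𝓞 L), ?_, hq, ?_⟩
    · exact_mod_cast q.2.ne_zero
    · intro 𝔪
      exact absurd (ha0 ▸ (primeAt S L 𝔪).asIdeal.zero_mem) (ha 𝔪)
  · exact ⟨a, ha0, haw, ha⟩

/-- **Surjectivity** of `𝔪 ↦ primeAt 𝔪` onto the primes above `S`. -/
theorem exists_place_of_isAbove (w : HeightOneSpectrum (𝓞 L)) (hw : IsAbove S L w) :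
    ∃ 𝔪 : SPlace S L, primeAt S L 𝔪 = w := by
  by_contra hcon
  obtain ⟨a, ha0, haw, ha⟩ := exists_mem_notMem_primeAt S L w hw (fun 𝔪 h => hcon ⟨𝔪, h⟩)
  have haL : (a : L) ≠ 0 := by
    intro h
    exact ha0 (by exact_mod_cast h)
  -- `a⁻¹ ⊗ 1` is integral at every place
  have hint : ∀ 𝔪 : SPlace S L, LocField.mk S 𝔪 (asDiag S L (a : L)⁻¹) ∈ intRing S L 𝔪 := by
    intro 𝔪
    rw [← locVal_le_one_iff]
    change locVal S L 𝔪 (toLoc S 𝔪 (a : L)⁻¹) ≤ 1
    rw [map_inv₀, map_inv₀]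
    have h1 : locVal S L 𝔪 (toLoc S 𝔪 (a : L)) = 1 := pullVal_int_eq_one S L 𝔪 a (ha 𝔪)
    rw [h1, inv_one]
  obtain ⟨D, hD0, hD⟩ := exists_bound_pow S L _
    (isIntegralElem_of_forall_mem_intRing S L _ hint)
  -- hence `D * a⁻ʲ` is integral at `w` for all `j`
  have hval : ∀ j : ℕ, w.valuation L ((D : L) * ((a : L)⁻¹) ^ j) ≤ 1 := by
    intro j
    apply valuation_le_one_of_isSInt_co S L w hw
    intro i
    have h1 : asDiag S L ((D : L) * ((a : L)⁻¹) ^ j) = D • (asDiag S L (a : L)⁻¹) ^ j := by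
      rw [map_mul, map_pow, map_natCast, nsmul_eq_mul]
    rw [h1]
    exact hD j i
  -- contradiction
  have hva : w.valuation L (a : L) ≤ exp (-1 : ℤ) := by
    rw [← lt_one_iff_le_exp_neg_one]
    exact (HeightOneSpectrum.valuation_lt_one_iff_mem (K := L) w a).2 haw
  have hva0 : w.valuation L (a : L) ≠ 0 := (Valuation.ne_zero_iff _).2 haL
  have hDL : (D : L) ≠ 0 := by exact_mod_cast hD0
  have hvD0 : w.valuation L (D : L) ≠ 0 := (Valuation.ne_zero_iff _).2 hDL
  obtain ⟨k, hk⟩ := exists_exp_neg_natCast_lt hvD0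
  have h2 := hval k
  rw [map_mul, map_pow, map_inv₀] at h2
  have h3 : w.valuation L (D : L) ≤ (w.valuation L (a : L)) ^ k := by
    have hpos : 0 < (w.valuation L (a : L)) ^ k := pow_pos (zero_lt_iff.2 hva0) k
    rw [inv_pow] at h2
    calc w.valuation L (D : L)
        = w.valuation L (D : L) * ((w.valuation L (a : L)) ^ k)⁻¹ * (w.valuation L (a : L)) ^ k := by
          rw [mul_assoc, inv_mul_cancel₀ hpos.ne', mul_one]
      _ ≤ 1 * (w.valuation L (a : L)) ^ k := mul_le_mul' h2 le_rfl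
      _ = _ := one_mul _
  have h4 : (w.valuation L (a : L)) ^ k ≤ exp (-(k : ℤ)) := by
    have := pow_le_pow_left₀ zero_le hva k
    refine this.trans (le_of_eq ?_)
    rw [← exp_nsmul]
    simp
  exact absurd (h3.trans h4) (not_le.2 hk)

end Fermat.Agent.S55.G.PL1H173

end
-- ===== PACK-END S55/G/PL1H173/Surj.lean

-- ===== PACK-BEGIN S55/G/PL1H173/Main.lean
section



/-!
# S55 layer G, leaf G-PL1 (helper173): places above `S` = primes above `S`

* `primeAt_sPlaceSMul` : Galois equivariance of `𝔪 ↦ primeAt 𝔪`;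
* `placePrimeEquiv S L : SPlace S L ≃ PrimeIn S L`;
* `placePrime : PlacePrimeSpec`   (**G-PL1**, unconditional).
-/

set_option autoImplicit false
set_option linter.unusedSectionVars false
set_option linter.style.haveILetI false

open scoped NumberField TensorProduct
open IsDedekindDomain WithZero

namespace Fermat.Agent.S55.G.PL1H173

open Fermat.Agent.S55.G Fermat.Agent.S55.G.PL0H713

variable (S : Finset Nat.Primes) (L : Type) [Field L] [NumberField L]

/-! ### Intrinsic description of the ring of integers -/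

/-- Integrality over `ℤ_S` in `L_𝔪` is membership in the ring of integers. -/
lemma mem_intRing_iff_zs (𝔪 : SPlace S L) (y : LocField S 𝔪) :
    y ∈ intRing S L 𝔪 ↔ ((LocField.mk S 𝔪).comp (zsIncl S L)).IsIntegralElem y := by
  haveI : Fact (Nat.Prime ((primeOf S L 𝔪).1 : ℕ)) := ⟨(primeOf S L 𝔪).1.2⟩
  rw [mem_intRing_iff, mk_comp_zsIncl]
  constructor
  · rintro ⟨p, hp, hpz⟩
    have hsurj : Function.Surjective
        (Pi.evalRingHom (fun q : S => @PadicInt (q.1 : ℕ) ⟨q.1.2⟩) (primeOf S L 𝔪)) :=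
      Function.surjective_eval _
    obtain ⟨P, hPmap, -, hPmonic⟩ :=
      Polynomial.lifts_and_degree_eq_and_monic (Polynomial.mem_lifts_of_surjective hsurj p) hp
    refine ⟨P, hPmonic, ?_⟩
    rw [← Polynomial.eval₂_map, hPmap]
    exact hpz
  · rintro ⟨P, hP, hPz⟩
    refine ⟨P.map (Pi.evalRingHom (fun q : S => @PadicInt (q.1 : ℕ) ⟨q.1.2⟩) (primeOf S L 𝔪)),
      hP.map _, ?_⟩
    rw [Polynomial.eval₂_map]
    exact hPz

/-! ### Equivariance -/

section Equivariance

variable (G : Type) [Group G] [MulSemiringAction G L]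

/-- Transfer of integrality along `g ⊗ 1`. -/
lemma locVal_toLoc_smul_le_one (𝔪₁ 𝔪₂ : SPlace S L) (g : G)
    (h : 𝔪₁.asIdeal ≤ Ideal.comap (asRingAut G S L g : AS S L →+* AS S L) 𝔪₂.asIdeal) (x : L)
    (hx : locVal S L 𝔪₁ (toLoc S 𝔪₁ x) ≤ 1) : locVal S L 𝔪₂ (toLoc S 𝔪₂ (g • x)) ≤ 1 := by
  rw [locVal_le_one_iff, mem_intRing_iff_zs] at hx ⊢
  obtain ⟨P, hP, hPz⟩ := hx
  refine ⟨P, hP, ?_⟩
  let σ : LocField S 𝔪₁ →+* LocField S 𝔪₂ :=
    Ideal.quotientMap 𝔪₂.asIdeal (asRingAut G S L g : AS S L →+* AS S L) h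
  have h1 : σ.comp ((LocField.mk S 𝔪₁).comp (zsIncl S L)) =
      (LocField.mk S 𝔪₂).comp (zsIncl S L) := by
    refine RingHom.ext fun u => ?_
    change Ideal.Quotient.mk _ (asRingAut G S L g (asIncl S L (zsToQS S u))) = _
    rw [asRingAut_apply, asAut_asIncl]
    rfl
  have h2 : σ (toLoc S 𝔪₁ x) = toLoc S 𝔪₂ (g • x) := by
    change Ideal.Quotient.mk _ (asRingAut G S L g (asDiag S L x)) = _
    rw [asRingAut_apply, asAut_asDiag]
    rfl
  rw [← h1, ← h2, ← Polynomial.hom_eval₂, hPz, map_zero]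

lemma le_comap_sPlaceSMul (𝔪 : SPlace S L) (g : G) :
    𝔪.asIdeal ≤ Ideal.comap (asRingAut G S L g : AS S L →+* AS S L)
      (sPlaceSMul S G g 𝔪).asIdeal := by
  intro a ha
  rw [Ideal.mem_comap]
  exact Ideal.mem_map_of_mem _ ha

lemma sPlaceSMul_le_comap (𝔪 : SPlace S L) (g : G) :
    (sPlaceSMul S G g 𝔪).asIdeal ≤
      Ideal.comap (asRingAut G S L g⁻¹ : AS S L →+* AS S L) 𝔪.asIdeal := by
  intro a ha
  rw [Ideal.mem_comap]
  exact (mem_sPlaceSMul_iff S G g 𝔪 a).1 ha

/-- **Equivariance** of `𝔪 ↦ primeAt 𝔪`. -/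
theorem primeAt_sPlaceSMul (g : G) (𝔪 : SPlace S L) :
    primeAt S L (sPlaceSMul S G g 𝔪) = primeSMul G g (primeAt S L 𝔪) := by
  symm
  apply HeightOneSpectrum.ext
  refine Ideal.IsMaximal.eq_of_le (primeSMul G g (primeAt S L 𝔪)).isMaximal
    (primeAt S L (sPlaceSMul S G g 𝔪)).isPrime.ne_top ?_
  intro y hy
  rw [mem_primeSMul_iff] at hy
  rw [← locVal_toLoc_lt_one_iff] at hy ⊢
  by_contra hcon
  have h1 : locVal S L (sPlaceSMul S G g 𝔪) (toLoc S (sPlaceSMul S G g 𝔪) (y : L)) = 1 :=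
    le_antisymm (locVal_toLoc_le_one S L _ y) (not_lt.1 hcon)
  have h2 : locVal S L (sPlaceSMul S G g 𝔪) (toLoc S (sPlaceSMul S G g 𝔪) (y : L)⁻¹) ≤ 1 := by
    rw [map_inv₀, map_inv₀, h1, inv_one]
  have h3 := locVal_toLoc_smul_le_one S L G (sPlaceSMul S G g 𝔪) 𝔪 g⁻¹
    (sPlaceSMul_le_comap S L G 𝔪 g) _ h2
  have h4 : g⁻¹ • (y : L)⁻¹ = (((g⁻¹ • y : 𝓞 L) : L))⁻¹ :=
    map_inv₀ (MulSemiringAction.toRingHom G L g⁻¹) (y : L)
  rw [h4, map_inv₀, map_inv₀] at h3
  have hy0 : locVal S L 𝔪 (toLoc S 𝔪 ((g⁻¹ • y : 𝓞 L) : L)) ≠ 0 := by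
    intro h0
    rw [h0, inv_zero] at h3
    rw [h0] at hy
    -- `g⁻¹ • y = 0`, so `y = 0`, contradicting `h1`
    have h5 : toLoc S 𝔪 ((g⁻¹ • y : 𝓞 L) : L) = 0 := (Valuation.zero_iff _).1 h0
    have h6 : ((g⁻¹ • y : 𝓞 L) : L) = 0 := (toLoc S 𝔪).injective (h5.trans (map_zero _).symm)
    have h7 : (g⁻¹ • y : 𝓞 L) = 0 := by exact_mod_cast h6
    have h8 : y = 0 := by
      have := congrArg (fun t => g • t) h7
      simpa using this
    rw [h8] at h1
    simp at h1
  have h5 := (inv_le_one₀ (zero_lt_iff.2 hy0)).1 h3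
  exact absurd hy (not_lt.2 h5)

end Equivariance

/-! ### The bijection and the frozen interface -/

/-- The bijection between the places of `L ⊗ ℚ_S` and the primes of `𝓞 L` above `S`. -/
noncomputable def placePrimeEquiv : SPlace S L ≃ PrimeIn S L :=
  Equiv.ofBijective (fun 𝔪 => (⟨primeAt S L 𝔪, isAbove_primeAt S L 𝔪⟩ : PrimeIn S L))
    ⟨fun 𝔪 𝔪' h => primeAt_injective S L (congrArg Subtype.val h),
      fun w => by
        obtain ⟨𝔪, h𝔪⟩ := exists_place_of_isAbove S L w.1 w.2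
        exact ⟨𝔪, Subtype.ext h𝔪⟩⟩

@[simp] lemma placePrimeEquiv_apply (𝔪 : SPlace S L) :
    (placePrimeEquiv S L 𝔪).1 = primeAt S L 𝔪 := rfl

/-- Any ring of integers of `L_𝔪` is `intRing`. -/
lemma eq_intRing (𝔪 : SPlace S L) (A : ValuationSubring (LocField S 𝔪))
    (hA : Fermat.Agent.S55.L.IsLocalRingOfIntegers A) : A = intRing S L 𝔪 := by
  haveI := isLocalFld_locField S L 𝔪
  exact Fermat.Agent.S55.L.ringOfIntegersUnique775 (LocField S 𝔪) A (intRing S L 𝔪) hA
    (isLocalRingOfIntegers_intRing S L 𝔪)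

/-- **G-PL1.**  The places above `S` are the primes above `S`. -/
theorem placePrime : PlacePrimeSpec := by
  intro S L _ _
  refine ⟨placePrimeEquiv S L, ?_, ?_⟩
  · intro G _ _ g 𝔪
    exact primeAt_sPlaceSMul S L G g 𝔪
  · intro 𝔪 A hA x
    rw [eq_intRing S L 𝔪 A hA]
    exact mem_primeAt_iff S L 𝔪 x

end Fermat.Agent.S55.G.PL1H173

end
-- ===== PACK-END S55/G/PL1H173/Main.lean

-- ===== PACK-BEGIN S55/G/Rec/Tow/FR/PrimePlaceH233.lean
section
/-
S55 / layer G / block REC / adapter TOW / leaf FR-D (subtask 661), helper233.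

`primePlace : FR.PrimePlaceSpec` (exact type of `FR/Spec.lean`), unconditional:
a subgroup `Z ≤ Gal(M/ℚ)` fixing a prime of `𝒪_M` above `r ∈ S` fixes a place of `M ⊗ ℚ_S`.
From the equivariant bijection `SPlace S M ≃ PrimeIn S M` (`G.PlacePrimeSpec`, helper173).
-/



set_option autoImplicit false
set_option linter.unusedSectionVars false
set_option linter.style.haveILetI false

open scoped NumberField
open IsDedekindDomain

noncomputable section

namespace Fermat.Agent.S55.G.Rec.TOW.FR.H233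

open Fermat.Agent.S55 Fermat.Agent.S55.Tow Fermat.Agent.S55.E1.H594 Fermat.Agent.S55.G.Rec

/-- **FR-D** from `G.PlacePrimeSpec`. -/
theorem primePlace_of (hPP : G.PlacePrimeSpec) : PrimePlaceSpec := by
  intro S M r hr Z hZ
  obtain ⟨w, hw, hfix⟩ := hZ
  obtain ⟨β, hβ, -⟩ := hPP S M.F
  have hwS : G.IsAbove S M.F w := ⟨r, hr, hw⟩
  let w' : G.PrimeIn S M.F := ⟨w, hwS⟩
  have hw' : (β (β.symm w')).1 = w := by rw [Equiv.apply_symm_apply]
  refine ⟨β.symm w', fun z hz => ?_⟩
  apply β.injective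
  apply Subtype.ext
  rw [hβ M.Gal z (β.symm w'), hw']
  exact hfix z hz

/-- **FR-D**, unconditional. -/
theorem primePlace : PrimePlaceSpec := primePlace_of G.PL1H173.placePrime

end Fermat.Agent.S55.G.Rec.TOW.FR.H233

end
end
-- ===== PACK-END S55/G/Rec/Tow/FR/PrimePlaceH233.lean

-- ===== PACK-BEGIN S55/G/Rec/HP/Main.lean
section






/-!
# S55 / layer G / block REC / adapter HP : MAIN THEOREM  (subtask 378, REC2-HP)

`hassePrinciple : G.PClassUpperSpec → G.ClassShortExactSpec → G.ShapiroJSpec →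
    HassePrincipleSpec p`   (`p` an odd prime).

Leaves: `localGlue` (helper473), `H126.globalDescent`, `H126.globalUp` (helper126),
`H795.hasseFinP_of` (helper795; second proof `H599.hasseFinP_of`), `H841.hasseFin_of`
(helper841), assembly `hassePrinciple_of` (helper473).
-/

set_option autoImplicit false

namespace Fermat.Agent.S55.G.Rec.HP

/-- **HP**: the Hasse principle for the `p`-primary part of the Brauer group of every number
field inside `ℚ̄` (Prelude cochains), from the class module upper bound of layer G. -/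
theorem hassePrinciple (p : ℕ) [Fact p.Prime] (hp2 : p ≠ 2) (hUP : G.PClassUpperSpec)
    (hSES : G.ClassShortExactSpec) (hLOC : G.ShapiroJSpec) : HassePrincipleSpec p :=
  hassePrinciple_of p (H841.hasseFin_of p (H795.hasseFinP_of p hp2 hUP hSES hLOC))
    H126.globalDescent H126.globalUp localGlue

end Fermat.Agent.S55.G.Rec.HP

end
-- ===== PACK-END S55/G/Rec/HP/Main.lean

-- ===== PACK-BEGIN S56/Euler/Big/H2CPH765.lean
section




/-!
# Row S56 / BASE-BIG — leaf H2-CP (helper765): the equivariant `H²` formula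

`h2cp_of : TopLoc → TopGlob → H2CPSpec p S` and
`h2cp_of_four : Surj2Glob → Surj2Loc → Inv → Cap → H2CPSpec p S`.

The tail `0 → H²(N) → ∏_v H²(G_v, N) → T³(N) → 0` of the Poitou–Tate sequence is exact when
`Ш²(N) = 0`, and it commutes with `T_*`.  The top pairings `topPair` (local) and `topT3` (global)
are bijective and natural (`topPair_pushH2`, `topT3_pushT3`), so `T_*` on `H²(G_v, N)`
(resp. `T³(N)`) is the transpose of `f ↦ f ∘ T` on `charHom_v N = H⁰(G_v, N′)`
(resp. `charHom N = H⁰(N′)`).  A map and its transpose have the same characteristic polynomial,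
and the characteristic polynomial is multiplicative in exact sequences and in finite products.
-/

set_option autoImplicit false

noncomputable section

namespace Fermat.Agent.S56.Euler.H765

open Polynomial Module

/-! ### Mathlib-only linear algebra -/

section LinAlg

variable {K : Type*} [Field K]

/-- The characteristic polynomial of the transpose. -/
theorem charpoly_dualMap765 {V : Type*} [AddCommGroup V] [Module K V] [FiniteDimensional K V]
    (f : V →ₗ[K] V) : f.dualMap.charpoly = f.charpoly := by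
  classical
  let b := Module.finBasis K V
  have h : LinearMap.toMatrix b.dualBasis b.dualBasis f.dualMap =
      (LinearMap.toMatrix b b f).transpose :=
    LinearMap.toMatrix_transpose (B₁ := b) (B₂ := b) f
  rw [← LinearMap.charpoly_toMatrix f b, ← LinearMap.charpoly_toMatrix f.dualMap b.dualBasis, h,
    Matrix.charpoly_transpose]

/-- Transport of characteristic polynomials along a perfect "pairing" `θ : X ≃ Dual C`
with `θ (fX x) c = θ x (fC c)`. -/
theorem charpoly_eq_of_bijective_dual765 {X C : Type*} [AddCommGroup X] [Module K X]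
    [AddCommGroup C] [Module K C] [FiniteDimensional K C] [Module.Finite K X]
    (θ : X →ₗ[K] Module.Dual K C) (hθ : Function.Bijective θ)
    (fX : X →ₗ[K] X) (fC : C →ₗ[K] C) (h : ∀ x c, θ (fX x) c = θ x (fC c)) :
    fX.charpoly = fC.charpoly := by
  let e : X ≃ₗ[K] Module.Dual K C := LinearEquiv.ofBijective θ hθ
  have hconj : e.conj fX = fC.dualMap := by
    apply LinearMap.ext
    intro y
    obtain ⟨x, rfl⟩ := e.surjective y
    rw [LinearEquiv.conj_apply_apply, LinearEquiv.symm_apply_apply]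
    apply LinearMap.ext
    intro c
    exact h x c
  rw [← LinearEquiv.charpoly_conj e fX, hconj, charpoly_dualMap765]

/-- Transport of characteristic polynomials along a linear equivalence. -/
theorem charpoly_eq_of_equiv765 {V W : Type*} [AddCommGroup V] [Module K V]
    [AddCommGroup W] [Module K W] [Module.Finite K V] [Module.Finite K W]
    (e : V ≃ₗ[K] W) (f : V →ₗ[K] V) (g : W →ₗ[K] W) (h : ∀ x, e (f x) = g (e x)) :
    f.charpoly = g.charpoly := by
  have hconj : e.conj f = g := by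
    apply LinearMap.ext
    intro y
    obtain ⟨x, rfl⟩ := e.surjective y
    rw [LinearEquiv.conj_apply_apply, LinearEquiv.symm_apply_apply]
    exact h x
  rw [← LinearEquiv.charpoly_conj e f, hconj]

end LinAlg


section Pi

variable {K : Type*} [Field K]

/-- The characteristic polynomial of a product map is the product of the characteristic
polynomials (dependent, finite index type). -/
theorem charpoly_pi765_aux : ∀ (n : ℕ) {ι : Type} [Fintype ι] [DecidableEq ι]
    (M : ι → Type) [∀ v, AddCommGroup (M v)] [∀ v, Module K (M v)]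
    [∀ v, Module.Finite K (M v)] (f : ∀ v, M v →ₗ[K] M v), Fintype.card ι = n →
    (LinearMap.pi fun v => f v ∘ₗ LinearMap.proj v : (∀ v, M v) →ₗ[K] (∀ v, M v)).charpoly =
      ∏ v, (f v).charpoly := by
  intro n
  induction n with
  | zero =>
    intro ι _ _ M _ _ _ f hcard
    have : IsEmpty ι := Fintype.card_eq_zero_iff.1 hcard
    have h0 : (LinearMap.pi fun v => f v ∘ₗ LinearMap.proj v : (∀ v, M v) →ₗ[K] (∀ v, M v)) = 0 :=
      Subsingleton.elim _ _
    rw [h0, LinearMap.charpoly_zero, Module.finrank_zero_of_subsingleton, pow_zero,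
      Finset.univ_eq_empty, Finset.prod_empty]
  | succ n ih =>
    intro ι _ _ M _ _ _ f hcard
    have hne : Nonempty ι := Fintype.card_pos_iff.1 (by omega)
    obtain ⟨v₀⟩ := hne
    let ι' := {v : ι // v ≠ v₀}
    have hcard' : Fintype.card ι' = n := by
      have := Fintype.card_subtype_compl (fun v : ι => v = v₀)
      simp only [Fintype.card_subtype_eq] at this
      show Fintype.card {v : ι // ¬ v = v₀} = n
      omega
    let i : M v₀ →ₗ[K] (∀ v, M v) := LinearMap.single K M v₀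
    let g : (∀ v, M v) →ₗ[K] (∀ v : ι', M v.1) := LinearMap.pi fun v => LinearMap.proj v.1
    have hi : Function.Injective i := Pi.single_injective v₀
    have hg : Function.Surjective g := by
      intro y
      refine ⟨fun v => if h : v = v₀ then 0 else y ⟨v, h⟩, ?_⟩
      funext v
      show (if h : (v : ι) = v₀ then (0 : M v.1) else y ⟨v.1, h⟩) = y v
      rw [dif_neg v.2]
    have hex : LinearMap.range i = LinearMap.ker g := by
      ext x
      constructor
      · rintro ⟨y, rfl⟩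
        rw [LinearMap.mem_ker]
        funext v
        show (Pi.single v₀ y : ∀ v, M v) v.1 = 0
        exact Pi.single_eq_of_ne v.2 y
      · intro hx
        rw [LinearMap.mem_ker] at hx
        refine ⟨x v₀, ?_⟩
        funext v
        show (Pi.single v₀ (x v₀) : ∀ v, M v) v = x v
        by_cases h : v = v₀
        · subst h
          rw [Pi.single_eq_same]
        · rw [Pi.single_eq_of_ne h]
          exact (congrFun hx ⟨v, h⟩).symm
    have h1 : i ∘ₗ f v₀ =
        (LinearMap.pi fun v => f v ∘ₗ LinearMap.proj v : (∀ v, M v) →ₗ[K] (∀ v, M v)) ∘ₗ i := by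
      apply LinearMap.ext
      intro y
      funext v
      show (Pi.single v₀ (f v₀ y) : ∀ v, M v) v = f v ((Pi.single v₀ y : ∀ v, M v) v)
      by_cases h : v = v₀
      · subst h
        rw [Pi.single_eq_same, Pi.single_eq_same]
      · rw [Pi.single_eq_of_ne h, Pi.single_eq_of_ne h, map_zero]
    have h2 : g ∘ₗ
        (LinearMap.pi fun v => f v ∘ₗ LinearMap.proj v : (∀ v, M v) →ₗ[K] (∀ v, M v)) =
        (LinearMap.pi fun v : ι' => f v.1 ∘ₗ LinearMap.proj v :
          (∀ v : ι', M v.1) →ₗ[K] (∀ v : ι', M v.1)) ∘ₗ g := rfl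
    rw [Fermat.Agent.S56.H614.charpoly_of_exact i hi g hg hex (f v₀) _ _ h1 h2,
      ih (fun v : ι' => M v.1) (fun v : ι' => f v.1) hcard',
      Fintype.prod_eq_mul_prod_subtype_ne (fun v => (f v).charpoly) v₀]

theorem charpoly_pi765 {ι : Type} [Fintype ι] [DecidableEq ι]
    (M : ι → Type) [∀ v, AddCommGroup (M v)] [∀ v, Module K (M v)]
    [∀ v, Module.Finite K (M v)] (f : ∀ v, M v →ₗ[K] M v) :
    (LinearMap.pi fun v => f v ∘ₗ LinearMap.proj v : (∀ v, M v) →ₗ[K] (∀ v, M v)).charpoly =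
      ∏ v, (f v).charpoly :=
  charpoly_pi765_aux _ M f rfl

end Pi


/-! ### the equivariant `H²` formula -/

section Main

open Fermat.Agent.S56 Fermat.Agent.S55.PT ExtCitation groupCohomology

variable (p : ℕ) [Fact p.Prime] (S : Finset Nat.Primes)

/-- **Leaf H2-CP.**  The equivariant `H²` formula from the two top-degree dualities. -/
theorem h2cp_of (inv : InvFamily p S) (hrec : IsRecip (hrl S) (cycloChar p) inv)
    (hTL : TopLocSpec inv) (hTG : TopGlobSpec inv hrec) : H2CPSpec p S := by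
  classical
  intro _hp2 _hpS N T hT hNsm hSha hNfd hH2fd
  -- the local top pairings
  have hlocB : ∀ v : ↥S, Function.Bijective
      (topPair (localLevels v.1) (cycloLoc p v.1) (inv v) (Rep.res (rl v.1) N)) :=
    fun v => hTL v (Rep.res (rl v.1) N) hNfd (hNsm.res (hrl S v))
  have hlocfd : ∀ v : ↥S,
      Module.Finite (ZMod p) ((localLevels v.1).H2 (Rep.res (rl v.1) N)) := fun v =>
    Module.Finite.equiv (LinearEquiv.ofBijective _ (hlocB v)).symm
  have hT3fd : Module.Finite (ZMod p) (T3 (hrl S) N) :=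
    Module.Finite.of_surjective (T3π (hrl S) N) (T3π_surjective (hrl S) N)
  -- the exact sequence `0 → H² → ∏ H²_v → T³ → 0`
  have hinj : Function.Injective (loc2 (hrl S) N) := by
    rw [← LinearMap.ker_eq_bot]
    exact hSha
  have h1 : loc2 (hrl S) N ∘ₗ pushH2 T hT (globalLevels S) =
      pushLoc2 (Lv := fun v : ↥S => localLevels v.1) (r := fun v : ↥S => rl v.1) T hT ∘ₗ
        loc2 (hrl S) N := by
    apply LinearMap.ext
    intro x
    exact loc2_pushH2 (hrl S) T hT x
  have h2 : T3π (hrl S) N ∘ₗ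
      pushLoc2 (Lv := fun v : ↥S => localLevels v.1) (r := fun v : ↥S => rl v.1) T hT =
      pushT3 (hrl S) T hT ∘ₗ T3π (hrl S) N := rfl
  have hY := Fermat.Agent.S56.H614.charpoly_of_exact (loc2 (hrl S) N) hinj (T3π (hrl S) N)
    (T3π_surjective (hrl S) N) (ker_T3π (hrl S) N).symm (pushH2 T hT (globalLevels S))
    (pushLoc2 (Lv := fun v : ↥S => localLevels v.1) (r := fun v : ↥S => rl v.1) T hT)
    (pushT3 (hrl S) T hT) h1 h2
  -- the product
  have hpi : (pushLoc2 (Lv := fun v : ↥S => localLevels v.1) (r := fun v : ↥S => rl v.1)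
      T hT).charpoly =
      ∏ v : ↥S, (pushH2 (A := Rep.res (rl v.1) N) (B := Rep.res (rl v.1) N) T
        (hT.res (rl v.1)) (localLevels v.1)).charpoly :=
    charpoly_pi765 (fun v : ↥S => (localLevels v.1).H2 (Rep.res (rl v.1) N))
      (fun v : ↥S => pushH2 (A := Rep.res (rl v.1) N) (B := Rep.res (rl v.1) N) T
        (hT.res (rl v.1)) (localLevels v.1))
  -- local duality
  have hloc : ∀ v : ↥S,
      (pushH2 (A := Rep.res (rl v.1) N) (B := Rep.res (rl v.1) N) T
        (hT.res (rl v.1)) (localLevels v.1)).charpoly =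
      (pushH0 (A := Rep.res (rl v.1) (tdual p N)) (B := Rep.res (rl v.1) (tdual p N))
        T.dualMap ((dualMap_equivariant (cycloChar p) T hT).res (rl v.1))).charpoly := by
    intro v
    rw [charpoly_eq_of_bijective_dual765
      (topPair (localLevels v.1) (cycloLoc p v.1) (inv v) (Rep.res (rl v.1) N)) (hlocB v)
      (pushH2 (A := Rep.res (rl v.1) N) (B := Rep.res (rl v.1) N) T
        (hT.res (rl v.1)) (localLevels v.1))
      (charHomComap (cycloLoc p v.1) (A := Rep.res (rl v.1) N) (B := Rep.res (rl v.1) N) T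
        (hT.res (rl v.1)))
      (fun x c => topPair_pushH2 (cycloLoc p v.1) (A := Rep.res (rl v.1) N)
        (B := Rep.res (rl v.1) N) T (hT.res (rl v.1)) (localLevels v.1) (inv v) c x)]
    exact charpoly_eq_of_equiv765 (eH0res (cycloChar p) N (rl v.1)) _ _
      (fun f => Subtype.ext rfl)
  -- global duality
  have hglob : (pushT3 (hrl S) T hT).charpoly =
      (pushH0 (A := tdual p N) (B := tdual p N) T.dualMap
        (dualMap_equivariant (cycloChar p) T hT)).charpoly := by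
    rw [charpoly_eq_of_bijective_dual765 (topT3 (hrl S) N hrec) (hTG N hNfd hNsm)
      (pushT3 (hrl S) T hT) (charHomComap (cycloChar p) (A := N) (B := N) T hT)
      (fun t f => topT3_pushT3 (hrl S) T hT (cycloChar p) inv hrec f t)]
    exact charpoly_eq_of_equiv765 (eH0 (cycloChar p) N) _ _ (fun f => Subtype.ext rfl)
  have hprod := Finset.prod_coe_sort S (fun q : Nat.Primes =>
    (pushH0 (A := Rep.res (rl q) (tdual p N)) (B := Rep.res (rl q) (tdual p N))
      T.dualMap ((dualMap_equivariant (cycloChar p) T hT).res (rl q))).charpoly)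
  rw [← hglob, ← hY, hpi, ← hprod]
  exact Finset.prod_congr rfl fun v _ => hloc v

/-- **Leaf H2-CP, from the four arithmetic inputs** A3, A4, A5–A7, A8 of S55. -/
theorem h2cp_of_four (hSurjG : Surj2GlobSpec p S) (hSurjL : Surj2LocSpec p S)
    (hInv : InvSpec p S) (_hCap : CapSpec p S) : H2CPSpec p S := by
  intro hp2 hpS
  obtain ⟨inv, hrec, hTLI, hTGI⟩ := hInv
  have hrec' : IsRecip (hrl S) (cycloChar p) inv := hrec
  have hTopL : TopLocSpec inv :=
    H299.topLocDev p S H113.lesMidSpec H724.localNormalCofinal H724.localFiniteIndex inv hTLI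
      hSurjL
  have hTopG : TopGlobSpec inv hrec' :=
    H123.topGlobDev p S H113.lesMidSpec H724.globalNormalCofinal H724.localNormalCofinal
      H724.globalFiniteIndex hpS inv hrec' hTopL hTGI hSurjG hSurjL
  exact h2cp_of p S inv hrec' hTopL hTopG hp2 hpS

end Main

end Fermat.Agent.S56.Euler.H765

end

end
-- ===== PACK-END S56/Euler/Big/H2CPH765.lean

-- ===== PACK-BEGIN S56/H614/Red2.lean
section


/-!
# S56 / W-BASE / EUL-RED, part 6 (helper614): `CharpolyId` + `Euler.key` ⇒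
`φ (ker (M ⊗ R_σ − 1)) = 0`
-/

set_option autoImplicit false
set_option linter.unusedSectionVars false

open Polynomial

noncomputable section

namespace Fermat.Agent.S56.H614

open Fermat.Agent.S55.PT Fermat.Agent.S56.H419 Fermat.Agent.S56.Euler groupCohomology Module

variable {k : Type} [Field k] {G : Type} [Group G]



section Main

variable (p : ℕ) [Fact p.Prime] {G : Type} [Group G] (L : LevelSys G) (c : G)
  (U : Subgroup G) [U.Normal] [U.FiniteIndex] (M₀ : Rep.{0, 0, 0} (ZMod p) G)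

/-- the four `G ⧸ U`-modules `H⁰, H¹, H², (·)^{c=-1}` of `Ind_U M₀` -/
def fourData (h0 : Module.Finite (ZMod p) ↥(LevelSys.H0 (indRep U M₀)))
    (h1 : Module.Finite (ZMod p) (L.H1 (indRep U M₀)))
    (h2 : Module.Finite (ZMod p) (L.H2 (indRep U M₀)))
    (h3 : Module.Finite (ZMod p) ↥(minusPart c (indRep U M₀))) :
    Fin 4 → FDRepData (ZMod p) (G ⧸ U) :=
  ![(H0F (k := ZMod p) (G := G)).indRData U M₀ h0, (H1F (k := ZMod p) L).indRData U M₀ h1,
    (H2F (k := ZMod p) L).indRData U M₀ h2, (minusF (k := ZMod p) c).indRData U M₀ h3]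

variable {p L c U M₀}

lemma charpoly_fourData (h0 : Module.Finite (ZMod p) ↥(LevelSys.H0 (indRep U M₀)))
    (h1 : Module.Finite (ZMod p) (L.H1 (indRep U M₀)))
    (h2 : Module.Finite (ZMod p) (L.H2 (indRep U M₀)))
    (h3 : Module.Finite (ZMod p) ↥(minusPart c (indRep U M₀)))
    (hX : Module.Finite (ZMod p) (indRep U M₀)) (τ : G)
    (hid : CharpolyId L c (indRep U M₀) (indR U M₀ τ) (indR_equivariant U M₀ τ)) :
    ∏ i, LinearMap.charpoly ((fourData p L c U M₀ h0 h1 h2 h3 i).ρ (τ : G ⧸ U)) ^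
        ((![0, 1, 0, 0] : Fin 4 → ℕ) i) =
      ∏ i, LinearMap.charpoly ((fourData p L c U M₀ h0 h1 h2 h3 i).ρ (τ : G ⧸ U)) ^
        ((![1, 0, 1, 1] : Fin 4 → ℕ) i) := by
  have hid' := hid hX h1 h2
  rw [Fin.prod_univ_four, Fin.prod_univ_four]
  have e0 : LinearMap.charpoly ((fourData p L c U M₀ h0 h1 h2 h3 0).ρ (τ : G ⧸ U)) =
      LinearMap.charpoly (pushH0 (A := indRep U M₀) (B := indRep U M₀) (indR U M₀ τ)
        (indR_equivariant U M₀ τ)) := rfl
  have e1 : LinearMap.charpoly ((fourData p L c U M₀ h0 h1 h2 h3 1).ρ (τ : G ⧸ U)) =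
      LinearMap.charpoly (pushH1 (A := indRep U M₀) (B := indRep U M₀) (indR U M₀ τ)
        (indR_equivariant U M₀ τ) L) := rfl
  have e2 : LinearMap.charpoly ((fourData p L c U M₀ h0 h1 h2 h3 2).ρ (τ : G ⧸ U)) =
      LinearMap.charpoly (pushH2 (A := indRep U M₀) (B := indRep U M₀) (indR U M₀ τ)
        (indR_equivariant U M₀ τ) L) := rfl
  have e3 : LinearMap.charpoly ((fourData p L c U M₀ h0 h1 h2 h3 3).ρ (τ : G ⧸ U)) =
      LinearMap.charpoly (minusMap (A := indRep U M₀) (B := indRep U M₀) c (indR U M₀ τ)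
        (indR_equivariant U M₀ τ)) := rfl
  rw [e0, e1, e2, e3]
  have n0 : (![0, 1, 0, 0] : Fin 4 → ℕ) 0 = 0 := rfl
  have n1 : (![0, 1, 0, 0] : Fin 4 → ℕ) 1 = 1 := rfl
  have n2 : (![0, 1, 0, 0] : Fin 4 → ℕ) 2 = 0 := rfl
  have n3 : (![0, 1, 0, 0] : Fin 4 → ℕ) 3 = 0 := rfl
  have m0 : (![1, 0, 1, 1] : Fin 4 → ℕ) 0 = 1 := rfl
  have m1 : (![1, 0, 1, 1] : Fin 4 → ℕ) 1 = 0 := rfl
  have m2 : (![1, 0, 1, 1] : Fin 4 → ℕ) 2 = 1 := rfl
  have m3 : (![1, 0, 1, 1] : Fin 4 → ℕ) 3 = 1 := rfl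
  rw [n0, n1, n2, n3, m0, m1, m2, m3]
  simp only [pow_zero, pow_one, one_mul, mul_one]
  exact hid'

/-- **`CharpolyId` for all `p`-regular elements ⇒ `φ (ker (M ⊗ R_σ − 1)) = 0`.** -/
theorem phi_kerRep_eq_zero [Module.Finite (ZMod p) M₀]
    (h1 : Module.Finite (ZMod p) (L.H1 (indRep U M₀)))
    (h2 : Module.Finite (ZMod p) (L.H2 (indRep U M₀)))
    (hId : ∀ σ : G, ¬ p ∣ orderOf (σ : G ⧸ U) →
      CharpolyId L c (indRep U M₀) (indR U M₀ σ) (indR_equivariant U M₀ σ))
    {J : Type} [Fintype J] [DecidableEq J] (M : Matrix J J (ZMod p)) (σ : G) (n : ℕ)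
    (hn : ¬ p ∣ n) (hM : M ^ n = 1) (hσ : (σ : G ⧸ U) ^ n = 1) :
    phi L c (kerRep (A := piRep J (indRep U M₀)) (B := piRep J (indRep U M₀))
      (matOp M (indR U M₀ σ) - 1)
      (isEquivariant_sub (A := piRep J (indRep U M₀)) (B := piRep J (indRep U M₀))
        (matOp_equivariant J M (indR_equivariant U M₀ σ)) (isEquivariant_one _))) = 0 := by
  classical
  have hn' : ((n : ℕ) : ZMod p) ≠ 0 := by
    rw [Ne, ZMod.natCast_eq_zero_iff]
    exact hn
  have : Finite (G ⧸ U) := Subgroup.finite_quotient_of_finiteIndex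
  have : Fintype (G ⧸ U) := Fintype.ofFinite _
  have hX : Module.Finite (ZMod p) (indRep U M₀) :=
    inferInstanceAs (Module.Finite (ZMod p) ((G ⧸ U) →₀ M₀))
  have h0 : Module.Finite (ZMod p) ↥(LevelSys.H0 (indRep U M₀)) := inferInstance
  have h3 : Module.Finite (ZMod p) ↥(minusPart c (indRep U M₀)) := inferInstance
  have hkey := key p (G ⧸ U) (Fin 4) (fourData p L c U M₀ h0 h1 h2 h3) ![0, 1, 0, 0]
    ![1, 0, 1, 1]
    (fun g hg => by
      obtain ⟨τ, rfl⟩ := QuotientGroup.mk_surjective g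
      exact charpoly_fourData h0 h1 h2 h3 hX τ (hId τ hg))
    (dimFixInv (k := ZMod p) M (σ : G ⧸ U)) (dimFixInv_additive M _ n hn' hM hσ)
  rw [Fin.sum_univ_four, Fin.sum_univ_four] at hkey
  have n0 : (![0, 1, 0, 0] : Fin 4 → ℕ) 0 = 0 := rfl
  have n1 : (![0, 1, 0, 0] : Fin 4 → ℕ) 1 = 1 := rfl
  have n2 : (![0, 1, 0, 0] : Fin 4 → ℕ) 2 = 0 := rfl
  have n3 : (![0, 1, 0, 0] : Fin 4 → ℕ) 3 = 0 := rfl
  have m0 : (![1, 0, 1, 1] : Fin 4 → ℕ) 0 = 1 := rfl
  have m1 : (![1, 0, 1, 1] : Fin 4 → ℕ) 1 = 0 := rfl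
  have m2 : (![1, 0, 1, 1] : Fin 4 → ℕ) 2 = 1 := rfl
  have m3 : (![1, 0, 1, 1] : Fin 4 → ℕ) 3 = 1 := rfl
  rw [n0, n1, n2, n3, m0, m1, m2, m3] at hkey
  have e0 : dimFixInv (k := ZMod p) M (σ : G ⧸ U) (fourData p L c U M₀ h0 h1 h2 h3 0) =
      (dimFix M (pushH0 (A := indRep U M₀) (B := indRep U M₀) (indR U M₀ σ)
        (indR_equivariant U M₀ σ)) : ℤ) := rfl
  have e1 : dimFixInv (k := ZMod p) M (σ : G ⧸ U) (fourData p L c U M₀ h0 h1 h2 h3 1) =
      (dimFix M (pushH1 (A := indRep U M₀) (B := indRep U M₀) (indR U M₀ σ)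
        (indR_equivariant U M₀ σ) L) : ℤ) := rfl
  have e2 : dimFixInv (k := ZMod p) M (σ : G ⧸ U) (fourData p L c U M₀ h0 h1 h2 h3 2) =
      (dimFix M (pushH2 (A := indRep U M₀) (B := indRep U M₀) (indR U M₀ σ)
        (indR_equivariant U M₀ σ) L) : ℤ) := rfl
  have e3 : dimFixInv (k := ZMod p) M (σ : G ⧸ U) (fourData p L c U M₀ h0 h1 h2 h3 3) =
      (dimFix M (minusMap (A := indRep U M₀) (B := indRep U M₀) c (indR U M₀ σ)
        (indR_equivariant U M₀ σ)) : ℤ) := rfl
  rw [e0, e1, e2, e3] at hkey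
  have hphi := phi_kerRep_matOp (X := indRep U M₀) L c M (indR U M₀ σ)
    (indR_equivariant U M₀ σ) n hn' hM (indR_pow_eq_one U M₀ σ n hσ)
  rw [hphi]
  push_cast at hkey
  linarith

end Main

end Fermat.Agent.S56.H614

end

end
-- ===== PACK-END S56/H614/Red2.lean

-- ===== PACK-BEGIN S56/H614/Red.lean
section


/-!
# S56 / W-BASE / EUL-RED, part 7 (helper614): `red_of : LemmaAStatement → RedStatement`

Modular Artin induction (`Euler.ind`) applied to `W ↦ φ (inflation of W)`; the value on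
`k[Γ/B] ⊗ W` is computed by Lemma A, EQUIV (`phi_kerRep_matOp`) and `Euler.key`
(`phi_kerRep_eq_zero`).
-/

set_option autoImplicit false
set_option linter.unusedSectionVars false

open Polynomial

noncomputable section

namespace Fermat.Agent.S56.H614

open Fermat.Agent.S55.PT Fermat.Agent.S56.H419 Fermat.Agent.S56.Euler groupCohomology Module

section

variable {k : Type} [Field k] {G : Type} [Group G] (U : Subgroup G) [U.Normal]

/-- the matrix of `χ(σ)⁻¹ • σ̄` has order dividing `n` if `σ̄ ^ n = 1` -/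
lemma toMatrix_twist_pow (χ : G →* kˣ) (hχ : ∀ u ∈ U, χ u = 1) (σ : G)
    (W : FDRepData k (G ⧸ U)) {J : Type} [Fintype J] [DecidableEq J] (b : Basis J k W.V)
    (n : ℕ) (hσ : (σ : G ⧸ U) ^ n = 1) :
    (LinearMap.toMatrix b b ((((χ σ)⁻¹ : kˣ) : k) • W.ρ (σ : G ⧸ U))) ^ n = 1 := by
  have h1 : σ ^ n ∈ U := by
    rw [← QuotientGroup.eq_one_iff, QuotientGroup.mk_pow, hσ]
  have h2 : (((χ σ)⁻¹ : kˣ) : k) ^ n = 1 := by
    rw [← Units.val_pow_eq_pow_val, inv_pow, ← map_pow, hχ _ h1]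
    simp
  have h3 : ((((χ σ)⁻¹ : kˣ) : k) • W.ρ (σ : G ⧸ U)) ^ n = 1 := by
    rw [_root_.smul_pow, ← map_pow, hσ, map_one, h2, one_smul]
  have h4 := LinearMap.toMatrix_pow b ((((χ σ)⁻¹ : kˣ) : k) • W.ρ (σ : G ⧸ U)) n
  rw [h3] at h4
  rw [h4]
  exact LinearMap.toMatrix_one b

/-- inflation of a short exact sequence -/
def inflSES {A B C : FDRepData k (G ⧸ U)} (i : A.V →ₗ[k] B.V) (q : B.V →ₗ[k] C.V)
    (hE : IsShortExact A B C i q) : SES (inflRep U A) (inflRep U B) (inflRep U C) where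
  i := i
  π := q
  hi := fun g a => hE.equivar_i (g : G ⧸ U) a
  hπ := fun g b => hE.equivar_q (g : G ⧸ U) b
  inj := hE.inj
  surj := hE.surj
  exact := hE.exact

lemma inflRep_trivial (W : FDRepData k (G ⧸ U)) (u : G) (hu : u ∈ U) (w : inflRep U W) :
    (inflRep U W).ρ u w = w := by
  show W.ρ (u : G ⧸ U) w = w
  rw [(QuotientGroup.eq_one_iff u).2 hu, map_one]
  rfl

/-- deflation of a representation trivial on `U` -/
def deflData (N : Rep.{0, 0, 0} k G) [Module.Finite k N] (hN : ∀ u ∈ U, ∀ n : N, N.ρ u n = n) :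
    FDRepData k (G ⧸ U) where
  V := N
  ρ := QuotientGroup.lift U N.ρ (fun u hu => by
    rw [MonoidHom.mem_ker]
    apply LinearMap.ext
    intro n
    exact hN u hu n)

end

/-- **RED from Lemma A.** -/
theorem red_of (hA : LemmaAStatement) : RedStatement := by
  intro p _ G _ L c U _ _ χ hχ h1 h2 hadd hId N hNfin hN
  classical
  have : Finite (G ⧸ U) := Subgroup.finite_quotient_of_finiteIndex
  -- the invariant
  let f : RepInv (ZMod p) (G ⧸ U) := fun W => phi L c (inflRep U W)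
  have hf : IsAdditiveInv f := by
    intro A B C i q hE
    exact hadd _ _ _ (inflSES U i q hE) B.fin (fun u hu b => inflRep_trivial U B u hu b)
  -- vanishing on induced modules
  have hind : ∀ B : Subgroup (G ⧸ U), IsCyclic B → ¬ p ∣ Nat.card B →
      ∀ W : FDRepData (ZMod p) (G ⧸ U), f (permData B W) = 0 := by
    intro B hB hpB W
    obtain ⟨g, rfl⟩ := (Subgroup.isCyclic_iff_exists_zpowers_eq_top B).1 hB
    obtain ⟨σ, rfl⟩ := QuotientGroup.mk_surjective g
    rw [Nat.card_zpowers] at hpB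
    obtain ⟨e, he⟩ := hA (ZMod p) G U χ hχ σ W (Fin (finrank (ZMod p) W.V))
      (Module.finBasis (ZMod p) W.V)
    have hzero := phi_kerRep_eq_zero (p := p) (L := L) (c := c) (U := U) (M₀ := ofChar χ)
      h1 h2 hId
      (LinearMap.toMatrix (Module.finBasis (ZMod p) W.V) (Module.finBasis (ZMod p) W.V)
        ((((χ σ)⁻¹ : (ZMod p)ˣ) : ZMod p) • W.ρ (σ : G ⧸ U))) σ (orderOf (σ : G ⧸ U)) hpB
      (toMatrix_twist_pow U χ hχ σ W _ _ (pow_orderOf_eq_one _)) (pow_orderOf_eq_one _)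
    show phi L c (inflRep U (permData (Subgroup.zpowers (σ : G ⧸ U)) W)) = 0
    rw [← hzero]
    exact phi_eq_of_iso L c
      (A := inflRep U (permData (Subgroup.zpowers (σ : G ⧸ U)) W)) e
      (fun g a => Subtype.ext (he g a))
  have hall := ind p (G ⧸ U) f hf hind
  -- conclusion
  have : Module.Finite (ZMod p) N := hNfin
  have h3 := hall (deflData U N hN)
  show phi L c N = 0
  rw [← h3]
  exact phi_eq_of_iso L c (A := N) (B := inflRep U (deflData U N hN)) (LinearEquiv.refl _ _)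
    (fun g a => rfl)

end Fermat.Agent.S56.H614

end

end
-- ===== PACK-END S56/H614/Red.lean

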