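import Fermat.Agent.Pack.S43GC.G0E21L3
import Fermat.Agent.Pack.S43GC.G0E12L2
import Fermat.Agent.Pack.S43GC.G0E0L0
import Fermat.Agent.Pack.S43GC.G0E19L3
import Fermat.Agent.Pack.S43GC.G0E21L2
import Fermat.Agent.Pack.S43GC.G0E10L2
import Fermat.Agent.Pack.S43GC.G0E16L1
import Fermat.Agent.Pack.S43GC.G0E10L0
import Fermat.Agent.Pack.S43GC.G0E7L3
import Fermat.Agent.Pack.S43GC.G0E17L0
import Fermat.Agent.Pack.S43GC.G0E16L0
import Fermat.Agent.Pack.S43GC.G0E1L1
import Fermat.Agent.Pack.S43GC.G0E21L0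
import Fermat.Agent.Pack.S43GC.G0E10L1
import Fermat.Agent.Pack.S43GC.G0E18L0
import Fermat.Agent.Pack.S43GC.G0E20L3
import Fermat.Agent.Pack.S43GC.G0E19L0
import Fermat.Agent.Pack.S43GC.G0E21L1
import Fermat.Agent.Pack.Fast891

-- ===== PACK-BEGIN S55/G/SIndH601/PhiProps.lean
section
/-
S55 (Poitou–Tate), layer G, leaf G-SIND (helper601), part 3: properties of `Φ`
(compatibility with the diagonal embeddings, equivariance, kernel).
-/


set_option autoImplicit false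
set_option linter.unusedSectionVars false
set_option linter.style.haveILetI false

open scoped NumberField TensorProduct
open IsDedekindDomain

noncomputable section

namespace Fermat.Agent.S55.G.SIndH601

open Fermat.Agent.S55.G

variable {S S' : Finset Nat.Primes} (h : S ⊆ S') (L : Type) [Field L] [NumberField L]
variable (β : SPlace S' L → HeightOneSpectrum (𝓞 L))

/-! ## Primes above `S'` and the inclusion `Div^{S'} → Div^S` -/

lemma divIncl_of_isAbove (d : PrimeOut S' L →₀ ℤ) (w : PrimeOut S L) (hw : IsAbove S' L w.1) :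
    divIncl h L d w = 0 := by
  apply Finsupp.mapDomain_of_notMem_range
  rintro ⟨w', hw'⟩
  apply w'.2
  have : w'.1 = w.1 := congrArg Subtype.val hw'
  rw [this]
  exact hw

lemma divIncl_of_not_isAbove (d : PrimeOut S' L →₀ ℤ) (w : PrimeOut S L)
    (hw : ¬ IsAbove S' L w.1) : divIncl h L d w = d ⟨w.1, hw⟩ := by
  have : w = primeOutIncl h L ⟨w.1, hw⟩ := Subtype.ext rfl
  conv_lhs => rw [this]
  exact divIncl_apply h L d ⟨w.1, hw⟩

/-! ## The divisor `tOrd` -/

variable {L β}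

lemma tOrd_of_not_isAbove (hβ : IsDict S' L β) (j : Additive (AS S' L)ˣ) (w : PrimeOut S L)
    (hw : ¬ IsAbove S' L w.1) : tOrd L β S j w = 0 := by
  apply tOrd_of_not
  rintro ⟨𝔪, h𝔪⟩
  exact hw (h𝔪 ▸ hβ.above 𝔪)

lemma tOrd_of_isAbove (hβ : IsDict S' L β) (j : Additive (AS S' L)ˣ) (w : PrimeOut S L)
    (hw : IsAbove S' L w.1) :
    ∃ 𝔪 : SPlace S' L, β 𝔪 = w.1 ∧ tOrd L β S j w = placeOrd S' L 𝔪 j := by
  obtain ⟨𝔪, h𝔪⟩ := hβ.surj w.1 hw
  exact ⟨𝔪, h𝔪, tOrd_of_eq L β hβ.inj j w 𝔪 h𝔪⟩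

/-- `Φ` is compatible with the diagonal embeddings of `Lˣ`. -/
theorem Phi_diagHom (hV : OrdDiagSpec) (hβ : IsDict S' L β) (x : Additive Lˣ) :
    Phi h L β (diagHom S' L x) = diagHom S L x := by
  refine Prod.ext ?_ ?_
  · rw [Phi_fst, diagHom_fst, diagHom_fst, jRes_unitsDiag]
  · rw [Phi_snd, diagHom_snd, diagHom_snd, diagHom_fst]
    ext w
    rw [Finsupp.add_apply, ordHom_apply]
    by_cases hw : IsAbove S' L w.1
    · obtain ⟨𝔪, h𝔪, h1⟩ := tOrd_of_isAbove hβ (unitsDiag S' L x) w hw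
      rw [divIncl_of_isAbove h L _ w hw, h1, hV S' L β hβ 𝔪 x, h𝔪, zero_add]
    · rw [divIncl_of_not_isAbove h L _ w hw, tOrd_of_not_isAbove hβ _ w hw, ordHom_apply,
        add_zero]

/-! ## Equivariance -/

section Equivariance

variable (G : Type) [Group G] [MulSemiringAction G L]

lemma sPlaceSMul_inv_smul (g : G) (𝔪 : SPlace S' L) :
    sPlaceSMul S' G g (sPlaceSMul S' G g⁻¹ 𝔪) = 𝔪 := by
  have h1 := (sPlaceAction S' G L).mul_smul g g⁻¹ 𝔪
  have h2 := (sPlaceAction S' G L).one_smul 𝔪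
  rw [mul_inv_cancel] at h1
  exact h1.symm.trans h2

lemma primeSMul_inv_smul (g : G) (w : HeightOneSpectrum (𝓞 L)) :
    primeSMul G g (primeSMul G g⁻¹ w) = w := by
  have h1 := (primeAction G L).mul_smul g g⁻¹ w
  have h2 := (primeAction G L).one_smul w
  rw [mul_inv_cancel] at h1
  exact h1.symm.trans h2

lemma primeSMul_smul_inv (g : G) (w : HeightOneSpectrum (𝓞 L)) :
    primeSMul G g⁻¹ (primeSMul G g w) = w := by
  have h1 := (primeAction G L).mul_smul g⁻¹ g w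
  have h2 := (primeAction G L).one_smul w
  rw [inv_mul_cancel] at h1
  exact h1.symm.trans h2

theorem tOrd_equivariant (hE : OrdEquivSpec) (hβ : IsDict S' L β) (g : G)
    (j : Additive (AS S' L)ˣ) :
    tOrd L β S (jRepr G S' L g j) = divRepr S G L g (tOrd L β S j) := by
  ext w
  have hw : w = primeOutMap S G L g (primeOutMap S G L g⁻¹ w) := by
    rw [← primeOutMap_mul, mul_inv_cancel, primeOutMap_one]
  set w' := primeOutMap S G L g⁻¹ w with hw'
  have hw1 : w.1 = primeSMul G g w'.1 := by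
    conv_lhs => rw [hw]
    rfl
  rw [hw, divRepr_apply_apply]
  by_cases hex : ∃ 𝔪, β 𝔪 = w'.1
  · obtain ⟨𝔪, h𝔪⟩ := hex
    have h1 : β (sPlaceSMul S' G g 𝔪) = (primeOutMap S G L g w').1 := by
      rw [hβ.equiv G g 𝔪, h𝔪]
      rfl
    rw [tOrd_of_eq L β hβ.inj _ _ (sPlaceSMul S' G g 𝔪) h1, tOrd_of_eq L β hβ.inj _ _ 𝔪 h𝔪,
      hE S' G L g 𝔪 j]
  · rw [tOrd_of_not L β j w' hex]
    apply tOrd_of_not
    rintro ⟨𝔫, h𝔫⟩
    apply hex
    refine ⟨sPlaceSMul S' G g⁻¹ 𝔫, ?_⟩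
    rw [hβ.equiv G g⁻¹ 𝔫, h𝔫]
    change primeSMul G g⁻¹ (primeSMul G g w'.1) = w'.1
    exact primeSMul_smul_inv G g w'.1

/-- `Φ` is `G`-equivariant. -/
theorem Phi_equivariant (hE : OrdEquivSpec) (hβ : IsDict S' L β) (g : G) (y : JD S' L) :
    Phi h L β (jdRepr S' G L g y) = jdRepr S G L g (Phi h L β y) := by
  refine Prod.ext ?_ ?_
  · change jRes h L (jRepr G S' L g y.1) = jRepr G S L g (jRes h L y.1)
    exact jRes_equivariant h L G g y.1
  · change divIncl h L (divRepr S' G L g y.2) + tOrd L β S (jRepr G S' L g y.1) =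
      divRepr S G L g (divIncl h L y.2 + tOrd L β S y.1)
    rw [divIncl_equivariant, tOrd_equivariant G hE hβ, map_add]

end Equivariance

/-! ## The kernel -/

theorem Phi_eq_zero_iff (hβ : IsDict S' L β) (y : JD S' L) :
    Phi h L β y = 0 ↔ y.2 = 0 ∧ y.1 ∈ unitsT h L β := by
  constructor
  · intro hy
    have h1 : jRes h L y.1 = 0 := congrArg Prod.fst hy
    have h2 : divIncl h L y.2 + tOrd L β S y.1 = 0 := congrArg Prod.snd hy
    have h3 : y.2 = 0 := by
      ext w'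
      have key : (divIncl h L y.2 + tOrd L β S y.1) (primeOutIncl h L w') = 0 := by
        rw [h2]; rfl
      rw [Finsupp.add_apply, divIncl_apply,
        tOrd_of_not_isAbove (S := S) hβ y.1 (primeOutIncl h L w') w'.2, add_zero] at key
      rw [key]; rfl
    refine ⟨h3, h1, fun 𝔪 h𝔪 => ?_⟩
    have key : (divIncl h L y.2 + tOrd L β S y.1) (⟨β 𝔪, h𝔪⟩ : PrimeOut S L) = 0 := by
      rw [h2]; rfl
    rw [Finsupp.add_apply, divIncl_of_isAbove h L _ _ (hβ.above 𝔪),
      tOrd_of_eq L β hβ.inj y.1 (⟨β 𝔪, h𝔪⟩ : PrimeOut S L) 𝔪 rfl, zero_add] at key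
    exact key
  · rintro ⟨h2, h1, h3⟩
    refine Prod.ext h1 ?_
    rw [Phi_snd, h2, map_zero, zero_add]
    ext w
    by_cases hw : IsAbove S' L w.1
    · obtain ⟨𝔪, h𝔪, h4⟩ := tOrd_of_isAbove hβ y.1 w hw
      rw [h4]
      exact h3 𝔪 (h𝔪 ▸ w.2)
    · exact tOrd_of_not_isAbove hβ _ w hw

/-- `unitsT` is stable under the Galois action. -/
theorem unitsT_stable (G : Type) [Group G] [MulSemiringAction G L] (hE : OrdEquivSpec)
    (hβ : IsDict S' L β) (g : G) :
    unitsT h L β ≤ (unitsT h L β).comap (jRepr G S' L g) := by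
  intro j hj
  have h1 : Phi h L β ((j, 0) : JD S' L) = 0 := (Phi_eq_zero_iff h hβ _).2 ⟨rfl, hj⟩
  have h2 : Phi h L β (jdRepr S' G L g ((j, 0) : JD S' L)) = 0 := by
    rw [Phi_equivariant h G hE hβ, h1, map_zero]
  exact ((Phi_eq_zero_iff h hβ _).1 h2).2

end Fermat.Agent.S55.G.SIndH601

end
end
-- ===== PACK-END S55/G/SIndH601/PhiProps.lean

-- ===== PACK-BEGIN S55/G/SIndH601/Surj.lean
section
/-
S55 (Poitou–Tate), layer G, leaf G-SIND (helper601), part 4: the idempotent `e = 1 ⊗ 1_S` of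
`L ⊗ ℚ_{S'}`, lifting of units along `J_{S'}(L) → J_S(L)`, and surjectivity of `Φ`.
-/


set_option autoImplicit false
set_option linter.unusedSectionVars false
set_option linter.style.haveILetI false

open scoped NumberField TensorProduct
open IsDedekindDomain

noncomputable section

namespace Fermat.Agent.S55.G.SIndH601

open Fermat.Agent.S55.G

variable {S S' : Finset Nat.Primes} (h : S ⊆ S')
include h

/-! ## The indicator of `S` in `ℚ_{S'}` and extension by zero -/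

/-- The indicator function of `S` in `ℚ_{S'} = ∏_{q ∈ S'} ℚ_q`. -/
def indS (S : Finset Nat.Primes) (S' : Finset Nat.Primes) : QS S' :=
  open Classical in
  (QS.toPi S').symm (fun q => if q.1 ∈ S then 1 else 0)

omit h in
lemma toPi_indS (q : S') :
    QS.toPi S' (indS S S') q = (open Classical in if q.1 ∈ S then (1 : Qq q.1) else 0) := rfl

omit h in
lemma toPi_indS_of_mem (q : S') (hq : q.1 ∈ S) : QS.toPi S' (indS S S') q = 1 := by
  classical
  rw [toPi_indS, if_pos hq]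

omit h in
lemma toPi_indS_of_notMem (q : S') (hq : q.1 ∉ S) : QS.toPi S' (indS S S') q = 0 := by
  classical
  rw [toPi_indS, if_neg hq]

lemma res_indS : QS.res h (indS S S') = 1 := by
  refine PL0H713.QS_ext S fun q => ?_
  rw [QS.res_apply, toPi_indS_of_mem ⟨q.1, h q.2⟩ q.2]
  rfl

/-- The coefficient function of the extension by zero. -/
def ext0Fun (y : QS S) (q : S') : Qq q.1 :=
  open Classical in
  if hq : q.1 ∈ S then QS.toPi S y ⟨q.1, hq⟩ else 0

omit h in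
lemma ext0Fun_of_mem (y : QS S) (q : S') (hq : q.1 ∈ S) :
    ext0Fun y q = QS.toPi S y ⟨q.1, hq⟩ := by
  classical
  unfold ext0Fun
  rw [dif_pos hq]

omit h in
lemma ext0Fun_of_notMem (y : QS S) (q : S') (hq : q.1 ∉ S) : ext0Fun y q = 0 := by
  classical
  unfold ext0Fun
  rw [dif_neg hq]

/-- Extension by zero `ℚ_S → ℚ_{S'}`. -/
def ext0 : QS S →ₗ[ℚ] QS S' where
  toFun y := (QS.toPi S').symm (ext0Fun y)
  map_add' x y := by
    refine PL0H713.QS_ext S' fun q => ?_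
    change ext0Fun (x + y) q = ext0Fun x q + ext0Fun y q
    by_cases hq : q.1 ∈ S
    · rw [ext0Fun_of_mem _ q hq, ext0Fun_of_mem _ q hq, ext0Fun_of_mem _ q hq]
      rfl
    · rw [ext0Fun_of_notMem _ q hq, ext0Fun_of_notMem _ q hq, ext0Fun_of_notMem _ q hq, add_zero]
  map_smul' c y := by
    refine PL0H713.QS_ext S' fun q => ?_
    change ext0Fun (c • y) q = c • ext0Fun y q
    by_cases hq : q.1 ∈ S
    · rw [ext0Fun_of_mem _ q hq, ext0Fun_of_mem _ q hq]
      rfl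
    · rw [ext0Fun_of_notMem _ q hq, ext0Fun_of_notMem _ q hq, smul_zero]

omit h in
lemma toPi_ext0_of_mem (y : QS S) (q : S') (hq : q.1 ∈ S) :
    QS.toPi S' (ext0 (S' := S') y) q = QS.toPi S y ⟨q.1, hq⟩ :=
  ext0Fun_of_mem y q hq

omit h in
lemma toPi_ext0_of_notMem (y : QS S) (q : S') (hq : q.1 ∉ S) :
    QS.toPi S' (ext0 (S' := S') y) q = 0 :=
  ext0Fun_of_notMem y q hq

lemma ext0_res (y : QS S') : ext0 (QS.res h y) = y * indS S S' := by
  refine PL0H713.QS_ext S' fun q => ?_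
  rw [map_mul, Pi.mul_apply]
  by_cases hq : q.1 ∈ S
  · rw [toPi_ext0_of_mem _ q hq, toPi_indS_of_mem q hq, mul_one, QS.res_apply]
  · rw [toPi_ext0_of_notMem _ q hq, toPi_indS_of_notMem q hq, mul_zero]

lemma res_ext0 (y : QS S) : QS.res h (ext0 (S' := S') y) = y := by
  refine PL0H713.QS_ext S fun q => ?_
  rw [QS.res_apply, toPi_ext0_of_mem _ ⟨q.1, h q.2⟩ q.2]

/-! ## The idempotent `e` and the section `σ` -/

variable (L : Type) [Field L] [NumberField L]

/-- The idempotent `e = 1 ⊗ 1_S` of `L ⊗ ℚ_{S'}`. -/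
def eS (S : Finset Nat.Primes) (S' : Finset Nat.Primes) : AS S' L := asIncl S' L (indS S S')

/-- The (non-unital) section `σ : L ⊗ ℚ_S → L ⊗ ℚ_{S'}` of `asRes`. -/
def sec (S : Finset Nat.Primes) (S' : Finset Nat.Primes) : AS S L →ₗ[ℚ] AS S' L :=
  TensorProduct.map LinearMap.id (ext0 (S := S) (S' := S'))

omit h in
lemma sec_tmul (l : L) (y : QS S) : sec L S S' (l ⊗ₜ[ℚ] y) = l ⊗ₜ[ℚ] ext0 (S' := S') y := rfl

lemma mul_eS (a : AS S' L) : a * eS L S S' = sec L S S' (asRes h L a) := by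
  induction a using TensorProduct.induction_on with
  | zero => simp
  | tmul l y =>
    rw [asRes_tmul, sec_tmul, ext0_res h]
    change (l ⊗ₜ[ℚ] y) * ((1 : L) ⊗ₜ[ℚ] indS S S') = _
    rw [Algebra.TensorProduct.tmul_mul_tmul, mul_one]
  | add a b ha hb => rw [add_mul, ha, hb, map_add, map_add]

lemma asRes_sec (a : AS S L) : asRes h L (sec L S S' a) = a := by
  induction a using TensorProduct.induction_on with
  | zero => simp
  | tmul l y => rw [sec_tmul, asRes_tmul, res_ext0 h]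
  | add a b ha hb => rw [map_add, map_add, ha, hb]

lemma asRes_eS : asRes h L (eS L S S') = 1 := by
  change asRes h L ((1 : L) ⊗ₜ[ℚ] indS S S') = 1
  rw [asRes_tmul, res_indS h]
  rfl

lemma eS_eq_sec_one : eS L S S' = sec L S S' 1 := by
  have := mul_eS h L (1 : AS S' L)
  rwa [one_mul, map_one] at this

lemma sec_mul_eS (a : AS S L) : sec L S S' a * eS L S S' = sec L S S' a := by
  rw [mul_eS h L, asRes_sec h L]

lemma sec_mul_sec (a b : AS S L) : sec L S S' a * sec L S S' b = sec L S S' (a * b) := by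
  have h1 := mul_eS h L (sec L S S' a * sec L S S' b)
  rw [map_mul, asRes_sec h L, asRes_sec h L, mul_assoc, sec_mul_eS h L] at h1
  exact h1

lemma eS_mul_eS : eS L S S' * eS L S S' = eS L S S' := by
  rw [mul_eS h L, asRes_eS h L, ← eS_eq_sec_one h L]

lemma sec_mul_one_sub (a : AS S L) : sec L S S' a * (1 - eS L S S') = 0 := by
  rw [mul_sub, mul_one, sec_mul_eS h L, sub_self]

/-- The unit `σ(j) + (1 - e) (x ⊗ 1)` of `L ⊗ ℚ_{S'}`: `S`-components `j`, the other components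
`x`. -/
def liftUnit (j : (AS S L)ˣ) (x : Lˣ) : (AS S' L)ˣ where
  val := sec L S S' (j : AS S L) + (1 - eS L S S') * asDiag S' L (x : L)
  inv := sec L S S' ((j⁻¹ : (AS S L)ˣ) : AS S L) + (1 - eS L S S') * asDiag S' L ((x⁻¹ : Lˣ) : L)
  val_inv := by
    have h1 : sec L S S' (j : AS S L) * sec L S S' ((j⁻¹ : (AS S L)ˣ) : AS S L) = eS L S S' := by
      rw [sec_mul_sec h L, Units.mul_inv, ← eS_eq_sec_one h L]
    have h2 := sec_mul_one_sub h L (j : AS S L)
    have h3 := sec_mul_one_sub h L ((j⁻¹ : (AS S L)ˣ) : AS S L)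
    have h4 : asDiag S' L (x : L) * asDiag S' L ((x⁻¹ : Lˣ) : L) = 1 := by
      rw [← map_mul, Units.mul_inv, map_one]
    have h5 : (1 - eS L S S') * (1 - eS L S S') = 1 - eS L S S' := by
      have := eS_mul_eS h L
      linear_combination this
    linear_combination h1 + asDiag S' L ((x⁻¹ : Lˣ) : L) * h2 + asDiag S' L (x : L) * h3 +
      (1 - eS L S S') * (1 - eS L S S') * h4 + h5
  inv_val := by
    have h1 : sec L S S' ((j⁻¹ : (AS S L)ˣ) : AS S L) * sec L S S' (j : AS S L) = eS L S S' := by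
      rw [sec_mul_sec h L, Units.inv_mul, ← eS_eq_sec_one h L]
    have h2 := sec_mul_one_sub h L (j : AS S L)
    have h3 := sec_mul_one_sub h L ((j⁻¹ : (AS S L)ˣ) : AS S L)
    have h4 : asDiag S' L ((x⁻¹ : Lˣ) : L) * asDiag S' L (x : L) = 1 := by
      rw [← map_mul, Units.inv_mul, map_one]
    have h5 : (1 - eS L S S') * (1 - eS L S S') = 1 - eS L S S' := by
      have := eS_mul_eS h L
      linear_combination this
    linear_combination h1 + asDiag S' L ((x⁻¹ : Lˣ) : L) * h2 + asDiag S' L (x : L) * h3 +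
      (1 - eS L S S') * (1 - eS L S S') * h4 + h5

lemma coe_liftUnit (j : (AS S L)ˣ) (x : Lˣ) :
    ((liftUnit h L j x : (AS S' L)ˣ) : AS S' L) =
      sec L S S' (j : AS S L) + (1 - eS L S S') * asDiag S' L (x : L) := rfl

lemma asRes_liftUnit (j : (AS S L)ˣ) (x : Lˣ) :
    asRes h L ((liftUnit h L j x : (AS S' L)ˣ) : AS S' L) = j := by
  rw [coe_liftUnit, map_add, asRes_sec h L, map_mul, map_sub, map_one, asRes_eS h L, sub_self,
    zero_mul, add_zero]

lemma jRes_liftUnit (j : (AS S L)ˣ) (x : Lˣ) :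
    jRes h L (Additive.ofMul (liftUnit h L j x)) = Additive.ofMul j := by
  apply Additive.toMul.injective
  apply Units.ext
  exact asRes_liftUnit h L j x

/-! ## Places not above `S` -/

variable {L}

omit h in
lemma mk_eS_of_notMem (𝔪 : SPlace S' L) (h𝔪 : (PL0H713.primeOf S' L 𝔪).1 ∉ S) :
    LocField.mk S' 𝔪 (eS L S S') = 0 := by
  change LocField.ofQS S' 𝔪 (indS S S') = 0
  rw [PL0H713.ofQS_eq, toPi_indS_of_notMem _ h𝔪, map_zero]

omit h in
lemma mk_eS_of_mem (𝔪 : SPlace S' L) (h𝔪 : (PL0H713.primeOf S' L 𝔪).1 ∈ S) :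
    LocField.mk S' 𝔪 (eS L S S') = 1 := by
  change LocField.ofQS S' 𝔪 (indS S S') = 1
  rw [PL0H713.ofQS_eq, toPi_indS_of_mem _ h𝔪, map_one]

lemma mk_liftUnit (j : (AS S L)ˣ) (x : Lˣ) (𝔪 : SPlace S' L)
    (h𝔪 : (PL0H713.primeOf S' L 𝔪).1 ∉ S) :
    LocField.mk S' 𝔪 ((liftUnit h L j x : (AS S' L)ˣ) : AS S' L) = toLoc S' 𝔪 (x : L) := by
  have h1 : sec L S S' (j : AS S L) = sec L S S' (j : AS S L) * eS L S S' :=
    (sec_mul_eS h L _).symm
  rw [coe_liftUnit, map_add, h1, map_mul, map_mul, map_sub, map_one, mk_eS_of_notMem 𝔪 h𝔪,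
    mul_zero, sub_zero, one_mul, zero_add]
  rfl

lemma placeOrd_liftUnit (j : (AS S L)ˣ) (x : Lˣ) (𝔪 : SPlace S' L)
    (h𝔪 : (PL0H713.primeOf S' L 𝔪).1 ∉ S) :
    placeOrd S' L 𝔪 (Additive.ofMul (liftUnit h L j x)) =
      placeOrd S' L 𝔪 (unitsDiag S' L (Additive.ofMul x)) := by
  rw [placeOrd_apply, placeOrd_apply, toMul_ofMul, mk_liftUnit h j x 𝔪 h𝔪]
  rfl

/-! ## Surjectivity of `Φ` -/

variable {β : SPlace S' L → HeightOneSpectrum (𝓞 L)}

/-- `Φ` is surjective. -/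
theorem Phi_surjective (hV : OrdDiagSpec) (hD : AboveSpec) (hX : ExistsOrdSpec)
    (hβ : IsDict S' L β) : Function.Surjective (Phi h L β) := by
  classical
  rintro ⟨j, d⟩
  haveI := PL0H713.finite_sPlace S' L
  haveI : Fintype (SPlace S' L) := Fintype.ofFinite _
  -- an element with the prescribed orders at the primes above `S' ∖ S`
  obtain ⟨x, hx⟩ := hX L (Finset.univ.image β)
    (fun w => if hw : ¬ IsAbove S L w then d (⟨w, hw⟩ : PrimeOut S L) else 0)
  refine ⟨(Additive.ofMul (liftUnit h L j.toMul x.toMul),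
    Finsupp.comapDomain (primeOutIncl h L) d (primeOutIncl_injective h L).injOn), ?_⟩
  refine Prod.ext ?_ ?_
  · rw [Phi_fst]
    exact jRes_liftUnit h L j.toMul x.toMul
  · rw [Phi_snd]
    ext w
    rw [Finsupp.add_apply]
    by_cases hw : IsAbove S' L w.1
    · obtain ⟨𝔪, h𝔪, h1⟩ := tOrd_of_isAbove hβ
        (Additive.ofMul (liftUnit h L j.toMul x.toMul)) w hw
      have h2 : (PL0H713.primeOf S' L 𝔪).1 ∉ S := fun hmem =>
        w.2 (h𝔪 ▸ (hD S S' h L β hβ 𝔪).2 hmem)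
      have h3 : ¬ IsAbove S L (β 𝔪) := h𝔪 ▸ w.2
      rw [divIncl_of_isAbove h L _ w hw, h1, placeOrd_liftUnit h _ _ 𝔪 h2, zero_add]
      have h4 : unitsDiag S' L (Additive.ofMul x.toMul) = unitsDiag S' L x := rfl
      rw [h4, hV S' L β hβ 𝔪 x, hx (β 𝔪) (Finset.mem_image_of_mem β (Finset.mem_univ 𝔪)),
        dif_pos h3]
      congr 1
      exact Subtype.ext h𝔪
    · rw [divIncl_of_not_isAbove h L _ w hw, tOrd_of_not_isAbove hβ _ w hw, add_zero,
        Finsupp.comapDomain_apply]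
      rfl

end Fermat.Agent.S55.G.SIndH601

end
end
-- ===== PACK-END S55/G/SIndH601/Surj.lean

-- ===== PACK-BEGIN S55/G/SIndH601/Assembly.lean
section
/-
S55 (Poitou–Tate), layer G, leaf G-SIND (helper601), part 5: ASSEMBLY.

`sIndep_of : PlacePrimeSpec → OrdDiagSpec → OrdEquivSpec → AboveSpec → ExistsOrdSpec →
  UnitsVanishSpec → SIndepSpec`.

The morphism `π : C_{S'}(L) ⟶ C_S(L)` induced by `Φ`, the short exact sequence
`0 → U → C_{S'}(L) → C_S(L) → 0` (`U = unitsT = ker Φ`) and the long exact cohomology sequence.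
-/




set_option autoImplicit false
set_option linter.unusedSectionVars false
set_option linter.style.haveILetI false

open scoped NumberField TensorProduct
open IsDedekindDomain CategoryTheory groupCohomology

noncomputable section

namespace Fermat.Agent.S55.G.SIndH601

open Fermat.Agent.S55.G Fermat.Agent.S55

variable {S S' : Finset Nat.Primes} (h : S ⊆ S') (G L : Type) [Group G] [Field L] [NumberField L]
  [MulSemiringAction G L] {β : SPlace S' L → HeightOneSpectrum (𝓞 L)}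

/-! ## The morphism `π` -/

lemma principal_le_comap_Phi (hV : OrdDiagSpec) (hβ : IsDict S' L β) :
    principal S' L ≤ (principal S L).comap (Phi h L β).toIntLinearMap := by
  rintro _ ⟨x, rfl⟩
  exact ⟨x, (Phi_diagHom h hV hβ x).symm⟩

/-- The additive map `C_{S'}(L) → C_S(L)` induced by `Φ`. -/
def piLin (hV : OrdDiagSpec) (hβ : IsDict S' L β) : CS S' L →ₗ[ℤ] CS S L :=
  Submodule.mapQ (principal S' L) (principal S L) (Phi h L β).toIntLinearMap
    (principal_le_comap_Phi h L hV hβ)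

lemma piLin_mk (hV : OrdDiagSpec) (hβ : IsDict S' L β) (y : JD S' L) :
    piLin h L hV hβ ((principal S' L).mkQ y) = (principal S L).mkQ (Phi h L β y) := rfl

/-- The morphism `π : C_{S'}(L) ⟶ C_S(L)` in `Rep ℤ G`. -/
def piHom (hV : OrdDiagSpec) (hE : OrdEquivSpec) (hβ : IsDict S' L β) :
    CRep S' G L ⟶ CRep S G L :=
  Rep.ofHom ⟨piLin h L hV hβ, fun g => LinearMap.ext fun c => by
    obtain ⟨y, rfl⟩ := Submodule.mkQ_surjective _ c
    change piLin h L hV hβ ((principal S' L).mkQ (jdRepr S' G L g y)) =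
      (principal S L).mkQ (jdRepr S G L g (Phi h L β y))
    rw [piLin_mk, Phi_equivariant h G hE hβ]⟩

lemma piHom_mk (hV : OrdDiagSpec) (hE : OrdEquivSpec) (hβ : IsDict S' L β) (y : JD S' L) :
    (piHom h G L hV hE hβ).hom ((principal S' L).mkQ y) = (principal S L).mkQ (Phi h L β y) :=
  rfl

/-! ## The kernel `U` as a representation -/

/-- `U = unitsT` as an object of `Rep ℤ G`. -/
def UTRep (hE : OrdEquivSpec) (hβ : IsDict S' L β) : Rep ℤ G :=
  Rep.of ((jRepr G S' L).subrepresentation (unitsT h L β) (unitsT_stable h G hE hβ))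

/-- The morphism `U ⟶ C_{S'}(L)`, `u ↦ [(u, 0)]`. -/
def uIncl (hE : OrdEquivSpec) (hβ : IsDict S' L β) : UTRep h G L hE hβ ⟶ CRep S' G L :=
  Rep.ofHom ⟨(unitsT h L β).subtype, fun _ => LinearMap.ext fun _ => rfl⟩ ≫ jToCRepHom S' G L

lemma uIncl_apply (hE : OrdEquivSpec) (hβ : IsDict S' L β) (u : unitsT h L β) :
    (uIncl h G L hE hβ).hom u = (principal S' L).mkQ ((u : Additive (AS S' L)ˣ), 0) := rfl

/-- The short complex `U ⟶ C_{S'}(L) ⟶ C_S(L)`, restricted to a subgroup `H`. -/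
def sc (hV : OrdDiagSpec) (hE : OrdEquivSpec) (hβ : IsDict S' L β) (H : Subgroup G) :
    ShortComplex (Rep ℤ H) :=
  ShortComplex.mk ((Rep.resFunctor H.subtype).map (uIncl h G L hE hβ))
    ((Rep.resFunctor H.subtype).map (piHom h G L hV hE hβ)) (by
      rw [← Functor.map_comp]
      have : uIncl h G L hE hβ ≫ piHom h G L hV hE hβ = 0 := by
        ext u
        change (piHom h G L hV hE hβ).hom ((uIncl h G L hE hβ).hom u) = 0
        rw [uIncl_apply, piHom_mk, (Phi_eq_zero_iff h hβ _).2 ⟨rfl, u.2⟩, map_zero]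
        rfl
      rw [this]
      rfl)

theorem sc_shortExact (hV : OrdDiagSpec) (hE : OrdEquivSpec) (hD : AboveSpec)
    (hX : ExistsOrdSpec) (hβ : IsDict S' L β) (hS : S.Nonempty) (H : Subgroup G) :
    (sc h G L hV hE hβ H).ShortExact := by
  refine H295.rep_shortExact_of (k := ℤ) (sc h G L hV hE hβ H) ?_ ?_ ?_
  · -- injectivity of `u ↦ [(u, 0)]`
    intro (u : unitsT h L β) (v : unitsT h L β) huv
    have h1 : (principal S' L).mkQ ((u : Additive (AS S' L)ˣ), 0) =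
        (principal S' L).mkQ ((v : Additive (AS S' L)ˣ), 0) := huv
    rw [← sub_eq_zero, ← map_sub] at h1
    obtain ⟨x, hx⟩ := (Submodule.Quotient.mk_eq_zero _).1 h1
    have hx1 : unitsDiag S' L x =
        (u : Additive (AS S' L)ˣ) - (v : Additive (AS S' L)ˣ) := by
      have := congrArg Prod.fst hx
      simpa using this
    have h2 : unitsDiag S L x = 0 := by
      rw [← jRes_unitsDiag h L x, hx1, map_sub, u.2.1, v.2.1, sub_zero]
    have h3 : x = 0 := SesH604.unitsDiag_injective S L hS (by rw [h2, map_zero])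
    rw [h3, map_zero] at hx1
    exact Subtype.ext (sub_eq_zero.1 hx1.symm)
  · -- exactness in the middle
    intro c hc
    obtain ⟨y, rfl⟩ := Submodule.mkQ_surjective _ c
    have h1 : (principal S L).mkQ (Phi h L β y) = 0 := hc
    obtain ⟨x, hx⟩ := (Submodule.Quotient.mk_eq_zero _).1 h1
    have h2 : Phi h L β (y - diagHom S' L x) = 0 := by
      rw [map_sub, Phi_diagHom h hV hβ, sub_eq_zero]
      exact hx.symm
    obtain ⟨h3, h4⟩ := (Phi_eq_zero_iff h hβ _).1 h2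
    refine ⟨⟨(y - diagHom S' L x).1, h4⟩, ?_⟩
    change (principal S' L).mkQ ((y - diagHom S' L x).1, 0) = (principal S' L).mkQ y
    have h5 : (((y - diagHom S' L x).1, 0) : JD S' L) = y - diagHom S' L x :=
      Prod.ext rfl h3.symm
    rw [h5, map_sub, sub_eq_self]
    exact (Submodule.Quotient.mk_eq_zero _).2 ⟨x, rfl⟩
  · -- surjectivity of `π`
    intro c
    obtain ⟨z, rfl⟩ := Submodule.mkQ_surjective _ c
    obtain ⟨y, rfl⟩ := Phi_surjective h hV hD hX hβ z
    exact ⟨(principal S' L).mkQ y, rfl⟩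

/-! ## The long exact sequence -/

theorem coeffMap_bijective (hV : OrdDiagSpec) (hE : OrdEquivSpec) (hD : AboveSpec)
    (hX : ExistsOrdSpec) (hβ : IsDict S' L β) (hS : S.Nonempty) (H : Subgroup G) (n : ℕ)
    (hz1 : Limits.IsZero (groupCohomology (T.resSub (UTRep h G L hE hβ) H) n))
    (hz2 : Limits.IsZero (groupCohomology (T.resSub (UTRep h G L hE hβ) H) (n + 1))) :
    Function.Bijective
      (T.coeffMap ((Rep.resFunctor H.subtype).map (piHom h G L hV hE hβ)) n).hom := by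
  have hSE := sc_shortExact h G L hV hE hD hX hβ hS H
  constructor
  · rw [injective_iff_map_eq_zero]
    intro y hy
    have hex := mapShortComplex₂_exact hSE n
    obtain ⟨x, hx⟩ := (ShortComplex.moduleCat_exact_iff _).mp hex y hy
    have hx0 : x = 0 := by
      haveI : Subsingleton ↑(groupCohomology (T.resSub (UTRep h G L hE hβ) H) n) :=
        ModuleCat.isZero_iff_subsingleton.mp hz1
      exact Subsingleton.elim (α := ↑(groupCohomology (T.resSub (UTRep h G L hE hβ) H) n)) x 0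
    rw [← hx, hx0, map_zero]
    rfl
  · intro z
    have hex := mapShortComplex₃_exact hSE (i := n) (j := n + 1) rfl
    have hδ : (groupCohomology.δ hSE n (n + 1) rfl).hom z = 0 := by
      haveI : Subsingleton ↑(groupCohomology (T.resSub (UTRep h G L hE hβ) H) (n + 1)) :=
        ModuleCat.isZero_iff_subsingleton.mp hz2
      exact Subsingleton.elim
        (α := ↑(groupCohomology (T.resSub (UTRep h G L hE hβ) H) (n + 1))) _ 0
    obtain ⟨y, hy⟩ := (ShortComplex.moduleCat_exact_iff _).mp hex z hδ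
    exact ⟨y, hy⟩

/-! ## The theorem -/

/-- **G-SIND** (independence of `S`), modulo the dictionary `PlacePrimeSpec` and the sub-leaves
of `SIndH601/Spec.lean`. -/
theorem sIndep_of (hPL1 : PlacePrimeSpec) (hV : OrdDiagSpec) (hE : OrdEquivSpec)
    (hD : AboveSpec) (hX : ExistsOrdSpec) (hU : UnitsVanishSpec) : SIndepSpec := by
  intro S S' h G L _ _ _ _ _ _ hS hur
  obtain ⟨β, hβ⟩ := isDict_of_placePrime hPL1 S' L
  refine ⟨Phi h L β, piHom h G L hV hE hβ, ?_, ?_, ?_, ?_, ?_, ?_, ?_⟩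
  · exact fun g y => Phi_equivariant h G hE hβ g y
  · exact fun x => Phi_diagHom h hV hβ x
  · exact fun y => Phi_fst h L β y
  · exact fun d => Phi_zero_left h L β d
  · exact fun y => piHom_mk h G L hV hE hβ y
  · exact Phi_surjective h hV hD hX hβ
  · intro H n hn
    exact coeffMap_bijective h G L hV hE hD hX hβ hS H n
      (hU S S' h G L β hβ hS hur (unitsT_stable h G hE hβ) H n hn)
      (hU S S' h G L β hβ hS hur (unitsT_stable h G hE hβ) H (n + 1) (Nat.succ_pos n))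

end Fermat.Agent.S55.G.SIndH601

end
end
-- ===== PACK-END S55/G/SIndH601/Assembly.lean

-- ===== PACK-BEGIN S55/G/SIndH601/ULocal.lean
section
/-
S55 (Poitou–Tate), layer G, leaf G-SIND-U (helper601), part 2: the local unit representations
`U_𝔪 = 𝒪_𝔪ˣ` of the decomposition groups and their cohomological triviality at the places where
`L / L^Γ` is unramified.

* `locUnits S L 𝔪`   : the units of the ring of integers of `L_𝔪`, a submodule of `L_𝔪ˣ`;
* `ULocRep S Γ L 𝔪`  : the same as a representation of the decomposition group `D_𝔪`;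
* `isZero_ULocRep`   : `H¹(D_𝔪, U_𝔪) = H²(D_𝔪, U_𝔪) = 0` if the inertia group of `β 𝔪` is trivial.
-/




set_option autoImplicit false
set_option linter.unusedSectionVars false
set_option linter.style.haveILetI false

open scoped NumberField TensorProduct
open IsDedekindDomain CategoryTheory groupCohomology

noncomputable section

namespace Fermat.Agent.S55.G.SIndH601

open Fermat.Agent.S55.G Fermat.Agent.S55 Fermat.Agent.S55.Local

variable (S : Finset Nat.Primes) (Γ L : Type) [Group Γ] [Field L] [NumberField L]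
  [MulSemiringAction Γ L]

/-! ## Integrality and the normalised valuation -/

variable {L} in
/-- `x ∈ L_𝔪` is integral over `ℤ_q` iff `|x| ≤ 1`. -/
lemma isInt_iff_locVal_le_one (𝔪 : SPlace S L) (x : LocField S 𝔪) :
    haveI : Fact (Nat.Prime ((PL0H713.primeOf S L 𝔪).1 : ℕ)) := ⟨(PL0H713.primeOf S L 𝔪).1.2⟩
    letI := PL0H713.algQq S L 𝔪
    IsInt ℤ_[((PL0H713.primeOf S L 𝔪).1 : ℕ)] ℚ_[((PL0H713.primeOf S L 𝔪).1 : ℕ)]
      (LocField S 𝔪) x ↔ locVal S L 𝔪 x ≤ 1 :=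
  (locVal_le_one_iff S L 𝔪 x).symm

variable {L} in
/-- A unit `u` of `L_𝔪` is an integral unit iff `|u| = 1`. -/
lemma mem_intUnits_iff_locVal (𝔪 : SPlace S L) (u : (LocField S 𝔪)ˣ) :
    haveI : Fact (Nat.Prime ((PL0H713.primeOf S L 𝔪).1 : ℕ)) := ⟨(PL0H713.primeOf S L 𝔪).1.2⟩
    letI := PL0H713.algQq S L 𝔪
    u ∈ _root_.Fermat.Agent.S55.Local.intUnits ℤ_[((PL0H713.primeOf S L 𝔪).1 : ℕ)] ℚ_[((PL0H713.primeOf S L 𝔪).1 : ℕ)]
      (LocField S 𝔪) ↔ locVal S L 𝔪 (u : LocField S 𝔪) = 1 := by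
  haveI : Fact (Nat.Prime ((PL0H713.primeOf S L 𝔪).1 : ℕ)) := ⟨(PL0H713.primeOf S L 𝔪).1.2⟩
  letI := PL0H713.algQq S L 𝔪
  rw [mem_intUnits, isInt_iff_locVal_le_one, isInt_iff_locVal_le_one, Units.val_inv_eq_inv_val,
    map_inv₀]
  have h0 : 0 < locVal S L 𝔪 (u : LocField S 𝔪) :=
    zero_lt_iff.2 ((Valuation.ne_zero_iff _).2 u.ne_zero)
  rw [inv_le_one₀ h0]
  exact ⟨fun h => le_antisymm h.1 h.2, fun h => ⟨h.le, h.ge⟩⟩

variable {L} in
/-- An element of the maximal ideal has `|y| < 1`. -/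
lemma locVal_lt_one_of_isNonUnitInt (𝔪 : SPlace S L) (y : LocField S 𝔪)
    (hy : haveI : Fact (Nat.Prime ((PL0H713.primeOf S L 𝔪).1 : ℕ)) :=
        ⟨(PL0H713.primeOf S L 𝔪).1.2⟩
      letI := PL0H713.algQq S L 𝔪
      H608.IsNonUnitInt ℤ_[((PL0H713.primeOf S L 𝔪).1 : ℕ)]
        ℚ_[((PL0H713.primeOf S L 𝔪).1 : ℕ)] (LocField S 𝔪) y) :
    locVal S L 𝔪 y < 1 := by
  haveI : Fact (Nat.Prime ((PL0H713.primeOf S L 𝔪).1 : ℕ)) := ⟨(PL0H713.primeOf S L 𝔪).1.2⟩
  letI := PL0H713.algQq S L 𝔪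
  obtain ⟨h1, h2⟩ := hy
  rw [isInt_iff_locVal_le_one] at h1
  refine lt_of_le_of_ne h1 fun h => ?_
  have hy0 : y ≠ 0 := by
    rintro rfl
    rw [map_zero] at h
    exact zero_ne_one h
  exact h2 (Units.mk0 y hy0) rfl ((mem_intUnits_iff_locVal S 𝔪 _).2 h)

variable {L} in
/-- The image of an algebraic integer of `L` in `L_𝔪` is integral over `ℤ_q`. -/
lemma isInt_toLoc (𝔪 : SPlace S L) (x : 𝓞 L) :
    haveI : Fact (Nat.Prime ((PL0H713.primeOf S L 𝔪).1 : ℕ)) := ⟨(PL0H713.primeOf S L 𝔪).1.2⟩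
    letI := PL0H713.algQq S L 𝔪
    IsInt ℤ_[((PL0H713.primeOf S L 𝔪).1 : ℕ)] ℚ_[((PL0H713.primeOf S L 𝔪).1 : ℕ)]
      (LocField S 𝔪) (toLoc S 𝔪 (x : L)) := by
  haveI : Fact (Nat.Prime ((PL0H713.primeOf S L 𝔪).1 : ℕ)) := ⟨(PL0H713.primeOf S L 𝔪).1.2⟩
  letI := PL0H713.algQq S L 𝔪
  letI : Algebra ℤ_[((PL0H713.primeOf S L 𝔪).1 : ℕ)] (LocField S 𝔪) :=
    (toL ℤ_[((PL0H713.primeOf S L 𝔪).1 : ℕ)] ℚ_[((PL0H713.primeOf S L 𝔪).1 : ℕ)]
      (LocField S 𝔪)).toAlgebra
  have hx : IsIntegral ℤ (x : L) := NumberField.RingOfIntegers.isIntegral_coe x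
  exact IsIntegral.map_of_comp_eq (Int.castRingHom ℤ_[((PL0H713.primeOf S L 𝔪).1 : ℕ)])
    (toLoc S 𝔪) (Subsingleton.elim _ _) hx

/-! ## The local units -/

variable {L} in
/-- The units `U_𝔪` of the ring of integers of `L_𝔪`, as a submodule of `L_𝔪ˣ`. -/
def locUnits (𝔪 : SPlace S L) : Submodule ℤ (Additive (LocField S 𝔪)ˣ) :=
  AddSubgroup.toIntSubmodule
    { carrier := {u | locVal S L 𝔪 ((u.toMul : (LocField S 𝔪)ˣ) : LocField S 𝔪) = 1}
      add_mem' := fun {a b} ha hb => by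
        change locVal S L 𝔪 (((a.toMul * b.toMul : (LocField S 𝔪)ˣ)) : LocField S 𝔪) = 1
        have ha' : locVal S L 𝔪 ((a.toMul : (LocField S 𝔪)ˣ) : LocField S 𝔪) = 1 := ha
        have hb' : locVal S L 𝔪 ((b.toMul : (LocField S 𝔪)ˣ) : LocField S 𝔪) = 1 := hb
        rw [Units.val_mul, map_mul, ha', hb', mul_one]
      zero_mem' := by
        change locVal S L 𝔪 (((1 : (LocField S 𝔪)ˣ)) : LocField S 𝔪) = 1
        rw [Units.val_one, map_one]
      neg_mem' := fun {a} ha => by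
        change locVal S L 𝔪 ((((a.toMul)⁻¹ : (LocField S 𝔪)ˣ)) : LocField S 𝔪) = 1
        have ha' : locVal S L 𝔪 ((a.toMul : (LocField S 𝔪)ˣ) : LocField S 𝔪) = 1 := ha
        rw [Units.val_inv_eq_inv_val, map_inv₀, ha', inv_one] }

variable {L} in
lemma mem_locUnits_iff (𝔪 : SPlace S L) (u : Additive (LocField S 𝔪)ˣ) :
    u ∈ locUnits S 𝔪 ↔
      locVal S L 𝔪 ((u.toMul : (LocField S 𝔪)ˣ) : LocField S 𝔪) = 1 := Iff.rfl

variable {L} in
/-- The decomposition group fixes the image of `ℚ_q` in `L_𝔪`. -/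
lemma locAut_ofQq' (𝔪 : SPlace S L) (d : decomp S Γ 𝔪) (x : Qq (PL0H713.primeOf S L 𝔪).1) :
    locAut S Γ 𝔪 d (PL0H713.ofQq S L 𝔪 x) = PL0H713.ofQq S L 𝔪 x := by
  rw [PL0H713.ofQq_apply]
  change locAut S Γ 𝔪 d (LocField.mk S 𝔪 (asIncl S L _)) = LocField.mk S 𝔪 (asIncl S L _)
  rw [locAut_mk, asAut_asIncl]

variable {L} in
/-- The decomposition group preserves integrality. -/
lemma isInt_locAut (𝔪 : SPlace S L) (d : decomp S Γ 𝔪) (x : LocField S 𝔪)
    (hx : haveI : Fact (Nat.Prime ((PL0H713.primeOf S L 𝔪).1 : ℕ)) :=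
        ⟨(PL0H713.primeOf S L 𝔪).1.2⟩
      letI := PL0H713.algQq S L 𝔪
      IsInt ℤ_[((PL0H713.primeOf S L 𝔪).1 : ℕ)] ℚ_[((PL0H713.primeOf S L 𝔪).1 : ℕ)]
        (LocField S 𝔪) x) :
    haveI : Fact (Nat.Prime ((PL0H713.primeOf S L 𝔪).1 : ℕ)) := ⟨(PL0H713.primeOf S L 𝔪).1.2⟩
    letI := PL0H713.algQq S L 𝔪
    IsInt ℤ_[((PL0H713.primeOf S L 𝔪).1 : ℕ)] ℚ_[((PL0H713.primeOf S L 𝔪).1 : ℕ)]
      (LocField S 𝔪) (locAut S Γ 𝔪 d x) := by
  haveI : Fact (Nat.Prime ((PL0H713.primeOf S L 𝔪).1 : ℕ)) := ⟨(PL0H713.primeOf S L 𝔪).1.2⟩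
  letI := PL0H713.algQq S L 𝔪
  obtain ⟨p, hp, hpx⟩ := hx
  refine ⟨p, hp, ?_⟩
  have h1 := congrArg ((locAut S Γ 𝔪 d : LocField S 𝔪 ≃+* LocField S 𝔪) :
    LocField S 𝔪 →+* LocField S 𝔪) hpx
  rw [Polynomial.hom_eval₂, map_zero] at h1
  have h2 : ((locAut S Γ 𝔪 d : LocField S 𝔪 ≃+* LocField S 𝔪) :
      LocField S 𝔪 →+* LocField S 𝔪).comp
      (toL ℤ_[((PL0H713.primeOf S L 𝔪).1 : ℕ)] ℚ_[((PL0H713.primeOf S L 𝔪).1 : ℕ)]
        (LocField S 𝔪)) =
      toL ℤ_[((PL0H713.primeOf S L 𝔪).1 : ℕ)] ℚ_[((PL0H713.primeOf S L 𝔪).1 : ℕ)]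
        (LocField S 𝔪) :=
    RingHom.ext fun a => locAut_ofQq' S Γ 𝔪 d _
  rw [h2] at h1
  exact h1

variable {L} in
/-- The decomposition group preserves the normalised valuation. -/
lemma locVal_locAut (𝔪 : SPlace S L) (d : decomp S Γ 𝔪) (u : (LocField S 𝔪)ˣ)
    (hu : locVal S L 𝔪 (u : LocField S 𝔪) = 1) :
    locVal S L 𝔪 (locAut S Γ 𝔪 d (u : LocField S 𝔪)) = 1 := by
  haveI : Fact (Nat.Prime ((PL0H713.primeOf S L 𝔪).1 : ℕ)) := ⟨(PL0H713.primeOf S L 𝔪).1.2⟩
  letI := PL0H713.algQq S L 𝔪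
  have h1 := (mem_intUnits_iff_locVal S 𝔪 u).2 hu
  have h2 : Units.map ((locAut S Γ 𝔪 d : LocField S 𝔪 ≃+* LocField S 𝔪) :
      LocField S 𝔪 →* LocField S 𝔪) u ∈
      _root_.Fermat.Agent.S55.Local.intUnits ℤ_[((PL0H713.primeOf S L 𝔪).1 : ℕ)] ℚ_[((PL0H713.primeOf S L 𝔪).1 : ℕ)]
        (LocField S 𝔪) := by
    refine ⟨isInt_locAut S Γ 𝔪 d _ h1.1, ?_⟩
    rw [← map_inv]
    exact isInt_locAut S Γ 𝔪 d _ h1.2
  exact (mem_intUnits_iff_locVal S 𝔪 _).1 h2

variable {L} in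
lemma locUnits_stable (𝔪 : SPlace S L) (d : decomp S Γ 𝔪) :
    locUnits S 𝔪 ≤ (locUnits S 𝔪).comap (unitsRepr (decomp S Γ 𝔪) (locAut S Γ 𝔪) d) := by
  intro u hu
  exact locVal_locAut S Γ 𝔪 d u.toMul hu

variable {L} in
/-- `U_𝔪` as a representation of the decomposition group. -/
def ULocRep (𝔪 : SPlace S L) : Rep ℤ (decomp S Γ 𝔪) :=
  Rep.of ((unitsRepr (decomp S Γ 𝔪) (locAut S Γ 𝔪)).subrepresentation (locUnits S 𝔪)
    (locUnits_stable S Γ 𝔪))

/-! ## Local vanishing -/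

variable {S' : Finset Nat.Primes} {β : SPlace S' L → HeightOneSpectrum (𝓞 L)}

variable {L} in
/-- **Local vanishing at an unramified place.** -/
theorem isZero_ULocRep [Finite Γ] [FaithfulSMul Γ L] (hβ : IsDict S' L β)
    (hur : IsUnramOut S Γ L) (𝔪 : SPlace S' L) (h𝔪 : ¬ IsAbove S L (β 𝔪)) :
    Limits.IsZero (groupCohomology (ULocRep S' Γ 𝔪) 1) ∧
      Limits.IsZero (groupCohomology (ULocRep S' Γ 𝔪) 2) := by
  haveI : Fact (Nat.Prime ((PL0H713.primeOf S' L 𝔪).1 : ℕ)) := ⟨(PL0H713.primeOf S' L 𝔪).1.2⟩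
  refine isZero_local_units (locAut S' Γ 𝔪) (H953.locAut_injective S' Γ 𝔪)
    ((PL0H713.primeOf S' L 𝔪).1 : ℕ) (PL0H713.ofQq S' L 𝔪) (PL0H713.finite_locField S' L 𝔪)
    (locAut_ofQq' S' Γ 𝔪) ?_ (locUnits S' 𝔪) ?_ (locUnits_stable S' Γ 𝔪)
  · -- trivial inertia
    intro d hd
    have h1 : ∀ x : L, (d : Γ) • x = x := by
      refine hur (β 𝔪) h𝔪 (d : Γ) fun x => ?_
      rw [hβ.integral 𝔪 ((d : Γ) • x - x), ← locVal_lt_one_iff]
      have h2 : toLoc S' 𝔪 ((((d : Γ) • x - x : 𝓞 L)) : L) =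
          locAut S' Γ 𝔪 d (toLoc S' 𝔪 (x : L)) - toLoc S' 𝔪 (x : L) := by
        rw [locAut_toLoc, ← map_sub]
        congr 1
      rw [h2]
      exact locVal_lt_one_of_isNonUnitInt S' 𝔪 _ (hd _ (isInt_toLoc S' 𝔪 x))
    apply Subtype.ext
    exact FaithfulSMul.eq_of_smul_eq_smul (α := L) fun x => by
      rw [h1 x, Subgroup.coe_one, one_smul]
  · intro u
    rw [mem_locUnits_iff]
    exact (mem_intUnits_iff_locVal S' 𝔪 u.toMul).symm

end Fermat.Agent.S55.G.SIndH601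

end
end
-- ===== PACK-END S55/G/SIndH601/ULocal.lean

-- ===== PACK-BEGIN S55/G/SIndH601/USemi.lean
section
/-
S55 (Poitou–Tate), layer G, leaf G-SIND-U (helper601), part 3: semi-local Shapiro for
`U = unitsT` and the proof of `UnitsVanishSpec`.

* `UTRepOf`, `uToLoc`   : `U` as a representation and the localisation morphisms
                          `Res_{D_𝔪} U ⟶ U_𝔪` (`𝔪` not above `S`);
* `uRecognition`        : `U ≅ ∏_{orbits not above S} Coind_{D_r}^Γ U_r` (recognition form);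
* `isZero_UTRepOf`      : `H¹(Γ, U) = H²(Γ, U) = 0`;
* `unitsVanish_of : OrdEquivSpec → AboveSpec → UnitsVanishSpec`.
-/








set_option autoImplicit false
set_option linter.unusedSectionVars false
set_option linter.style.haveILetI false

open scoped NumberField TensorProduct
open IsDedekindDomain CategoryTheory groupCohomology

noncomputable section

namespace Fermat.Agent.S55.G.SIndH601

open Fermat.Agent.S55.G Fermat.Agent.S55

variable {S S' : Finset Nat.Primes} (h : S ⊆ S') (Γ L : Type) [Group Γ] [Field L]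
  [NumberField L] [MulSemiringAction Γ L] {β : SPlace S' L → HeightOneSpectrum (𝓞 L)}

/-! ## Components at the places above `S` -/

variable {L} in
/-- An idèle with trivial `S`-part has component `1` at the places above `S`. -/
lemma mk_eq_one_of_asRes (a : AS S' L) (ha : asRes h L a = 1) (𝔪 : SPlace S' L)
    (h𝔪 : (PL0H713.primeOf S' L 𝔪).1 ∈ S) : LocField.mk S' 𝔪 a = 1 := by
  have h1 : a * eS L S S' = eS L S S' := by
    rw [mul_eS h L a, ha, ← eS_eq_sec_one h L]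
  have h2 := congrArg (LocField.mk S' 𝔪) h1
  rw [map_mul, mk_eS_of_mem 𝔪 h𝔪, mul_one] at h2
  exact h2

variable {L} in
/-- An element with component `1` at all places above `S` has trivial `S`-part. -/
lemma asRes_eq_one_of_mk (a : AS S' L)
    (ha : ∀ 𝔪 : SPlace S' L, (PL0H713.primeOf S' L 𝔪).1 ∈ S → LocField.mk S' 𝔪 a = 1) :
    asRes h L a = 1 := by
  haveI := LocH897.isReduced_AS S' L
  haveI := LocH897.isArtinianRing_AS S' L
  have h1 : a * eS L S S' - eS L S S' = 0 := by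
    refine LocH897.eq_zero_of_forall_mem_maximal _ fun 𝔫 h𝔫 => ?_
    have h2 : LocField.mk S' (⟨𝔫, h𝔫⟩ : SPlace S' L) (a * eS L S S' - eS L S S') = 0 := by
      rw [map_sub, map_mul]
      by_cases hq : (PL0H713.primeOf S' L (⟨𝔫, h𝔫⟩ : SPlace S' L)).1 ∈ S
      · rw [ha _ hq, one_mul, sub_self]
      · rw [mk_eS_of_notMem _ hq, mul_zero, sub_self]
    exact (LocField.mk_eq_zero_iff S' (⟨𝔫, h𝔫⟩ : SPlace S' L) _).1 h2
  have h3 : asRes h L (a * eS L S S') = asRes h L (eS L S S') := by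
    rw [sub_eq_zero.1 h1]
  rw [map_mul, asRes_eS h L, mul_one] at h3
  exact h3

variable {L} in
/-- `x ≡ 1` at `g r` iff `g⁻¹ x ≡ 1` at `r`. -/
lemma mk_sPlaceSMul_eq_one_iff (g : Γ) (r : SPlace S' L) (x : AS S' L) :
    LocField.mk S' (sPlaceSMul S' Γ g r) x = 1 ↔ LocField.mk S' r (asAut S' Γ L g⁻¹ x) = 1 := by
  rw [← sub_eq_zero, ← map_one (LocField.mk S' (sPlaceSMul S' Γ g r)), ← map_sub,
    LocField.mk_eq_zero_iff, mem_sPlaceSMul_iff, ← LocField.mk_eq_zero_iff, map_sub, map_one,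
    map_sub, map_one, sub_eq_zero]

/-! ## `U` and the localisation morphisms -/

/-- `U = unitsT` as an object of `Rep ℤ Γ`. -/
def UTRepOf (hstab : ∀ g : Γ, unitsT h L β ≤ (unitsT h L β).comap (jRepr Γ S' L g)) :
    Rep ℤ Γ :=
  Rep.of ((jRepr Γ S' L).subrepresentation (unitsT h L β) hstab)

variable {L} in
/-- The localisation `U → U_𝔪` at a place `𝔪` not above `S`. -/
def uToLocLin (𝔪 : SPlace S' L) (h𝔪 : ¬ IsAbove S L (β 𝔪)) :
    unitsT h L β →ₗ[ℤ] locUnits S' 𝔪 :=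
  LinearMap.codRestrict (locUnits S' 𝔪)
    ((jToLoc S' 𝔪).toIntLinearMap.comp (unitsT h L β).subtype)
    (fun u => (placeOrd_eq_zero_iff S' L 𝔪 u.1).1 (u.2.2 𝔪 h𝔪))

variable {L} in
lemma coe_uToLocLin (𝔪 : SPlace S' L) (h𝔪 : ¬ IsAbove S L (β 𝔪)) (u : unitsT h L β) :
    ((((uToLocLin h 𝔪 h𝔪 u : locUnits S' 𝔪) : Additive (LocField S' 𝔪)ˣ).toMul :
      (LocField S' 𝔪)ˣ) : LocField S' 𝔪) =
      LocField.mk S' 𝔪 (((u : Additive (AS S' L)ˣ).toMul : (AS S' L)ˣ) : AS S' L) := rfl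

variable {L} in
/-- The localisation morphism `Res_{D_𝔪} U ⟶ U_𝔪`. -/
def uToLoc (hstab : ∀ g : Γ, unitsT h L β ≤ (unitsT h L β).comap (jRepr Γ S' L g))
    (𝔪 : SPlace S' L) (h𝔪 : ¬ IsAbove S L (β 𝔪)) :
    Rep.res (decomp S' Γ 𝔪).subtype (UTRepOf h Γ L hstab) ⟶ ULocRep S' Γ 𝔪 :=
  Rep.ofHom ⟨uToLocLin h 𝔪 h𝔪, fun d => LinearMap.ext fun u =>
    Subtype.ext (jToLoc_equivariant S' Γ 𝔪 d (u : unitsT h L β).1)⟩

variable {L} in
lemma uToLoc_hom_apply (hstab : ∀ g : Γ, unitsT h L β ≤ (unitsT h L β).comap (jRepr Γ S' L g))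
    (𝔪 : SPlace S' L) (h𝔪 : ¬ IsAbove S L (β 𝔪)) (u : unitsT h L β) :
    (uToLoc h Γ hstab 𝔪 h𝔪).hom u = uToLocLin h 𝔪 h𝔪 u := rfl

/-! ## The recognition principle -/

variable {L} in
/-- **Semi-local decomposition of `U`.**  `U ≅ ∏_r Coind_{D_r}^Γ U_r`, `r` running over
representatives of the `Γ`-orbits of places not above `S`. -/
theorem uRecognition (hE : OrdEquivSpec) (hD : AboveSpec) (hβ : IsDict S' L β)
    (hstab : ∀ g : Γ, unitsT h L β ≤ (unitsT h L β).comap (jRepr Γ S' L g))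
    (R : Finset (SPlace S' L))
    (hR : ∀ 𝔪 : SPlace S' L, ∃! r : SPlace S' L, r ∈ R ∧ ∃ g : Γ, sPlaceSMul S' Γ g r = 𝔪)
    (f : ∀ r : {r : SPlace S' L // r ∈ R ∧ ¬ IsAbove S L (β r)}, Γ → locUnits S' r.1)
    (hf : ∀ (r : {r : SPlace S' L // r ∈ R ∧ ¬ IsAbove S L (β r)}) (s : decomp S' Γ r.1)
      (g : Γ), f r (s * g) =
        ((unitsRepr (decomp S' Γ r.1) (locAut S' Γ r.1)).subrepresentation (locUnits S' r.1)
          (locUnits_stable S' Γ r.1)) s (f r g)) :
    ∃! b : unitsT h L β,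
      ∀ (r : {r : SPlace S' L // r ∈ R ∧ ¬ IsAbove S L (β r)}) (g : Γ),
        uToLocLin h r.1 r.2.2
          (((jRepr Γ S' L).subrepresentation (unitsT h L β) hstab) g b) = f r g := by
  classical
  haveI := LocH897.isReduced_AS S' L
  haveI := LocH897.isArtinianRing_AS S' L
  have hcover : ∀ 𝔫 : Ideal (AS S' L), 𝔫.IsMaximal →
      ∃ (i : R) (g : Γ), ∀ x, x ∈ 𝔫 ↔ asRingAut Γ S' L g x ∈ i.1.asIdeal := by
    intro 𝔫 h𝔫
    obtain ⟨r, ⟨hrR, g, hg⟩, -⟩ := hR ⟨𝔫, h𝔫⟩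
    refine ⟨⟨r, hrR⟩, g⁻¹, fun x => ?_⟩
    have := LocH897.mem_sPlaceSMul_iff' S' Γ L g r x
    rw [hg] at this
    exact this
  have hdisj : ∀ (i j : R) (g : Γ),
      (∀ x, x ∈ j.1.asIdeal ↔ asRingAut Γ S' L g x ∈ i.1.asIdeal) → i = j := by
    intro i j g hh
    obtain ⟨r, -, hru⟩ := hR j.1
    have hj : j.1 = r := hru j.1 ⟨j.2, 1, by
      refine MaximalSpectrum.ext (Ideal.ext fun x => ?_)
      rw [LocH897.mem_sPlaceSMul_iff', inv_one, map_one, RingAut.one_apply]⟩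
    have hi : i.1 = r := hru i.1 ⟨i.2, g⁻¹, by
      refine MaximalSpectrum.ext (Ideal.ext fun x => ?_)
      rw [LocH897.mem_sPlaceSMul_iff', inv_inv, hh]⟩
    exact Subtype.ext (hi.trans hj.symm)
  -- the family of prescribed components
  let F : ∀ r : R, Γ → (AS S' L ⧸ r.1.asIdeal)ˣ := fun r g =>
    if hr : IsAbove S L (β r.1) then 1
    else Additive.toMul (α := (AS S' L ⧸ r.1.asIdeal)ˣ)
      ((f ⟨r.1, r.2, hr⟩ g : locUnits S' r.1) : Additive (LocField S' r.1)ˣ)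
  have hF : ∀ (r : R) (s : LocH897.decomp (asRingAut Γ S' L) r.1.asIdeal) (g : Γ),
      ((F r (s * g) : (AS S' L ⧸ r.1.asIdeal)ˣ) : AS S' L ⧸ r.1.asIdeal) =
        LocH897.resAut (asRingAut Γ S' L) r.1.asIdeal s (F r g) := by
    intro r s g
    by_cases hr : IsAbove S L (β r.1)
    · simp only [F, dif_pos hr, Units.val_one, map_one]
    · simp only [F, dif_neg hr]
      have hs : (s : Γ) ∈ G.decomp S' Γ r.1 := by rw [LocH897.Gdecomp_eq]; exact s.2
      have := congrArg (fun y : locUnits S' r.1 =>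
        (((y : Additive (LocField S' r.1)ˣ).toMul : (LocField S' r.1)ˣ) : LocField S' r.1))
        (hf ⟨r.1, r.2, hr⟩ ⟨s, hs⟩ g)
      exact this
  obtain ⟨b, hb, hbu⟩ := LocH897.existsUnique_units (asRingAut Γ S' L)
    (fun r : R => r.1.asIdeal) (fun r => r.1.isMaximal) hcover hdisj F hF
  -- `b ∈ U`
  have hbmem : (Additive.ofMul b : Additive (AS S' L)ˣ) ∈ unitsT h L β := by
    refine ⟨?_, fun 𝔪 h𝔪 => ?_⟩
    · apply Additive.toMul.injective
      apply Units.ext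
      change asRes h L (b : AS S' L) = 1
      refine asRes_eq_one_of_mk h _ fun 𝔪 h𝔪 => ?_
      obtain ⟨r, ⟨hrR, g, rfl⟩, -⟩ := hR 𝔪
      rw [mk_sPlaceSMul_eq_one_iff]
      have hr : IsAbove S L (β r) := by
        have h1 := (hD S S' h L β hβ _).2 h𝔪
        rw [hβ.equiv Γ g r, isAbove_primeSMul_iff] at h1
        exact h1
      have h2 := hb ⟨r, hrR⟩ g⁻¹
      simp only [F, dif_pos hr, Units.val_one] at h2
      exact h2
    · obtain ⟨r, ⟨hrR, g, rfl⟩, -⟩ := hR 𝔪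
      have hr : ¬ IsAbove S L (β r) := by
        rw [hβ.equiv Γ g r, isAbove_primeSMul_iff] at h𝔪
        exact h𝔪
      have e1 : (Additive.ofMul b : Additive (AS S' L)ˣ) =
          jRepr Γ S' L g (jRepr Γ S' L g⁻¹ (Additive.ofMul b)) := by
        rw [← Module.End.mul_apply, ← map_mul, mul_inv_cancel, map_one]
        rfl
      rw [e1, hE S' Γ L g r, placeOrd_eq_zero_iff]
      have h2 := hb ⟨r, hrR⟩ g⁻¹
      simp only [F, dif_neg hr] at h2
      have h3 : locVal S' L r ((((f ⟨r, hrR, hr⟩ g⁻¹ : locUnits S' r) :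
          Additive (LocField S' r)ˣ).toMul : (LocField S' r)ˣ) : LocField S' r) = 1 :=
        (f ⟨r, hrR, hr⟩ g⁻¹ : locUnits S' r).2
      rw [← h3]
      exact congrArg (locVal S' L r) h2
  refine ⟨(⟨Additive.ofMul b, hbmem⟩ : unitsT h L β), fun r g => ?_, fun c hc => ?_⟩
  · apply Subtype.ext
    apply Additive.toMul.injective
    apply Units.ext
    have h2 := hb ⟨r.1, r.2.1⟩ g
    simp only [F, dif_neg r.2.2] at h2
    exact h2
  · apply Subtype.ext
    apply Additive.toMul.injective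
    refine hbu ((c : unitsT h L β).1.toMul) fun r g => ?_
    by_cases hr : IsAbove S L (β r.1)
    · simp only [F, dif_pos hr, Units.val_one]
      have hmem := hstab g (c : unitsT h L β).2
      have h1 : asRes h L (asAut S' Γ L g
          ((((c : unitsT h L β) : Additive (AS S' L)ˣ).toMul : (AS S' L)ˣ) : AS S' L)) = 1 := by
        have := congrArg (fun y : Additive (AS S L)ˣ => ((y.toMul : (AS S L)ˣ) : AS S L))
          hmem.1
        exact this
      exact mk_eq_one_of_asRes h _ h1 r.1 ((hD S S' h L β hβ r.1).1 hr)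
    · simp only [F, dif_neg hr]
      have := congrArg (fun y : locUnits S' r.1 =>
        (((y : Additive (LocField S' r.1)ˣ).toMul : (LocField S' r.1)ˣ) : LocField S' r.1))
        (hc ⟨r.1, r.2, hr⟩ g)
      exact this

/-! ## Vanishing of `H¹` and `H²` for the full group -/

/-- `H¹(Γ, U) = H²(Γ, U) = 0`. -/
theorem isZero_UTRepOf [Finite Γ] [FaithfulSMul Γ L] (hE : OrdEquivSpec) (hD : AboveSpec)
    (hβ : IsDict S' L β) (hur : IsUnramOut S Γ L)
    (hstab : ∀ g : Γ, unitsT h L β ≤ (unitsT h L β).comap (jRepr Γ S' L g)) (n : ℕ)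
    (hn : n = 1 ∨ n = 2) :
    Limits.IsZero (groupCohomology (UTRepOf h Γ L hstab) n) := by
  haveI : Finite (SPlace S' L) := PL0H713.finite_sPlace S' L
  obtain ⟨R, hR⟩ := H953.exists_orbitReps S' Γ L
  have hbij := LocH897.semilocal_bijective T.ShapiroH303.shapiroExplicit T.H635.finiteProd
    (k := ℤ) (G := Γ) {r : SPlace S' L // r ∈ R ∧ ¬ IsAbove S L (β r)}
    (fun r => decomp S' Γ r.1) (fun r => ULocRep S' Γ r.1) (UTRepOf h Γ L hstab)
    (fun r => uToLoc h Γ hstab r.1 r.2.2)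
    (fun f hf => uRecognition h Γ hE hD hβ hstab R hR f hf) n
  have hloc : ∀ r : {r : SPlace S' L // r ∈ R ∧ ¬ IsAbove S L (β r)},
      Subsingleton (groupCohomology (ULocRep S' Γ r.1) n) := by
    intro r
    obtain ⟨h1, h2⟩ := isZero_ULocRep S Γ hβ hur r.1 r.2.2
    rcases hn with rfl | rfl
    · exact ModuleCat.isZero_iff_subsingleton.1 h1
    · exact ModuleCat.isZero_iff_subsingleton.1 h2
  haveI : Subsingleton (groupCohomology (UTRepOf h Γ L hstab) n) :=
    ⟨fun x y => hbij.1 (funext fun r => (hloc r).elim _ _)⟩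
  exact ModuleCat.isZero_of_subsingleton _

/-! ## The theorem -/

/-- **G-SIND-U.**  `UnitsVanishSpec` from the Galois invariance of the order maps (`OrdEquivSpec`)
and the residue characteristic dictionary (`AboveSpec`). -/
theorem unitsVanish_of (hE : OrdEquivSpec) (hD : AboveSpec) : UnitsVanishSpec := by
  intro S S' h G L _ _ _ _ _ _ β hβ hS hur hstab H n hn
  obtain ⟨m, rfl⟩ : ∃ m, n = m + 1 := ⟨n - 1, by omega⟩
  refine H295.isZero_groupCohomology_of_twin
    (Rep.of ((jRepr G S' L).subrepresentation (unitsT h L β) hstab)) (fun K => ?_) H m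
  -- the subgroup `K` acting on `L`
  haveI : FaithfulSMul K L := ⟨fun {k₁ k₂} hk =>
    Subtype.ext (FaithfulSMul.eq_of_smul_eq_smul (α := L) fun x => hk x)⟩
  have hcongr : ∀ k : K, jRepr K S' L k = jRepr G S' L (k : G) := fun k =>
    FIH895.jRepr_congr S' (fun _ => rfl)
  have hstabK : ∀ k : K, unitsT h L β ≤ (unitsT h L β).comap (jRepr K S' L k) := by
    intro k
    rw [hcongr k]
    exact hstab (k : G)
  have hurK : IsUnramOut S K L := fun w hw k hk x => hur w hw (k : G) (fun y => hk y) x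
  have e : Rep.res K.subtype (Rep.of ((jRepr G S' L).subrepresentation (unitsT h L β) hstab)) =
      UTRepOf h K L hstabK := by
    refine congrArg (Rep.of (X := unitsT h L β)) ?_
    refine MonoidHom.ext fun k => LinearMap.ext fun u => Subtype.ext ?_
    change jRepr G S' L (k : G) (u : unitsT h L β).1 = jRepr K S' L k (u : unitsT h L β).1
    rw [hcongr k]
  rw [e]
  exact ⟨isZero_UTRepOf h K L hE hD hβ hurK hstabK 1 (Or.inl rfl),
    isZero_UTRepOf h K L hE hD hβ hurK hstabK 2 (Or.inr rfl)⟩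

end Fermat.Agent.S55.G.SIndH601

end
end
-- ===== PACK-END S55/G/SIndH601/USemi.lean

-- ===== PACK-BEGIN S55/G/SIndH601/DXH99.lean
section
/-
S55 (Poitou–Tate), layer G, leaf G-SIND, sub-leaves G-SIND-X (`ExistsOrdSpec`) and
G-SIND-D (`AboveSpec`)  — helper99.

* `existsOrd : ExistsOrdSpec` : elements of `Lˣ` with prescribed orders at finitely many primes
  (Chinese remainder theorem in `𝓞 L`).
* `above : AboveSpec` : for a dictionary `β`, the prime `β 𝔪` lies above `S` iff the rational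
  prime below the place `𝔪` is in `S`.
-/


set_option autoImplicit false
set_option linter.unusedSectionVars false
set_option linter.style.haveILetI false

open scoped NumberField TensorProduct
open IsDedekindDomain

noncomputable section

namespace Fermat.Agent.S55.G.SIndH601.H99

open Fermat.Agent.S55.G Fermat.Agent.S55.G.SIndH601

/-! ## G-SIND-X -/

section ExistsOrd

variable {L : Type} [Field L] [NumberField L]

/-- CRT: for `w₀ ∈ W` there is `y ∈ 𝓞 L` of `w₀`-adic valuation `exp (-1)` and which is a unit at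
all other primes of `W`. -/
lemma exists_local_uniformizer (W : Finset (HeightOneSpectrum (𝓞 L)))
    (w₀ : HeightOneSpectrum (𝓞 L)) (hw₀ : w₀ ∈ W) :
    ∃ y : 𝓞 L, w₀.intValuation y = WithZero.exp (-1 : ℤ) ∧
      ∀ w ∈ W, w ≠ w₀ → w.intValuation y = 1 := by
  classical
  obtain ⟨π, hπ⟩ := w₀.intValuation_exists_uniformizer
  obtain ⟨y, hy⟩ := IsDedekindDomain.exists_forall_sub_mem_ideal (s := W)
    (fun w : HeightOneSpectrum (𝓞 L) => w.asIdeal) (fun _ => 2)
    (fun w _ => w.prime)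
    (fun w _ w' _ hne h => hne (HeightOneSpectrum.ext h))
    (fun w => if w.1 = w₀ then π else 1)
  refine ⟨y, ?_, ?_⟩
  · have h1 := hy w₀ hw₀
    simp only [if_true] at h1
    have h2 : w₀.intValuation (y - π) ≤ WithZero.exp (-((2 : ℕ) : ℤ)) :=
      (w₀.intValuation_le_pow_iff_mem _ 2).2 h1
    have h3 : w₀.intValuation (y - π) < w₀.intValuation π := by
      rw [hπ]
      refine lt_of_le_of_lt h2 ?_
      rw [WithZero.exp_lt_exp]
      norm_num
    have h4 : y = π + (y - π) := by ring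
    rw [h4, Valuation.map_add_eq_of_lt_left _ h3, hπ]
  · intro w hw hne
    have h1 := hy w hw
    simp only [hne, if_false] at h1
    rw [HeightOneSpectrum.intValuation_eq_one_iff]
    intro hmem
    have h2 : y - 1 ∈ w.asIdeal := Ideal.pow_le_self (by norm_num) h1
    have h3 : (1 : 𝓞 L) ∈ w.asIdeal := by
      have := w.asIdeal.sub_mem hmem h2
      simpa using this
    exact w.isPrime.ne_top ((Ideal.eq_top_iff_one _).2 h3)

/-- The same as a unit of `L`, in terms of `ordAt`. -/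
lemma exists_ordAt_single (W : Finset (HeightOneSpectrum (𝓞 L)))
    (w₀ : HeightOneSpectrum (𝓞 L)) (hw₀ : w₀ ∈ W) :
    ∃ x : Additive Lˣ, ordAt w₀ x = 1 ∧ ∀ w ∈ W, w ≠ w₀ → ordAt w x = 0 := by
  obtain ⟨y, hy1, hy2⟩ := exists_local_uniformizer W w₀ hw₀
  have hy0 : (algebraMap (𝓞 L) L y) ≠ 0 := by
    intro h
    have : y = 0 := (FaithfulSMul.algebraMap_injective (𝓞 L) L) (by rw [h, map_zero])
    rw [this, map_zero] at hy1
    exact (WithZero.exp_ne_zero).symm hy1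
  refine ⟨Additive.ofMul (Units.mk0 _ hy0), ?_, ?_⟩
  · rw [ordAt_apply]
    simp only [toMul_ofMul, Units.val_mk0]
    rw [HeightOneSpectrum.valuation_of_algebraMap, hy1, WithZero.log_exp]
    norm_num
  · intro w hw hne
    rw [ordAt_apply]
    simp only [toMul_ofMul, Units.val_mk0]
    rw [HeightOneSpectrum.valuation_of_algebraMap, hy2 w hw hne, WithZero.log_one, neg_zero]

/-- **G-SIND-X.** -/
theorem existsOrd : ExistsOrdSpec := by
  intro L _ _ W n
  classical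
  choose! x hx1 hx2 using fun (w₀ : HeightOneSpectrum (𝓞 L)) (hw₀ : w₀ ∈ W) =>
    exists_ordAt_single W w₀ hw₀
  refine ⟨∑ w' ∈ W, n w' • x w', fun w hw => ?_⟩
  rw [map_sum, Finset.sum_eq_single w]
  · rw [map_zsmul, hx1 w hw, smul_eq_mul, mul_one]
  · intro w' hw' hne
    rw [map_zsmul, hx2 w' hw' w hw (Ne.symm hne), smul_zero]
  · intro h
    exact absurd hw h

end ExistsOrd

/-! ## G-SIND-D -/

section Above

open Fermat.Agent.S55.Local

/-- `1 / q` is not integral over `ℤ_q` in a field extension of `ℚ_q`. -/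
lemma not_isInt_inv_p (q : ℕ) [Fact q.Prime] (E : Type) [Field E] [Algebra ℚ_[q] E] :
    ¬ IsInt ℤ_[q] ℚ_[q] E (((q : ℕ) : E)⁻¹) := by
  intro h
  letI : Algebra ℤ_[q] E := (toL ℤ_[q] ℚ_[q] E).toAlgebra
  haveI : IsScalarTower ℤ_[q] ℚ_[q] E := IsScalarTower.of_algebraMap_eq (fun _ => rfl)
  have h1 : IsIntegral ℤ_[q] (algebraMap ℚ_[q] E (((q : ℕ) : ℚ_[q])⁻¹)) := by
    have : algebraMap ℚ_[q] E (((q : ℕ) : ℚ_[q])⁻¹) = ((q : ℕ) : E)⁻¹ := by
      rw [map_inv₀, map_natCast]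
    rw [this]
    exact h
  have h2 : IsIntegral ℤ_[q] (((q : ℕ) : ℚ_[q])⁻¹) :=
    (isIntegral_algebraMap_iff (algebraMap ℚ_[q] E).injective).1 h1
  obtain ⟨y, hy⟩ := IsIntegrallyClosed.isIntegral_iff.1 h2
  have hq0 : ((q : ℕ) : ℚ_[q]) ≠ 0 := by
    exact_mod_cast (Fact.out : q.Prime).ne_zero
  have h3 : ((q : ℕ) : ℤ_[q]) * y = 1 := by
    apply PadicInt.ext
    push_cast
    have hy' : (y : ℚ_[q]) = ((q : ℕ) : ℚ_[q])⁻¹ := hy
    rw [hy', mul_inv_cancel₀ hq0]
  exact PadicInt.p_nonunit (p := q) (IsUnit.of_mul_eq_one _ h3)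

/-- If `q ≠ q₀` are primes, `1 / q` is integral over `ℤ_{q₀}`. -/
lemma isInt_inv_of_ne (q₀ : ℕ) [Fact q₀.Prime] (E : Type) [Field E] [Algebra ℚ_[q₀] E]
    (q : ℕ) (hq : q.Prime) (hne : q ≠ q₀) :
    IsInt ℤ_[q₀] ℚ_[q₀] E (((q : ℕ) : E)⁻¹) := by
  have hu : IsUnit ((q : ℕ) : ℤ_[q₀]) := by
    rw [PadicInt.isUnit_iff, PadicInt.norm_natCast_eq_one_iff]
    exact (Nat.coprime_primes (Fact.out : q₀.Prime) hq).2 (Ne.symm hne)
  obtain ⟨u, hu⟩ := hu
  have h1 : toL ℤ_[q₀] ℚ_[q₀] E ((u⁻¹ : (ℤ_[q₀])ˣ) : ℤ_[q₀]) = ((q : ℕ) : E)⁻¹ := by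
    have h2 : toL ℤ_[q₀] ℚ_[q₀] E ((u⁻¹ : (ℤ_[q₀])ˣ) : ℤ_[q₀]) *
        toL ℤ_[q₀] ℚ_[q₀] E ((u : (ℤ_[q₀])ˣ) : ℤ_[q₀]) = 1 := by
      rw [← map_mul, Units.inv_mul, map_one]
    rw [hu, map_natCast] at h2
    exact eq_inv_of_mul_eq_one_left h2
  rw [← h1]
  exact isInt_toL _ _ _ _

variable (S : Finset Nat.Primes) (L : Type) [Field L] [NumberField L]

/-- The image of a prime number `q` in `L_𝔪` is a non-unit of the ring of integers iff `q` is the
rational prime below `𝔪`. -/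
lemma natCast_mem_nonunits_iff (𝔪 : SPlace S L) (q : Nat.Primes) :
    (((q : ℕ) : ℕ) : LocField S 𝔪) ∈ (PL0H713.intRing S L 𝔪).nonunits ↔
      q = (PL0H713.primeOf S L 𝔪).1 := by
  haveI : Fact (Nat.Prime ((PL0H713.primeOf S L 𝔪).1 : ℕ)) := ⟨(PL0H713.primeOf S L 𝔪).1.2⟩
  letI := PL0H713.algQq S L 𝔪
  haveI := PL0H713.charZero_locField S L 𝔪
  have hq0 : (((q : ℕ) : ℕ) : LocField S 𝔪) ≠ 0 := by
    exact_mod_cast q.2.ne_zero
  rw [ValuationSubring.mem_nonunits_iff_or]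
  have hmem : ∀ x : LocField S 𝔪, x ∈ PL0H713.intRing S L 𝔪 ↔
      IsInt ℤ_[((PL0H713.primeOf S L 𝔪).1 : ℕ)] ℚ_[((PL0H713.primeOf S L 𝔪).1 : ℕ)]
        (LocField S 𝔪) x := fun x => Iff.rfl
  rw [hmem]
  constructor
  · rintro (h | h)
    · exact absurd h hq0
    · by_contra hne
      refine h (isInt_inv_of_ne _ _ (q : ℕ) q.2 ?_)
      intro h'
      exact hne (Subtype.ext h')
  · intro h
    right
    rw [h]
    exact not_isInt_inv_p _ _

/-- **G-SIND-D.** -/
theorem above : AboveSpec := by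
  intro S S' _ L _ _ β hβ 𝔪
  have key : ∀ q : Nat.Primes, ((q : ℕ) : 𝓞 L) ∈ (β 𝔪).asIdeal ↔
      q = (PL0H713.primeOf S' L 𝔪).1 := by
    intro q
    rw [hβ.integral 𝔪 ((q : ℕ) : 𝓞 L)]
    have h2 : toLoc S' 𝔪 ((((q : ℕ) : 𝓞 L)) : L) = (((q : ℕ) : ℕ) : LocField S' 𝔪) := by
      have h3 : ((((q : ℕ) : 𝓞 L)) : L) = (((q : ℕ) : ℕ) : L) :=
        map_natCast (algebraMap (𝓞 L) L) (q : ℕ)
      rw [h3]
      exact map_natCast (toLoc S' 𝔪) (q : ℕ)
    rw [h2]
    exact natCast_mem_nonunits_iff S' L 𝔪 q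
  constructor
  · rintro ⟨q, hqS, hq⟩
    rw [← (key q).1 hq]
    exact hqS
  · intro h
    exact ⟨(PL0H713.primeOf S' L 𝔪).1, h, (key _).2 rfl⟩

end Above

end Fermat.Agent.S55.G.SIndH601.H99

end
end
-- ===== PACK-END S55/G/SIndH601/DXH99.lean

-- ===== PACK-BEGIN S55/G/SIndH601/Final.lean
section
/-
S55 (Poitou–Tate), layer G, leaf G-SIND (helper601): STATUS FILE.

`sIndep_of_VE : OrdDiagSpec → OrdEquivSpec → SIndepSpec`

* G-PL1 `PlacePrimeSpec`   : `PL1H597.placePrimeSpec` (helper597);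
* G-SIND-D `AboveSpec`     : `H99.above` (helper99);
* G-SIND-X `ExistsOrdSpec` : `H99.existsOrd` (helper99);
* G-SIND-U `UnitsVanishSpec` : `unitsVanish_of` (helper601, `USemi.lean`), from E and D.

Remaining inputs: G-SIND-V `OrdDiagSpec` and G-SIND-E `OrdEquivSpec`.
-/





set_option autoImplicit false

namespace Fermat.Agent.S55.G.SIndH601

open Fermat.Agent.S55.G

/-- **G-SIND** from the two valuation-comparison sub-leaves V and E. -/
theorem sIndep_of_VE (hV : OrdDiagSpec) (hE : OrdEquivSpec) : SIndepSpec :=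
  sIndep_of PL1H597.placePrimeSpec hV hE H99.above H99.existsOrd (unitsVanish_of hE H99.above)

end Fermat.Agent.S55.G.SIndH601

end
-- ===== PACK-END S55/G/SIndH601/Final.lean

-- ===== PACK-BEGIN S55/G/SIndH601/H241/IntRing.lean
section
/-
S55 (Poitou–Tate), layer G, leaf G-SIND (helper601), sub-leaves V and E (helper241).
The ring of integers `PL0H713.intRing S L 𝔪` of `L_𝔪`: a description which does not depend on
the choice `PL0H713.primeOf`, and basic facts (`ℤ_q`, `𝓞 L` map into it; `q` is a non-unit).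
-/



set_option autoImplicit false
set_option linter.unusedSectionVars false
set_option linter.style.haveILetI false

open scoped NumberField TensorProduct
open IsDedekindDomain WithZero

noncomputable section

namespace Fermat.Agent.S55.G.SIndH601.H241

open Fermat.Agent.S55.G

variable (S : Finset Nat.Primes) (L : Type) [Field L] [NumberField L]

/-- `ℤ_q` for a bundled prime `q`. -/
abbrev Zq (q : Nat.Primes) : Type := @PadicInt (q : ℕ) ⟨q.2⟩

/-- The prime below a place is unique. -/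
lemma eq_primeOf (𝔪 : SPlace S L) (q : S)
    (hq : LocField.ofQS S 𝔪 (PL0H713.single S q 1) = 1) : q = PL0H713.primeOf S L 𝔪 := by
  by_contra hne
  have h0 : PL0H713.single S q 1 * PL0H713.single S (PL0H713.primeOf S L 𝔪) 1 = 0 := by
    refine PL0H713.QS_ext S fun q' => ?_
    rw [map_mul, Pi.mul_apply, map_zero, Pi.zero_apply]
    by_cases h : q' = q
    · subst h
      rw [PL0H713.single_apply_ne S _ q' hne, mul_zero]
    · rw [PL0H713.single_apply_ne S q q' h, zero_mul]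
  have h1 := congrArg (LocField.ofQS S 𝔪) h0
  rw [map_mul, hq, PL0H713.ofQS_single_primeOf, map_zero, one_mul] at h1
  exact one_ne_zero h1

/-- The embedding `ℚ_q → L_𝔪` for a prime `q` below `𝔪`. -/
def ofQqOf (𝔪 : SPlace S L) (q : S) (hq : LocField.ofQS S 𝔪 (PL0H713.single S q 1) = 1) :
    Qq q.1 →+* LocField S 𝔪 where
  toFun x := LocField.ofQS S 𝔪 (PL0H713.single S q x)
  map_one' := hq
  map_mul' x y := by rw [PL0H713.single_mul, map_mul]
  map_zero' := by rw [PL0H713.single_zero, map_zero]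
  map_add' x y := by rw [PL0H713.single_add, map_add]

lemma ofQqOf_apply (𝔪 : SPlace S L) (q : S)
    (hq : LocField.ofQS S 𝔪 (PL0H713.single S q 1) = 1) (x : Qq q.1) :
    ofQqOf S L 𝔪 q hq x = LocField.ofQS S 𝔪 (PL0H713.single S q x) := rfl

/-- The structure map `ℤ_q → L_𝔪` for a prime `q` below `𝔪`. -/
def ofZqOf (𝔪 : SPlace S L) (q : S) (hq : LocField.ofQS S 𝔪 (PL0H713.single S q 1) = 1) :
    Zq q.1 →+* LocField S 𝔪 :=
  (ofQqOf S L 𝔪 q hq).comp (algebraMap (Zq q.1) (Qq q.1))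

/-- `x ∈ intRing` iff `x` is integral over `ℤ_q`, for ANY prime `q` below `𝔪`. -/
lemma mem_intRing_iff (𝔪 : SPlace S L) (q : S)
    (hq : LocField.ofQS S 𝔪 (PL0H713.single S q 1) = 1) (x : LocField S 𝔪) :
    x ∈ PL0H713.intRing S L 𝔪 ↔ (ofZqOf S L 𝔪 q hq).IsIntegralElem x := by
  obtain rfl : q = PL0H713.primeOf S L 𝔪 := eq_primeOf S L 𝔪 q hq
  exact Iff.rfl

end Fermat.Agent.S55.G.SIndH601.H241

end
end
-- ===== PACK-END S55/G/SIndH601/H241/IntRing.lean

-- ===== PACK-BEGIN S55/G/SIndH601/H241/OrdDiag.lean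
section
/-
S55 (Poitou–Tate), layer G, leaf G-SIND (helper601), sub-leaf V (helper241):
`ordDiag : OrdDiagSpec`, the valuation comparison `ord_𝔪 (x ⊗ 1) = ord_{β 𝔪} (x)`.

The integrality clause of a dictionary says that the maximal ideal of the ring of integers of
`L_𝔪` lies over `β 𝔪`; by Mathlib's `valuation_liesOver` the normalised valuation of `L_𝔪`
restricts to the `e`-th power of the `β 𝔪`-adic valuation.  Since `L` is dense in `L_𝔪`
(`ℚ` is dense in `ℚ_q`), `L` contains a uniformiser of `L_𝔪`, whence `e = 1`.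
-/


set_option autoImplicit false
set_option linter.unusedSectionVars false
set_option linter.style.haveILetI false

open scoped NumberField TensorProduct
open IsDedekindDomain WithZero

noncomputable section

namespace Fermat.Agent.S55.G.SIndH601.H241

open Fermat.Agent.S55.G

/-! ## `p`-adic preliminaries -/

section Padic

variable (p : ℕ) [hp : Fact p.Prime]

/-- `ℚ` is dense in `ℚ_p`, algebraically: every `z` is congruent to a rational modulo
`p ^ M ℤ_p`. -/
lemma exists_rat_approx (z : ℚ_[p]) (M : ℕ) :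
    ∃ (r : ℚ) (u : ℤ_[p]), z - (r : ℚ_[p]) = (p : ℚ_[p]) ^ M * (u : ℚ_[p]) := by
  have hp0 : (0 : ℝ) < p := by exact_mod_cast hp.out.pos
  have hε : (0 : ℝ) < ((p : ℝ) ^ M)⁻¹ := inv_pos.2 (pow_pos hp0 M)
  obtain ⟨r, hr⟩ := Padic.rat_dense p z hε
  have hpM : (p : ℚ_[p]) ^ M ≠ 0 := pow_ne_zero _ (by exact_mod_cast hp.out.ne_zero)
  have hnorm : ‖(z - (r : ℚ_[p])) / (p : ℚ_[p]) ^ M‖ ≤ 1 := by
    rw [norm_div, norm_pow, Padic.norm_p, inv_pow, div_inv_eq_mul]
    have := mul_lt_mul_of_pos_right hr (pow_pos hp0 M)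
    rw [inv_mul_cancel₀ (pow_pos hp0 M).ne'] at this
    exact this.le
  refine ⟨r, ⟨(z - (r : ℚ_[p])) / (p : ℚ_[p]) ^ M, hnorm⟩, ?_⟩
  change _ = (p : ℚ_[p]) ^ M * ((z - (r : ℚ_[p])) / (p : ℚ_[p]) ^ M)
  rw [mul_div_cancel₀ _ hpM]

/-- `p⁻¹` is not integral over `ℤ_p`. -/
lemma not_isIntegral_inv_prime : ¬ IsIntegral ℤ_[p] ((p : ℚ_[p])⁻¹) := by
  intro h
  obtain ⟨y, hy⟩ := IsIntegrallyClosed.isIntegral_iff.1 h
  have h1 : ‖(p : ℚ_[p])⁻¹‖ ≤ 1 := by
    rw [← hy]
    exact PadicInt.norm_le_one y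
  rw [norm_inv, Padic.norm_p, inv_inv] at h1
  have h2 : (1 : ℝ) < p := by exact_mod_cast hp.out.one_lt
  linarith

end Padic

variable (S : Finset Nat.Primes) (L : Type) [Field L] [NumberField L]

/-! ## Integral elements of `L_𝔪` -/

/-- The image of `ℤ_q` lies in the ring of integers. -/
lemma ofQq_mem_intRing (𝔪 : SPlace S L) (u : Zq (PL0H713.primeOf S L 𝔪).1) :
    PL0H713.ofQq S L 𝔪 (u : Qq (PL0H713.primeOf S L 𝔪).1) ∈ PL0H713.intRing S L 𝔪 := by
  rw [mem_intRing_iff S L 𝔪 (PL0H713.primeOf S L 𝔪) (PL0H713.ofQS_single_primeOf S L 𝔪)]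
  exact RingHom.isIntegralElem_map _

/-- The image of `𝓞 L` lies in the ring of integers. -/
lemma toLoc_mem_intRing (𝔪 : SPlace S L) (a : 𝓞 L) :
    toLoc S 𝔪 (a : L) ∈ PL0H713.intRing S L 𝔪 := by
  rw [mem_intRing_iff S L 𝔪 (PL0H713.primeOf S L 𝔪) (PL0H713.ofQS_single_primeOf S L 𝔪)]
  obtain ⟨P, hP, hPa⟩ := NumberField.RingOfIntegers.isIntegral_coe a
  refine ⟨P.map (Int.castRingHom _), hP.map _, ?_⟩
  rw [Polynomial.eval₂_map]
  have h1 : (ofZqOf S L 𝔪 (PL0H713.primeOf S L 𝔪) (PL0H713.ofQS_single_primeOf S L 𝔪)).comp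
      (Int.castRingHom _) = (toLoc S 𝔪).comp (algebraMap ℤ L) := RingHom.ext_int _ _
  rw [h1, ← Polynomial.hom_eval₂, hPa, map_zero]

/-- `q` is a non-unit of the ring of integers of `L_𝔪`. -/
lemma locVal_prime_lt_one (𝔪 : SPlace S L) :
    locVal S L 𝔪 (PL0H713.ofQq S L 𝔪 (((PL0H713.primeOf S L 𝔪).1 : ℕ) :
      Qq (PL0H713.primeOf S L 𝔪).1)) < 1 := by
  haveI : Fact (Nat.Prime ((PL0H713.primeOf S L 𝔪).1 : ℕ)) := ⟨(PL0H713.primeOf S L 𝔪).1.2⟩
  rw [locVal_lt_one_iff, mem_nonunits_iff_inv_not_mem]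
  right
  intro hmem
  rw [← map_inv₀,
    mem_intRing_iff S L 𝔪 (PL0H713.primeOf S L 𝔪) (PL0H713.ofQS_single_primeOf S L 𝔪)] at hmem
  obtain ⟨P, hP, hPa⟩ := hmem
  refine not_isIntegral_inv_prime ((PL0H713.primeOf S L 𝔪).1 : ℕ) ⟨P, hP, ?_⟩
  have h := Polynomial.hom_eval₂ P (algebraMap (Zq (PL0H713.primeOf S L 𝔪).1)
    (Qq (PL0H713.primeOf S L 𝔪).1))
    (ofQqOf S L 𝔪 (PL0H713.primeOf S L 𝔪) (PL0H713.ofQS_single_primeOf S L 𝔪))
    ((((PL0H713.primeOf S L 𝔪).1 : ℕ) : Qq (PL0H713.primeOf S L 𝔪).1))⁻¹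
  have h2 : ofQqOf S L 𝔪 (PL0H713.primeOf S L 𝔪) (PL0H713.ofQS_single_primeOf S L 𝔪)
      (Polynomial.eval₂ (algebraMap (Zq (PL0H713.primeOf S L 𝔪).1)
        (Qq (PL0H713.primeOf S L 𝔪).1))
        ((((PL0H713.primeOf S L 𝔪).1 : ℕ) : Qq (PL0H713.primeOf S L 𝔪).1))⁻¹ P) = 0 := by
    rw [h]
    exact hPa
  exact (map_eq_zero _).1 h2

/-! ## Density of `L` in `L_𝔪` -/

/-- `ℚ` is dense in `ℚ_q ⊆ L_𝔪` for the valuation of `L_𝔪`. -/
lemma exists_rat_locVal_lt (𝔪 : SPlace S L) (z : Qq (PL0H713.primeOf S L 𝔪).1) (δ : ℤᵐ⁰)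
    (hδ : δ ≠ 0) :
    ∃ c : ℚ, locVal S L 𝔪 (PL0H713.ofQq S L 𝔪 (z - (c : Qq (PL0H713.primeOf S L 𝔪).1))) < δ := by
  haveI : Fact (Nat.Prime ((PL0H713.primeOf S L 𝔪).1 : ℕ)) := ⟨(PL0H713.primeOf S L 𝔪).1.2⟩
  obtain ⟨M, hM⟩ := exists_pow_lt₀ (locVal_prime_lt_one S L 𝔪) (Units.mk0 δ hδ)
  obtain ⟨c, u, hcu⟩ := exists_rat_approx ((PL0H713.primeOf S L 𝔪).1 : ℕ) z M
  refine ⟨c, lt_of_le_of_lt ?_ hM⟩
  rw [hcu, map_mul, map_mul, map_pow, map_pow]
  have hu : locVal S L 𝔪 (PL0H713.ofQq S L 𝔪 (u : Qq (PL0H713.primeOf S L 𝔪).1)) ≤ 1 :=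
    (locVal_le_one_iff S L 𝔪 _).2 (ofQq_mem_intRing S L 𝔪 u)
  exact mul_le_of_le_one_right' hu

/-- `L` is dense in `L_𝔪`. -/
lemma exists_toLoc_locVal_lt (𝔪 : SPlace S L) (ξ : LocField S 𝔪) (γ : ℤᵐ⁰) (hγ : γ ≠ 0) :
    ∃ x : L, locVal S L 𝔪 (ξ - toLoc S 𝔪 x) < γ := by
  obtain ⟨a, rfl⟩ := LocField.mk_surjective S 𝔪 ξ
  induction a using TensorProduct.induction_on with
  | zero =>
    refine ⟨0, ?_⟩
    rw [map_zero, map_zero, sub_zero, map_zero]
    exact zero_lt_iff.2 hγ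
  | tmul l y =>
    rw [PL0H713.mk_tmul, PL0H713.ofQS_eq]
    rcases eq_or_ne l 0 with rfl | hl
    · refine ⟨0, ?_⟩
      rw [map_zero, zero_mul, sub_zero, map_zero]
      exact zero_lt_iff.2 hγ
    · have ht : locVal S L 𝔪 (toLoc S 𝔪 l) ≠ 0 :=
        (Valuation.ne_zero_iff _).2 ((map_ne_zero _).2 hl)
      obtain ⟨c, hc⟩ := exists_rat_locVal_lt S L 𝔪 (QS.toPi S y (PL0H713.primeOf S L 𝔪))
        ((locVal S L 𝔪 (toLoc S 𝔪 l))⁻¹ * γ) (mul_ne_zero (inv_ne_zero ht) hγ)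
      refine ⟨algebraMap ℚ L c * l, ?_⟩
      have h1 : toLoc S 𝔪 l * PL0H713.ofQq S L 𝔪 (QS.toPi S y (PL0H713.primeOf S L 𝔪)) -
          toLoc S 𝔪 (algebraMap ℚ L c * l) =
          toLoc S 𝔪 l * PL0H713.ofQq S L 𝔪 (QS.toPi S y (PL0H713.primeOf S L 𝔪) -
            (c : Qq (PL0H713.primeOf S L 𝔪).1)) := by
        rw [map_mul, PL0H713.toLoc_algebraMap, map_sub, eq_ratCast]
        ring
      rw [h1, map_mul]
      calc locVal S L 𝔪 (toLoc S 𝔪 l) * locVal S L 𝔪 (PL0H713.ofQq S L 𝔪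
            (QS.toPi S y (PL0H713.primeOf S L 𝔪) - (c : Qq (PL0H713.primeOf S L 𝔪).1)))
          < locVal S L 𝔪 (toLoc S 𝔪 l) * ((locVal S L 𝔪 (toLoc S 𝔪 l))⁻¹ * γ) :=
            mul_lt_mul_of_pos_left hc (zero_lt_iff.2 ht)
        _ = γ := mul_inv_cancel_left₀ ht γ
  | add a b ha hb =>
    obtain ⟨x, hx⟩ := ha
    obtain ⟨x', hx'⟩ := hb
    refine ⟨x + x', ?_⟩
    have h1 : LocField.mk S 𝔪 (a + b) - toLoc S 𝔪 (x + x') =
        (LocField.mk S 𝔪 a - toLoc S 𝔪 x) + (LocField.mk S 𝔪 b - toLoc S 𝔪 x') := by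
      rw [map_add, map_add]
      ring
    rw [h1]
    exact lt_of_le_of_lt (Valuation.map_add _ _ _) (max_lt hx hx')

/-- `L` contains a uniformiser of `L_𝔪`. -/
lemma exists_toLoc_uniformizer (𝔪 : SPlace S L) :
    ∃ x : L, locVal S L 𝔪 (toLoc S 𝔪 x) = exp (-1 : ℤ) := by
  haveI := isDVR_intRing S L 𝔪
  obtain ⟨π, hπ⟩ := (IsDiscreteValuationRing.maximalIdeal
    (PL0H713.intRing S L 𝔪)).valuation_exists_uniformizer (LocField S 𝔪)
  have hπ' : locVal S L 𝔪 π = exp (-1 : ℤ) := hπ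
  obtain ⟨x, hx⟩ := exists_toLoc_locVal_lt S L 𝔪 π (exp (-1 : ℤ)) exp_ne_zero
  refine ⟨x, ?_⟩
  rw [← hπ'] at hx
  have h1 : toLoc S 𝔪 x = π - (π - toLoc S 𝔪 x) := by ring
  rw [h1, Valuation.map_sub_eq_of_lt_left _ hx, hπ']

/-! ## The valuation comparison -/

/-- For a dictionary `β`, the normalised valuation of `L_𝔪` restricts to the `β 𝔪`-adic
valuation of `L`. -/
theorem locVal_toLoc (β : SPlace S L → HeightOneSpectrum (𝓞 L)) (hβ : IsDict S L β)
    (𝔪 : SPlace S L) (y : L) :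
    locVal S L 𝔪 (toLoc S 𝔪 y) = (β 𝔪).valuation L y := by
  haveI := isDVR_intRing S L 𝔪
  obtain ⟨x, hx⟩ := exists_toLoc_uniformizer S L 𝔪
  exact valuation_map_eq (β 𝔪) (PL0H713.intRing S L 𝔪) (toLoc S 𝔪)
    (fun a => toLoc_mem_intRing S L 𝔪 a) (fun a => hβ.integral 𝔪 a) x hx y

/-- **G-SIND-V.** -/
theorem ordDiag : OrdDiagSpec := by
  intro S L _ _ β hβ 𝔪 x
  rw [placeOrd_apply, ordAt_apply, coe_unitsDiag_apply, ← locVal_toLoc S L β hβ 𝔪]
  rfl

end Fermat.Agent.S55.G.SIndH601.H241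

end
end
-- ===== PACK-END S55/G/SIndH601/H241/OrdDiag.lean

-- ===== PACK-BEGIN S55/G/SIndH601/H241/OrdEquiv.lean
section
/-
S55 (Poitou–Tate), layer G, leaf G-SIND (helper601), sub-leaf E (helper241):
`ordEquiv : OrdEquivSpec`, Galois invariance of the order maps
`ord_{g 𝔪} (g j) = ord_𝔪 (j)`.
-/


set_option autoImplicit false
set_option linter.unusedSectionVars false
set_option linter.style.haveILetI false

open scoped NumberField TensorProduct
open IsDedekindDomain WithZero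

noncomputable section

namespace Fermat.Agent.S55.G.SIndH601.H241

open Fermat.Agent.S55.G

variable (S : Finset Nat.Primes) (G L : Type) [Group G] [Field L] [NumberField L]
  [MulSemiringAction G L]

/-- The isomorphism `L_𝔪 ≃ L_{g 𝔪}` induced by `g ⊗ 1`. -/
def locIso (g : G) (𝔪 : SPlace S L) : LocField S 𝔪 ≃+* LocField S (sPlaceSMul S G g 𝔪) :=
  Ideal.quotientEquiv 𝔪.asIdeal (sPlaceSMul S G g 𝔪).asIdeal (asRingAut G S L g) rfl

lemma locIso_mk (g : G) (𝔪 : SPlace S L) (x : AS S L) :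
    locIso S G L g 𝔪 (LocField.mk S 𝔪 x) =
      LocField.mk S (sPlaceSMul S G g 𝔪) (asAut S G L g x) := rfl

lemma locIso_ofQS (g : G) (𝔪 : SPlace S L) (y : QS S) :
    locIso S G L g 𝔪 (LocField.ofQS S 𝔪 y) = LocField.ofQS S (sPlaceSMul S G g 𝔪) y := by
  change locIso S G L g 𝔪 (LocField.mk S 𝔪 (asIncl S L y)) =
    LocField.mk S (sPlaceSMul S G g 𝔪) (asIncl S L y)
  rw [locIso_mk, asAut_asIncl]

lemma ofQS_single_primeOf_smul (g : G) (𝔪 : SPlace S L) :
    LocField.ofQS S (sPlaceSMul S G g 𝔪) (PL0H713.single S (PL0H713.primeOf S L 𝔪) 1) = 1 := by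
  rw [← locIso_ofQS, PL0H713.ofQS_single_primeOf, map_one]

/-- The prime below `g 𝔪` is the prime below `𝔪`. -/
lemma primeOf_smul (g : G) (𝔪 : SPlace S L) :
    PL0H713.primeOf S L (sPlaceSMul S G g 𝔪) = PL0H713.primeOf S L 𝔪 :=
  (eq_primeOf S L _ _ (ofQS_single_primeOf_smul S G L g 𝔪)).symm

lemma locIso_comp_ofZqOf (g : G) (𝔪 : SPlace S L) :
    ((locIso S G L g 𝔪 : LocField S 𝔪 →+* LocField S (sPlaceSMul S G g 𝔪))).comp
        (ofZqOf S L 𝔪 (PL0H713.primeOf S L 𝔪) (PL0H713.ofQS_single_primeOf S L 𝔪)) =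
      ofZqOf S L (sPlaceSMul S G g 𝔪) (PL0H713.primeOf S L 𝔪)
        (ofQS_single_primeOf_smul S G L g 𝔪) := by
  refine RingHom.ext fun z => ?_
  exact locIso_ofQS S G L g 𝔪 _

/-- The isomorphism `L_𝔪 ≃ L_{g 𝔪}` preserves the rings of integers. -/
lemma locIso_mem_intRing_iff (g : G) (𝔪 : SPlace S L) (x : LocField S 𝔪) :
    locIso S G L g 𝔪 x ∈ PL0H713.intRing S L (sPlaceSMul S G g 𝔪) ↔
      x ∈ PL0H713.intRing S L 𝔪 := by
  rw [mem_intRing_iff S L (sPlaceSMul S G g 𝔪) (PL0H713.primeOf S L 𝔪)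
      (ofQS_single_primeOf_smul S G L g 𝔪),
    mem_intRing_iff S L 𝔪 (PL0H713.primeOf S L 𝔪) (PL0H713.ofQS_single_primeOf S L 𝔪),
    ← locIso_comp_ofZqOf]
  constructor
  · rintro ⟨p, hp, hpx⟩
    refine ⟨p, hp, ?_⟩
    have h := Polynomial.hom_eval₂ p
      (ofZqOf S L 𝔪 (PL0H713.primeOf S L 𝔪) (PL0H713.ofQS_single_primeOf S L 𝔪))
      ((locIso S G L g 𝔪 : LocField S 𝔪 →+* LocField S (sPlaceSMul S G g 𝔪))) x
    rw [RingEquiv.coe_toRingHom] at h
    rw [← h] at hpx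
    exact (locIso S G L g 𝔪).injective (by rw [hpx, map_zero])
  · rintro ⟨p, hp, hpx⟩
    refine ⟨p, hp, ?_⟩
    have h := Polynomial.hom_eval₂ p
      (ofZqOf S L 𝔪 (PL0H713.primeOf S L 𝔪) (PL0H713.ofQS_single_primeOf S L 𝔪))
      ((locIso S G L g 𝔪 : LocField S 𝔪 →+* LocField S (sPlaceSMul S G g 𝔪))) x
    rw [RingEquiv.coe_toRingHom] at h
    rw [← h, hpx, map_zero]

/-- The isomorphism `L_𝔪 ≃ L_{g 𝔪}` preserves the normalised valuations. -/
lemma locVal_locIso (g : G) (𝔪 : SPlace S L) (x : LocField S 𝔪) :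
    locVal S L (sPlaceSMul S G g 𝔪) (locIso S G L g 𝔪 x) = locVal S L 𝔪 x := by
  haveI := isDVR_intRing S L 𝔪
  haveI := isDVR_intRing S L (sPlaceSMul S G g 𝔪)
  exact valuation_equiv_eq (PL0H713.intRing S L 𝔪) (PL0H713.intRing S L (sPlaceSMul S G g 𝔪))
    (locIso S G L g 𝔪) (locIso_mem_intRing_iff S G L g 𝔪) x

/-- **G-SIND-E.** -/
theorem ordEquiv : OrdEquivSpec := by
  intro S G L _ _ _ _ g 𝔪 j
  rw [placeOrd_apply, placeOrd_apply, coe_jRepr_apply, ← locIso_mk, locVal_locIso]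

end Fermat.Agent.S55.G.SIndH601.H241

end
end
-- ===== PACK-END S55/G/SIndH601/H241/OrdEquiv.lean

-- ===== PACK-BEGIN S55/G/SIndH601/Closed.lean
section
/-
S55 (Poitou–Tate), layer G, leaf G-SIND (`SIndepSpec`), places route (helper601) — CLOSED.

    sIndep : SIndepSpec        (unconditional)

`sIndep_of_VE` (`Final.lean`) applied to `H241.ordDiag : OrdDiagSpec` and
`H241.ordEquiv : OrdEquivSpec` (helper241).  Second, independent proof of G-SIND
(the first one is `SIndH237.sIndep`, place-free route of helper237).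
-/




set_option autoImplicit false

namespace Fermat.Agent.S55.G.SIndH601

open Fermat.Agent.S55.G

/-- **G-SIND-U**, unconditional. -/
theorem unitsVanish : UnitsVanishSpec := unitsVanish_of H241.ordEquiv H99.above

/-- **G-SIND** (independence of `S`), unconditional. -/
theorem sIndep : SIndepSpec := sIndep_of_VE H241.ordDiag H241.ordEquiv

end Fermat.Agent.S55.G.SIndH601

end
-- ===== PACK-END S55/G/SIndH601/Closed.lean

-- ===== PACK-BEGIN S55/G/Rec/Tow/FR/RecipH724.lean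
section
/-
S55 / layer G / block REC / adapter TOW / leaf FR, assembly piece `recip` (helper724).

* `cH2_diag` (REC1) : `c_{q,g} (diag_* x) = locBr q g (inflL x)` for `x ∈ H²(H, Mˣ)`;
* `recip_of` : `ReciprocitySpec I p → OutsideSpec I →` the field `recip` of `TOW.SemiLocalInv p`
  for `σ = FR.sigma I`.
-/


set_option autoImplicit false
set_option linter.style.haveILetI false

open CategoryTheory groupCohomology

noncomputable section

namespace Fermat.Agent.S55.G.Rec.TOW.FR.H724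

open Fermat.Agent.S55 Fermat.Agent.S55.Tow Fermat.Agent.S55.E1.H594 Fermat.Agent.S55.G.Rec

variable {S : Finset Nat.Primes} (M : Level S) (H : Subgroup M.Gal)

/-- **REC1**: the localisation of the diagonal image of `x ∈ H²(H, Mˣ)` is the localisation of the
inflation of `x`. -/
theorem cH2_diag (q : ℕ) [hq : Fact q.Prime] (hqS : (⟨q, hq.out⟩ : Nat.Primes) ∈ S) (g : GQ)
    (x : groupCohomology (T.resSub (lvlL M) H) 2) :
    cH2 M H S q hqS g (h2Sub (diagJRepHom S M.Gal M.F) H x) =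
      locBr q g (UH M H) (inflL M H x) := by
  have h1 := LocDatum.map_comp (A := T.resSub (lvlL M) H) (cDatum M H S q hqS g)
    (MonoidHom.id ↥H) ((Rep.resFunctor H.subtype).map (diagJRepHom S M.Gal M.F)) x
  have h2 := GlobDatum.locBr_map (inflDatum M H) q g x
  refine h1.symm.trans (Eq.trans ?_ h2.symm)
  refine congrFun (congrArg DFunLike.coe (LocDatum.map_congr ?_ ?_)) x
  · rfl
  · apply AddMonoidHom.ext
    intro a
    apply Additive.toMul.injective
    apply Units.ext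
    exact evAlg_asDiag M S q hqS g _


/-- The inflation of a `p`-primary class is `p`-primary. -/
lemma inflL_pPrimary (p : ℕ) (x : groupCohomology (T.resSub (lvlL M) H) 2)
    (hx : E1.IsPPrimary p x) : ∃ k : ℕ, p ^ k • inflL M H x = 0 := by
  obtain ⟨k, hk⟩ := hx
  refine ⟨k, ?_⟩
  have := map_nsmul (inflL M H) (p ^ k) x
  rw [← this, hk, map_zero]

/-- **recip** for `σ = FR.sigma I`: reciprocity at finite level. -/
theorem recip_of' (I : LocalInvSystem) (p : ℕ) (hR : ReciprocitySpec I p) (hO : OutsideSpec I)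
    (x : groupCohomology (T.resSub (lvlL M) H) 2) (hx : E1.IsPPrimary p x)
    (hord : h2Sub (G.ordRepHom S M.Gal M.F) H x = 0) :
    sigma I M H (h2Sub (diagJRepHom S M.Gal M.F) H x) = 0 := by
  -- the global reciprocity law for the inflated class
  obtain ⟨-, hsum⟩ := hR (UH M H) (isOpenQ_UH M H) (inflL M H x) (inflL_pPrimary M H p x hx)
    (fun q => haveI : Fact (q : ℕ).Prime := ⟨q.2⟩; reps (UH M H) (q : ℕ))
    (fun q => haveI : Fact (q : ℕ).Prime := ⟨q.2⟩; reps_spec (isOpenQ_UH M H) (q : ℕ))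
  -- only the primes of `S` contribute
  have hsupp : (Function.support fun q : Nat.Primes =>
      ∑ r ∈ (haveI : Fact (q : ℕ).Prime := ⟨q.2⟩; reps (UH M H) (q : ℕ)),
        I.invAt q r (UH M H) (inflL M H x)) ⊆ ↑S := by
    intro q hq
    by_contra hqS
    apply hq
    exact Finset.sum_eq_zero fun r _ => hO M H x hord q hqS r
  rw [finsum_eq_sum_of_support_subset _ hsupp] at hsum
  rw [sigma_apply, ← hsum, ← Finset.sum_coe_sort S]
  refine Finset.sum_congr rfl fun q _ => ?_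
  rw [sigmaAt_apply]
  refine Finset.sum_congr rfl fun g _ => ?_
  haveI : Fact ((q.1 : ℕ).Prime) := ⟨q.1.2⟩
  exact congrArg (I.inv (q.1 : ℕ) (locSub (q.1 : ℕ) g (UH M H)))
    (cH2_diag M H (q.1 : ℕ) q.2 g x)

/-- **recip** for `σ = FR.sigma I`, with FR-OUT plugged in. -/
theorem recip_of (I : LocalInvSystem) (p : ℕ) (hR : ReciprocitySpec I p)
    {S : Finset Nat.Primes} (M : Level S) (H : Subgroup M.Gal)
    (x : groupCohomology (T.resSub (lvlL M) H) 2) (hx : E1.IsPPrimary p x)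
    (hord : h2Sub (G.ordRepHom S M.Gal M.F) H x = 0) :
    sigma I M H (h2Sub (diagJRepHom S M.Gal M.F) H x) = 0 :=
  recip_of' M H I p hR (outside I) x hx hord

end Fermat.Agent.S55.G.Rec.TOW.FR.H724

end
end
-- ===== PACK-END S55/G/Rec/Tow/FR/RecipH724.lean

-- ===== PACK-BEGIN S55/G/Rec/Tow/FR/ResIndexH724.lean
section
/-
S55 / layer G / block REC / adapter TOW / leaf FR, assembly piece `resIndex` (helper724).

* `cH2_res` (RES1) : `c^H_{q,g} (res_H y) = lRes (c^⊤_{q,g} (res_⊤ y))`, for any `W`;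
* `resIndex_of I : ConjSpec I → CountSpec →` the field `resIndex` of `TOW.SemiLocalInv p`
  for `σ = FR.sigma I`  (`I.inv_res` + FR-CONJ + FR-COUNT).
-/


set_option autoImplicit false
set_option linter.style.haveILetI false

open CategoryTheory groupCohomology

noncomputable section

namespace Fermat.Agent.S55.G.Rec.TOW.FR.H724

open Fermat.Agent.S55 Fermat.Agent.S55.Tow Fermat.Agent.S55.E1.H594 Fermat.Agent.S55.G.Rec

variable {S : Finset Nat.Primes} (M : Level S) (H : Subgroup M.Gal)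

lemma locSub_mono (q : ℕ) [Fact q.Prime] (g : GQ) {U U' : Subgroup GQ} (h : U' ≤ U) :
    locSub q g U' ≤ locSub q g U := fun _ hτ => h hτ

lemma UH_le_top : UH M H ≤ UH M ⊤ := fun _ _ => Subgroup.mem_top _

/-- **RES1**: localisation commutes with restriction. -/
theorem cH2_res (W : Finset Nat.Primes) (q : ℕ) [hq : Fact q.Prime]
    (hqW : (⟨q, hq.out⟩ : Nat.Primes) ∈ W) (g : GQ)
    (y : groupCohomology (G.JRep M.Gal W M.F) 2) :
    cH2 M H W q hqW g (res2 (G.JRep M.Gal W M.F) H y) =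
      lRes q (locSub_mono q g (UH_le_top M H))
        (cH2 M ⊤ W q hqW g (res2 (G.JRep M.Gal W M.F) ⊤ y)) := by
  have h1 := LocDatum.map_comp (A := G.JRep M.Gal W M.F) (cDatum M H W q hqW g)
    H.subtype (𝟙 (T.resSub (G.JRep M.Gal W M.F) H)) y
  have h2 := LocDatum.map_comp (A := G.JRep M.Gal W M.F) (cDatum M ⊤ W q hqW g)
    (⊤ : Subgroup M.Gal).subtype (𝟙 (T.resSub (G.JRep M.Gal W M.F) ⊤)) y
  have h3 := LocDatum.map_restrict
    ((cDatum M ⊤ W q hqW g).comp (⊤ : Subgroup M.Gal).subtype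
      (𝟙 (T.resSub (G.JRep M.Gal W M.F) ⊤)))
    (locSub_mono q g (UH_le_top M H)) y
  refine h1.symm.trans (Eq.trans ?_ (h3.trans (congrArg _ h2)))
  refine congrFun (congrArg DFunLike.coe (LocDatum.map_congr ?_ ?_)) y
  · rfl
  · rfl


/-- The local invariant of the restriction, in terms of the invariant over `ℚ` at `g = 1`. -/
lemma inv_cH2_res (I : LocalInvSystem) (hC : ConjSpec I) (q : ℕ) [hq : Fact q.Prime]
    (hqS : (⟨q, hq.out⟩ : Nat.Primes) ∈ S) (g : GQ) (y : groupCohomology (lvlJ M) 2) :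
    I.inv q (locSub q g (UH M H)) (cH2 M H S q hqS g (res2 (lvlJ M) H y)) =
      (locSub q g (UH M H)).relIndex (locSub q g (UH M ⊤)) •
        I.inv q (locSub q 1 (UH M ⊤)) (cH2 M ⊤ S q hqS 1 (res2 (lvlJ M) ⊤ y)) := by
  have e1 := congrArg (I.inv q (locSub q g (UH M H))) (cH2_res M H S q hqS g y)
  have e2 := I.inv_res q _ _ (locSub_mono q g (UH_le_top M H))
    (H181.isOpenL_locSub q g (isOpenQ_UH M H)) (cH2 M ⊤ S q hqS g (res2 (lvlJ M) ⊤ y))
  have e3 := hC M S q hqS g 1 (res2 (lvlJ M) ⊤ y)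
  exact e1.trans (e2.trans (congrArg _ e3))

/-- The invariant over `ℚ` at the place `(q, 1)`. -/
def invTop (I : LocalInvSystem) (q : S) (z : H2 (T.resSub (lvlJ M) ⊤)) : AddCircle (1 : ℚ) :=
  haveI : Fact ((q.1 : ℕ).Prime) := ⟨q.1.2⟩
  I.inv (q.1 : ℕ) (locSub (q.1 : ℕ) 1 (UH M ⊤)) (cH2 M ⊤ S (q.1 : ℕ) q.2 1 z)

/-- The contribution of `q ∈ S` to `σ_H (res_H y)`. -/
lemma sigmaAt_res (I : LocalInvSystem) (hC : ConjSpec I) (hN : CountSpec) (q : S)
    (y : groupCohomology (lvlJ M) 2) :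
    sigmaAt I M H q (res2 (lvlJ M) H y) = H.index • invTop M I q (res2 (lvlJ M) ⊤ y) := by
  haveI : Fact ((q.1 : ℕ).Prime) := ⟨q.1.2⟩
  have e1 := sigmaAt_apply I M H q (res2 (lvlJ M) H y)
  have e2 : ∑ g ∈ reps (UH M H) (q.1 : ℕ),
      I.inv (q.1 : ℕ) (locSub (q.1 : ℕ) g (UH M H))
        (cH2 M H S (q.1 : ℕ) q.2 g (res2 (lvlJ M) H y)) =
      ∑ g ∈ reps (UH M H) (q.1 : ℕ),
        (locSub (q.1 : ℕ) g (UH M H)).relIndex (locSub (q.1 : ℕ) g (UH M ⊤)) •
          invTop M I q (res2 (lvlJ M) ⊤ y) :=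
    Finset.sum_congr rfl fun g _ => inv_cH2_res M H I hC (q.1 : ℕ) q.2 g y
  have e3 := (Finset.sum_smul (s := reps (UH M H) (q.1 : ℕ))
    (f := fun g => (locSub (q.1 : ℕ) g (UH M H)).relIndex (locSub (q.1 : ℕ) g (UH M ⊤)))
    (x := invTop M I q (res2 (lvlJ M) ⊤ y))).symm
  have e4 := hN M H (q.1 : ℕ)
  exact e1.trans (e2.trans (e3.trans (congrArg (· • _) e4)))

lemma sigmaAt_top (I : LocalInvSystem) (hC : ConjSpec I) (hN : CountSpec) (q : S)
    (y : groupCohomology (lvlJ M) 2) :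
    sigmaAt I M ⊤ q (res2 (lvlJ M) ⊤ y) = invTop M I q (res2 (lvlJ M) ⊤ y) := by
  have e := sigmaAt_res M ⊤ I hC hN q y
  have h1 : (⊤ : Subgroup M.Gal).index = 1 := Subgroup.index_top
  refine e.trans ?_
  rw [h1]
  exact one_nsmul _

/-- **resIndex** for `σ = FR.sigma I`: restriction multiplies the semilocal invariant by the
index. -/
theorem resIndex_of (I : LocalInvSystem) (hC : ConjSpec I) (hN : CountSpec)
    (y : groupCohomology (lvlJ M) 2) :
    sigma I M H (res2 (lvlJ M) H y) = H.index • sigma I M ⊤ (res2 (lvlJ M) ⊤ y) := by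
  have e1 := sigma_apply I M H (res2 (lvlJ M) H y)
  have e2 := sigma_apply I M ⊤ (res2 (lvlJ M) ⊤ y)
  have e3 : ∑ q : S, sigmaAt I M H q (res2 (lvlJ M) H y) =
      ∑ q : S, H.index • invTop M I q (res2 (lvlJ M) ⊤ y) :=
    Finset.sum_congr rfl fun q _ => sigmaAt_res M H I hC hN q y
  have e4 : ∑ q : S, sigmaAt I M ⊤ q (res2 (lvlJ M) ⊤ y) =
      ∑ q : S, invTop M I q (res2 (lvlJ M) ⊤ y) :=
    Finset.sum_congr rfl fun q _ => sigmaAt_top M I hC hN q y
  have e5 := Finset.smul_sum (s := (Finset.univ : Finset S))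
    (f := fun q : S => invTop M I q (res2 (lvlJ M) ⊤ y)) (r := H.index)
  exact e1.trans (e3.trans (e5.symm.trans (congrArg (H.index • ·) (e2.trans e4).symm)))

end Fermat.Agent.S55.G.Rec.TOW.FR.H724

end
end
-- ===== PACK-END S55/G/Rec/Tow/FR/ResIndexH724.lean

-- ===== PACK-BEGIN S55/G/Rec/Tow/FR/AssemblyH724.lean
section
/-
S55 / layer G / block REC / adapter TOW / leaf FR — ASSEMBLY (helper724).

`SemiLocalInv p` for `σ := FR.sigma I` from
* `recip`    : `FR.H724.recip_of`    (ReciprocitySpec + FR-OUT + REC1)          — closed here;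
* `resIndex` : `FR.H724.resIndex_of` (RES1 + `I.inv_res` + FR-CONJ + FR-COUNT)  — closed here;
* `injAt`, `locClass` : taken as hypotheses `InjAtField I p`, `LocClassField I p`, which are
  VERBATIM the corresponding fields of `TOW.SemiLocalInv p` with `σ := FR.sigma I`.

`finRec_of_fields I p : ReciprocitySpec I p → InjAtField I p → LocClassField I p → FinRecSpec p`.
-/




set_option autoImplicit false

open CategoryTheory groupCohomology

noncomputable section

namespace Fermat.Agent.S55.G.Rec.TOW.FR.H724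

open Fermat.Agent.S55 Fermat.Agent.S55.Tow Fermat.Agent.S55.E1.H594 Fermat.Agent.S55.G.Rec

/-- The field `injAt` of `TOW.SemiLocalInv p` for `σ := FR.sigma I`. -/
def InjAtField (I : LocalInvSystem) (p : ℕ) : Prop :=
  ∀ {S : Finset Nat.Primes} (M : Level S) (r : Nat.Primes)
    (y : groupCohomology (lvlJ M) 2), E1.IsPPrimary p y → IsAt S M.Gal M.F r y →
    sigma I M ⊤ (res2 (lvlJ M) ⊤ y) = 0 → y = 0

/-- The field `locClass` of `TOW.SemiLocalInv p` for `σ := FR.sigma I`. -/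
def LocClassField (I : LocalInvSystem) (p : ℕ) : Prop :=
  ∀ {S : Finset Nat.Primes} (M : Level S) (r : Nat.Primes), r ∈ S →
    ∀ H Z : Subgroup M.Gal, Z ≤ H → IsPGroup p Z → FixesPrimeAbove M r Z →
    ∃ y : groupCohomology (T.resSub (lvlJ M) H) 2,
      Nat.card Z • y = 0 ∧ ∀ n : ℕ, n • sigma I M H y = 0 → Nat.card Z ∣ n

/-- **resIndex**, closed (FR-CONJ `H414.conj`, FR-COUNT `H73.count`). -/
theorem resIndex (I : LocalInvSystem) {S : Finset Nat.Primes} (M : Level S) (H : Subgroup M.Gal)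
    (y : groupCohomology (lvlJ M) 2) :
    sigma I M H (res2 (lvlJ M) H y) = H.index • sigma I M ⊤ (res2 (lvlJ M) ⊤ y) :=
  resIndex_of M H I (FR.H414.conj I) FR.H73.count y

/-- The semilocal invariant system `σ := FR.sigma I`. -/
def semiLocalInv_of (I : LocalInvSystem) (p : ℕ) (hR : ReciprocitySpec I p)
    (hInj : InjAtField I p) (hLoc : LocClassField I p) : SemiLocalInv p where
  σ M H := sigma I M H
  recip M H x hx hord := recip_of I p hR M H x hx hord
  resIndex M H y := resIndex I M H y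
  injAt M r y hy hat h0 := hInj M r y hy hat h0
  locClass M r hr H Z hZH hZ hfix := hLoc M r hr H Z hZH hZ hfix

/-- **FR assembly**: `FinRecSpec p` from reciprocity and the two fields `injAt`, `locClass`. -/
theorem finRec_of_fields (I : LocalInvSystem) (p : ℕ) (hR : ReciprocitySpec I p)
    (hInj : InjAtField I p) (hLoc : LocClassField I p) : FinRecSpec p :=
  ⟨semiLocalInv_of I p hR hInj hLoc⟩

end Fermat.Agent.S55.G.Rec.TOW.FR.H724

end
end
-- ===== PACK-END S55/G/Rec/Tow/FR/AssemblyH724.lean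

-- ===== PACK-BEGIN S55/G/Rec/Tow/FR/AsmLocH481.lean
section
/-
S55 / layer G / block REC / adapter TOW / leaf FR — ASSEMBLY of `locClass` (helper481).

`locClass_of I p : PrimePlaceSpec → OrbitRepsSpec → LocExistSpec → LocInjSpec → G.ShapiroJSpec →
  <the field `locClass` of `TOW.SemiLocalInv p` for `σ = FR.sigma I`>`.
No `sorry`.
-/



set_option autoImplicit false
set_option linter.unusedSectionVars false
set_option linter.style.haveILetI false

open CategoryTheory groupCohomology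
open scoped NumberField

noncomputable section

namespace Fermat.Agent.S55.G.Rec.TOW.FR.H481

open Fermat.Agent.S55 Fermat.Agent.S55.Tow Fermat.Agent.S55.E1.H594 Fermat.Agent.S55.G.Rec
open Fermat.Agent.S55.G.Rec.TOW Fermat.Agent.S55.G.Rec.TOW.FR
open IsDedekindDomain

local notation "Qb" => AlgebraicClosure ℚ
local notation "GQ" => (AlgebraicClosure ℚ ≃ₐ[ℚ] AlgebraicClosure ℚ)

variable {S : Finset Nat.Primes} (M : Level S) (H : Subgroup M.Gal)

/-- The index type of the places of `M^H` above `W`: pairs `(q, g)`, `q ∈ W`, `g ∈ reps`. -/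
abbrev Pair (W : Finset Nat.Primes) : Type :=
  (q : W) × {g : GQ //
    haveI : Fact ((q.1 : ℕ).Prime) := ⟨q.1.2⟩
    g ∈ reps (UH M H) (q.1 : ℕ)}

/-- The place attached to a pair. -/
def pairPlace (W : Finset Nat.Primes) (x : Pair M H W) : G.SPlace W M.F :=
  haveI : Fact ((x.1.1 : ℕ).Prime) := ⟨x.1.1.2⟩
  placeOf M W (x.1.1 : ℕ) x.1.2 x.2.1

instance (W : Finset Nat.Primes) : Finite (Pair M H W) := by
  unfold Pair
  infer_instance

section Reps

variable (W : Finset Nat.Primes)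

lemma sPlaceSMul_one (𝔪 : G.SPlace W M.F) : G.sPlaceSMul W ↥H 1 𝔪 = 𝔪 :=
  (G.sPlaceAction W ↥H M.F).one_smul 𝔪

/-- Different pairs give different places (from the uniqueness in `OrbitRepsSpec`). -/
lemma pairPlace_injective (hOR : OrbitRepsSpec) : Function.Injective (pairPlace M H W) := by
  intro x x' hxx
  obtain ⟨x₀, -, huniq⟩ := hOR M H W (pairPlace M H W x)
  have h1 : x = x₀ := huniq x ⟨1, sPlaceSMul_one M H W _⟩
  have h2 : x' = x₀ := huniq x' ⟨1, by rw [sPlaceSMul_one]; exact hxx.symm⟩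
  exact h1.trans h2.symm

/-- The chosen representatives of the `H`-orbits of places above `W`. -/
def repPlaces : Finset (G.SPlace W M.F) := (Set.finite_range (pairPlace M H W)).toFinset

lemma mem_repPlaces {𝔪 : G.SPlace W M.F} :
    𝔪 ∈ repPlaces M H W ↔ ∃ x : Pair M H W, pairPlace M H W x = 𝔪 := by
  unfold repPlaces
  rw [Set.Finite.mem_toFinset]
  rfl

lemma pairPlace_mem (x : Pair M H W) : pairPlace M H W x ∈ repPlaces M H W :=
  (mem_repPlaces M H W).2 ⟨x, rfl⟩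

/-- `repPlaces` is a system of representatives of the `H`-orbits. -/
lemma repPlaces_spec (hOR : OrbitRepsSpec) (𝔪 : G.SPlace W M.F) :
    ∃! r : G.SPlace W M.F, r ∈ repPlaces M H W ∧ ∃ g : ↥H, G.sPlaceSMul W ↥H g r = 𝔪 := by
  obtain ⟨x, ⟨h, hx⟩, huniq⟩ := hOR M H W 𝔪
  refine ⟨pairPlace M H W x, ⟨pairPlace_mem M H W x, h, hx⟩, ?_⟩
  rintro r ⟨hr, g, hg⟩
  obtain ⟨x', rfl⟩ := (mem_repPlaces M H W).1 hr
  rw [huniq x' ⟨g, hg⟩]

end Reps

section Spread

variable {W : Finset Nat.Primes} {Γ L : Type} [Group Γ] [Field L] [NumberField L]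
  [MulSemiringAction Γ L]

open Classical in
/-- The family of local classes which is `u` at `𝔪₁` and `0` elsewhere. -/
def spread (𝔪₁ : G.SPlace W L) (u : groupCohomology (G.LocRep W Γ 𝔪₁) 2) (𝔪 : G.SPlace W L) :
    groupCohomology (G.LocRep W Γ 𝔪) 2 :=
  if h : 𝔪₁ = 𝔪 then h ▸ u else 0

lemma spread_self (𝔪₁ : G.SPlace W L) (u : groupCohomology (G.LocRep W Γ 𝔪₁) 2) :
    spread 𝔪₁ u 𝔪₁ = u := by
  unfold spread
  rw [dif_pos rfl]

lemma spread_of_ne (𝔪₁ : G.SPlace W L) (u : groupCohomology (G.LocRep W Γ 𝔪₁) 2)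
    {𝔪 : G.SPlace W L} (h : 𝔪₁ ≠ 𝔪) : spread 𝔪₁ u 𝔪 = 0 := by
  unfold spread
  rw [dif_neg h]

lemma nsmul_spread (n : ℕ) (𝔪₁ : G.SPlace W L) (u : groupCohomology (G.LocRep W Γ 𝔪₁) 2)
    (𝔪 : G.SPlace W L) : n • spread 𝔪₁ u 𝔪 = spread 𝔪₁ (n • u) 𝔪 := by
  by_cases h : 𝔪₁ = 𝔪
  · subst h
    rw [spread_self, spread_self]
  · rw [spread_of_ne _ _ h, spread_of_ne _ _ h, smul_zero]

end Spread

section Main

variable (I : LocalInvSystem)

/-- The invariant at the pair `x`. -/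
def invPair (x : Pair M H S) (y : H2 (T.resSub (lvlJ M) H)) : AddCircle (1 : ℚ) :=
  haveI : Fact ((x.1.1 : ℕ).Prime) := ⟨x.1.1.2⟩
  I.inv (x.1.1 : ℕ) (locSub (x.1.1 : ℕ) x.2.1 (UH M H)) (cH2 M H S (x.1.1 : ℕ) x.1.2 x.2.1 y)

/-- `σ` as a sum over the pairs. -/
lemma sigma_eq_sum_pairs (y : H2 (T.resSub (lvlJ M) H)) :
    sigma I M H y = ∑ᶠ x : Pair M H S, invPair M H I x y := by
  rw [finsum_eq_sum_of_fintype, sigma_apply]
  have h1 : ∀ q : S, sigmaAt I M H q y =
      haveI : Fact ((q.1 : ℕ).Prime) := ⟨q.1.2⟩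
      ∑ g : {g : GQ // g ∈ reps (UH M H) (q.1 : ℕ)}, invPair M H I ⟨q, g⟩ y := by
    intro q
    haveI : Fact ((q.1 : ℕ).Prime) := ⟨q.1.2⟩
    rw [sigmaAt_apply]
    exact (Finset.sum_coe_sort (reps (UH M H) (q.1 : ℕ)) (fun g =>
      I.inv (q.1 : ℕ) (locSub (q.1 : ℕ) g (UH M H)) (cH2 M H S (q.1 : ℕ) q.2 g y))).symm
  rw [Finset.sum_congr rfl (fun q _ => h1 q)]
  exact (Fintype.sum_sigma (fun x : Pair M H S => invPair M H I x y)).symm

lemma spread_zero {W : Finset Nat.Primes} {Γ L : Type} [Group Γ] [Field L] [NumberField L]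
    [MulSemiringAction Γ L] (𝔪₁ 𝔪 : G.SPlace W L) :
    spread (Γ := Γ) 𝔪₁ (0 : groupCohomology (G.LocRep W Γ 𝔪₁) 2) 𝔪 = 0 := by
  by_cases h : 𝔪₁ = 𝔪
  · subst h
    rw [spread_self]
  · rw [spread_of_ne _ _ h]

/-- A subgroup `Z ≤ H` fixing a place `H`-conjugate to `𝔪₁` has order dividing `|D_{𝔪₁}(H)|`. -/
lemma card_dvd_card_decomp (Z : Subgroup M.Gal) (hZH : Z ≤ H) (𝔪₀ 𝔪₁ : G.SPlace S M.F)
    (h𝔪₀ : ∀ z ∈ Z, G.sPlaceSMul S M.Gal z 𝔪₀ = 𝔪₀) (h : ↥H)
    (hh : G.sPlaceSMul S ↥H h 𝔪₁ = 𝔪₀) :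
    Nat.card Z ∣ Nat.card (G.decomp S ↥H 𝔪₁) := by
  letI act := G.sPlaceAction S ↥H M.F
  have hx₀' : h • 𝔪₁ = 𝔪₀ := hh
  have hz : ∀ z : ↥Z, (⟨z.1, hZH z.2⟩ : ↥H) • 𝔪₀ = 𝔪₀ := fun z => h𝔪₀ z.1 z.2
  have hmem : ∀ z : ↥Z, (MulAut.conj h⁻¹).toMonoidHom (Subgroup.inclusion hZH z) ∈
      G.decomp S ↥H 𝔪₁ := by
    intro z
    rw [G.mem_decomp_iff]
    show ((MulAut.conj h⁻¹) (Subgroup.inclusion hZH z)) • 𝔪₁ = 𝔪₁
    rw [MulAut.conj_apply, inv_inv, mul_smul, mul_smul, hx₀']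
    have : (Subgroup.inclusion hZH z) • 𝔪₀ = 𝔪₀ := hz z
    rw [this, ← hx₀', inv_smul_smul]
  let φ : ↥Z →* ↥(G.decomp S ↥H 𝔪₁) :=
    ((MulAut.conj h⁻¹).toMonoidHom.comp (Subgroup.inclusion hZH)).codRestrict _ hmem
  have hφ : Function.Injective φ := by
    intro a b hab
    have h1 := congrArg Subtype.val hab
    have h2 : (MulAut.conj h⁻¹) (Subgroup.inclusion hZH a) =
        (MulAut.conj h⁻¹) (Subgroup.inclusion hZH b) := h1
    exact Subgroup.inclusion_injective hZH ((MulAut.conj h⁻¹).injective h2)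
  exact Subgroup.card_dvd_of_injective φ hφ

/-- The invariant at a pair vanishes as soon as the intrinsic localisation does. -/
lemma invPair_eq_zero (hLI : LocInjSpec) (x : Pair M H S) (y : H2 (T.resSub (lvlJ M) H))
    (hy : (G.locMapJ S ↥H (pairPlace M H S x) 2).hom y = 0) : invPair M H I x y = 0 := by
  haveI : Fact ((x.1.1 : ℕ).Prime) := ⟨x.1.1.2⟩
  have h := (hLI M H S (x.1.1 : ℕ) x.1.2 x.2.1 y).2 hy
  exact (congrArg (I.inv (x.1.1 : ℕ) (locSub (x.1.1 : ℕ) x.2.1 (UH M H))) h).trans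
    (AddMonoidHom.map_zero _)

/-- Conversely, if the invariant at a pair vanishes then so does the intrinsic localisation. -/
lemma locMapJ_eq_zero_of_invPair (hLI : LocInjSpec) (x : Pair M H S)
    (y : H2 (T.resSub (lvlJ M) H)) (hy : invPair M H I x y = 0) :
    (G.locMapJ S ↥H (pairPlace M H S x) 2).hom y = 0 := by
  haveI : Fact ((x.1.1 : ℕ).Prime) := ⟨x.1.1.2⟩
  refine (hLI M H S (x.1.1 : ℕ) x.1.2 x.2.1 y).1 ?_
  refine I.inv_injective (x.1.1 : ℕ) _
    (H181.isOpenL_locSub (x.1.1 : ℕ) x.2.1 (isOpenQ_UH M H)) ?_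
  exact hy.trans (AddMonoidHom.map_zero _).symm

lemma invPair_nsmul (n : ℕ) (x : Pair M H S) (y : H2 (T.resSub (lvlJ M) H)) :
    invPair M H I x (n • y) = n • invPair M H I x y := by
  haveI : Fact ((x.1.1 : ℕ).Prime) := ⟨x.1.1.2⟩
  have h1 : cH2 M H S (x.1.1 : ℕ) x.1.2 x.2.1 (n • y) =
      n • cH2 M H S (x.1.1 : ℕ) x.1.2 x.2.1 y := AddMonoidHom.map_nsmul _ _ _
  exact (congrArg (I.inv (x.1.1 : ℕ) (locSub (x.1.1 : ℕ) x.2.1 (UH M H))) h1).trans
    (AddMonoidHom.map_nsmul _ _ _)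

/-- Shapiro (surjectivity): a class with prescribed localisation at one pair and trivial
localisations at the others. -/
lemma exists_class_of_spread (hOR : OrbitRepsSpec) (hSh : G.ShapiroJSpec) (x₀ : Pair M H S)
    (u : groupCohomology (G.LocRep S ↥H (pairPlace M H S x₀)) 2) :
    ∃ y : H2 (T.resSub (lvlJ M) H), ∀ x : Pair M H S,
      (G.locMapJ S ↥H (pairPlace M H S x) 2).hom y =
        spread (pairPlace M H S x₀) u (pairPlace M H S x) := by
  have hbij := hSh S ↥H M.F (repPlaces M H S) (repPlaces_spec M H S hOR) 2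
  obtain ⟨y, hy⟩ := hbij.2 (fun r => spread (pairPlace M H S x₀) u r.1)
  exact ⟨y, fun x => congrFun hy ⟨pairPlace M H S x, pairPlace_mem M H S x⟩⟩

/-- Shapiro (injectivity): a class all of whose localisations vanish is zero. -/
lemma eq_zero_of_forall_locMapJ (hOR : OrbitRepsSpec) (hSh : G.ShapiroJSpec)
    (y : H2 (T.resSub (lvlJ M) H))
    (hy : ∀ x : Pair M H S, (G.locMapJ S ↥H (pairPlace M H S x) 2).hom y = 0) : y = 0 := by
  have hbij := hSh S ↥H M.F (repPlaces M H S) (repPlaces_spec M H S hOR) 2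
  apply hbij.1
  funext r
  obtain ⟨x, hx⟩ := (mem_repPlaces M H S).1 r.2
  show (G.locMapJ S ↥H r.1 2).hom y = (G.locMapJ S ↥H r.1 2).hom 0
  rw [map_zero, ← hx]
  exact hy x

lemma locMapJ_nsmul (n : ℕ) (𝔪 : G.SPlace S M.F) (y : H2 (T.resSub (lvlJ M) H)) :
    (G.locMapJ S ↥H 𝔪 2).hom (n • y) = n • (G.locMapJ S ↥H 𝔪 2).hom y :=
  map_nsmul (G.locMapJ S ↥H 𝔪 2).hom n y

/-- **Assembly of `locClass`**: the field `locClass` of `SemiLocalInv p` for `σ = sigma I`,
from the leaves FR-D, FR-B, FR-C, FR-A and Shapiro's lemma for `J_S`. -/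
theorem locClass_of (p : ℕ) (hPP : PrimePlaceSpec) (hOR : OrbitRepsSpec) (hLE : LocExistSpec)
    (hLI : LocInjSpec) (hSh : G.ShapiroJSpec) :
    ∀ {S : Finset Nat.Primes} (M : Level S) (r : Nat.Primes), r ∈ S →
    ∀ H Z : Subgroup M.Gal, Z ≤ H → IsPGroup p Z → FixesPrimeAbove M r Z →
    ∃ y : groupCohomology (T.resSub (lvlJ M) H) 2,
      Nat.card Z • y = 0 ∧ ∀ n : ℕ, n • sigma I M H y = 0 → Nat.card Z ∣ n := by
  intro S M r hr H Z hZH _ hfix
  obtain ⟨𝔪₀, h𝔪₀⟩ := hPP M r hr Z hfix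
  obtain ⟨x₀, ⟨h, hx₀⟩, -⟩ := hOR M H S 𝔪₀
  have hdvd : Nat.card Z ∣ Nat.card (G.decomp S ↥H (pairPlace M H S x₀)) :=
    card_dvd_card_decomp M H Z hZH 𝔪₀ (pairPlace M H S x₀) h𝔪₀ h hx₀
  haveI : FaithfulSMul ↥H M.F := level_faithfulSMul_subgroup M H
  obtain ⟨u, hu0, huord⟩ := hLE S ↥H M.F (pairPlace M H S x₀) (Nat.card Z) hdvd
  obtain ⟨y, hy'⟩ := exists_class_of_spread M H hOR hSh x₀ u
  refine ⟨y, ?_, ?_⟩
  · apply eq_zero_of_forall_locMapJ M H hOR hSh
    intro x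
    rw [locMapJ_nsmul, hy' x, nsmul_spread, hu0, spread_zero]
  · intro n hn
    apply huord
    have hsum : sigma I M H y = invPair M H I x₀ y := by
      rw [sigma_eq_sum_pairs]
      apply finsum_eq_single
      intro x hx
      apply invPair_eq_zero M H I hLI
      rw [hy' x]
      exact spread_of_ne _ _ (fun hh => hx (pairPlace_injective M H S hOR hh).symm)
    rw [hsum, ← invPair_nsmul] at hn
    have h2 := locMapJ_eq_zero_of_invPair M H I hLI x₀ (n • y) hn
    rw [locMapJ_nsmul, hy' x₀, spread_self] at h2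
    exact h2

end Main

end Fermat.Agent.S55.G.Rec.TOW.FR.H481

end
end
-- ===== PACK-END S55/G/Rec/Tow/FR/AsmLocH481.lean

-- ===== PACK-BEGIN S56/Euler/Big/H2FH29.lean
section



/-!
# Row S56 / BASE-BIG — leaf H2F (helper29): the `H²` formula

`h2Formula_of : FinGlob → TheoremD → TopLoc → TopGlob → H2FormulaSpec p S` and
`h2Formula_of_four : Surj2Glob → Surj2Loc → Inv → Cap → H2FormulaSpec p S`.

Pure rank–nullity on the tail of the Poitou–Tate sequence
`0 → Ш²(N) → H²(N) → ∏_v H²(G_v, N) → T³(N) → 0` with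
`Ш²(N) ≃ Dual Ш¹(N′)` (Theorem D), `H²(G_v, N) ≃ Dual (charHom_v N)` (TOP-loc),
`T³(N) ≃ Dual (charHom N)` (TOP-glob).
-/

set_option autoImplicit false

noncomputable section

namespace Fermat.Agent.S56.Euler.H29

open Fermat.Agent.S56 Fermat.Agent.S55.PT ExtCitation Module

/-! ### Mathlib-only linear algebra -/

section LinAlg

variable {K : Type*} [Field K]

/-- A bijective linear map onto the dual of a finite-dimensional space: the source is
finite-dimensional of the same dimension. -/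
theorem finite_and_finrank_of_bijective_dual {V W : Type*} [AddCommGroup V] [Module K V]
    [AddCommGroup W] [Module K W] [FiniteDimensional K W]
    (f : V →ₗ[K] Module.Dual K W) (hf : Function.Bijective f) :
    FiniteDimensional K V ∧ finrank K V = finrank K W := by
  let e : V ≃ₗ[K] Module.Dual K W := LinearEquiv.ofBijective f hf
  refine ⟨Module.Finite.equiv e.symm, ?_⟩
  rw [e.finrank_eq, Subspace.dual_finrank_eq]

/-- A linear equivalence with the dual of a finite-dimensional space. -/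
theorem finite_and_finrank_of_equiv_dual {V W : Type*} [AddCommGroup V] [Module K V]
    [AddCommGroup W] [Module K W] [FiniteDimensional K W]
    (e : V ≃ₗ[K] Module.Dual K W) :
    FiniteDimensional K V ∧ finrank K V = finrank K W := by
  refine ⟨Module.Finite.equiv e.symm, ?_⟩
  rw [e.finrank_eq, Subspace.dual_finrank_eq]

/-- Rank–nullity without assuming the source finite-dimensional: kernel and target are. -/
theorem finite_and_finrank_of_ker_of_target {V W : Type*} [AddCommGroup V] [Module K V]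
    [AddCommGroup W] [Module K W] [FiniteDimensional K W]
    (f : V →ₗ[K] W) [hk : FiniteDimensional K (LinearMap.ker f)] :
    FiniteDimensional K V ∧
      finrank K V = finrank K (LinearMap.ker f) + finrank K (LinearMap.range f) := by
  have hq : Module.Finite K (V ⧸ LinearMap.ker f) :=
    Module.Finite.equiv (LinearMap.quotKerEquivRange f).symm
  have hV : FiniteDimensional K V := Module.Finite.of_submodule_quotient (LinearMap.ker f)
  refine ⟨hV, ?_⟩
  have := LinearMap.finrank_range_add_finrank_ker f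
  omega

/-- Dimension of the cokernel, in the form "surjection with prescribed kernel". -/
theorem finrank_add_of_surjective_of_ker {V T : Type*} [AddCommGroup V] [Module K V]
    [AddCommGroup T] [Module K T] [FiniteDimensional K V]
    (π : V →ₗ[K] T) (hπ : Function.Surjective π) (R : Submodule K V)
    (hker : LinearMap.ker π = R) :
    finrank K R + finrank K T = finrank K V := by
  subst hker
  have h1 := LinearMap.finrank_range_add_finrank_ker π
  rw [LinearMap.range_eq_top.2 hπ, finrank_top] at h1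
  omega

end LinAlg

/-! ### the `H²` formula -/

variable (p : ℕ) [Fact p.Prime] (S : Finset Nat.Primes)

/-- **Leaf H2F.**  The `H²` formula from Theorem D and the two top-degree dualities. -/
theorem h2Formula_of (hFin : FinGlobSpec p S) (hD : TheoremDSpec p S) (inv : InvFamily p S)
    (hrec : IsRecip (hrl S) (cycloChar p) inv) (hTL : TopLocSpec inv)
    (hTG : TopGlobSpec inv hrec) : H2FormulaSpec p S := by
  classical
  intro _hp2 hpS N hNfd hNsm
  have := hNfd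
  -- smoothness of the Tate dual
  obtain ⟨V₁, hV₁, hV₁N⟩ := hNsm
  obtain ⟨V₂, hV₂, hV₂χ⟩ := cycloLevelSpec p S hpS
  obtain ⟨V, hV, hVle⟩ := (globalLevels S).directed V₁ hV₁ V₂ hV₂
  have hχV : ∀ u ∈ V, cycloChar p u = 1 := fun u hu => hV₂χ u (hVle hu).2
  have hNV : ∀ u ∈ V, N.ρ u = 1 := fun u hu =>
    LinearMap.ext fun a => hV₁N u (hVle hu).1 a
  have hN'triv : ∀ u ∈ V, (tdual p N).ρ u = 1 := fun u hu =>
    dualTwist_ρ_eq_one' (cycloChar p) N u (hχV u hu) (hNV u hu)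
  have hN'sm : (globalLevels S).IsUSmooth (tdual p N) := isUSmooth_of_trivial _ hV hN'triv
  have hNsm' : (globalLevels S).IsUSmooth N := ⟨V₁, hV₁, hV₁N⟩
  -- `Ш¹(N′)` is finite-dimensional
  have hH1 : FiniteDimensional (ZMod p) ((globalLevels S).H1 (tdual p N)) :=
    hFin (tdual p N) inferInstance hN'sm
  have hSha1 : FiniteDimensional (ZMod p) ↥(Sha1 (hrl S) (tdual p N)) :=
    FiniteDimensional.finiteDimensional_submodule _
  -- Theorem D
  obtain ⟨eD⟩ := hD N hNfd hNsm'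
  obtain ⟨hSha2fd, hSha2⟩ := finite_and_finrank_of_equiv_dual eD
  -- local top dualities
  have hloc : ∀ v : ↥S,
      FiniteDimensional (ZMod p) ((localLevels v.1).H2 (Rep.res (rl v.1) N)) ∧
      finrank (ZMod p) ((localLevels v.1).H2 (Rep.res (rl v.1) N)) =
        finrank (ZMod p) ↥(charHom (cycloLoc p v.1) (Rep.res (rl v.1) N)) := fun v =>
    finite_and_finrank_of_bijective_dual _
      (hTL v (Rep.res (rl v.1) N) inferInstance (hNsm'.res (hrl S v)))
  have hlocfd : ∀ v : ↥S,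
      FiniteDimensional (ZMod p) ((localLevels v.1).H2 (Rep.res (rl v.1) N)) :=
    fun v => (hloc v).1
  have hprod : finrank (ZMod p) ((v : ↥S) → (localLevels v.1).H2 (Rep.res (rl v.1) N)) =
      ∑ v : ↥S, finrank (ZMod p) ↥(charHom (cycloLoc p v.1) (Rep.res (rl v.1) N)) := by
    rw [Module.finrank_pi_fintype]
    exact Finset.sum_congr rfl fun v _ => (hloc v).2
  -- global top duality
  have hTGN : Function.Bijective (topT3 (hrl S) N hrec) := hTG N hNfd hNsm'
  obtain ⟨_, hT3⟩ := @finite_and_finrank_of_bijective_dual (ZMod p) _ (T3 (hrl S) N)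
    ↥(charHom (cycloChar p) N) _ _ _ _ _ (topT3 (hrl S) N hrec) hTGN
  -- rank–nullity for `loc2`
  have : FiniteDimensional (ZMod p) ↥(LinearMap.ker (loc2 (hrl S) N)) := hSha2fd
  obtain ⟨hH2fd, hH2⟩ := finite_and_finrank_of_ker_of_target (loc2 (hrl S) N)
  have hcok := finrank_add_of_surjective_of_ker (T3π (hrl S) N) (T3π_surjective (hrl S) N)
    (LinearMap.range (loc2 (hrl S) N)) (ker_T3π (hrl S) N)
  refine ⟨hH2fd, ?_⟩
  have hSha2' : finrank (ZMod p) ↥(LinearMap.ker (loc2 (hrl S) N)) =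
      finrank (ZMod p) ↥(Sha1 (hrl S) (tdual p N)) := hSha2
  rw [← hprod, ← hcok, hH2, hSha2', ← hT3]
  omega

/-- **Leaf H2F, from the four arithmetic inputs** A3, A4, A5–A7, A8 of S55. -/
theorem h2Formula_of_four (hSurjG : Surj2GlobSpec p S) (hSurjL : Surj2LocSpec p S)
    (hInv : InvSpec p S) (hCap : CapSpec p S) : H2FormulaSpec p S := by
  intro hp2 hpS
  have hD : TheoremDSpec p S := theoremD_of_four p S hpS hSurjG hSurjL hInv hCap
  obtain ⟨inv, hrec, hTLI, hTGI⟩ := hInv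
  have hrec' : IsRecip (hrl S) (cycloChar p) inv := hrec
  have hTopL : TopLocSpec inv :=
    H299.topLocDev p S H113.lesMidSpec H724.localNormalCofinal H724.localFiniteIndex inv hTLI
      hSurjL
  have hTopG : TopGlobSpec inv hrec' :=
    H123.topGlobDev p S H113.lesMidSpec H724.globalNormalCofinal H724.localNormalCofinal
      H724.globalFiniteIndex hpS inv hrec' hTopL hTGI hSurjG hSurjL
  exact h2Formula_of p S (H593.finGlob p S) hD inv hrec' hTopL hTopG hp2 hpS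

end Fermat.Agent.S56.Euler.H29

end

end
-- ===== PACK-END S56/Euler/Big/H2FH29.lean

-- ===== PACK-BEGIN S56/RQ/Final.lean
section










/-!
# Row S56 — REC-Q-SUB: assembly of the RQ route (helper554)

All leaves of `RQ/Spec.lean` + `RQ/SpecSub.lean` which are on main are plugged into
`recQSub_of'`:

| leaf | proof |
|---|---|
| RECIP | `H554.plainRecip_of_weak₁` (helper14's bridge), from `WeakInvInput₁` (S55) |
| FRAME, NONDEG, GEN | `H554.frame`, `H554.nondeg`, `H554.gen` |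
| LINE | `H454.line` (also `H275.line`) |
| LOCTRIV | `H514.locTrivTw_of` |
| COBCUP | `H475.cobCup` |
| CONJ | `H880.conjStatement` |
| GLOBZ-SUB | `H554.globZSub` (variant of `H934.globZ`) |
| URCUP | `H475.urCup` |

Result: `recQSub : WeakInvInput₁ → H716.RecQSubStatement` — REC-Q-SUB is CLOSED modulo the weak
invariant package of S55 (`∃ inv : PT.InvFamily p S, PT.RecipSpec inv ∧ inv v injective for
`v ≡ 1 mod p`, `v ≠ p`); `recQSub_of_invSpec` from `PT.InvSpec`, `recQSub_of_weakInv` from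
helper904's shape (injectivity at all places).
-/

set_option autoImplicit false

noncomputable section

namespace Fermat.Agent.S56.RQ

open Fermat.Agent.S56 Fermat.Agent.S56.H716

/-- **REC-Q-SUB**, from the weak invariant package of S55 and URCUP. -/
theorem recQSub_of_urCup (hW : H554.WeakInvInput₁) (hU : UrCupStatement) :
    H716.RecQSubStatement :=
  recQSub_of' (H554.plainRecip_of_weak₁ hW) H554.frame H454.line H554.nondeg hU
    (H514.locTrivTw_of H554.gen) H475.cobCup H880.conjStatement H554.globZSub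

/-- **REC-Q** (the case `S' = Smin`), from the weak invariant package of S55 and URCUP. -/
theorem recQ_of_urCup (hW : H554.WeakInvInput₁) (hU : UrCupStatement) :
    H716.RecQStatement :=
  recQ_of (H554.plainRecip_of_weak₁ hW) H554.frame H454.line H554.nondeg hU
    (H514.locTrivTw_of H554.gen) H475.cobCup H880.conjStatement (globZ_of_sub H554.globZSub)

/-- **REC-Q-SUB**, from the weak invariant package of S55 (all elementary leaves plugged in). -/
theorem recQSub (hW : H554.WeakInvInput₁) : H716.RecQSubStatement :=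
  recQSub_of_urCup hW H475.urCup

/-- **REC-Q**, from the weak invariant package of S55. -/
theorem recQ (hW : H554.WeakInvInput₁) : H716.RecQStatement :=
  recQ_of_urCup hW H475.urCup

/-- **REC-Q-SUB**, from the weak invariant package with injectivity at all places. -/
theorem recQSub_of_weakInv (hW : H554.WeakInvInput) : H716.RecQSubStatement :=
  recQSub (H554.weakInvInput₁_of_weakInvInput hW)

/-- **REC-Q-SUB**, from S55's `InvSpec`. -/
theorem recQSub_of_invSpec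
    (hS55 : ∀ (p : ℕ) [Fact p.Prime] (S : Finset Nat.Primes), p ≠ 2 →
      ExtCitation.pPrime p ∈ S → Fermat.Agent.S55.PT.InvSpec p S) : H716.RecQSubStatement :=
  recQSub (H554.weakInvInput₁_of_invSpec hS55)

end Fermat.Agent.S56.RQ

end

end
-- ===== PACK-END S56/RQ/Final.lean

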