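import Fermat.Agent.Pack.S43GC.G0E3L0
import Fermat.Agent.Pack.S43GC.G0E5L2
import Fermat.Agent.Pack.S43GC.G0E12L1
import Fermat.Agent.Pack.S43GC.G0E5L0
import Fermat.Agent.Pack.S43GC.G0E10L2
import Fermat.Agent.Pack.S43GC.G0E10L3
import Fermat.Agent.Pack.S43GC.G0E17L0
import Fermat.Agent.Pack.S43GC.G0E12L2
import Fermat.Agent.Pack.S43GC.G0E5L1
import Fermat.Agent.Pack.S43GC.G0E20L1
import Fermat.Agent.Pack.S43GC.G0E19L3
import Fermat.Agent.Pack.S43GC.G0E21L2
import Fermat.Agent.Pack.S43GC.G0E10L0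
import Fermat.Agent.Pack.S43GC.G0E7L3
import Fermat.Agent.Pack.S43GC.G0E9L3
import Fermat.Agent.Pack.S43GC.G0E3L1
import Fermat.Agent.Pack.S43GC.G0E7L0
import Fermat.Agent.Pack.S43GC.G0E7L1
import Fermat.Agent.Pack.S43GC.G0E19L0
import Fermat.Agent.Pack.S43GC.G0E7L2
import Fermat.Agent.Pack.S43GC.G0E17L1
import Fermat.Agent.Pack.S43GC.G0E12L0
import Fermat.Agent.Pack.S43GC.G0E21L0
import Fermat.Agent.Pack.S43GC.G0E15L0
import Fermat.Agent.Pack.S43GC.G0E13L0
import Fermat.Agent.Pack.S43GC.G0E15L2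
import Fermat.Agent.Pack.S43GC.G0E18L3
import Fermat.Agent.Pack.S43GC.G0E17L3
import Fermat.Agent.Pack.S43GC.G0E0L3
import Fermat.Agent.Pack.S43GC.G0E9L1
import Fermat.Agent.Pack.S43GC.G0E18L1
import Fermat.Agent.Pack.S43GC.G0E18L0
import Fermat.Agent.Pack.S43GC.G0E18L2
import Fermat.Agent.Pack.S43GC.G0E0L1
import Fermat.Agent.Pack.S43GC.G0E14L1
import Fermat.Agent.Pack.S43GC.G0E21L3
import Fermat.Agent.Pack.S43GC.G0E8L3
import Fermat.Agent.Pack.S43GC.G0E14L2
import Fermat.Agent.Pack.S43GC.G0E12L3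
import Fermat.Agent.Pack.S43GC.G0E16L1
import Fermat.Agent.Pack.S43GC.G0E17L2
import Fermat.Agent.Pack.S43GC.G0E16L0
import Fermat.Agent.Pack.S43GC.G0E21L1
import Fermat.Agent.Pack.S43GC.G0E20L2
import Fermat.Agent.Pack.S43GC.G0E8L2
import Fermat.Agent.Pack.S43GC.G0E16L2
import Fermat.Agent.Pack.S43GC.G0E14L3
import Fermat.Agent.Pack.S43GC.G0E11L2
import Fermat.Agent.Pack.S43GC.G0E11L3
import Fermat.Agent.Pack.S43GC.G0E11L0
import Fermat.Agent.Pack.S43GC.G0E13L3
import Fermat.Agent.Pack.S43GC.G0E11L1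
import Fermat.Agent.Pack.S43GC.G0E8L0
import Fermat.Agent.Pack.S43GC.G0E14L0
import Fermat.Agent.Pack.S43GC.G0E20L3
import Fermat.Agent.Pack.S43GC.G0E13L1
import Fermat.Agent.Pack.S43GC.G0E15L1
import Fermat.Agent.Pack.S43GC.G0E13L2
import Fermat.Agent.Pack.S43GC.G0E19L1
import Fermat.Agent.Pack.S43GC.G0E15L3
import Fermat.Agent.Pack.S43GC.G0E2L1
import Fermat.Agent.Pack.Fast891

-- ===== PACK-BEGIN S55/T/All.lean
section

















/-!
# S55, layer T: assembly (architect helper53)

One canonical, unconditional (or explicitly conditional) proof of every Spec of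
`T/Spec.lean`, `T/Spec2.lean`.  Consumers in layers L, G, D can `import Fermat.Agent.S55.T.All`
and use `Fermat.Agent.S55.T.All.*`.

Status (proved unconditionally here): `cyclicCard`, `herbrand`, `herbrandFinite`, `infRes2`,
`ugly`, `coindCohTriv`, `h1TrivInt`, `classModuleOfCyclic`, `twinVanishing`, `cores`, `resIndex`,
`cardTorsion`, `latticeDuality`, `tate`, `tateH3`, `splitModule`, `tateReciprocity`.
`nakayama`, `tateNakayama` (T6), `tateNakayamaAt` (T6p = `E1.TateNakayamaAtSpec`),
`shapiroExplicit`, `shapiroRecognition` (T8), `finiteProd`, `directSum` (T9), `perm`, `permH1` (T10).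
LAYER T IS COMPLETE: every Spec of `T/Spec.lean`, `T/Spec2.lean`, `T/Spec3.lean` is proved.
-/

set_option autoImplicit false

namespace Fermat.Agent.S55.T.All

theorem cyclicCard : CyclicCardSpec := H895.cyclicCard
theorem herbrand : HerbrandSpec := H895.herbrand
theorem herbrandFinite : HerbrandFiniteSpec := H895.herbrandFinite
theorem infRes2 : InfRes2Spec := H954.infRes2
theorem ugly : UglySpec := H954.ugly
theorem coindCohTriv : CoindCohTrivSpec := H572.coindCohTriv
theorem h1TrivInt : H1TrivIntSpec := H539.h1TrivInt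
theorem classModuleOfCyclic : ClassModuleOfCyclicSpec := H53.classModuleOfCyclic
theorem twinVanishing : TwinVanishingSpec := Fermat.Agent.S55.H295.twinVanishing
theorem cores : CoresSpec := H572.cores
theorem resIndex : ResIndexSpec := H572.resIndex
theorem cardTorsion : CardTorsionSpec := H572.cardTorsion
theorem latticeDuality : LatticeDualitySpec := H359.latticeDuality
theorem tateReciprocity_of (h : TateSpec) : TateReciprocitySpec := H539.tateReciprocity_of h
theorem tate : TateSpec := Fermat.Agent.S55.H295.tate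
theorem tateH3 : TateH3Spec := Fermat.Agent.S55.H295.tateH3
theorem splitModule : SplitModuleSpec := Fermat.Agent.S55.H295.splitModule
theorem tateReciprocity : TateReciprocitySpec := tateReciprocity_of tate
theorem nakayama : NakayamaSpec := H719.nakayama
theorem tateNakayama : TateNakayamaSpec := H719.tateNakayama
theorem tateNakayamaAt : Fermat.Agent.S55.E1.TateNakayamaAtSpec := H719.tateNakayamaAt
theorem shapiroExplicit : ShapiroExplicitSpec := ShapiroH303.shapiroExplicit
theorem shapiroRecognition : ShapiroRecognitionSpec := ShapiroH303.shapiroRecognition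
theorem finiteProd : FiniteProdSpec := H635.finiteProd
theorem directSum : DirectSumSpec := H635.directSum
theorem perm : PermSpec := H652.permSpec
theorem permH1 : PermH1Spec := H652.permH1Spec

end Fermat.Agent.S55.T.All

end
-- ===== PACK-END S55/T/All.lean

-- ===== PACK-BEGIN S55/L/H715/OuterClosed.lean
section










/-!
# S55, layer L (outer): the interface statements of `L/Spec*.lean` that are CLOSED on main

One import for consumers (layers KL, G, D).  Every theorem has EXACTLY the type of the frozen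
outer spec and is assembled from landed, sorry-free leaves (core `Local.*` via `L/Adapter.lean`
and the dictionary `L/H715/Dict*.lean`, layer T via `T/All.lean`).   Integration: helper715.

Closed here: `RingOfIntegersUniqueSpec`, `FiniteExtSpec`, `H2CyclicSpec`, `H2CardLeSpec`,
`H2CardCyclicSpec`, `NormIndexCyclicSpec`, `ClassModuleSpec`, `H3Spec`, `NormIndexSpec`,
`UnramifiedExistsSpec`, `UnramifiedNormUnitsSpec`, `PadicInstSpec`, `PadicExtInstSpec`.
Not yet here: `UnramifiedCyclicSpec`, `UnramifiedUniqueSpec`, `InvSpec`, `ExistenceModSpec`.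
-/

set_option autoImplicit false

namespace Fermat.Agent.S55.L.Closed

open Fermat.Agent.S55 Fermat.Agent.S55.L

theorem ringOfIntegersUnique : RingOfIntegersUniqueSpec := ringOfIntegersUnique775
theorem finiteExt : FiniteExtSpec := finiteExt286
theorem h2Cyclic : H2CyclicSpec := h2Cyclic_of_local Local.H964.h2Cyclic
theorem h2CardLe : H2CardLeSpec := h2CardLe_of_local Local.H964.h2CardDvd
theorem h2CardCyclic : H2CardCyclicSpec := h2CardCyclic_of_local Local.Closed.cyclicH2Card
theorem normIndexCyclic : NormIndexCyclicSpec :=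
  normIndexCyclic_of_local Local.Closed.cyclicNormIndex
theorem classModule : ClassModuleSpec := classModule_of_local' Local.H964.h2Cyclic
theorem h3 : H3Spec := h3Spec_of_h301 classModule T.All.tateH3
theorem normIndex : NormIndexSpec := normIndexSpec_of_h301 classModule T.All.tateReciprocity
theorem unramifiedExists : UnramifiedExistsSpec :=
  H715.unramifiedExists_of_local Local.H964.existsUnramExt
theorem unramifiedNormUnits : UnramifiedNormUnitsSpec :=
  H423.unramifiedNormUnits_of423 ringOfIntegersUnique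
theorem padicInst : PadicInstSpec := padicInst63
theorem padicExtInst : PadicExtInstSpec := padicExtInst_of63 ringOfIntegersUnique

end Fermat.Agent.S55.L.Closed

end
-- ===== PACK-END S55/L/H715/OuterClosed.lean

-- ===== PACK-BEGIN S55/KL/LocalH123H775.lean
section



/-!
# S55, layer KL, leaf KL-H123 (helper775)

`local_h123_of (hT : TransportSpec) (hO : OpenSubgroupSpec) :
    LocalH1Spec ∧ LocalH2Spec ∧ LocalH3Spec`

For an open subgroup `U = Gal(Ω/E)` of `Gal(ℚ̄_q/ℚ_q)` and a level `V = Gal(Ω/E') ∩ U`, the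
transport isomorphism identifies `Hⁿ(U/V, (Ωˣ)^V)` with `Hⁿ(Gal(M/E), Mˣ)`, `M = E·E'`; then
* `H¹ = 0` is Hilbert 90 (Mathlib),
* `H² ≅ ℤ/[M : E]` is `L.Closed.h2Cyclic`,
* `H³ = 0` is `L.Closed.h3`.
-/

set_option autoImplicit false
set_option linter.style.haveILetI false
set_option linter.unusedSectionVars false

open CategoryTheory groupCohomology

namespace Fermat.Agent.S55.KL.H775

open Fermat.Agent.S55 Fermat.Agent.S55.KL

/-- The finite-level cohomology of an open subgroup of `Gal(ℚ̄_q/ℚ_q)` is the Galois cohomology of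
a finite Galois extension `M/E` of local fields, of degree `[U : V]`. -/
theorem exists_transport775 (hT : TransportSpec) (hO : OpenSubgroupSpec)
    (q : ℕ) [Fact q.Prime] (U : Subgroup (PadicAlgCl q ≃ₐ[ℚ_[q]] PadicAlgCl q))
    (hU : (galLevels ℚ_[q] (PadicAlgCl q)).IsOpen U)
    (V : ((galLevels ℚ_[q] (PadicAlgCl q)).restrict U).Lvl) :
    ∃ (E M : Type) (_ : Field E) (_ : Field M) (_ : Algebra E M) (_ : FiniteDimensional E M)
      (_ : IsGalois E M) (_ : L.IsLocalFld E),
      Nat.card (↥U ⧸ V.W) = Module.finrank E M ∧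
      ∀ n : ℕ, Nonempty
        (HL (Rep.res U.subtype (unitsOm ℚ_[q] (PadicAlgCl q))) V.W n ≅
          groupCohomology (Rep.ofAlgebraAutOnUnits E M) n) := by
  obtain ⟨E, hEfin, rfl⟩ := (hO ℚ_[q] (PadicAlgCl q) U).mp hU
  rcases V with ⟨VW, hV⟩
  obtain ⟨W, ⟨E', rfl⟩, rfl⟩ := hV
  obtain ⟨h1, h2, h3, h4⟩ := hT ℚ_[q] (PadicAlgCl q) E E'
  haveI := hEfin
  haveI : L.IsLocalFld ↥E := (L.Closed.padicExtInst q E hEfin).1
  exact ⟨↥E, ↥(compositumOver E E'.toIntermediateField), inferInstance, inferInstance,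
    inferInstance, h1, h2, inferInstance, h3, h4⟩

/-- **KL-H123.** -/
theorem local_h123_of (hT : TransportSpec) (hO : OpenSubgroupSpec) :
    LocalH1Spec ∧ LocalH2Spec ∧ LocalH3Spec := by
  refine ⟨?_, ?_, ?_⟩
  · intro q _ U hU V
    obtain ⟨E, M, _, _, _, hfin, hgal, hloc, -, hiso⟩ := exists_transport775 hT hO q U hU V
    obtain ⟨e⟩ := hiso 1
    haveI := hfin
    haveI : Subsingleton (groupCohomology (Rep.ofAlgebraAutOnUnits E M) 1) :=
      (inferInstance : Subsingleton (H1 (Rep.ofAlgebraAutOnUnits E M)))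
    exact e.toLinearEquiv.toEquiv.subsingleton
  · intro q _ U hU V
    obtain ⟨E, M, _, _, _, hfin, hgal, hloc, hcard, hiso⟩ := exists_transport775 hT hO q U hU V
    obtain ⟨e⟩ := hiso 2
    haveI := hfin
    haveI := hgal
    haveI := hloc
    obtain ⟨f⟩ := L.Closed.h2Cyclic E M
    rw [hcard]
    exact ⟨e.toLinearEquiv.toAddEquiv.trans f⟩
  · intro q _ U hU V
    obtain ⟨E, M, _, _, _, hfin, hgal, hloc, -, hiso⟩ := exists_transport775 hT hO q U hU V
    obtain ⟨e⟩ := hiso 3
    haveI := hfin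
    haveI := hgal
    haveI := hloc
    haveI : Subsingleton (groupCohomology (Rep.ofAlgebraAutOnUnits E M) 3) := L.Closed.h3 E M
    exact e.toLinearEquiv.toEquiv.subsingleton

end Fermat.Agent.S55.KL.H775

end
-- ===== PACK-END S55/KL/LocalH123H775.lean

-- ===== PACK-BEGIN S55/KL/ClosedA4.lean
section






/-!
# S55, layer KL: input A4 (`PT.Surj2LocSpec`) of the duality engine, CLOSED

`surj2Loc : PT.Surj2LocSpec p S`, unconditionally, together with the closed forms of the
local facts used on the way (`localH1`, `localH2`, `localH3`, `cd`, `localCd`,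
`localKummerHyp`, `localSurjH2`).

Architect/owner: helper183.
-/

set_option autoImplicit false

namespace Fermat.Agent.S55.KL.A4

open Fermat.Agent.S55.KL

/-- Hilbert 90, `H²` cyclic of order the degree, `H³ = 0` for the levels of `Gal(ℚ̄_q/E)`. -/
theorem localH123 : LocalH1Spec ∧ LocalH2Spec ∧ LocalH3Spec :=
  H775.local_h123_of H496.transport H587.openSubgroup

theorem localH1 : LocalH1Spec := localH123.1

theorem localH2 : LocalH2Spec := localH123.2.1

theorem localH3 : LocalH3Spec := localH123.2.2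

/-- The abstract Kummer/dévissage machine: `KummerHyp ⇒ cd ≤ 2`. -/
theorem cd : CdSpec := cd_of_kummer H289.kummerH3

/-- The local hypotheses of the machine. -/
theorem localKummerHyp : LocalKummerHypSpec := localKummerHyp_of_h23 localH2 localH3

/-- `cd_p(Gal(ℚ̄_q/ℚ_q)) ≤ 2`. -/
theorem localCd : LocalCdSpec :=
  localCd_of_leaves H289.kummerH3 H795.cdScalars localH2 localH3

/-- **Input A4 of layer D**: `H²` of the local Galois groups is right exact on the
`F_p`-representations. -/
theorem surj2Loc (p : ℕ) [Fact p.Prime] (S : Finset Nat.Primes) : PT.Surj2LocSpec p S :=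
  surj2Loc_of_leaves H289.kummerH3 H795.cdScalars localH2 localH3 p S

end Fermat.Agent.S55.KL.A4

end
-- ===== PACK-END S55/KL/ClosedA4.lean

-- ===== PACK-BEGIN S55/PT/Final3.lean
section








/-!
# S55 / route C′: final wiring, version 3 (helper835)

A4 (local `cd_p ≤ 2`) is closed (layer KL, helper183).  The formal parts of layer K
(K-T1 helper635, K-T2 helper593, K-T3 helper397) and the reduction of `InvSpec` (helper3) are
wired.  S55 is reduced to the ARITHMETIC FRONTIER of route C′: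

* `K.KummerSpec p S`      (KUM: smooth `S`-units are `p`-divisible)           — proved (helper724)
* `K.H2DivESpec p S`      (GO1: `H²(G_S(K), 𝒪_Sˣ)` is `p`-divisible)
* `K.H3TorsESpec p S`     (GO2: `H³(G_S(K), 𝒪_Sˣ)[p] = 0`)
* `K.CapSpec p S`         (A8 cochain form; `⇐ KUM + GO3 HasseESpec + GO6 NormCapSpec`, K-T4)
* `Inv.LocDimSpec p S`    (`dim H²(G_v, Ind_W μ) ≤ 1`)                         — local
* `Inv.LocH2NeSpec p S`   (`H²(G_v, μ) ≠ 0`)                                   — local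
* `Inv.GlobCokerSpec p S` (GO4: global classes fill a hyperplane)
* `Inv.WeakRecipSpec p S` (GO5: weak reciprocity over `ℚ`)
* `Inv.MuLevelSpec p S`   (`ℚ(μ_p)` is an `S`-level)                           — proved (helper635)
-/

set_option autoImplicit false

noncomputable section

namespace Fermat.Agent.S55.PT

open groupCohomology ExtCitation Fermat.Agent.S55.Bridge

/-- **A3 from KUM + GO1 + GO2** (all formal steps of layer K wired). -/
theorem surj2Glob_of_GO {p : ℕ} [Fact p.Prime] (hp2 : p ≠ 2) (S : Finset Nat.Primes)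
    (hpS : pPrime p ∈ S) (hKum : K.KummerSpec p S) (hGO1 : K.H2DivESpec p S)
    (hGO2 : K.H3TorsESpec p S) : Surj2GlobSpec p S :=
  AdK.surj2Glob_of_K p S hp2 hpS
    (K.H635.surjH2_of p S (K.H593.h3Fin_of p S (K.H397.h3IndMu_of p S hKum hGO1 hGO2)))

/-- **S55 from the arithmetic frontier of route C′.** -/
theorem s55_of_frontier {p : ℕ} [Fact p.Prime] (hp2 : p ≠ 2) (S : Finset Nat.Primes)
    (hpS : pPrime p ∈ S)
    (hKum : K.KummerSpec p S) (hGO1 : K.H2DivESpec p S) (hGO2 : K.H3TorsESpec p S)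
    (hCap : K.CapSpec p S)
    (hDim : Inv.LocDimSpec p S) (hNe : Inv.LocH2NeSpec p S)
    (hCok : Inv.GlobCokerSpec p S) (hWR : Inv.WeakRecipSpec p S) (hMu : Inv.MuLevelSpec p S)
    (M : Rep (ZMod p) (AlgebraicClosure ℚ ≃ₐ[ℚ] AlgebraicClosure ℚ))
    [FiniteDimensional (ZMod p) M]
    (hsm : ∀ m : M, ∃ F : IntermediateField ℚ (AlgebraicClosure ℚ), FiniteDimensional ℚ F ∧
      ∀ s ∈ F.fixingSubgroup, M.ρ s m = m)
    (hMur : ∀ q : Nat.Primes, q ∉ S → ∀ A : ValuationSubring (AlgebraicClosure ℚ),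
      A.LiesOverPrime (q : ℕ) → ∀ g ∈ A.inertiaSubgroupIn ℚ, M.ρ g = 1) :
    ∃ B : sha₁ S (M.dualTwist (cycloChar p)) →ₗ[ZMod p] sha₂ S M →ₗ[ZMod p] ZMod p,
      (∀ y, (∀ x, B y x = 0) → y = 0) ∧ (∀ x, (∀ y, B y x = 0) → x = 0) :=
  s55_of_four hp2 S hpS (surj2Glob_of_GO hp2 S hpS hKum hGO1 hGO2) (KL.A4.surj2Loc p S)
    (Inv.invSpec_of' p S (KL.A4.surj2Loc p S) hDim hCok hWR hNe hMu)
    (AdK.cap_of_K p S hp2 hpS hCap) M hsm hMur

end Fermat.Agent.S55.PT

end

end
-- ===== PACK-END S55/PT/Final3.lean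

-- ===== PACK-BEGIN S55/KC/CFAtH475.lean
section



/-!
# S55 / layer KC, leaf KC-I2 (helper475): class formation ⇒ weak class formation on `Ind_H A`

`CFAt A V` is the class formation property at one normal subgroup `V` of finite index
(`H¹(H', A^V) = 0`, `H²(H', A^V) ≅ ℤ/|H'|` for all `H' ≤ G ⧸ V`).  Consequences:

* `CFAt.h3` : `H³(H', A^V) = 0` (T5d + Tate's theorem `T.TateH3Spec`);
* `self_h1`, `self_h2`, `self_h3` : the groups `Hⁱ(G ⧸ V, A^V)`;
* `ind_h1`, `ind_h2`, `ind_h3` : the groups `Hⁱ(G ⧸ V, (Ind_H A)^V)` for `V ≤ H` (finite Shapiro);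
* `ind_h1rel` : `H¹(V ⧸ V', (Ind_H A)^{V'}) = 0` for `V' ≤ V ≤ H`.
-/

set_option autoImplicit false

open CategoryTheory groupCohomology

namespace Fermat.Agent.S55.KC.H475

open Fermat.Agent.S55.T

noncomputable section

lemma card_map_mk {G : Type} [Group G] (H V : Subgroup G) [V.Normal] :
    Nat.card (H.map (QuotientGroup.mk' V)) = V.relIndex H := by
  have h1 : ((QuotientGroup.mk' V).comp H.subtype).range = H.map (QuotientGroup.mk' V) := by
    rw [MonoidHom.range_comp, Subgroup.range_subtype]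
  have h2 : ((QuotientGroup.mk' V).comp H.subtype).ker = V.subgroupOf H := by
    rw [← MonoidHom.comap_ker, QuotientGroup.ker_mk']
    rfl
  rw [← h1, ← Subgroup.index_ker, h2]
  rfl

variable {G : Type} [Group G] (A : Rep.{0} ℤ G)

/-- The class formation property at one normal subgroup `V`. -/
def CFAt (V : Subgroup G) [V.Normal] : Prop :=
  ∀ H' : Subgroup (G ⧸ V),
    Subsingleton (H1 (Rep.res H'.subtype (A.quotientToInvariants V))) ∧
      Nonempty (H2 (Rep.res H'.subtype (A.quotientToInvariants V)) ≃+ ZMod (Nat.card H'))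

variable {A}

theorem CFAt.h3 {V : Subgroup G} [V.Normal] [Finite (G ⧸ V)] (hcf : CFAt A V)
    (H' : Subgroup (G ⧸ V)) :
    Subsingleton (groupCohomology (Rep.res H'.subtype (A.quotientToInvariants V)) 3) := by
  obtain ⟨⟨γ, hγ⟩, -⟩ := All.classModuleOfCyclic (G ⧸ V) (A.quotientToInvariants V)
    (fun K => by
      have := (hcf K).1
      exact ModuleCat.isZero_of_subsingleton _)
    (fun K => (hcf K).2)
  exact ModuleCat.subsingleton_of_isZero (All.tateH3 (G ⧸ V) (A.quotientToInvariants V) γ hγ H')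

/-! ### `H = G` -/

section self

variable {V : Subgroup G} [V.Normal] (hcf : CFAt A V)

include hcf

theorem self_h1 : Subsingleton (H1 (A.quotientToInvariants V)) := by
  have := (hcf ⊤).1
  exact (H53.topIso (A.quotientToInvariants V) 1).symm.toLinearEquiv.toEquiv.subsingleton

theorem self_h3 [Finite (G ⧸ V)] : Subsingleton (groupCohomology (A.quotientToInvariants V) 3) := by
  have := hcf.h3 ⊤
  exact (H53.topIso (A.quotientToInvariants V) 3).symm.toLinearEquiv.toEquiv.subsingleton

theorem self_h2 : Nonempty (H2 (A.quotientToInvariants V) ≃+ ZMod V.index) := by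
  obtain ⟨e⟩ := (hcf ⊤).2
  have hcard : Nat.card (⊤ : Subgroup (G ⧸ V)) = V.index := by
    rw [Subgroup.card_top, Subgroup.index_eq_card]
  exact ⟨((H53.topIso (A.quotientToInvariants V) 2).symm.toLinearEquiv.toAddEquiv.trans e).trans
    (ZMod.ringEquivCongr hcard).toAddEquiv⟩

end self

/-! ### general `H` -/

section ind

variable {H : Subgroup G} {ρ : IndRepr A H} [Finite (G ⧸ H)]
  (hρ : IsDiag A H ρ) {V : Subgroup G} [V.Normal] (hVH : V ≤ H)
  (hcf : CFAt A V)

include hρ hVH hcf

theorem ind_h1 : Subsingleton (H1 (indQ A ρ V)) := by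
  have := (hcf (H.map (QuotientGroup.mk' V))).1
  exact (shapiro_ind hρ V hVH 1).1.subsingleton

theorem ind_h3 [Finite (G ⧸ V)] : Subsingleton (groupCohomology (indQ A ρ V) 3) := by
  have := hcf.h3 (H.map (QuotientGroup.mk' V))
  exact (shapiro_ind hρ V hVH 3).1.subsingleton

theorem ind_h2 : Nonempty (H2 (indQ A ρ V) ≃+ ZMod (V.relIndex H)) := by
  obtain ⟨e⟩ := (hcf (H.map (QuotientGroup.mk' V))).2
  exact ⟨((shapiroEquiv hρ V hVH 2).trans e).trans
    (ZMod.ringEquivCongr (card_map_mk H V)).toAddEquiv⟩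

end ind

/-- `H¹(V ⧸ V', (Ind_H A)^{V'}) = 0` for normal subgroups `V' ≤ V ≤ H`. -/
theorem ind_h1rel {H : Subgroup G} {ρ : IndRepr A H} [Finite (G ⧸ H)]
    (hρ : IsDiag A H ρ) {V' : Subgroup G} [V'.Normal] {V : Subgroup G} [V.Normal]
    (hV'V : V' ≤ V) (hVH : V ≤ H) (hcf : CFAt A V') :
    Subsingleton (H1 (Rep.res (V.map (QuotientGroup.mk' V')).subtype (indQ A ρ V'))) :=
  subsingleton_res_ind hρ V' (hV'V.trans hVH) (V.map (QuotientGroup.mk' V'))
    (fun _ x hg => smul_coset_eq V hVH (mem_of_mk_mem_map V' hV'V hg) x) 1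
    (hcf (V.map (QuotientGroup.mk' V'))).1

end

end Fermat.Agent.S55.KC.H475

end
-- ===== PACK-END S55/KC/CFAtH475.lean

-- ===== PACK-BEGIN S55/KC/IndWCFH475.lean
section



/-!
# S55 / layer KC, leaves KC-I2 and KC-I2' (helper475)

* `indWCF : IndWCFSpec` — a class formation induces a weak class formation on `Ind_H A`, with
  orders `[H : V]`;
* `selfWCF : SelfWCFSpec` — a class formation is a weak class formation, with orders `[G : V]`.

Both are unconditional (they use the landed `T`-layer: finite Shapiro in recognition form,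
`T.All.classModuleOfCyclic`, `T.All.tateH3`, `T.H415.finiteProd`).
-/

set_option autoImplicit false

open CategoryTheory groupCohomology

namespace Fermat.Agent.S55.KC.H475

open Fermat.Agent.S55.PT

lemma isDiag_indRhoR {G : Type} [Group G] (H : Subgroup G) (A : Rep.{0, 0, 0} ℤ G) :
    IsDiag A H (indRhoR H A) :=
  fun g x a => indActR_single H A g x a

lemma cfAt_of {G : Type} [Group G] {L : LevelSys G} {A : Rep.{0, 0, 0} ℤ G}
    (hcf : IsClassFormation L A) (V : Subgroup G) [V.Normal] (hV : V ∈ L.levels) : CFAt A V :=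
  fun H' => hcf V hV H'

/-- **KC-I2'.** -/
theorem selfWCF : SelfWCFSpec := by
  intro G _ L A V₀ hfin hcf _
  refine ⟨?_, ?_, ?_, ?_, ?_⟩
  · intro V _ hV _
    exact self_h1 (cfAt_of hcf V hV)
  · intro V' _ V _ hV' _ _ _
    exact (hcf V' hV' _).1
  · intro V _ hV _
    exact self_h2 (cfAt_of hcf V hV)
  · intro V _ hV _
    have := hfin V hV
    exact Nat.pos_of_ne_zero Subgroup.FiniteIndex.index_ne_zero
  · intro V _ hV _
    have := hfin V hV
    exact self_h3 (cfAt_of hcf V hV)

/-- **KC-I2.** -/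
theorem indWCF : IndWCFSpec := by
  intro G _ L A H V₀ hfin hcf hV₀ hV₀H
  have hfin₀ : V₀.FiniteIndex := hfin V₀ hV₀
  have hHfin : H.FiniteIndex := Subgroup.finiteIndex_of_le hV₀H
  have : Finite (G ⧸ H) := inferInstance
  refine ⟨?_, ?_, ?_, ?_, ?_⟩
  · intro V _ hV hVV₀
    exact ind_h1 (isDiag_indRhoR H A) (hVV₀.trans hV₀H) (cfAt_of hcf V hV)
  · intro V' _ V _ hV' _ hV'V hVV₀
    exact ind_h1rel (isDiag_indRhoR H A) hV'V (hVV₀.trans hV₀H) (cfAt_of hcf V' hV')
  · intro V _ hV hVV₀
    exact ind_h2 (isDiag_indRhoR H A) (hVV₀.trans hV₀H) (cfAt_of hcf V hV)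
  · intro V _ hV hVV₀
    have := hfin V hV
    have h1 : V.relIndex H ∣ V.index := Subgroup.relIndex_dvd_index_of_le (hVV₀.trans hV₀H)
    exact Nat.pos_of_ne_zero (fun h0 => Subgroup.FiniteIndex.index_ne_zero (H := V)
      (by rw [h0] at h1; exact Nat.eq_zero_of_zero_dvd h1))
  · intro V _ hV hVV₀
    have := hfin V hV
    exact ind_h3 (isDiag_indRhoR H A) (hVV₀.trans hV₀H) (cfAt_of hcf V hV)

end Fermat.Agent.S55.KC.H475

end
-- ===== PACK-END S55/KC/IndWCFH475.lean

-- ===== PACK-BEGIN S55/KC/ClassFormH323.lean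
section






/-!
# S55 / layer KC, leaf KC-A1: `LocalClassFormationSpec`          (helper323, subtask 451)

`(G_{ℚ_q}, ℚ̄_qˣ)` is a class formation for the level system `localLevels q`.

Route.  A normal level `V = r⁻¹(G_F)` (`F/ℚ` finite) is `Gal(ℚ̄_q/E)` with `E = ℚ_q(ι β)`,
`F = ℚ(β)`, and `E/ℚ_q` is finite Galois; so `V` is a level of `KL.galLevels`.  For
`H' ≤ G ⧸ V` with preimage `U`, layer KL (`KL.H775.local_h123_of`, on main, unconditional) gives
`H¹(U/V, (Ωˣ)^V) = 0` and `H²(U/V, (Ωˣ)^V) ≅ ℤ/[U : V]`; the formal dictionary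
`resQuotIso_h323` translates to `H'`.
-/

set_option autoImplicit false
set_option linter.style.haveILetI false
set_option linter.unusedSectionVars false

noncomputable section

namespace Fermat.Agent.S55.KC.H323

open groupCohomology CategoryTheory ExtCitation Fermat.Agent.S55 Fermat.Agent.S55.PT

/-! ## Field theory: fixing a simple extension -/

/-- `τ` fixes `K(a)` pointwise iff `τ a = a`. -/
lemma mem_fixingSubgroup_adjoin_h323 {K Ω : Type} [Field K] [Field Ω] [Algebra K Ω] (a : Ω)
    (τ : Ω ≃ₐ[K] Ω) :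
    τ ∈ (IntermediateField.adjoin K {a}).fixingSubgroup ↔ τ a = a := by
  constructor
  · intro h
    exact (IntermediateField.mem_fixingSubgroup_iff _ _).1 h a
      (IntermediateField.subset_adjoin K _ (Set.mem_singleton a))
  · intro h
    rw [IntermediateField.mem_fixingSubgroup_iff]
    intro y hy
    have hle : IntermediateField.adjoin K {a} ≤
        IntermediateField.fixedField (Subgroup.zpowers τ) := by
      rw [IntermediateField.adjoin_le_iff]
      rintro z hz
      rw [Set.mem_singleton_iff] at hz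
      subst hz
      rintro ⟨σ, hσ⟩
      obtain ⟨n, rfl⟩ := Subgroup.mem_zpowers_iff.1 hσ
      show (τ ^ n) z = z
      have hfix : τ ∈ MulAction.stabilizer (Ω ≃ₐ[K] Ω) z := h
      exact (Subgroup.zpow_mem _ hfix n : _)
    exact hle hy ⟨τ, Subgroup.mem_zpowers τ⟩

/-- A finite-dimensional intermediate field is generated by one element. -/
lemma exists_eq_adjoin_h323 {K Ω : Type} [Field K] [Field Ω] [Algebra K Ω] [CharZero K]
    (F : IntermediateField K Ω) [FiniteDimensional K F] :
    ∃ b : Ω, F = IntermediateField.adjoin K {b} := by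
  obtain ⟨β, hβ⟩ := Field.exists_primitive_element K F
  refine ⟨(β : Ω), ?_⟩
  have h1 : IntermediateField.lift (IntermediateField.adjoin K {β}) =
      IntermediateField.adjoin K {(β : Ω)} := by
    rw [IntermediateField.lift_adjoin, Set.image_singleton]
  rw [← h1, hβ, IntermediateField.lift_top]

/-! ## Local levels are Galois levels -/

section Levels

variable (q : ℕ) [Fact q.Prime]

/-- A pulled-back level `r⁻¹(G_F)` of `Gal(ℚ̄_q/ℚ_q)` is `Gal(ℚ̄_q/E)` for a finite extension
`E/ℚ_q`. -/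
lemma exists_fixingSubgroup_eq_h323 (F : IntermediateField ℚ (AlgebraicClosure ℚ))
    [FiniteDimensional ℚ F] :
    ∃ E : IntermediateField ℚ_[q] (PadicAlgCl q), FiniteDimensional ℚ_[q] E ∧
      F.fixingSubgroup.comap (localGaloisToGlobal q) = E.fixingSubgroup := by
  obtain ⟨b, rfl⟩ := exists_eq_adjoin_h323 F
  refine ⟨IntermediateField.adjoin ℚ_[q] {padicEmbedding q b},
    IntermediateField.adjoin.finiteDimensional (Algebra.IsIntegral.isIntegral _), ?_⟩
  ext τ
  rw [Subgroup.mem_comap, mem_fixingSubgroup_adjoin_h323, mem_fixingSubgroup_adjoin_h323,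
    ← padicEmbedding_localGaloisToGlobal]
  exact ⟨fun h => congrArg _ h, fun h => (padicEmbedding q).injective h⟩

/-- A NORMAL pulled-back level is a level of `KL.galLevels`. -/
lemma mem_galLevels_h323 (V : Subgroup (PadicAlgCl q ≃ₐ[ℚ_[q]] PadicAlgCl q)) (hn : V.Normal)
    (hV : ∃ F : IntermediateField ℚ (AlgebraicClosure ℚ),
      FiniteDimensional ℚ F ∧ V = F.fixingSubgroup.comap (localGaloisToGlobal q)) :
    V ∈ (KL.galLevels ℚ_[q] (PadicAlgCl q)).carrier := by
  obtain ⟨F, hF, rfl⟩ := hV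
  haveI := hF
  obtain ⟨E, hE, hEq⟩ := exists_fixingSubgroup_eq_h323 q F
  haveI := hE
  rw [hEq] at hn ⊢
  haveI : IsGalois ℚ_[q] E := (InfiniteGalois.normal_iff_isGalois E).1 hn
  exact ⟨⟨E⟩, rfl⟩

end Levels

/-! ## The class formation property for `Gal(ℚ̄_q/ℚ_q)` -/

section Main

variable (q : ℕ) [Fact q.Prime]

/-- KC-A1 for `Ω = PadicAlgCl q`, stated on the `AlgEquiv` group. -/
theorem classFormation_aux_h323
    (V : Subgroup (PadicAlgCl q ≃ₐ[ℚ_[q]] PadicAlgCl q)) [hn : V.Normal]
    (hV : ∃ F : IntermediateField ℚ (AlgebraicClosure ℚ),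
      FiniteDimensional ℚ F ∧ V = F.fixingSubgroup.comap (localGaloisToGlobal q))
    (H' : Subgroup ((PadicAlgCl q ≃ₐ[ℚ_[q]] PadicAlgCl q) ⧸ V)) :
    Subsingleton (H1 (Rep.res H'.subtype
        ((KL.unitsOm ℚ_[q] (PadicAlgCl q)).quotientToInvariants V))) ∧
      Nonempty (H2 (Rep.res H'.subtype
        ((KL.unitsOm ℚ_[q] (PadicAlgCl q)).quotientToInvariants V)) ≃+ ZMod (Nat.card H')) := by
  obtain ⟨h1, h2, -⟩ := KL.H775.local_h123_of KL.H496.transport KL.H587.openSubgroup
  have hmem : V ∈ (KL.galLevels ℚ_[q] (PadicAlgCl q)).carrier := mem_galLevels_h323 q V hn hV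
  have hopen : (KL.galLevels ℚ_[q] (PadicAlgCl q)).IsOpen (preimg_h323 V H') :=
    ⟨V, hmem, le_preimg_h323 V H'⟩
  let lvl : ((KL.galLevels ℚ_[q] (PadicAlgCl q)).restrict (preimg_h323 V H')).Lvl :=
    ⟨V.subgroupOf (preimg_h323 V H'), ⟨V, hmem, rfl⟩⟩
  have e1 := resQuotIso_h323 (KL.unitsOm ℚ_[q] (PadicAlgCl q)) V H' 1
  have e2 := resQuotIso_h323 (KL.unitsOm ℚ_[q] (PadicAlgCl q)) V H' 2
  refine ⟨?_, ?_⟩
  · haveI : Subsingleton (groupCohomology
        (srcRep_h323 (KL.unitsOm ℚ_[q] (PadicAlgCl q)) V H') 1) := h1 q (preimg_h323 V H') hopen lvl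
    exact e1.symm.toLinearEquiv.toEquiv.subsingleton
  · obtain ⟨f⟩ := h2 q (preimg_h323 V H') hopen lvl
    have hcard : Nat.card (↥(preimg_h323 V H') ⧸ lvl.W) = Nat.card ↥H' := card_quot_h323 V H'
    rw [hcard] at f
    exact ⟨e2.symm.toLinearEquiv.toAddEquiv.trans f⟩

end Main

/-- **KC-A1.**  `(G_{ℚ_q}, ℚ̄_qˣ)` is a class formation. -/
theorem localClassFormation : LocalClassFormationSpec := by
  intro q
  letI : Fact (q : ℕ).Prime := ⟨q.2⟩
  intro V hn hV H'
  exact @classFormation_aux_h323 (q : ℕ) _ V hn hV H'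

end Fermat.Agent.S55.KC.H323

end

end
-- ===== PACK-END S55/KC/ClassFormH323.lean

-- ===== PACK-BEGIN S55/KC/All.lean
section


















/-!
# S55 / layer KC: index of proved leaves          (architect: helper53, append-only)

One canonical proof of every leaf of `KC/Spec.lean` that is available on main.

Proved: KC-P1 `finLocOfFrattini`, KC-P2 `surj2OfH3`, KC-P4 `topLocIndOf`, KC-K2 `kummerH2`,
KC-K3 `kummerH3`, KC-D1 `h1VanishOfAt`, KC-D2 `h2OfAt`, KC-D3 `h3VanishOfAt`, KC-QInf `qInf`,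
KC-I0 `indKummer`, KC-I4' `pUnboundedRel`, KC-A0 `localLevels`, KC-A3 `localPUnbounded`,
KC-A4 `localFrattini`.
KC-P3 `h3Devissage`, KC-Q1 `q1`, KC-Q2 `q2`, KC-Q3 `q3`, KC-I2 `indWCF`, KC-I2' `selfWCF`,
KC-A5 `localMu`; bundles `dictLeaves`, `kummerLeaves`, `indLeaves`.
KC-A2 `localKummerEmb`.
KC-A1 `localClassFormation` (helper323).  **LAYER KC IS COMPLETE**: unconditional outputs
`h2IndCard`, `h2MuCard`, `localH3Vanish`, `surj2Loc`, `topLocInd` at the end of this file.
Conditional outputs: `h2IndCard_of`, `h2MuCard_of`, `localH3Vanish_of`, `surj2Loc_of`, `topLocInd_of`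
(hypotheses: `LocalClassFormationSpec`, `LocalKummerEmbSpec`), and `h2IndCard_of'`, `h2MuCard_of'`,
`topLocInd_of'` (hypothesis: `LocalClassFormationSpec` only).
-/

set_option autoImplicit false

namespace Fermat.Agent.S55.KC.All

open Fermat.Agent.S55.PT

/-- KC-A0 (helper424, `PT/FrattiniH424.lean`). -/
theorem localLevels : LocalLevelsSpec := fun q =>
  ⟨H424.localLevels_normalCofinal q, H424.localLevels_finiteIndex q⟩

/-- KC-A4 (helper424, `PT/FrattiniH424.lean`). -/
theorem localFrattini : LocalFrattiniSpec := fun p _ q => H424.localLevels_pFrattini p q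

/-- KC-K2 (helper53; also helper918). -/
theorem kummerH2 : KummerH2Spec := H53.kummerH2

/-- KC-K3 (helper53; also helper918, helper510). -/
theorem kummerH3 : KummerH3Spec := H53.kummerH3

/-- Block K is complete. -/
theorem kummerLeaves : KummerLeaves := ⟨kummerH2, kummerH3⟩

/-- KC-P1 (helper539). -/
theorem finLocOfFrattini : FinLocOfFrattiniSpec := H539.finLocOfFrattini

/-- KC-P2 (helper510; also helper998). -/
theorem surj2OfH3 : Surj2OfH3Spec := H510.surj2OfH3

/-- KC-P4 (helper510). -/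
theorem topLocIndOf : TopLocIndOfSpec := H510.topLocIndOf

/-- KC-D1 (helper287; also helper357). -/
theorem h1VanishOfAt : H1VanishOfAtSpec := H287.h1VanishOfAt

/-- KC-D3 (helper287; also helper357). -/
theorem h3VanishOfAt : H3VanishOfAtSpec := H287.h3VanishOfAt

/-- KC-D2 (helper287). -/
theorem h2OfAt : H2OfAtSpec := H287.h2OfAt

/-- KC-QInf (helper73). -/
theorem qInf : QInfSpec := H73.qInf

/-- KC-I0 (helper323). -/
theorem indKummer : IndKummerSpec := H323.indKummer

/-- KC-I4' (helper323). -/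
theorem pUnboundedRel : PUnboundedRelSpec := H323.pUnboundedRel

/-- KC-A3 (helper707). -/
theorem localPUnbounded : LocalPUnboundedSpec := PUnboundedH707.localPUnboundedSpec

/-- Output A2 (`PT.FinLocSpec`), unconditional. -/
theorem finLoc (p : ℕ) [Fact p.Prime] (S : Finset Nat.Primes) : FinLocSpec p S := by
  intro q _ N hN hNsm
  exact finLocOfFrattini (Gl q) (PT.localLevels q) p (All.localLevels q).2 (localFrattini p q) N
    hN hNsm

/-- KC-Q1 (helper321). -/
theorem q1 : Q1Spec := H321.q1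

/-- KC-Q2 (helper321). -/
theorem q2 : Q2Spec := H321.q2

/-- KC-Q3 (helper919, `H919/Q3Core.lean`). -/
theorem q3 : Q3Spec := fun _ _ B V _ h z hz hc =>
  Fermat.Agent.S55.H919.h3VanishAt_of_subsingleton_h919 B V h z hz hc

/-- KC-P3 (helper696, `H696/Devissage.lean`). -/
theorem h3Devissage : H3DevissageSpec := fun G _ L p _ μ a b c d e R f g =>
  Fermat.Agent.S55.H696.devissage G L p μ a b c d e R f g

/-- KC-I2 (helper475). -/
theorem indWCF : IndWCFSpec := H475.indWCF

/-- KC-I2' (helper475). -/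
theorem selfWCF : SelfWCFSpec := H475.selfWCF

/-- KC-A5 (helper587, `H587/LocalLevels.lean`). -/
theorem localMu : LocalMuSpec := fun p _ q =>
  ⟨Fermat.Agent.S55.H587.muLoc_finrank p q, Fermat.Agent.S55.H587.muLoc_isUSmooth p q⟩

/-- Blocks Q and D are complete. -/
theorem dictLeaves : DictLeaves := ⟨q1, q2, q3, qInf, h1VanishOfAt, h2OfAt, h3VanishOfAt⟩

/-- Block I is complete. -/
theorem indLeaves : IndLeaves := ⟨indKummer, indWCF, selfWCF, pUnboundedRel⟩

/-- The arithmetic block, given the two open leaves KC-A1 and KC-A2. -/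
theorem arithLeaves_of (hCF : LocalClassFormationSpec) (hKE : LocalKummerEmbSpec) :
    ArithLeaves := ⟨All.localLevels, hCF, hKE, localPUnbounded, localFrattini, localMu⟩

/-- `|H²(G_q, Ind_W μ_p)| = p`, given KC-A1 and KC-A2. -/
theorem h2IndCard_of (hCF : LocalClassFormationSpec) (hKE : LocalKummerEmbSpec) :
    H2IndCardSpec := h2IndCard dictLeaves kummerLeaves indLeaves (arithLeaves_of hCF hKE)

/-- `|H²(G_q, μ_p)| = p`, given KC-A1 and KC-A2. -/
theorem h2MuCard_of (hCF : LocalClassFormationSpec) (hKE : LocalKummerEmbSpec) :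
    H2MuCardSpec := h2MuCard dictLeaves kummerLeaves indLeaves (arithLeaves_of hCF hKE)

/-- `H³_lc(G_q, R) = 0` for finite `R`, given KC-A1 and KC-A2. -/
theorem localH3Vanish_of (hCF : LocalClassFormationSpec) (hKE : LocalKummerEmbSpec) :
    LocalH3VanishSpec :=
  localH3Vanish h3Devissage dictLeaves kummerLeaves indLeaves (arithLeaves_of hCF hKE)

/-- A4 (`PT.Surj2LocSpec`), given KC-A1 and KC-A2  (unconditional proof: `KL.A4.surj2Loc`,
helper183). -/
theorem surj2Loc_of (hCF : LocalClassFormationSpec) (hKE : LocalKummerEmbSpec)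
    (p : ℕ) [Fact p.Prime] (S : Finset Nat.Primes) : Surj2LocSpec p S :=
  surj2Loc p surj2OfH3 h3Devissage dictLeaves kummerLeaves indLeaves (arithLeaves_of hCF hKE) S

/-- A6 (`PT.TopLocIndSpec inv`) for every family of bijective maps `inv`, given KC-A1, KC-A2. -/
theorem topLocInd_of (hCF : LocalClassFormationSpec) (hKE : LocalKummerEmbSpec)
    (p : ℕ) [Fact p.Prime] (S : Finset Nat.Primes) (inv : InvFamily p S)
    (hinv : ∀ v : ↥S, Function.Bijective (inv v)) : TopLocIndSpec inv :=
  topLocInd p surj2OfH3 h3Devissage topLocIndOf dictLeaves kummerLeaves indLeaves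
    (arithLeaves_of hCF hKE) S inv hinv

/-- KC-A2 (helper374, `Local/H374/KummerEmb.lean`). -/
theorem localKummerEmb : LocalKummerEmbSpec := by
  intro p _ q
  refine ⟨Fermat.Agent.S55.Local.H374.unitsQ_isSmooth q,
    Fermat.Agent.S55.Local.H374.unitsQ_divisible p (Fact.out : p.Prime).pos q, ?_⟩
  obtain ⟨ι, h1, h2, h3⟩ := Fermat.Agent.S55.Local.H374.exists_kummerEmb p q
  exact ⟨ι, ⟨h1, h2, h3⟩⟩

/-- `|H²(G_q, Ind_W μ_p)| = p`, given KC-A1 only. -/
theorem h2IndCard_of' (hCF : LocalClassFormationSpec) : H2IndCardSpec :=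
  h2IndCard_of hCF localKummerEmb

/-- `|H²(G_q, μ_p)| = p`, given KC-A1 only. -/
theorem h2MuCard_of' (hCF : LocalClassFormationSpec) : H2MuCardSpec :=
  h2MuCard_of hCF localKummerEmb

/-- A6 (`PT.TopLocIndSpec inv`) for every family of bijective maps `inv`, given KC-A1 only. -/
theorem topLocInd_of' (hCF : LocalClassFormationSpec)
    (p : ℕ) [Fact p.Prime] (S : Finset Nat.Primes) (inv : InvFamily p S)
    (hinv : ∀ v : ↥S, Function.Bijective (inv v)) : TopLocIndSpec inv :=
  topLocInd_of hCF localKummerEmb p S inv hinv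

/-- KC-A1 (helper323, `KC/ClassFormH323.lean`). -/
theorem localClassFormation : LocalClassFormationSpec := H323.localClassFormation

/-- Block A is complete. -/
theorem arithLeaves : ArithLeaves := arithLeaves_of localClassFormation localKummerEmb

/-- **KC output**: `|H²(G_q, Ind_W μ_p)| = p`, unconditionally. -/
theorem h2IndCardClosed : H2IndCardSpec := h2IndCard_of' localClassFormation

/-- **KC output**: `|H²(G_q, μ_p)| = p`, unconditionally. -/
theorem h2MuCardClosed : H2MuCardSpec := h2MuCard_of' localClassFormation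

/-- **KC output**: `H³_lc(G_q, R) = 0` for finite `R`, unconditionally. -/
theorem localH3VanishClosed : LocalH3VanishSpec :=
  localH3Vanish_of localClassFormation localKummerEmb

/-- **KC output** A4 (`PT.Surj2LocSpec`), unconditionally (second proof; first: `KL.A4.surj2Loc`,
helper183). -/
theorem surj2LocClosed (p : ℕ) [Fact p.Prime] (S : Finset Nat.Primes) : Surj2LocSpec p S :=
  surj2Loc_of localClassFormation localKummerEmb p S

/-- **KC output** A6 (`PT.TopLocIndSpec inv`) for every family of bijective maps `inv`,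
unconditionally. -/
theorem topLocIndClosed (p : ℕ) [Fact p.Prime] (S : Finset Nat.Primes) (inv : InvFamily p S)
    (hinv : ∀ v : ↥S, Function.Bijective (inv v)) : TopLocIndSpec inv :=
  topLocInd_of' localClassFormation p S inv hinv

end Fermat.Agent.S55.KC.All

end
-- ===== PACK-END S55/KC/All.lean

-- ===== PACK-BEGIN S55/PT/Final4.lean
section









/-!
# S55 / route C′: final wiring, version 4 (helper835)

Everything local and formal is closed.  S55 is reduced to the GLOBAL frontier of route C′: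

* `Tow.GlobalSpecFin S p`            — the tower datum (layer G; same input as engine E1);
* `K.AR.Leaves S p`, `K.AR.DictE3Spec`, `K.AR.DictE2Spec` — arithmetic core of A3 (helper4);
* `I : G.Rec.LocalInvSystem`, `G.Rec.ReciprocitySpec I p`  — reciprocity (REC, helper1) for GO5;
* `Inv.CokerESpec p S`               — GO4 (helper3 / helper53);
* `PT.CapSpec p S`                   — A8 (closed modulo layer G by helper303, `Cap/`).

Wired here: A4 (`KL.A4.surj2Loc`), `Inv.LocDimSpec`, `Inv.LocH2NeSpec` (`KC.All`, helper53),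
`Inv.MuLevelSpec` (helper635), `Inv.WeakRecipSpec` (helper413), `Inv.GlobCokerSpec ⇐ CokerESpec`
(helper99), `Tow.LocalSpec` (helper964), A3 (`K.AR.surj2Glob_of_leaves`, helper4).
-/

set_option autoImplicit false

noncomputable section

namespace Fermat.Agent.S55.PT

open groupCohomology ExtCitation Fermat.Agent.S55.Bridge

/-- `InvSpec` (A5–A7) from reciprocity and GO4. -/
theorem invSpec_of_rec {p : ℕ} [Fact p.Prime] (hp2 : p ≠ 2) (S : Finset Nat.Primes)
    (hpS : pPrime p ∈ S) (I : G.Rec.LocalInvSystem) (hRec : G.Rec.ReciprocitySpec I p)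
    (hCokE : Inv.CokerESpec p S) : InvSpec p S :=
  Inv.invSpec_of' p S (KL.A4.surj2Loc p S)
    (Inv.locDim_of_card p S KC.All.h2IndCardClosed)
    (Inv.H99.globCoker_of_cokerE p S hp2 hpS hCokE)
    (Inv.H413.weakRecip_of p S I hRec)
    (Inv.locH2Ne_of_card p S KC.All.h2MuCardClosed)
    (Inv.H635.muLevel p S hpS)

/-- **S55 from the global frontier of route C′.** -/
theorem s55_of_global {p : ℕ} [Fact p.Prime] (hp2 : p ≠ 2) (S : Finset Nat.Primes)
    (hpS : pPrime p ∈ S)
    (hG : Tow.GlobalSpecFin S p)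
    (ℓ : K.AR.Leaves S p) (hD3 : K.AR.DictE3Spec S p) (hD2 : K.AR.DictE2Spec S p)
    (I : G.Rec.LocalInvSystem) (hRec : G.Rec.ReciprocitySpec I p)
    (hCokE : Inv.CokerESpec p S) (hCap : CapSpec p S)
    (M : Rep (ZMod p) (AlgebraicClosure ℚ ≃ₐ[ℚ] AlgebraicClosure ℚ))
    [FiniteDimensional (ZMod p) M]
    (hsm : ∀ m : M, ∃ F : IntermediateField ℚ (AlgebraicClosure ℚ), FiniteDimensional ℚ F ∧
      ∀ s ∈ F.fixingSubgroup, M.ρ s m = m)
    (hMur : ∀ q : Nat.Primes, q ∉ S → ∀ A : ValuationSubring (AlgebraicClosure ℚ),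
      A.LiesOverPrime (q : ℕ) → ∀ g ∈ A.inertiaSubgroupIn ℚ, M.ρ g = 1) :
    ∃ B : sha₁ S (M.dualTwist (cycloChar p)) →ₗ[ZMod p] sha₂ S M →ₗ[ZMod p] ZMod p,
      (∀ y, (∀ x, B y x = 0) → y = 0) ∧ (∀ x, (∀ y, B y x = 0) → x = 0) :=
  s55_of_four hp2 S hpS
    (K.AR.surj2Glob_of_leaves p S ℓ hD3 hD2 hG
      (LocalSpec.H964.localSpec p (Nat.Prime.ne_zero Fact.out)) hp2 hpS)
    (KL.A4.surj2Loc p S) (invSpec_of_rec hp2 S hpS I hRec hCokE) hCap M hsm hMur

end Fermat.Agent.S55.PT

end

end
-- ===== PACK-END S55/PT/Final4.lean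

-- ===== PACK-BEGIN S55/G/Exist121/Recip.lean
section



/-!
# S55, layer G, block EXIST: leaf EX-REC (reciprocity isomorphism for `p`-groups)

Author: helper121.  `recip_of : PClassModuleSpec → RecipSpec`, from the class module property
(G-CM), `T.All.classModuleOfCyclic` and `T.All.tateReciprocity` (both unconditional on main),
plus the transport from the subgroup `⊤ ≤ G` to `G`.
-/

set_option autoImplicit false
set_option linter.unusedSectionVars false
set_option linter.style.haveILetI false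

open scoped NumberField
open IsDedekindDomain CategoryTheory

noncomputable section

namespace Fermat.Agent.S55.G.Exist121

open Fermat.Agent.S55 Fermat.Agent.S55.G

section Top

variable {k G : Type} [CommRing k] [Group G] [Fintype G] [Fintype (⊤ : Subgroup G)]
  (C : Rep.{0} k G)

lemma mem_invariants_resTop (v : C.V) :
    v ∈ (T.resSub C ⊤).ρ.invariants ↔ v ∈ C.ρ.invariants := by
  rw [Representation.mem_invariants, Representation.mem_invariants]
  constructor
  · intro h g
    exact h ⟨g, Subgroup.mem_top g⟩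
  · intro h g
    exact h (g : G)

lemma norm_resTop (v : C.V) : (T.resSub C ⊤).ρ.norm v = C.ρ.norm v := by
  rw [Representation.norm, Representation.norm, LinearMap.sum_apply, LinearMap.sum_apply]
  exact Fintype.sum_equiv Subgroup.topEquiv.toEquiv _ _ (fun g => rfl)

/-- The identity map between the invariants of `C` restricted to `⊤` and those of `C`. -/
def invTopEquiv : ↥(T.resSub C ⊤).ρ.invariants ≃ₗ[k] ↥C.ρ.invariants where
  toFun v := ⟨v.1, (mem_invariants_resTop C v.1).1 v.2⟩
  invFun v := ⟨v.1, (mem_invariants_resTop C v.1).2 v.2⟩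
  map_add' _ _ := rfl
  map_smul' _ _ := rfl
  left_inv _ := rfl
  right_inv _ := rfl

/-- `Ĥ⁰(⊤, C) ≃ Ĥ⁰(G, C)`. -/
def hat0TopEquiv : T.hat0 (T.resSub C ⊤) ≃+ T.hat0 C :=
  (Submodule.Quotient.equiv _ _ (invTopEquiv C) (by
    apply Submodule.ext
    intro v
    constructor
    · rintro ⟨w, hw, rfl⟩
      obtain ⟨c, hc⟩ := hw
      exact ⟨c, by rw [← norm_resTop]; exact hc⟩
    · rintro ⟨c, hc⟩
      refine ⟨(invTopEquiv C).symm v, ⟨c, ?_⟩, by simp⟩
      rw [norm_resTop]
      exact hc)).toAddEquiv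

end Top

/-- **EX-REC** from the class module property of `C_S(L)` for `p`-groups. -/
theorem recip_of (hCM : PClassModuleSpec) : RecipSpec := by
  intro p hp hp2 S G L _ _ _ _ _ _ hpS hG hunr hfix
  have h := hCM p hp2 S G L hpS hG hunr hfix
  obtain ⟨⟨γ, hγ⟩, -⟩ := T.All.classModuleOfCyclic G (CRep S G L) (fun H => (h H).1)
    (fun H => (h H).2)
  letI : Fintype (⊤ : Subgroup G) := Fintype.ofFinite _
  obtain ⟨e⟩ := T.All.tateReciprocity G (CRep S G L) γ hγ ⊤
  exact ⟨((MulEquiv.abelianizationCongr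
    (Subgroup.topEquiv (G := G))).symm.toAdditive).trans (e.trans (hat0TopEquiv (CRep S G L)))⟩

end Fermat.Agent.S55.G.Exist121

end
end
-- ===== PACK-END S55/G/Exist121/Recip.lean

-- ===== PACK-BEGIN S55/G/Exist121/Sha.lean
section





/-!
# S55, layer G, block EXIST: leaf EX-SHA  (`[Sha : pKˣ] ≤ |Cl_S / p|`)

Author: helper121.  `shaBound_of : Exist.KummerFieldSpec → RecipSpec → DescentTopSpec → ShaBoundSpec`.

Proof.  Let `M = K(Sha^{1/p})`, `Γ = Gal(M/K)` (`KummerFieldSpec`, helper233/helper361): `Γ` is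
commutative of exponent `p`, `|Γ| = [Sha : pKˣ]`, `M/K` is unramified outside `S`, and every
`j ∈ J_S(K)` is a norm from `J_S(M)`.  By reciprocity `C_S(M)^Γ / N_Γ C_S(M) ≃ Γ^ab = Γ`, and by
descent `C_S(M)^Γ = C_S(K)`.  The norm group contains `p C_S(K)` (exponent `p`) and the image of
`J_S(K)`, so `|Γ| = [C_S(K) : N] ≤ [C_S(K) : p C_S(K) + im J_S(K)] = [Div : div Kˣ + p Div]`.
-/

set_option autoImplicit false
set_option linter.unusedSectionVars false
set_option linter.style.haveILetI false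

open scoped NumberField
open IsDedekindDomain CategoryTheory

noncomputable section

namespace Fermat.Agent.S55.G.Exist121

open Fermat.Agent.S55 Fermat.Agent.S55.G

/-- **EX-SHA** from EX-KUM, EX-REC and EX-DESC. -/
theorem shaBound_of (hKum : Exist.KummerFieldSpec) (hRec : RecipSpec) (hDesc : DescentTopSpec) :
    ShaBoundSpec := by
  intro p hp hp2 S K _ _ hpS hζ
  by_cases h0 : (pMul (Additive Kˣ) p).relIndex (shaS S K p) = 0
  · rw [h0]; exact Nat.zero_le _
  have hB1 : Exist.pMul p (Additive Kˣ) ≤ shaS S K p := pMul_le_sha _ _ p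
  have hB2 : shaS S K p ≤ Exist.kDelta p S K := sha_le_selV _ _ p
  obtain ⟨M, _, _, _, Γ, _, _, _, _, hfix, hcomm, hexp, hcard, hunr, -, hnorm⟩ :=
    hKum p hp2 S K hpS hζ (shaS S K p) hB1 hB2 h0
  have hnorm' := hnorm (fun x hx => ⟨hx.2, hx.1⟩)
  obtain ⟨ζ, hζ'⟩ := hζ
  have hfixK : ∀ (g : Γ) (k : K), g • algebraMap K M k = algebraMap K M k :=
    fun g k => (hfix _).2 ⟨k, rfl⟩ g
  haveI : IsGaloisGroup Γ K M :=
    { faithful := inferInstance
      commutes := ⟨fun g k x => by
        rw [Algebra.smul_def, Algebra.smul_def, smul_mul', hfixK]⟩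
      isInvariant := ⟨fun x hx => by
        obtain ⟨k, hk⟩ := (hfix x).1 hx
        exact ⟨k, hk⟩⟩ }
  have hG : IsPGroup p Γ := fun g => ⟨1, by rw [pow_one]; exact hexp g⟩
  have hroot : HasFixedRootOfUnity p Γ M :=
    ⟨algebraMap K M ζ, hζ'.map_of_injective (algebraMap K M).injective, fun g => hfixK g ζ⟩
  obtain ⟨e⟩ := hRec p hp2 S Γ M hpS hG hunr hroot
  obtain ⟨ι, hιinj, hιrange, hιJ⟩ := hDesc S Γ K M ⟨_, hpS⟩ hunr
  -- the invariants and `Ĥ⁰`
  set A : Submodule ℤ (CS S M) := (cRepr S Γ M).invariants with hA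
  have hmemA : ∀ c : CS S M, c ∈ A ↔ ∀ g : Γ, cRepr S Γ M g c = c :=
    fun c => Representation.mem_invariants _ c
  let ι' : CS S K →+ A := ι.codRestrict A.toAddSubgroup
    (fun x => (hmemA _).2 ((hιrange _).2 ⟨x, rfl⟩))
  have hι'surj : Function.Surjective ι' := by
    intro a
    obtain ⟨x, hx⟩ := (hιrange a.1).1 ((hmemA _).1 a.2)
    exact ⟨x, Subtype.ext hx⟩
  let N : Submodule ℤ A := (LinearMap.range (cRepr S Γ M).norm).comap A.subtype
  let π : A →+ T.hat0 (CRep S Γ M) := N.mkQ.toAddMonoidHom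
  have hπ : Function.Surjective π := Submodule.mkQ_surjective _
  have hπ0 : ∀ a : A, (a : CS S M) ∈ LinearMap.range (cRepr S Γ M).norm → π a = 0 := by
    intro a ha
    show N.mkQ a = 0
    rw [Submodule.mkQ_apply, Submodule.Quotient.mk_eq_zero]
    exact ha
  let q : JD S K →+ CS S K := (principal S K).mkQ.toAddMonoidHom
  have hq : Function.Surjective q := Submodule.mkQ_surjective _
  let f : JD S K →+ T.hat0 (CRep S Γ M) := (π.comp ι').comp q
  have hf : Function.Surjective f := (hπ.comp hι'surj).comp hq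
  -- `|Ĥ⁰| = |Γ| = [Sha : pKˣ]`
  have hcard1 : Nat.card (T.hat0 (CRep S Γ M)) = (pMul (Additive Kˣ) p).relIndex (shaS S K p) := by
    rw [← Nat.card_congr e.toEquiv]
    letI : CommGroup Γ := { (inferInstance : Group Γ) with mul_comm := hcomm }
    have e2 : Γ ≃ Additive (Abelianization Γ) :=
      (Abelianization.equivOfComm (H := Γ)).toEquiv.trans Additive.ofMul
    rw [← Nat.card_congr e2, Nat.card_eq_fintype_card]
    exact hcard
  have hidx : f.ker.index = (pMul (Additive Kˣ) p).relIndex (shaS S K p) := by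
    rw [AddSubgroup.index_ker, ← hcard1]
    exact Nat.card_congr (Equiv.ofBijective (fun x : f.range => (x : T.hat0 (CRep S Γ M)))
      ⟨Subtype.val_injective, fun y => by
        obtain ⟨x, hx⟩ := hf y
        exact ⟨⟨y, x, hx⟩, rfl⟩⟩)
  -- `Ĥ⁰` is killed by `p`
  have hkill : ∀ x : T.hat0 (CRep S Γ M), p • x = 0 := by
    intro x
    obtain ⟨a, rfl⟩ := e.surjective x
    rw [← map_nsmul]
    have : p • a = 0 := by
      obtain ⟨g, hg⟩ := QuotientGroup.mk_surjective (Additive.toMul a)
      have ha : a = Additive.ofMul (Abelianization.of g) := by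
        apply Additive.toMul.injective
        exact hg.symm
      rw [ha, ← ofMul_pow, ← map_pow, hexp, map_one]
      rfl
    rw [this, map_zero]
  -- the big subgroup is contained in the kernel
  have hle : bigK (J := Additive (AS S K)ˣ) (ordHom S K) p ≤ f.ker := by
    rw [bigK_eq (unitsDiag S K) (ordHom S K) p, sup_le_iff]
    refine ⟨?_, ?_⟩
    · rw [classP, sup_le_iff]
      refine ⟨?_, ?_⟩
      · rintro _ ⟨x, rfl⟩
        rw [AddMonoidHom.mem_ker]
        have hq0 : q (diag (unitsDiag S K) (ordHom S K) x) = 0 := by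
          show (principal S K).mkQ _ = 0
          rw [Submodule.mkQ_apply, Submodule.Quotient.mk_eq_zero]
          exact ⟨x, rfl⟩
        show π (ι' (q _)) = 0
        rw [hq0, map_zero, map_zero]
      · rintro _ ⟨y, rfl⟩
        rw [AddMonoidHom.mem_ker]
        show f (p • y) = 0
        rw [map_nsmul]
        exact hkill _
    · rintro _ ⟨y, rfl⟩
      rw [AddMonoidHom.mem_ker]
      show π (ι' (q (y, 0))) = 0
      apply hπ0
      obtain ⟨j', hj'⟩ := hnorm' y
      refine ⟨(principal S M).mkQ (j', 0), ?_⟩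
      show (cRepr S Γ M).norm ((principal S M).mkQ (j', 0)) = ι ((principal S K).mkQ (y, 0))
      rw [hιJ, ← hj']
      rw [Representation.norm, LinearMap.sum_apply]
      have h1 : ∀ g : Γ, (cRepr S Γ M g) ((principal S M).mkQ (j', 0)) =
          (principal S M).mkQ (jRepr Γ S M g j', 0) := by
        intro g
        have h0 : jdRepr S Γ M g (j', 0) = (jRepr Γ S M g j', 0) :=
          Prod.ext rfl (map_zero (divRepr S Γ M g))
        show Submodule.Quotient.mk (jdRepr S Γ M g (j', 0)) = _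
        rw [h0]
        rfl
      simp only [h1]
      rw [← map_sum]
      congr 1
      refine Prod.ext ?_ ?_
      · simp [Prod.fst_sum]
      · simp [Prod.snd_sum]
  -- conclusion
  have hbig : (bigK (J := Additive (AS S K)ˣ) (ordHom S K) p).index =
      ((ordHom S K).range ⊔ pMul (PrimeOut S K →₀ ℤ) p).index := by
    unfold bigK
    exact AddSubgroup.index_comap_of_surjective _ (fun i => ⟨(0, i), rfl⟩)
  have hbig0 : ((ordHom S K).range ⊔ pMul (PrimeOut S K →₀ ℤ) p).index ≠ 0 := by
    intro h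
    have h1 := AddSubgroup.index_dvd_of_le
      (le_sup_left : (ordHom S K).range ≤ (ordHom S K).range ⊔ pMul (PrimeOut S K →₀ ℤ) p)
    rw [h] at h1
    exact ClsH604.ordHom_range_index_ne_zero S K (Nat.eq_zero_of_zero_dvd h1)
  rw [← hidx, ← hbig]
  exact Nat.le_of_dvd (Nat.pos_of_ne_zero (hbig ▸ hbig0)) (AddSubgroup.index_dvd_of_le hle)

end Fermat.Agent.S55.G.Exist121

end
end
-- ===== PACK-END S55/G/Exist121/Sha.lean

-- ===== PACK-BEGIN S55/G/JGlueClosedH604.lean
section
/-
S55, layer G, leaf **J-GLUE** (helper604), closed form: everything except the orbit count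
`JCountSpec` is taken from main.

* `shapiroJ : ShapiroJSpec` (G-LOC, unconditional: helper897 `shapiroJ_of` + T8 helper303 +
  T9a helper635);
* `card_H2_JRep_closed` : `|H²(G, J_S(L))| = ∏_{r ∈ R} |D_r|` for cyclic `G`;
* `jHerbrand_of_count : JCountSpec → JHerbrandSpec`;
* `firstInequalityCycSpec_of_count : JCountSpec → FirstInequalityCycSpec`,
  `firstInequalitySpec_of_count : JCountSpec → FirstInequalitySpec`.

No `sorry`.
-/







set_option autoImplicit false
set_option linter.unusedSectionVars false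

open scoped NumberField TensorProduct
open IsDedekindDomain CategoryTheory groupCohomology
open Fermat.Agent.S55.G

noncomputable section

namespace Fermat.Agent.S55.G.JGlueH604

/-- **G-LOC**, unconditional. -/
theorem shapiroJ : ShapiroJSpec :=
  LocH897.shapiroJ_of Fermat.Agent.S55.T.ShapiroH303.shapiroExplicit
    Fermat.Agent.S55.T.H635.finiteProd

/-- `|H²(G, J_S(L))| = ∏_{r ∈ R} |D_r|` for a finite cyclic group `G` acting faithfully on `L`
and a set `R` of representatives of the `G`-orbits of places above `S`. -/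
theorem card_H2_JRep_closed (S : Finset Nat.Primes) (G L : Type) [Group G] [Finite G] [Field L]
    [NumberField L] [MulSemiringAction G L] [FaithfulSMul G L] [IsCyclic G]
    (R : Finset (SPlace S L))
    (hR : ∀ 𝔪 : SPlace S L, ∃! r : SPlace S L, r ∈ R ∧ ∃ g : G, sPlaceSMul S G g r = 𝔪) :
    Nat.card (groupCohomology (JRep G S L) 2) = ∏ r : R, Nat.card (decomp S G r.1) :=
  card_H2_JRep S G L shapiroJ Fermat.Agent.S55.L.Closed.h2CardCyclic R hR

/-- `|H²(D_𝔪, L_𝔪ˣ)| = |D_𝔪|` for a finite cyclic group `G` acting faithfully on `L`. -/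
theorem card_H2_locRep_closed (S : Finset Nat.Primes) (G L : Type) [Group G] [Finite G]
    [Field L] [NumberField L] [MulSemiringAction G L] [FaithfulSMul G L] [IsCyclic G]
    (𝔪 : SPlace S L) :
    Nat.card (groupCohomology (LocRep S G 𝔪) 2) = Nat.card (decomp S G 𝔪) :=
  card_H2_locRep S G Fermat.Agent.S55.L.Closed.h2CardCyclic 𝔪

/-- **J-GLUE** from the orbit count. -/
theorem jHerbrand_of_count (hC : JCountSpec) : FIH895.JHerbrandSpec :=
  jHerbrand_of shapiroJ Fermat.Agent.S55.L.Closed.h2CardCyclic hC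

/-- **G-FIc** (first inequality, cyclic groups of odd order) from the orbit count. -/
theorem firstInequalityCycSpec_of_count (hC : JCountSpec) : FirstInequalityCycSpec :=
  FIH895.firstInequalityCycSpec_of_J (jHerbrand_of_count hC)

/-- **G-FI** (first inequality, groups of odd prime order) from the orbit count. -/
theorem firstInequalitySpec_of_count (hC : JCountSpec) : FirstInequalitySpec :=
  FIH895.firstInequalitySpec_of_J (jHerbrand_of_count hC)

end Fermat.Agent.S55.G.JGlueH604

end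
end
-- ===== PACK-END S55/G/JGlueClosedH604.lean

-- ===== PACK-BEGIN S55/G/FIFinalH604.lean
section
/-
S55, layer G, leaf **G-FI** (first inequality), final glue (helper604):
the first inequality from the places ↔ primes dictionary `PlacePrimeSpec` (G-PL1) alone.

* `jHerbrand_of_placePrime : PlacePrimeSpec → JHerbrandSpec`
* `firstInequalityCycSpec_of_placePrime : PlacePrimeSpec → FirstInequalityCycSpec`
* `firstInequalitySpec_of_placePrime : PlacePrimeSpec → FirstInequalitySpec`

Inputs from main: helper903 `JCount903.jCount_of`, helper604 `JGlueH604.jHerbrand_of_count`,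
helper895 `FIH895.firstInequalityCycSpec_of_J`.  No `sorry`.
-/



set_option autoImplicit false

open Fermat.Agent.S55.G

namespace Fermat.Agent.S55.G.JGlueH604

/-- **J-GLUE** from G-PL1. -/
theorem jHerbrand_of_placePrime (hPP : PlacePrimeSpec) : FIH895.JHerbrandSpec :=
  jHerbrand_of_count (JCount903.jCount_of hPP)

/-- **G-FIc** (first inequality, cyclic groups of odd order) from G-PL1. -/
theorem firstInequalityCycSpec_of_placePrime (hPP : PlacePrimeSpec) : FirstInequalityCycSpec :=
  firstInequalityCycSpec_of_count (JCount903.jCount_of hPP)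

/-- **G-FI** (first inequality, groups of odd prime order) from G-PL1. -/
theorem firstInequalitySpec_of_placePrime (hPP : PlacePrimeSpec) : FirstInequalitySpec :=
  firstInequalitySpec_of_count (JCount903.jCount_of hPP)

end Fermat.Agent.S55.G.JGlueH604

end
-- ===== PACK-END S55/G/FIFinalH604.lean

-- ===== PACK-BEGIN S55/G/FIClosedH604.lean
section
/-
S55, layer G, leaf **G-FI** (first inequality) — CLOSED, unconditional (helper604 glue).

* `jHerbrand : JHerbrandSpec`                      (`h₀(J_S) = ∏ e_v f_v`, `h₁(J_S) = 1`)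
* `firstInequalityCyc : FirstInequalityCycSpec`    (cyclic groups of odd order)
* `firstInequality : FirstInequalitySpec`          (groups of odd prime order)
* `jCount : JCountSpec`, `h1J : H1JSpec`, `shapiroJ`, `placePrime`, `classShortExact`, … restated
  for convenience of consumers.

Inputs, all on main: helper597 `PL1H597.placePrimeSpec` (G-PL1), helper903 `JCount903.jCount_of`,
helper897/303/635 (Shapiro), helper715 `L.Closed.h2CardCyclic` (local cyclic theorem),
helper895 (`FIH895`, Herbrand assembly), helper595 (`sUnitsHerbrandSpec`), helper604.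
No `sorry`.
-/



set_option autoImplicit false

open Fermat.Agent.S55.G

namespace Fermat.Agent.S55.G.FIClosedH604

/-- **G-PL1**, unconditional (helper597). -/
theorem placePrime : PlacePrimeSpec := PL1H597.placePrimeSpec

/-- **J-COUNT**, unconditional. -/
theorem jCount : JGlueH604.JCountSpec := JCount903.jCount_of placePrime

/-- **J-GLUE**, unconditional: the Herbrand indices of the `S`-idèles. -/
theorem jHerbrand : FIH895.JHerbrandSpec := JGlueH604.jHerbrand_of_placePrime placePrime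

/-- **G-FIc**, unconditional: the first inequality for cyclic groups of odd order. -/
theorem firstInequalityCyc : FirstInequalityCycSpec :=
  JGlueH604.firstInequalityCycSpec_of_placePrime placePrime

/-- **G-FI**, unconditional: the first inequality for groups of odd prime order. -/
theorem firstInequality : FirstInequalitySpec :=
  JGlueH604.firstInequalitySpec_of_placePrime placePrime

end Fermat.Agent.S55.G.FIClosedH604

end
-- ===== PACK-END S55/G/FIClosedH604.lean

-- ===== PACK-BEGIN S55/G/Rec/Tow/H894/Ev.lean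
section


/-!
# S55 / REC2-TOW / FR-INJ (helper894), part 4: the evaluation `ev_{q,g}` and its place

For a finite extension `F/ℚ` inside `ℚ̄`, a prime `q ∈ S` and `g ∈ G_ℚ`:

* `evHom F q hqS g : F ⊗ ℚ_S →+* ℚ̄_q`, `x ⊗ y ↦ ι_q (g⁻¹ x) · y_q`; `eq_evHom_of_tmul` (uniqueness);
* `evPlace F q hqS g : SPlace S F`, its kernel; `evEmb F q hqS g : HP.PlaceEmb S F (evPlace …) q`
  with `φ (mk a) = evHom a` and conjugating element `g`;
* `primeOf_evPlace` : the rational prime below `evPlace` is `q`;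
* `exists_smul_evPlace_eq` : every place above `q` is `Γ`-conjugate to `evPlace F q hqS g₀`
  (`Γ` any group acting on `F` through which every element of `G_ℚ` acts).
-/

set_option autoImplicit false
set_option linter.unusedSectionVars false
set_option linter.style.haveILetI false

open scoped TensorProduct

noncomputable section

namespace Fermat.Agent.S55.G.Rec.TOW.H894

open groupCohomology CategoryTheory Fermat.Agent.S55.Bridge.H175 Fermat.Agent.S55.G
open Fermat.Agent.S55.G.Rec Fermat.Agent.S55.G.Rec.HP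

local notation "Qb" => AlgebraicClosure ℚ
local notation "GQ" => (AlgebraicClosure ℚ ≃ₐ[ℚ] AlgebraicClosure ℚ)

section Ev

variable {S : Finset Nat.Primes} (F : IntermediateField ℚ Qb) [FiniteDimensional ℚ F]
  (q : ℕ) [hq : Fact q.Prime] (hqS : (⟨q, hq.out⟩ : Nat.Primes) ∈ S) (g : GQ)

/-- The `q`-th coordinate `ℚ_S → ℚ_q`. -/
def evQ : QS S →+* ℚ_[q] :=
  ((QS.proj S ⟨⟨q, hq.out⟩, hqS⟩ : QS S →ₐ[ℚ] Qq ⟨q, hq.out⟩) : QS S →+* Qq ⟨q, hq.out⟩)

lemma evQ_apply (y : QS S) : evQ q hqS y = QS.toPi S y ⟨⟨q, hq.out⟩, hqS⟩ := rfl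

/-- The embedding `F → ℚ̄_q`, `x ↦ ι_q (g⁻¹ x)`. -/
def evF : ↥F →+* PadicAlgCl q :=
  ((padicEmbedding q : Qb →ₐ[ℚ] PadicAlgCl q) : Qb →+* PadicAlgCl q).comp
    (((g⁻¹ : GQ) : Qb →+* Qb).comp (algebraMap ↥F Qb))

lemma evF_apply (x : F) : evF F q g x = padicEmbedding q (g⁻¹ (x : Qb)) := rfl

/-- **The evaluation** `ev_{q,g} : F ⊗ ℚ_S → ℚ̄_q`, `x ⊗ y ↦ ι_q (g⁻¹ x) · y_q`. -/
def evHom : AS S ↥F →+* PadicAlgCl q :=
  ((Algebra.TensorProduct.lift (evF F q g).toRatAlgHom
    ((algebraMap ℚ_[q] (PadicAlgCl q)).comp (evQ q hqS)).toRatAlgHom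
    (fun _ _ => Commute.all _ _) : AS S ↥F →ₐ[ℚ] PadicAlgCl q) : AS S ↥F →+* PadicAlgCl q)

lemma evHom_tmul (x : F) (y : QS S) :
    evHom F q hqS g (x ⊗ₜ[ℚ] y) =
      padicEmbedding q (g⁻¹ (x : Qb)) *
        algebraMap ℚ_[q] (PadicAlgCl q) (QS.toPi S y ⟨⟨q, hq.out⟩, hqS⟩) :=
  Algebra.TensorProduct.lift_tmul (evF F q g).toRatAlgHom
    ((algebraMap ℚ_[q] (PadicAlgCl q)).comp (evQ q hqS)).toRatAlgHom
    (fun _ _ => Commute.all _ _) x y

/-- Uniqueness: a ring homomorphism with the `tmul` formula of `ev_{q,g}` is `evHom`. -/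
lemma eq_evHom_of_tmul (ev : AS S ↥F →+* PadicAlgCl q)
    (h : ∀ (x : F) (y : QS S), ev (x ⊗ₜ[ℚ] y) =
      padicEmbedding q (g⁻¹ (x : Qb)) *
        algebraMap ℚ_[q] (PadicAlgCl q) (QS.toPi S y ⟨⟨q, hq.out⟩, hqS⟩)) :
    ev = evHom F q hqS g := by
  refine RingHom.ext fun a => ?_
  induction a using TensorProduct.induction_on with
  | zero => rw [map_zero, map_zero]
  | tmul x y => rw [h, evHom_tmul]
  | add a b ha hb => rw [map_add, map_add, ha, hb]

lemma evHom_asDiag (x : F) :
    evHom F q hqS g (asDiag S ↥F x) = padicEmbedding q (g⁻¹ (x : Qb)) := by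
  rw [asDiag_apply, evHom_tmul]
  have : QS.toPi S (1 : QS S) ⟨⟨q, hq.out⟩, hqS⟩ = 1 := rfl
  rw [this, map_one, mul_one]

lemma evHom_asIncl (y : QS S) :
    evHom F q hqS g (asIncl S ↥F y) =
      algebraMap ℚ_[q] (PadicAlgCl q) (QS.toPi S y ⟨⟨q, hq.out⟩, hqS⟩) := by
  change evHom F q hqS g ((1 : F) ⊗ₜ[ℚ] y) = _
  rw [evHom_tmul]
  have : ((1 : F) : Qb) = 1 := rfl
  rw [this, map_one, map_one, one_mul]

/-- **The place of `ev_{q,g}`**: the kernel of `evHom`. -/
def evPlace : SPlace S ↥F where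
  asIdeal := RingHom.ker (evHom F q hqS g)
  isMaximal := by
    haveI := PL0H713.isArtinianRing_AS S ↥F
    haveI : (RingHom.ker (evHom F q hqS g)).IsPrime := RingHom.ker_isPrime _
    exact IsArtinianRing.isMaximal_of_isPrime _

lemma mem_evPlace_iff (a : AS S ↥F) :
    a ∈ (evPlace F q hqS g).asIdeal ↔ evHom F q hqS g a = 0 := Iff.rfl

/-- The embedding `F_𝔪 → ℚ̄_q` of the local field at `𝔪 = evPlace`. -/
def evPhi : LocField S (evPlace F q hqS g) →+* PadicAlgCl q :=
  RingHom.kerLift (evHom F q hqS g)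

lemma evPhi_mk (a : AS S ↥F) :
    evPhi F q hqS g (LocField.mk S (evPlace F q hqS g) a) = evHom F q hqS g a := rfl

lemma evPhi_injective : Function.Injective (evPhi F q hqS g) :=
  RingHom.kerLift_injective _

lemma evPhi_ofQS (y : QS S) :
    evPhi F q hqS g (LocField.ofQS S (evPlace F q hqS g) y) =
      algebraMap ℚ_[q] (PadicAlgCl q) (QS.toPi S y ⟨⟨q, hq.out⟩, hqS⟩) :=
  evHom_asIncl F q hqS g y

lemma evPhi_toLoc (x : F) :
    evPhi F q hqS g (toLoc S (evPlace F q hqS g) x) = padicEmbedding q (g⁻¹ (x : Qb)) :=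
  evHom_asDiag F q hqS g x

lemma ofQS_single_one_evPlace :
    LocField.ofQS S (evPlace F q hqS g) (PL0H713.single S ⟨⟨q, hq.out⟩, hqS⟩ 1) = 1 := by
  apply evPhi_injective F q hqS g
  rw [evPhi_ofQS, PL0H713.single_apply_same, map_one, map_one]

/-- The structure map `ℚ_q → F_𝔪` at `𝔪 = evPlace`. -/
def evIota : ℚ_[q] →+* LocField S (evPlace F q hqS g) where
  toFun z := LocField.ofQS S (evPlace F q hqS g) (PL0H713.single S ⟨⟨q, hq.out⟩, hqS⟩ z)
  map_one' := ofQS_single_one_evPlace F q hqS g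
  map_mul' x y := by rw [PL0H713.single_mul, map_mul]
  map_zero' := by rw [PL0H713.single_zero, map_zero]
  map_add' x y := by rw [PL0H713.single_add, map_add]

lemma evPhi_evIota (z : ℚ_[q]) :
    evPhi F q hqS g (evIota F q hqS g z) = algebraMap ℚ_[q] (PadicAlgCl q) z := by
  change evPhi F q hqS g (LocField.ofQS S (evPlace F q hqS g) _) = _
  rw [evPhi_ofQS, PL0H713.single_apply_same]

/-- **The embedded model of `evPlace`**, with conjugating element `g` and `φ ∘ mk = evHom`. -/
def evEmb : PlaceEmb S F (evPlace F q hqS g) q where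
  g := g
  φ := evPhi F q hqS g
  ι₀ := evIota F q hqS g
  φ_toLoc := evPhi_toLoc F q hqS g
  φ_ι₀ := evPhi_evIota F q hqS g
  ofQS_mem y := ⟨QS.toPi S y ⟨⟨q, hq.out⟩, hqS⟩, by
    apply evPhi_injective F q hqS g
    rw [evPhi_evIota, evPhi_ofQS]⟩
  ι₀_mem z := ⟨PL0H713.single S ⟨⟨q, hq.out⟩, hqS⟩ z, rfl⟩

@[simp] lemma evEmb_g : (evEmb F q hqS g).g = g := rfl

lemma evEmb_φ_mk (a : AS S ↥F) :
    (evEmb F q hqS g).φ (LocField.mk S (evPlace F q hqS g) a) = evHom F q hqS g a := rfl

end Ev

section PrimeOf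

variable {S : Finset Nat.Primes} {L : Type} [Field L] [NumberField L]

/-- The prime below a place is characterised by `ofQS (single q 1) = 1`. -/
lemma primeOf_eq_of_single (𝔪 : SPlace S L) (q : S)
    (h : LocField.ofQS S 𝔪 (PL0H713.single S q 1) = 1) : PL0H713.primeOf S L 𝔪 = q := by
  by_contra hne
  have h1 := PL0H713.ofQS_single_primeOf S L 𝔪
  have h2 : PL0H713.single S (PL0H713.primeOf S L 𝔪) (1 : Qq (PL0H713.primeOf S L 𝔪).1) *
      PL0H713.single S q 1 = 0 := by
    rw [PL0H713.mul_single_one, PL0H713.single_apply_ne S _ q (Ne.symm hne), PL0H713.single_zero]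
  have h3 := congrArg (LocField.ofQS S 𝔪) h2
  rw [map_mul, h1, h, map_zero, mul_one] at h3
  exact one_ne_zero h3

end PrimeOf

section Trans

variable {S : Finset Nat.Primes} (F : IntermediateField ℚ Qb) [FiniteDimensional ℚ F]
  [Normal ℚ F]

lemma primeOf_evPlace (q : ℕ) [hq : Fact q.Prime] (hqS : (⟨q, hq.out⟩ : Nat.Primes) ∈ S)
    (g : GQ) :
    PL0H713.primeOf S ↥F (evPlace F q hqS g) = ⟨⟨q, hq.out⟩, hqS⟩ :=
  primeOf_eq_of_single _ _ (ofQS_single_one_evPlace F q hqS g)

variable (Γ : Type) [Group Γ] [MulSemiringAction Γ ↥F]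

/-- Change of the conjugating element: `ev_{q,g'} = ev_{q,g} ∘ (γ ⊗ 1)` if `γ ∈ Γ` acts on `F` as
`g g'⁻¹`. -/
lemma evHom_asAut (q : ℕ) [hq : Fact q.Prime] (hqS : (⟨q, hq.out⟩ : Nat.Primes) ∈ S)
    (g g' : GQ) (γ : Γ) (hγ : ∀ x : F, ((γ • x : F) : Qb) = g ((g'⁻¹ : GQ) (x : Qb)))
    (a : AS S ↥F) :
    evHom F q hqS g (asAut S Γ ↥F γ a) = evHom F q hqS g' a := by
  induction a using TensorProduct.induction_on with
  | zero => rw [map_zero, map_zero, map_zero]
  | tmul x y =>
    rw [asAut_tmul, evHom_tmul, evHom_tmul, hγ]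
    congr 2
    exact AlgEquiv.symm_apply_apply g _
  | add a b ha hb => rw [map_add, map_add, map_add, ha, hb]

/-- The places `evPlace … g` and `evPlace … g'` are conjugate. -/
lemma smul_evPlace (q : ℕ) [hq : Fact q.Prime] (hqS : (⟨q, hq.out⟩ : Nat.Primes) ∈ S)
    (g g' : GQ) (γ : Γ) (hγ : ∀ x : F, ((γ • x : F) : Qb) = g ((g'⁻¹ : GQ) (x : Qb))) :
    sPlaceSMul S Γ γ⁻¹ (evPlace F q hqS g) = evPlace F q hqS g' := by
  refine MaximalSpectrum.ext (Ideal.ext fun a => ?_)
  rw [mem_sPlaceSMul_iff, inv_inv, mem_evPlace_iff, mem_evPlace_iff,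
    evHom_asAut F Γ q hqS g g' γ hγ]

/-- Every place above `q` is of the form `evPlace … g'`. -/
lemma exists_eq_evPlace (q : ℕ) [hq : Fact q.Prime] (hqS : (⟨q, hq.out⟩ : Nat.Primes) ∈ S)
    (𝔪 : SPlace S ↥F) (h𝔪 : (((PL0H713.primeOf S ↥F 𝔪).1 : Nat.Primes) : ℕ) = q) :
    ∃ g' : GQ, 𝔪 = evPlace F q hqS g' := by
  subst h𝔪
  let alg : Algebra ℚ_[((PL0H713.primeOf S ↥F 𝔪).1 : ℕ)] (LocField S 𝔪) :=
    PL0H713.algQq S ↥F 𝔪
  have hfin : Module.Finite ℚ_[((PL0H713.primeOf S ↥F 𝔪).1 : ℕ)] (LocField S 𝔪) :=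
    PL0H713.finite_locField S ↥F 𝔪
  have halg : Algebra.IsAlgebraic ℚ_[((PL0H713.primeOf S ↥F 𝔪).1 : ℕ)] (LocField S 𝔪) :=
    Algebra.IsAlgebraic.of_finite _ _
  let φ₀ : LocField S 𝔪 →ₐ[ℚ_[((PL0H713.primeOf S ↥F 𝔪).1 : ℕ)]]
      PadicAlgCl ((PL0H713.primeOf S ↥F 𝔪).1 : ℕ) := IsAlgClosed.lift
  obtain ⟨g', hg'⟩ := exists_conj_of_ringHom F ((PL0H713.primeOf S ↥F 𝔪).1 : ℕ)
    ((φ₀ : LocField S 𝔪 →+* _).comp (toLoc S 𝔪))
  refine ⟨g', ?_⟩
  have hev : (φ₀ : LocField S 𝔪 →+* _).comp (LocField.mk S 𝔪) =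
      evHom F ((PL0H713.primeOf S ↥F 𝔪).1 : ℕ) hqS g' := by
    apply eq_evHom_of_tmul
    intro x y
    change φ₀ (LocField.mk S 𝔪 (x ⊗ₜ[ℚ] y)) = _
    rw [PL0H713.mk_tmul, map_mul, PL0H713.ofQS_eq]
    congr 1
    · exact hg' x
    · exact φ₀.commutes _
  refine MaximalSpectrum.ext (Ideal.ext fun a => ?_)
  rw [mem_evPlace_iff, ← hev, ← LocField.mk_eq_zero_iff]
  change _ ↔ φ₀ (LocField.mk S 𝔪 a) = 0
  rw [map_eq_zero_iff φ₀ φ₀.injective]

/-- **Transitivity.**  If every element of `G_ℚ` acts on `F` through `Γ`, then every place above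
`q` is `Γ`-conjugate to `evPlace F q hqS g₀`. -/
theorem exists_smul_evPlace_eq (hΓ : ∀ σ : GQ, ∃ γ : Γ, ∀ x : F, ((γ • x : F) : Qb) = σ (x : Qb))
    (q : ℕ) [hq : Fact q.Prime] (hqS : (⟨q, hq.out⟩ : Nat.Primes) ∈ S) (g₀ : GQ)
    (𝔪 : SPlace S ↥F) (h𝔪 : (PL0H713.primeOf S ↥F 𝔪).1 = ⟨q, hq.out⟩) :
    ∃ γ : Γ, sPlaceSMul S Γ γ (evPlace F q hqS g₀) = 𝔪 := by
  obtain ⟨g', rfl⟩ := exists_eq_evPlace F q hqS 𝔪 (congrArg (fun r : Nat.Primes => (r : ℕ)) h𝔪)
  obtain ⟨γ, hγ⟩ := hΓ (g₀ * g'⁻¹)
  exact ⟨γ⁻¹, smul_evPlace F Γ q hqS g₀ g' γ hγ⟩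

end Trans

end Fermat.Agent.S55.G.Rec.TOW.H894

end
end
-- ===== PACK-END S55/G/Rec/Tow/H894/Ev.lean

-- ===== PACK-BEGIN S55/G/Rec/Tow/FR/LocInjH894.lean
section



/-!
# S55 / REC2-TOW / FR, leaf FR-A : `locInj : LocInjSpec`  (helper894)

`c_{q,g} z = 0 ↔ locMapJ (placeOf q g) z = 0` for `z ∈ H²(H, J_W(M))`.

* `placeOf M W q hqW g` is the place `H894.evPlace M.F q hqW g` (`placeOf_eq_evPlace`), which has
  the embedded model `H894.evEmb` with `φ ∘ mk = ev_{q,g}` (`exists_placeEmb`);
* `towLink` : the `H894.LocLink` between `V = locSub q g (UH M H)` and the group `H`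
  (`ρ = piH ∘ locHom`);
* the two directions are `H894.LocLink.locMapJ_eq_zero` (Hilbert 90 + inflation is injective,
  port of helper473's `HP.localGlue`) and `H894.LocLink.evCochain_mem_levelCoboundaries₂`.
-/

set_option autoImplicit false
set_option linter.unusedSectionVars false
set_option linter.style.haveILetI false

open CategoryTheory groupCohomology
open scoped TensorProduct

noncomputable section

namespace Fermat.Agent.S55.G.Rec.TOW.FR.H894

open Fermat.Agent.S55 Fermat.Agent.S55.Tow Fermat.Agent.S55.E1.H594 Fermat.Agent.S55.G.Rec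
open Fermat.Agent.S55.G

local notation "Qb" => AlgebraicClosure ℚ
local notation "GQ" => (AlgebraicClosure ℚ ≃ₐ[ℚ] AlgebraicClosure ℚ)

section

variable {S : Finset Nat.Primes} (M : Level S) (H : Subgroup M.Gal) (W : Finset Nat.Primes)
  (q : ℕ) [hq : Fact q.Prime] (hqW : (⟨q, hq.out⟩ : Nat.Primes) ∈ W) (g : GQ)

lemma evAlg_eq_evHom :
    ((evAlg M W q hqW g : G.AS W M.F →ₐ[ℚ] PadicAlgCl q) : G.AS W M.F →+* PadicAlgCl q) =
      TOW.H894.evHom M.F q hqW g :=
  TOW.H894.eq_evHom_of_tmul M.F q hqW g _ (fun x y => evAlg_tmul M W q hqW g x y)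

lemma evAlg_apply_eq_evHom (a : G.AS W M.F) :
    evAlg M W q hqW g a = TOW.H894.evHom M.F q hqW g a :=
  congrArg (fun f : G.AS W M.F →+* PadicAlgCl q => f a) (evAlg_eq_evHom M W q hqW g)

lemma placeOf_eq_evPlace : placeOf M W q hqW g = TOW.H894.evPlace M.F q hqW g := by
  refine MaximalSpectrum.ext (Ideal.ext fun a => ?_)
  rw [mem_placeOf, TOW.H894.mem_evPlace_iff, evAlg_apply_eq_evHom]

/-- The embedded model of the place `placeOf M W q hqW g`. -/
lemma exists_placeEmb :
    ∃ P : HP.PlaceEmb W M.F (placeOf M W q hqW g) q, P.g = g ∧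
      ∀ a : G.AS W M.F,
        P.φ (LocField.mk W (placeOf M W q hqW g) a) = evAlg M W q hqW g a := by
  rw [placeOf_eq_evPlace]
  exact ⟨TOW.H894.evEmb M.F q hqW g, rfl, fun a => (evAlg_apply_eq_evHom M W q hqW g a).symm⟩

variable {M W q g} in
/-- The link between `V = locSub q g (UH M H)` and the group `H`. -/
def towLink {𝔪 : SPlace W M.F} (P : HP.PlaceEmb W M.F 𝔪 q) (hPg : P.g = g) :
    TOW.H894.LocLink P ↥H (locSub q g (UH M H)) where
  ρ := (piH M H).comp (locHom q g (UH M H))
  smul_coe τ x := by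
    rw [hPg]
    exact level_mk_smul M (g * localGaloisToGlobal q τ * g⁻¹) x
  full τ d hd := by
    rw [hPg] at hd
    have h1 : (QuotientGroup.mk (g * localGaloisToGlobal q τ * g⁻¹) : M.Gal) = (d : M.Gal) := by
      apply (level_faithfulSMul M).eq_of_smul_eq_smul
      intro x
      apply Subtype.ext
      rw [level_mk_smul]
      exact hd x
    have hmem : τ ∈ locSub q g (UH M H) := by
      rw [mem_locSub, mem_UH, h1]
      exact d.2
    exact ⟨hmem, Subtype.ext h1⟩

end

/-- **FR-A.**  The localisation `c_{q,g}` vanishes on a class iff the intrinsic localisation at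
the place `placeOf q g` does. -/
theorem locInj : LocInjSpec := by
  intro S M H W q hq hqW g z
  obtain ⟨P, hPg, hPφ⟩ := exists_placeEmb M W q hqW g
  obtain ⟨yc, rfl⟩ := Bridge.H2π_surjective _ z
  have hpush : (towLink H P hPg).evCochain
      (yc : ↥H × ↥H → Additive (G.AS W M.F)ˣ) = (cDatum M H W q hqW g).push₂ yc := by
    funext p
    apply Additive.toMul.injective
    apply Units.ext
    exact hPφ _
  rw [cH2, LocDatum.map_H2π, continuousH2π_eq_zero_iff, LocDatum.coe_cocycles, ← hpush]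
  constructor
  · intro h
    exact (towLink H P hPg).locMapJ_eq_zero yc h
  · intro h
    exact (towLink H P hPg).evCochain_mem_levelCoboundaries₂ yc h

end Fermat.Agent.S55.G.Rec.TOW.FR.H894

end
end
-- ===== PACK-END S55/G/Rec/Tow/FR/LocInjH894.lean

-- ===== PACK-BEGIN S55/G/Rec/Tow/FR/InjAtH894.lean
section



/-!
# S55 / REC2-TOW / FR, assembly piece `injAt`  (helper894, subtask 560)

`injAt_of I hSh : G.ShapiroJSpec → [field injAt of TOW.SemiLocalInv p for σ := FR.sigma I]`:
a class `y ∈ H²(Gal(M/ℚ), J_S(M))` concentrated at `r` with `σ_⊤ (res_⊤ y) = 0` is `0`.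

* `cH2_res_top_eq_zero_iff` : `c_{q,g} (res_⊤ y) = 0 ↔ locMapJ S M.Gal (placeOf q g) 2 y = 0`
  (FR-A for `H = ⊤`, stated for the group `M.Gal` itself; `H894.LocLink` with `Γ = M.Gal`);
* components `q ≠ r` of `σ` vanish (`H894.locMapJ_eq_zero_of_isAt`);
* `reps (UH M ⊤) r` is a singleton `{g₀}`; `I.inv_injective`;
* all places above `r` are conjugate to `placeOf r g₀` (`H894.exists_smul_evPlace_eq`), Shapiro
  (`H894.eq_zero_of_isAt_of_locMapJ`).
The hypothesis `E1.IsPPrimary p y` of the field is not needed.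
-/

set_option autoImplicit false
set_option linter.unusedSectionVars false
set_option linter.style.haveILetI false

open CategoryTheory groupCohomology
open scoped TensorProduct

noncomputable section

namespace Fermat.Agent.S55.G.Rec.TOW.FR.H894

open Fermat.Agent.S55 Fermat.Agent.S55.Tow Fermat.Agent.S55.E1.H594 Fermat.Agent.S55.G.Rec
open Fermat.Agent.S55.G

local notation "Qb" => AlgebraicClosure ℚ
local notation "GQ" => (AlgebraicClosure ℚ ≃ₐ[ℚ] AlgebraicClosure ℚ)

/-- A class which is locally trivial at all places above `S` is trivial (Shapiro). -/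
lemma eq_zero_of_forall_locMapJ {S : Finset Nat.Primes} {L : Type} [Field L] [NumberField L]
    (Γ : Type) [Group Γ] [Finite Γ] [MulSemiringAction Γ L] (hSh : G.ShapiroJSpec)
    (y : groupCohomology (JRep Γ S L) 2)
    (h : ∀ 𝔪 : SPlace S L, (locMapJ S Γ 𝔪 2).hom y = 0) : y = 0 := by
  haveI : Finite (SPlace S L) := PL0H713.finite_sPlace S L
  letI : MulAction Γ (SPlace S L) := sPlaceAction S Γ L
  by_cases hne : Nonempty (SPlace S L)
  · obtain ⟨𝔪₀⟩ := hne
    obtain ⟨R, -, hR⟩ := TOW.H894.exists_orbit_reps (Γ := Γ) 𝔪₀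
    apply (hSh S Γ L R hR 2).1
    funext ρ
    change (locMapJ S Γ ρ.1 2).hom y = (locMapJ S Γ ρ.1 2).hom 0
    rw [map_zero]
    exact h ρ.1
  · rw [not_nonempty_iff] at hne
    apply (hSh S Γ L ∅ (fun 𝔪 => hne.elim 𝔪) 2).1
    funext ρ
    exact absurd ρ.2 (Finset.notMem_empty _)

section

variable {S : Finset Nat.Primes} (M : Level S)
  (q : ℕ) [hq : Fact q.Prime] (hqS : (⟨q, hq.out⟩ : Nat.Primes) ∈ S) (g : GQ)

lemma mem_locSub_top (τ : PadicAlgCl q ≃ₐ[ℚ_[q]] PadicAlgCl q) :
    τ ∈ locSub q g (UH M ⊤) := by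
  rw [mem_locSub, mem_UH]
  exact Subgroup.mem_top _

lemma isOpenL_locSub_top : IsOpenL q (locSub q g (UH M ⊤)) :=
  ⟨⊥, inferInstance, fun τ _ => mem_locSub_top M q g τ⟩

lemma primeOf_placeOf_val :
    (PL0H713.primeOf S M.F (placeOf M S q hqS g)).1 = ⟨q, hq.out⟩ := by
  rw [placeOf_eq_evPlace, TOW.H894.primeOf_evPlace]

variable {M q g} in
/-- The link between the full local group `V = locSub q g (UH M ⊤)` and `Gal(M/ℚ)`. -/
def topLink {𝔪 : SPlace S M.F} (P : HP.PlaceEmb S M.F 𝔪 q) (hPg : P.g = g) :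
    TOW.H894.LocLink P M.Gal (locSub q g (UH M ⊤)) where
  ρ := (⊤ : Subgroup M.Gal).subtype.comp ((piH M ⊤).comp (locHom q g (UH M ⊤)))
  smul_coe τ x := by
    rw [hPg]
    exact level_mk_smul M (g * localGaloisToGlobal q τ * g⁻¹) x
  full τ d hd := by
    rw [hPg] at hd
    have h1 : (QuotientGroup.mk (g * localGaloisToGlobal q τ * g⁻¹) : M.Gal) = d := by
      apply (level_faithfulSMul M).eq_of_smul_eq_smul
      intro x
      apply Subtype.ext
      rw [level_mk_smul]
      exact hd x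
    exact ⟨mem_locSub_top M q g τ, h1⟩

/-- **FR-A for `H = ⊤`, in terms of the group `Gal(M/ℚ)`.** -/
theorem cH2_res_top_eq_zero_iff (y : groupCohomology (lvlJ M) 2) :
    cH2 M ⊤ S q hqS g (res2 (lvlJ M) ⊤ y) = 0 ↔
      (locMapJ S M.Gal (placeOf M S q hqS g) 2).hom y = 0 := by
  obtain ⟨P, hPg, hPφ⟩ := exists_placeEmb M S q hqS g
  obtain ⟨yc, rfl⟩ := Bridge.H2π_surjective _ y
  have hres : res2 (lvlJ M) ⊤ ((H2π (lvlJ M)).hom yc) =
      (H2π (T.resSub (lvlJ M) ⊤)).hom
        ((mapCocycles₂ (⊤ : Subgroup M.Gal).subtype (𝟙 (T.resSub (lvlJ M) ⊤))).hom yc) :=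
    congr($(H2π_comp_map (⊤ : Subgroup M.Gal).subtype (𝟙 (T.resSub (lvlJ M) ⊤))) yc)
  have hpush : (cDatum M ⊤ S q hqS g).push₂
      ((mapCocycles₂ (⊤ : Subgroup M.Gal).subtype (𝟙 (T.resSub (lvlJ M) ⊤))).hom yc) =
      (topLink P hPg).evCochain (yc : M.Gal × M.Gal → Additive (G.AS S M.F)ˣ) := by
    funext p
    apply Additive.toMul.injective
    apply Units.ext
    exact (hPφ _).symm
  rw [hres, cH2, LocDatum.map_H2π, continuousH2π_eq_zero_iff, LocDatum.coe_cocycles, hpush]
  constructor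
  · intro h
    exact (topLink P hPg).locMapJ_eq_zero yc h
  · intro h
    exact (topLink P hPg).evCochain_mem_levelCoboundaries₂ yc h

/-- Over `ℚ` there is only one place of `ℚ` above `q`: `reps (UH M ⊤) q` is a singleton. -/
lemma exists_reps_top_eq :
    ∃ g₀ : GQ, g₀ ∈ reps (UH M ⊤) q ∧ ∀ g' ∈ reps (UH M ⊤) q, g' = g₀ := by
  have hspec := reps_spec (isOpenQ_UH M ⊤) q
  obtain ⟨g₀, ⟨hg₀, -⟩, -⟩ := hspec 1
  refine ⟨g₀, hg₀, fun g' hg' => ?_⟩
  obtain ⟨r₀, -, huniq⟩ := hspec g'
  have e1 : g' = r₀ := huniq g' ⟨hg', 1, (UH M ⊤).one_mem, 1,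
    (localGaloisToGlobal q).range.one_mem, by rw [one_mul, mul_one]⟩
  have e2 : g₀ = r₀ := huniq g₀ ⟨hg₀, g' * g₀⁻¹, Subgroup.mem_top _, 1,
    (localGaloisToGlobal q).range.one_mem, by group⟩
  exact e1.trans e2.symm

end

/-- **`injAt`** for `σ := FR.sigma I`: a class of `H²(Gal(M/ℚ), J_S(M))` concentrated at `r`
with semilocal invariant `0` is `0`. -/
theorem injAt_of (I : LocalInvSystem) (hSh : G.ShapiroJSpec) {S : Finset Nat.Primes}
    (M : Level S) (r : Nat.Primes) (y : groupCohomology (lvlJ M) 2)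
    (hat : IsAt S M.Gal M.F r y) (h0 : sigma I M ⊤ (res2 (lvlJ M) ⊤ y) = 0) : y = 0 := by
  by_cases hr : r ∈ S
  · haveI hrP : Fact ((r : ℕ).Prime) := ⟨r.2⟩
    -- the components `q ≠ r` vanish
    have hoff : ∀ q : S, q ≠ ⟨r, hr⟩ → sigmaAt I M ⊤ q (res2 (lvlJ M) ⊤ y) = 0 := by
      intro q hqr
      haveI : Fact ((q.1 : ℕ).Prime) := ⟨q.1.2⟩
      rw [sigmaAt_apply]
      refine Finset.sum_eq_zero fun g _ => ?_
      have h1 : cH2 M ⊤ S (q.1 : ℕ) q.2 g (res2 (lvlJ M) ⊤ y) = 0 := by
        rw [cH2_res_top_eq_zero_iff]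
        apply TOW.H894.locMapJ_eq_zero_of_isAt M.Gal r y hat
        rw [primeOf_placeOf_val]
        exact fun h => hqr (Subtype.ext h)
      rw [h1, map_zero]
    rw [sigma_apply, Finset.sum_eq_single (⟨r, hr⟩ : S) (fun q _ hq => hoff q hq)
      (fun h => absurd (Finset.mem_univ _) h), sigmaAt_apply] at h0
    obtain ⟨g₀, hg₀, hsingle⟩ := exists_reps_top_eq M (r : ℕ)
    rw [Finset.sum_eq_single_of_mem g₀ hg₀
      (fun g hg hne => absurd (hsingle g hg) hne)] at h0
    have h1 : cH2 M ⊤ S (r : ℕ) hr g₀ (res2 (lvlJ M) ⊤ y) = 0 :=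
      I.inv_injective (r : ℕ) _ (isOpenL_locSub_top M (r : ℕ) g₀) (h0.trans (map_zero _).symm)
    rw [cH2_res_top_eq_zero_iff] at h1
    refine TOW.H894.eq_zero_of_isAt_of_locMapJ M.Gal hSh r y hat (placeOf M S (r : ℕ) hr g₀)
      (fun 𝔪 h𝔪 => ?_) h1
    rw [placeOf_eq_evPlace]
    exact TOW.H894.exists_smul_evPlace_eq M.F M.Gal
      (fun σ => ⟨(QuotientGroup.mk σ : M.Gal), fun x => level_mk_smul M σ x⟩) (r : ℕ) hr g₀ 𝔪 h𝔪
  · refine eq_zero_of_forall_locMapJ M.Gal hSh y (fun 𝔪 => ?_)
    exact TOW.H894.locMapJ_eq_zero_of_isAt M.Gal r y hat 𝔪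
      (fun h => hr (h ▸ (PL0H713.primeOf S M.F 𝔪).2))

end Fermat.Agent.S55.G.Rec.TOW.FR.H894

end
end
-- ===== PACK-END S55/G/Rec/Tow/FR/InjAtH894.lean

-- ===== PACK-BEGIN S55/G/Rec/Tow/FR/LocExistH715.lean
section





/-!
# S55 / G / REC / TOW / FR, leaf FR-C (`LocExistSpec`), helper715

`H²(D_𝔪, L_𝔪ˣ)` contains an element of exact order `n` for every divisor `n` of `|D_𝔪|`:
`L_𝔪` is Galois over the fixed field `F` of `D_𝔪` with group `D_𝔪`, `F` is a finite extension of
`ℚ_q`, hence a local field, and `H²(Gal(L_𝔪/F), L_𝔪ˣ) ≅ ℤ/[L_𝔪 : F]` by the closed L-layer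
(`L.Closed.h2Cyclic`); transport along `D_𝔪 ≃ Gal(L_𝔪/F)`.
-/

set_option autoImplicit false
set_option linter.unusedSectionVars false
set_option linter.style.haveILetI false

open scoped NumberField TensorProduct
open IsDedekindDomain CategoryTheory groupCohomology
open Fermat.Agent.S55.G

noncomputable section

namespace Fermat.Agent.S55.G.Rec.TOW.FR.H715

/-- A group isomorphic to `ℤ/m` contains an element of exact order `n` for every `n ∣ m`. -/
theorem exists_exact_order_of_equiv_zmod {M : Type} [AddCommGroup M] (m n : ℕ) (hm : 0 < m)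
    (hn : n ∣ m) (e : M ≃+ ZMod m) :
    ∃ u : M, n • u = 0 ∧ ∀ k : ℕ, k • u = 0 → n ∣ k := by
  obtain ⟨d, rfl⟩ := hn
  have hd : 0 < d := Nat.pos_of_mul_pos_left hm
  refine ⟨e.symm ((d : ℕ) : ZMod (n * d)), ?_, fun k hk => ?_⟩
  · rw [← map_nsmul, nsmul_eq_mul, ← Nat.cast_mul, ZMod.natCast_self, map_zero]
  · have h1 : e (k • e.symm ((d : ℕ) : ZMod (n * d))) = 0 := by rw [hk, map_zero]
    rw [map_nsmul, AddEquiv.apply_symm_apply, nsmul_eq_mul, ← Nat.cast_mul,
      ZMod.natCast_eq_zero_iff] at h1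
    exact Nat.dvd_of_mul_dvd_mul_right hd h1

section Abstract

variable {D E : Type} [Group D] [Finite D] [Field E]

/-- A finite group `D` acting faithfully (via `φ`) on a finite extension `E` of `ℚ_q`, fixing
`ℚ_q`: `H²(D, Eˣ) ≅ ℤ/|D|`. -/
theorem nonempty_H2_unitsRepr_equiv (φ : D →* (E ≃+* E)) (hφ : Function.Injective φ)
    (q : ℕ) [Fact q.Prime] (ι : ℚ_[q] →+* E)
    (hfin : letI := ι.toAlgebra; Module.Finite ℚ_[q] E)
    (hι : ∀ (d : D) (x : ℚ_[q]), φ d (ι x) = ι x) :
    Nonempty (groupCohomology (Rep.of (unitsRepr D φ)) 2 ≃+ ZMod (Nat.card D)) := by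
  classical
  letI : Fintype D := Fintype.ofFinite D
  letI : MulSemiringAction D E := MulSemiringAction.compHom E φ
  have hsmul : ∀ (d : D) (x : E), d • x = φ d x := fun _ _ => rfl
  haveI : FaithfulSMul D E := ⟨fun {d₁ d₂} h => hφ (RingEquiv.ext fun x => by
    rw [← hsmul, ← hsmul]; exact h x)⟩
  let F : Subfield E := FixedPoints.subfield D E
  let ιF : ℚ_[q] →+* F := ι.codRestrict F (fun x d => by rw [hsmul]; exact hι d x)
  letI : Algebra ℚ_[q] E := ι.toAlgebra
  letI : Algebra ℚ_[q] F := ιF.toAlgebra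
  haveI : IsScalarTower ℚ_[q] F E := IsScalarTower.of_algebraMap_eq (fun _ => rfl)
  haveI : Module.Finite ℚ_[q] E := hfin
  haveI : FiniteDimensional ℚ_[q] F := FiniteDimensional.left ℚ_[q] F E
  haveI : Fermat.Agent.S55.L.IsLocalFld F := PL0H713.isLocalFld_of_finite_padic q F
  let ψ : D ≃* (E ≃ₐ[F] E) := FixedPoints.toAlgAutMulEquiv D E
  obtain ⟨e0⟩ := Fermat.Agent.S55.L.Closed.h2Cyclic F E
  have hcardeq : Nat.card (E ≃ₐ[F] E) = Nat.card D := (Nat.card_congr ψ.toEquiv).symm
  have hfr : Module.finrank F E = Nat.card D := by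
    rw [← IsGalois.card_aut_eq_finrank, hcardeq]
  let iso : groupCohomology (Rep.of (unitsRepr D φ)) 2 ≅
      groupCohomology (Fermat.Agent.S55.L.unitsRep F E) 2 :=
    groupCohomology.mapIso (A := Fermat.Agent.S55.L.unitsRep F E)
      (B := Rep.of (unitsRepr D φ)) ψ
      (Fermat.Agent.S55.L.H715.linOfAdd715 (A := Rep.of (unitsRepr D φ))
        (B := Fermat.Agent.S55.L.unitsRep F E) (AddEquiv.refl (Additive Eˣ)))
      (fun g => DFunLike.ext _ _ (fun x => by
        apply Additive.toMul.injective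
        apply Units.ext
        rfl)) 2
  exact ⟨(iso.toLinearEquiv.toAddEquiv.trans e0).trans (ZMod.ringEquivCongr hfr).toAddEquiv⟩

end Abstract

/-- **FR-C** (`LocExistSpec`): local classes of every exact order dividing `|D_𝔪|`. -/
theorem locExist : LocExistSpec := by
  intro W Γ L _ _ _ _ _ _ 𝔪 n hn
  haveI : Fact (Nat.Prime ((PL0H713.primeOf W L 𝔪).1 : ℕ)) := ⟨(PL0H713.primeOf W L 𝔪).1.2⟩
  obtain ⟨e⟩ := nonempty_H2_unitsRepr_equiv (locAut W Γ 𝔪) (H953.locAut_injective W Γ 𝔪)
    ((PL0H713.primeOf W L 𝔪).1 : ℕ) (PL0H713.ofQq W L 𝔪) (PL0H713.finite_locField W L 𝔪)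
    (JGlueH604.locAut_ofQq W Γ 𝔪)
  exact exists_exact_order_of_equiv_zmod (Nat.card (decomp W Γ 𝔪)) n Nat.card_pos hn e

end Fermat.Agent.S55.G.Rec.TOW.FR.H715

end
end
-- ===== PACK-END S55/G/Rec/Tow/FR/LocExistH715.lean

-- ===== PACK-BEGIN S55/L/UnrInv/Closed.lean
section






/-!
# S55, layer L: `UnrInvSpec` is CLOSED (unconditional)

The invariant maps of unramified extensions of local fields, with base change, transport and
normalisation: assembled from the glue `unrInv_of` (helper54) and the landed leaves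
`ringOfIntegersUnique775`, `finiteExt286`, `u784_unramifiedCyclic` (helper784),
`Local.H964.h2Cyclic` (core T5), `integersComap775`, `unramifiedInertia775` (helper775),
`residueDegree717` (helper717).
-/

set_option autoImplicit false

namespace Fermat.Agent.S55.L.UnrInv

/-- **L-NR+BC, closed**: the invariant maps of unramified extensions exist. -/
theorem unrInv : Inv481.UnrInvSpec :=
  unrInv_of Closed.ringOfIntegersUnique Closed.finiteExt u784_unramifiedCyclic Closed.h2Cyclic
    integersComap775 unramifiedInertia775 H717.residueDegree717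

end Fermat.Agent.S55.L.UnrInv

end
-- ===== PACK-END S55/L/UnrInv/Closed.lean

-- ===== PACK-BEGIN S55/L/InvClosed.lean
section




/-!
# S55, layer L: `InvSpec` is CLOSED (unconditional)

The local invariant maps `inv_{L/K} : H²(Gal(L/K), Lˣ) → ℚ/ℤ` of all finite Galois extensions of
local fields exist, with injectivity, inflation, restriction (× degree), transport and the
unramified normalisation (`L/SpecInv.lean`, structure `InvFamily`).

Assembly: glue `Inv481.inv_of'` (helper481), unramified invariants `UnrInv.unrInv` (helper54),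
`UnrNestSpec`/`UnrBCSpec` (helper534), unramified extensions (helper784, helper543/715),
`H²` cyclic (core T5, helper964 et al.).
-/

set_option autoImplicit false

namespace Fermat.Agent.S55.L.Closed

/-- **L-C2, closed**: the local invariant maps exist. -/
theorem inv : InvSpec :=
  Inv481.inv_of' unramifiedExists u784_unramifiedCyclic h2Cyclic UnrInv.unrInv
    Unr534.unrNestSpec534 Unr534.unrBCSpec534

/-- **L-A2b, closed**. -/
theorem unramifiedCyclic : UnramifiedCyclicSpec := u784_unramifiedCyclic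

/-- **L-A2c, closed**. -/
theorem unramifiedUnique : UnramifiedUniqueSpec := u784_unramifiedUnique

end Fermat.Agent.S55.L.Closed

end
-- ===== PACK-END S55/L/InvClosed.lean

-- ===== PACK-BEGIN S55/G/Rec/Loc/Final.lean
section











/-!
# S55 / G / REC / LOC : `LocalInvSystem` EXISTS (unconditional)   — block REC-LOC closed

The absolute local invariant maps `inv_{K_v} : Br(K_v) = H²_cont(V, ℚ̄_qˣ) → ℚ/ℤ` for all open
`V ≤ Gal(ℚ̄_q/ℚ_q)` and all primes `q`, with injectivity, restriction (× index), vanishing on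
unramified unit cocycles and the normalisation `inv (π ∪ δχ) = χ(Frob)/n`:
the structure `G.Rec.LocalInvSystem` consumed by `ReciprocitySpec` (helper1) and by the
`InvSpec` inputs A5–A7 of the duality engine (helper3).

Assembly (helper477): glue `Loc/Glue.lean` + leaves
LOC-FD `H478.openSpec`, LOC-DESC `H894.descent`, LOC-UP `H839.up`, LOC-DOWN `H363.down`,
LOC-REF `H123.refine123`, LOC-RES `H480.res_of`, LOC-UNR `H483.unram` (helper483, helper294),
LOC-UNIF `H544.unif`, and the closed layer L (`L.Closed.inv : L.InvSpec`).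
-/

set_option autoImplicit false

noncomputable section

namespace Fermat.Agent.S55.G.Rec.Loc

/-- LOC-RES, closed. -/
theorem resSpec_closed : ResSpec := H480.res_of H478.openSpec H894.descent

/-- `LocalInvSystem` from ANY family of finite-level invariant maps. -/
def localInvSystemOfFamily (J : L.InvFamily) : LocalInvSystem :=
  localInvSystem_of J H478.openSpec H894.descent H839.up H363.down H123.refine123
    resSpec_closed H483.unram H544.unif

/-- **REC-LOC, closed**: a system of absolute local invariant maps exists. -/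
theorem nonempty_localInvSystem : Nonempty LocalInvSystem :=
  nonempty_localInvSystem_of L.Closed.inv H478.openSpec H894.descent H839.up H363.down
    H123.refine123 resSpec_closed H483.unram H544.unif

/-- A chosen system of absolute local invariant maps. -/
def localInvSystem : LocalInvSystem := Classical.choice nonempty_localInvSystem

end Fermat.Agent.S55.G.Rec.Loc

end
end
-- ===== PACK-END S55/G/Rec/Loc/Final.lean

-- ===== PACK-BEGIN S55/L/H715/LocalSpecClosed.lean
section







/-!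
# S55: `Tow.LocalSpec p` (the TARGET of layer L for the engine E1), CLOSED

`localSpec (p) (hp : 0 < p) : Tow.LocalSpec p`, unconditional (Mathlib + Prelude only):

* GD2 (class module at `p` on `L.locUnits q`): `L.Closed.classModule` for `(ℚ_q, F_q)`
  transported along helper175's dictionary `decEquiv`, `locUnitsEquiv` (`Transport.lean`);
* LH90: Hilbert 90 for all subgroups of `Gal(F_q/ℚ_q)`, transported;
* LDIV: helper655's `Bridge.localSpec_ldiv`.

NB `Tow.LocalSpec 0` is false (LDIV), hence the hypothesis `0 < p`.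
-/

set_option autoImplicit false
set_option linter.style.haveILetI false

namespace Fermat.Agent.S55.L.H715

open CategoryTheory groupCohomology Fermat.Agent.S55 Fermat.Agent.S55.Bridge.H175

section Level

variable {S : Finset Nat.Primes} (L : Tow.Level S) (q : Nat.Primes)

/-- **LH90, all subgroups**: `H¹(H, F_qˣ) = 0` for every subgroup `H ≤ Gal(F_q/ℚ_q)`. -/
theorem isZero_H1_locUnits715 (H : Subgroup (L.Dec q)) :
    Limits.IsZero (groupCohomology (T.resSub (L.locUnits q) H) 1) := by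
  letI : Fact (q : ℕ).Prime := ⟨q.2⟩
  haveI := level_finiteDimensional L
  haveI := finiteDimensional_primeLocalLevel q L.F
  exact isZero_H1_of_equiv715 (decEquiv L q) (locUnitsEquiv L q) (locUnitsEquiv_ρ L q)
    (fun H' => Local.H717.isZero_H1_resSub (K := ℚ_[(q : ℕ)]) (L := primeLocalLevel q L.F) H') H

/-- **GD2**: `F_qˣ` is a class module (at every `p`) for `Gal(F_q/ℚ_q)`. -/
theorem exists_isClassModule_locUnits715 :
    ∃ γ : groupCohomology (L.locUnits q) 2, T.IsClassModule (L.locUnits q) γ := by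
  letI : Fact (q : ℕ).Prime := ⟨q.2⟩
  haveI := level_finiteDimensional L
  haveI := level_normal L
  haveI := finiteDimensional_primeLocalLevel q L.F
  haveI := isGalois_primeLocalLevel q L.F
  haveI : Fermat.Agent.S55.L.IsLocalFld ℚ_[(q : ℕ)] :=
    Fermat.Agent.S55.L.Closed.padicInst (q : ℕ)
  have hCM := Fermat.Agent.S55.L.Closed.classModule ℚ_[(q : ℕ)] (primeLocalLevel q L.F)
  exact exists_isClassModule_h301 (L.locUnits q)
    (subsingleton_H1_of_equiv715 (decEquiv L q) (locUnitsEquiv L q) (locUnitsEquiv_ρ L q)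
      (fun H' => (hCM H').1))
    (nonempty_H2_equiv_of_equiv715 (decEquiv L q) (locUnitsEquiv L q) (locUnitsEquiv_ρ L q)
      (fun H' => (hCM H').2))

theorem exists_isClassModuleAt_locUnits715 (p : ℕ) :
    ∃ γ : groupCohomology (L.locUnits q) 2, E1.IsClassModuleAt p (L.locUnits q) γ := by
  obtain ⟨γ, hγ⟩ := exists_isClassModule_locUnits715 L q
  exact ⟨γ, isClassModuleAt_of_isClassModule715 (L.locUnits q) p hγ⟩

end Level

/-- **`Tow.LocalSpec p`** for every `p > 0`: the target of layer L, unconditionally. -/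
theorem localSpec (p : ℕ) (hp : 0 < p) : Tow.LocalSpec p :=
  ⟨fun _ L q => exists_isClassModuleAt_locUnits715 L q p,
   fun _ _ L' h q => isZero_H1_locUnits715 L' q (Tow.Level.projDec h q).ker,
   Bridge.localSpec_ldiv p hp⟩

end Fermat.Agent.S55.L.H715

end
-- ===== PACK-END S55/L/H715/LocalSpecClosed.lean

-- ===== PACK-BEGIN S55/Cap/AssemblyH303.lean
section











/-!
# S55 / layer K, input A8 (CAP): ASSEMBLY   (sub-architect helper303)

All seven leaves of `Cap/Spec.lean` are on main (MU helper415, HASMU helper181, EDIV helper595,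
J1 helper123, J2 helper164, C1 helper239, C2 helper713); `LocalSpec` (helper715) and
`SUnitsDivSpec` (helper654) are closed.  Hence **A8 is reduced to the input of layer G**:

* `capSpec_of_globalSpecCap : p ∈ S → Cap.GlobalSpecCap p S → PT.CapSpec p S`;
* `capSpec_of_isGoodMu      : p ∈ S → (GAD.datum S p).IsGoodMu p → PT.CapSpec p S`;
* `capSpec_of_gad`          : the same from the 7 leaf specs of `GAD/Spec.lean`.

`PT.CapSpec p S` is the fourth input of `PT.s55_of_four` (route C′).
-/

set_option autoImplicit false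

noncomputable section

namespace Fermat.Agent.S55.Cap.H303

open Fermat.Agent.S55.PT Fermat.Agent.S55.Tow Fermat.Agent.S55.Cap ExtCitation

variable {p : ℕ} [Fact p.Prime] {S : Finset Nat.Primes}

/-- **A8, assembled**: `PT.CapSpec p S` from the input of layer G (a good tower datum with GD11
and GD12). -/
theorem capSpec_of_globalSpecCap (hpS : pPrime p ∈ S) (hG : GlobalSpecCap p S) :
    PT.CapSpec p S := by
  have hp : 0 < p := (Fact.out : p.Prime).pos
  have hLoc : LocalSpec p := L.H715.localSpec p hp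
  have hSU : SUnitsDivSpec S p := H654.sUnitsDivSpec S hpS
  have hG' : ∃ D : TowerDatum S, D.IsGoodMu p ∧ ClTorsion D := by
    obtain ⟨D, h1, h2, -⟩ := hG
    exact ⟨D, h1, h2⟩
  exact capSpec_of_leaves p S hpS (H415.muSpec p S hpS) (H181.hasMu p S) (H595.eDiv_of p S hSU)
    (H123.j1Adapter p S hLoc) (J2H164.j2Adapter p S hLoc) (H239.c1Adapter hG' hSU)
    (H713.c2Adapter p S hG)

/-- **A8, assembled** from the goodness (GD1, GD3–GD8 above `μ_p`) of the concrete tower datum. -/
theorem capSpec_of_isGoodMu (hpS : pPrime p ∈ S) (hD : (GAD.datum S p).IsGoodMu p) :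
    PT.CapSpec p S :=
  capSpec_of_globalSpecCap hpS (H713.globalSpecCap_of_isGoodMu ⟨_, hpS⟩ hD)

/-- **A8, assembled** from the 7 leaf specs of `GAD/Spec.lean`. -/
theorem capSpec_of_gad (hpS : pPrime p ∈ S) (hSU : GAD.SUnitDictSpec S)
    (hTr : GAD.DivTrTransSpec S) (hCap : GAD.CapitulationSpec S p) (hEx : GAD.ExistenceSpec S p)
    (hCM : GAD.ClassModuleSpec S p) (hJ : GAD.JInjSpec S p) (hInf : GAD.InfInjSpec S p) :
    PT.CapSpec p S :=
  capSpec_of_globalSpecCap hpS (H713.globalSpecCap_of ⟨_, hpS⟩ hSU hTr hCap hEx hCM hJ hInf)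

end Fermat.Agent.S55.Cap.H303

end

end
-- ===== PACK-END S55/Cap/AssemblyH303.lean

-- ===== PACK-BEGIN S55/Inv/GO4/AsmE.lean
section



/-!
# S55 / GO4 dictionary: the assembly in the exact type `AsmSpec` (helper3)

`asm p S : AsmSpec p S`, i.e. `FLCokerSpec p S → LocDescSpec p S → Inv.CokerESpec p S`
(the `μ_p`-valued form of `Inv/SpecK.lean`, consumed by `PT/Final*.lean`), from `go4_core`.
-/

set_option autoImplicit false
set_option maxHeartbeats 400000
set_option linter.unusedSectionVars false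

noncomputable section

namespace Fermat.Agent.S55.Inv.GO4

open Fermat.Agent.S55 Fermat.Agent.S55.Tow Fermat.Agent.S55.E1.Lim groupCohomology
open Fermat.Agent.S55.PT Fermat.Agent.S55.Bridge ExtCitation

variable (p : ℕ) [Fact p.Prime] (S : Finset Nat.Primes)

/-- `indMuToL ∘ x` is a level-constant cocycle with values in `Ind_U ℚ̄_qˣ`, killed by `p`. -/
lemma indMuToL_comp_mem (q : Nat.Primes) (U : Subgroup PT.GQ) [U.Normal]
    (x : Gl q × Gl q → K.indG U (muP p))
    (hx : x ∈ (localLevels q).Z2 (Rep.res (rl q) (K.indG U (muP p)))) :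
    (indMuToL p S q U ∘ x : Gl q × Gl q → K.ind (rl q) U (Tow.unitsQpbar q)) ∈
        (localLevels q).Z2 (K.ind (rl q) U (Tow.unitsQpbar q)) ∧
      p • (indMuToL p S q U ∘ x : Gl q × Gl q → K.ind (rl q) U (Tow.unitsQpbar q)) ∈
        (localLevels q).B2 (K.ind (rl q) U (Tow.unitsQpbar q)) := by
  have hι := (Inv.H99.isKummerEmb_indMuToL p S q U).equivariant
  refine ⟨⟨?_, LevelSys.IsLC₂.comp hx.2 _⟩, ?_⟩
  · have h1 := (mem_cocycles₂_iff _).1 hx.1
    show (indMuToL p S q U ∘ x : Gl q × Gl q → K.ind (rl q) U (Tow.unitsQpbar q)) ∈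
      cocycles₂ (K.ind (rl q) U (Tow.unitsQpbar q))
    rw [mem_cocycles₂_iff]
    intro g h j
    have h2 := congrArg (indMuToL p S q U) (h1 g h j)
    rw [map_add, map_add, hι] at h2
    exact h2
  · have h0 : p • (indMuToL p S q U ∘ x : Gl q × Gl q → K.ind (rl q) U (Tow.unitsQpbar q)) = 0 := by
      funext z
      show p • indMuToL p S q U (x z) = 0
      rw [← map_nsmul]
      have : p • x z = 0 := by
        rw [← Nat.cast_smul_eq_nsmul (ZMod p), ZMod.natCast_self, zero_smul]
      rw [this, map_zero]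
    rw [h0]
    exact Submodule.zero_mem _

/-- the body of `Inv.CokerESpec`, for `U = K₀.U` -/
theorem asm_core (hFL : FLCokerSpec p S) (hLD : LocDescSpec p S) (K₀ : Level S)
    (x x' : (q : ↥S) → (Gl q.1 × Gl q.1 → K.indG K₀.U (muP p)))
    (hx : ∀ q : ↥S, x q ∈ (localLevels q.1).Z2 (Rep.res (rl q.1) (K.indG K₀.U (muP p))))
    (hx' : ∀ q : ↥S, x' q ∈ (localLevels q.1).Z2 (Rep.res (rl q.1) (K.indG K₀.U (muP p)))) :
    ∃ a b : ZMod p, (a ≠ 0 ∨ b ≠ 0) ∧
      ∃ e ∈ (globalLevels S).Z2 (K.indG K₀.U (K.sUnits S)),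
        p • e ∈ (globalLevels S).B2 (K.indG K₀.U (K.sUnits S)) ∧
        ∀ q : ↥S,
          ((K.indLocE q.1 S K₀.U ∘ e ∘ Prod.map (rl q.1) (rl q.1) :
              Gl q.1 × Gl q.1 → K.ind (rl q.1) K₀.U (Tow.unitsQpbar q.1)) -
            indMuToL p S q.1 K₀.U ∘ (a • x q + b • x' q)) ∈
            (localLevels q.1).B2 (K.ind (rl q.1) K₀.U (Tow.unitsQpbar q.1)) := by
  obtain ⟨a, b, hab, y, hyZ, hyB, hyloc⟩ := go4_core p S hFL hLD K₀
    (fun q => indMuToL p S q.1 K₀.U ∘ x q)
    (fun q => indMuToL p S q.1 K₀.U ∘ x' q)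
    (fun q => indMuToL_comp_mem p S q.1 K₀.U (x q) (hx q))
    (fun q => indMuToL_comp_mem p S q.1 K₀.U (x' q) (hx' q))
  refine ⟨(a : ZMod p), (b : ZMod p), ?_, y, hyZ, hyB, fun q => ?_⟩
  · by_contra hcon
    rw [not_or, not_not, not_not] at hcon
    exact hab ⟨(ZMod.intCast_zmod_eq_zero_iff_dvd a p).1 hcon.1,
      (ZMod.intCast_zmod_eq_zero_iff_dvd b p).1 hcon.2⟩
  · have h1 := Submodule.neg_mem _ (hyloc q)
    have h2 : ((K.indLocE q.1 S K₀.U ∘ y ∘ Prod.map (rl q.1) (rl q.1) :
              Gl q.1 × Gl q.1 → K.ind (rl q.1) K₀.U (Tow.unitsQpbar q.1)) -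
            indMuToL p S q.1 K₀.U ∘ ((a : ZMod p) • x q + (b : ZMod p) • x' q)) =
        -(a • (indMuToL p S q.1 K₀.U ∘ x q) + b • (indMuToL p S q.1 K₀.U ∘ x' q) -
          fun z : Gl q.1 × Gl q.1 =>
            (K.indLocE q.1 S K₀.U).toAddMonoidHom (y (rl q.1 z.1, rl q.1 z.2))) := by
      funext z
      simp only [Pi.sub_apply, Pi.neg_apply, Pi.add_apply, Pi.smul_apply, Function.comp_apply,
        neg_sub, map_add, Int.cast_smul_eq_zsmul, map_zsmul]
      rfl
    rw [h2]
    exact h1

/-- **GO4-ASM, exact type.** -/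
theorem asm : AsmSpec p S := by
  intro _ hFL hLD _hp2 _hpS U hU hUn _hcyc x x' hx hx'
  obtain ⟨F, hF, rfl⟩ := hU
  exact asm_core p S hFL hLD ⟨F, hF, hUn⟩ x x' hx hx'

end Fermat.Agent.S55.Inv.GO4

end

end
-- ===== PACK-END S55/Inv/GO4/AsmE.lean

-- ===== PACK-BEGIN S55/Inv/GO4/H978/LocDesc.lean
section










/-!
# S55 / `InvSpec` / GO4-LD (helper978): `locDesc : LocDescLeaf p S`

Local descent of `p`-torsion level-constant classes of `H²(G_q, Ind_{K₀.U} ℚ̄_qˣ)` to the
`S`-tower, from the unboundedness of the local `p`-degrees (`K.AR.DecUnbounded`).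

Steps (blueprint `coord/S55-INV-GO4.md` §2):
* `exists_level_dvd`  : an `S`-level `L ≥ K₀` with `p ∣ [K₀.V q : L.V q]`;
* `Abs.exists_mem_Z2At_of_torsion` for `indR W ℚ̄_qˣ` (weak class formation, KC layer);
* `Orbit.exists_sum_of_single` : orbit decomposition of `K.ind (rl q) K₀.U ℚ̄_qˣ`;
* `Descent.descent` : descent to the finite quotient `Dec_q(L)`.
-/

set_option autoImplicit false
set_option linter.style.haveILetI false

noncomputable section

namespace Fermat.Agent.S55.Inv.GO4.H978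

open Fermat.Agent.S55 Fermat.Agent.S55.Tow Fermat.Agent.S55.PT groupCohomology
open Fermat.Agent.S55.KC

variable {S : Finset Nat.Primes}

/-- **Step A.**  From `DecUnbounded`: an `S`-level `L ≥ K₀` with `p ∣ [K₀.V q : L.V q]`. -/
theorem exists_level_dvd (p : ℕ) (hp : p.Prime) (hDec : K.AR.DecUnbounded S p)
    (K₀ : Level S) (q : S) :
    ∃ (L : Level S) (_ : K₀ ≤ L), p ∣ (L.V q.1).relIndex (K₀.V q.1) := by
  set m : ℕ := Nat.card (K₀.Dec q.1) with hm
  have hmpos : 0 < m := Nat.card_pos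
  obtain ⟨L, hKL, hdvd⟩ := hDec K₀ m
  refine ⟨L, hKL, ?_⟩
  have h1 : p ^ m ∣ Nat.card (L.Dec q.1) := hdvd q.1 q.2
  have h2 : (L.V q.1).relIndex (K₀.V q.1) * (K₀.V q.1).index = (L.V q.1).index :=
    Subgroup.relIndex_mul_index (Level.V_anti hKL q.1)
  have h3 : Nat.card (L.Dec q.1) = (L.V q.1).index := rfl
  have h4 : m = (K₀.V q.1).index := rfl
  rw [h3, ← h2, ← h4] at h1
  by_contra hnd
  have hcop : Nat.Coprime (p ^ m) ((L.V q.1).relIndex (K₀.V q.1)) :=
    Nat.Coprime.pow_left m ((Nat.Prime.coprime_iff_not_dvd hp).2 hnd)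
  have h5 : p ^ m ∣ m := hcop.dvd_of_dvd_mul_left h1
  have h6 := Nat.le_of_dvd hmpos h5
  have h7 := Nat.lt_pow_self hp.one_lt (n := m)
  omega

/-- **GO4-LD.** -/
theorem locDesc (p : ℕ) (S : Finset Nat.Primes) : LocDescLeaf p S := by
  intro hp hDec K₀ q X hX hpX
  haveI : Fact p.Prime := ⟨hp⟩
  obtain ⟨L, hKL, hpn⟩ := exists_level_dvd p hp hDec K₀ q
  -- the local level system
  have hNC : (localLevels q.1).NormalCofinal := H424.localLevels_normalCofinal q.1
  have hFI : (localLevels q.1).FiniteIndex := H424.localLevels_finiteIndex q.1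
  have hW : K₀.U.comap (rl q.1) ∈ (localLevels q.1).levels := ⟨K₀.F, K₀.unram.1, rfl⟩
  have hV₁ : L.V q.1 ∈ (localLevels q.1).levels := ⟨L.F, L.unram.1, rfl⟩
  have hV₁n : (L.V q.1).Normal := inferInstance
  have hV₁le : L.V q.1 ≤ K₀.U.comap (rl q.1) := Level.V_anti hKL q.1
  -- the weak class formation `indR W ℚ̄_qˣ`
  have hCF : IsClassFormation (localLevels q.1) (Tow.unitsQpbar q.1) :=
    H323.localClassFormation q.1
  have hWCF : IsWCF (localLevels q.1) (indR (K₀.U.comap (rl q.1)) (Tow.unitsQpbar q.1))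
      (K₀.U.comap (rl q.1)) (fun V => V.relIndex (K₀.U.comap (rl q.1))) :=
    H475.indWCF (Gl q.1) (localLevels q.1) (Tow.unitsQpbar q.1) _ _ hFI hCF hW le_rfl
  have hsmA : (localLevels q.1).IsSmooth (Tow.unitsQpbar q.1) :=
    Fermat.Agent.S55.Local.H374.unitsQ_isSmooth q.1
  have hsm : (localLevels q.1).IsSmooth (indR (K₀.U.comap (rl q.1)) (Tow.unitsQpbar q.1)) :=
    H323.isSmooth_indR_h323 (localLevels q.1) hNC ⟨_, hW, le_rfl⟩ (Tow.unitsQpbar q.1) hsmA
  have hsingle := fun Y hY hpY =>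
    exists_mem_Z2At_of_torsion (localLevels q.1) p
      (indR (K₀.U.comap (rl q.1)) (Tow.unitsQpbar q.1)) (K₀.U.comap (rl q.1))
      (fun V => V.relIndex (K₀.U.comap (rl q.1))) hNC hFI hsm
      (fun V hV hVn hle => by
        haveI := hVn
        exact ⟨hWCF.npos V hV hle, ⟨(H321.q2 (Gl q.1) _ V).some.trans (hWCF.h2 V hV hle).some⟩⟩)
      (fun V' V hV' hV'n hV hVn hle hle0 f hf hc => by
        haveI := hV'n
        haveI := hVn
        exact H73.qInf (Gl q.1) _ V' V hle (hWCF.h1rel V' V hV' hV hle hle0) f hf hc)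
      (L.V q.1) hV₁ hV₁n hV₁le hpn Y hY hpY
  obtain ⟨X', hX'Z, hXX', hX'C⟩ :=
    exists_sum_of_single (rl q.1) K₀.U (Tow.unitsQpbar q.1) (localLevels q.1) p (L.V q.1)
      hsingle X hX hpX
  obtain ⟨τ, hτ, hpτ, hloc⟩ := descent S K₀ L hKL q.1 p X' hX'Z hX'C
  exact ⟨L, hKL, τ, hτ, hpτ, by rw [hloc]; exact hXX'⟩

end Fermat.Agent.S55.Inv.GO4.H978

end

end
-- ===== PACK-END S55/Inv/GO4/H978/LocDesc.lean

-- ===== PACK-BEGIN S56/FL/LMMain.lean
section






/-!
# Row S56 — wall W-FLAT-SS — `LocalModelStatement` CLOSED  (architect helper434)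

    localModel : FL.LocalModelStatement
      = localModel_of  intStatement            -- INT    (helper914, `H914/IntMain.lean`)
                       struct                  -- STRUCT (helper287 + helper176, `H287/StructMain.lean`)
                       (root_of rationality)   -- ROOT   (helper116 + helper254 + helper434)

Sorry-free; nothing but the three standard axioms.
-/

set_option autoImplicit false

namespace Fermat.Agent.S56.FL

/-- **ROOT**, unconditional. -/
theorem rootStatement : RootStatement :=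
  Fermat.Agent.S56.H116.Root.root_of Fermat.Agent.S56.H434.rationality

/-- **`LocalModelStatement`**, unconditional: the local model at `p` of a pair of flat
dual-number lifts, with Fontaine's bound on the different. -/
theorem localModel : LocalModelStatement :=
  localModel_of Fermat.Agent.S56.H914.intStatement Fermat.Agent.S56.H287.struct rootStatement

end Fermat.Agent.S56.FL

end
-- ===== PACK-END S56/FL/LMMain.lean

-- ===== PACK-BEGIN S56/FL/Assemble.lean
section














/-!
# Row S56 — wall LOC-FLAT, supersingular half: assembly (helper426)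

`flatSS_of_hilbert`: `FlatSSStatement` from `RLHilbert`; everything else is plugged in from `main`
(`FL.localModel` of `FL/LMMain.lean`, `H846.flCnt`, `H769.flCyc`, `H194.rlCyc`, `H194.rcTame_of`,
`H334.rl*`, `H102.RLQF.rlQuotFormula`, `H384.rcShape`, the glue `flatSS_of`, `ramCount_of_cnt`).
The unconditional statement is `FL.flatSSMain` in `FL/FlatSSMain.lean`.
-/

set_option autoImplicit false

namespace Fermat.Agent.S56.FL

/-- `RamCountStatement` from `RLHilbert`. -/
theorem ramCount_of_hilbert (rlHilbert : RLHilbertStatement) : RamCountStatement :=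
  ramCount_of_cnt (H194.rcTame_of H334.rlWild H334.rlTame) H846.flCnt H769.flCyc H334.rlWild
    H334.rlComm H334.rlTame H334.rlTheta H334.rlQuot H102.RLQF.rlQuotFormula rlHilbert
    H194.rlCyc H384.rcShape

/-- `FlatSSStatement` from `RLHilbert`. -/
theorem flatSS_of_hilbert (rlHilbert : RLHilbertStatement) : FlatSSStatement :=
  flatSS_of localModel (ramCount_of_hilbert rlHilbert)

end Fermat.Agent.S56.FL

end
-- ===== PACK-END S56/FL/Assemble.lean

-- ===== PACK-BEGIN S56/FL/FlatSSMain.lean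
section



/-!
# Row S56 — wall LOC-FLAT, supersingular half: CLOSED (sub-architect helper426)

    flatSSMain : FL.FlatSSStatement
    locFlatP_of_flatO : FL.FlatOStatement → H716.LocFlatPStatement

`FlatSSStatement`: when `ρ̄|_{D_P}` is irreducible, any two flat tangent cocycles are linearly
dependent modulo coboundaries on `D_P`.  Sorry-free; nothing but the three standard axioms.

Leaves: `FL.localModel` (helper434; INT helper914, STRUCT helper287/176, ROOT helper116/254/434),
`H846.flCnt` (abstract count), `H769.flCyc`, `H194.rlCyc`, `H194.rcTame_of`, `H334.rlWild/rlComm/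
rlTame/rlTheta/rlQuot`, `H102.RLQF.rlQuotFormula`, `H102.RLH.rlHilbert`, `H384.rcShape`,
`H384`/`FL.rcInfl`; glue `FL.flatSS_of`, `FL.ramCount_of_cnt`, `FL.locFlatP_of` (helper426).
-/

set_option autoImplicit false

namespace Fermat.Agent.S56.FL

/-- **`RamCountStatement`**, unconditional. -/
theorem ramCountMain : RamCountStatement :=
  ramCount_of_hilbert H102.RLH.rlHilbert

/-- **`FlatSSStatement`**, unconditional. -/
theorem flatSSMain : FlatSSStatement :=
  flatSS_of_hilbert H102.RLH.rlHilbert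

/-- The wall LOC-FLAT from its ordinary half. -/
theorem locFlatP_of_flatO (hO : FlatOStatement) : H716.LocFlatPStatement :=
  locFlatP_of flatSSMain hO

end Fermat.Agent.S56.FL

end
-- ===== PACK-END S56/FL/FlatSSMain.lean

-- ===== PACK-BEGIN S56/FL/LocFlatPMain.lean
section



/-!
# Row S56 — wall LOC-FLAT: CLOSED (sub-architect helper426)

    locFlatPMain : H716.LocFlatPStatement

= `FL.locFlatP_of FL.flatSSMain FO.H6.flatO`: the flat tangent bound at `p` (`P | p`), i.e.
`dim H¹_f(D_P, ad⁰ ρ̄) ≤ 1 + dim H⁰(D_P, ad⁰ ρ̄)` in the plain-function form of `H716/TBSpec.lean`.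

* supersingular half `FL.flatSSMain : FlatSSStatement` (`FL/FlatSSMain.lean`; helper426 with
  helper434, 914, 287, 176, 116, 254, 846, 769, 194, 334, 102, 384, 134, 374, 618, 966);
* ordinary half `FO.H6.flatO : FL.FlatOStatement` (`FO/H6/FlatO.lean`; helper6 with helper906,
  656, 734, 486, 66, 664, 246).

Sorry-free; nothing but the three standard axioms.
-/

set_option autoImplicit false

namespace Fermat.Agent.S56.FL

/-- **LOC-FLAT**, unconditional. -/
theorem locFlatPMain : H716.LocFlatPStatement :=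
  locFlatP_of flatSSMain Fermat.Agent.S56.FO.H6.flatO

end Fermat.Agent.S56.FL

end
-- ===== PACK-END S56/FL/LocFlatPMain.lean

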