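import Fermat.Agent.Pack.S43GC.G0E22L3
import Fermat.Agent.Pack.S43GC.G0E17L0
import Fermat.Agent.Pack.S43GC.G0E18L2
import Fermat.Agent.Pack.S43GC.G0E18L3
import Fermat.Agent.Pack.S43GC.G0E19L1
import Fermat.Agent.Pack.S43GC.G0E19L2
import Fermat.Agent.Pack.S43GC.G0E22L0
import Fermat.Agent.Pack.S43GC.G0E18L0
import Fermat.Agent.Pack.S43GC.G0E7L3
import Fermat.Agent.Pack.S43GC.G0E22L2
import Fermat.Agent.Pack.S43GC.G0E17L2
import Fermat.Agent.Pack.S43GC.G0E16L0
import Fermat.Agent.Pack.S43GC.G0E10L0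
import Fermat.Agent.Pack.S43GC.G0E12L2
import Fermat.Agent.Pack.S43GC.G0E10L2
import Fermat.Agent.Pack.S43GC.G0E21L3
import Fermat.Agent.Pack.S43GC.G0E21L1
import Fermat.Agent.Pack.S43GC.G0E22L1
import Fermat.Agent.Pack.S43GC.G0E20L2
import Fermat.Agent.Pack.S43GC.G0E20L3
import Fermat.Agent.Pack.S43GC.G0E20L1
import Fermat.Agent.Pack.S43GC.G0E21L0
import Fermat.Agent.Pack.S43GC.G0E11L2
import Fermat.Agent.Pack.S43GC.G0E18L1
import Fermat.Agent.Pack.S43GC.G0E19L3
import Fermat.Agent.Pack.S43GC.G0E13L3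
import Fermat.Agent.Pack.S43GC.G0E11L0
import Fermat.Agent.Pack.S43GC.G0E11L1
import Fermat.Agent.Pack.S43GC.G0E19L0
import Fermat.Agent.Pack.Fast891

-- ===== PACK-BEGIN S55/GAD/Transport.lean
section
/-
S55 / G-ADAPTER (helper955): **transport along the comparison isomorphism** `isoC`.
The leaf specs GAD-EX / GAD-CM / GAD-J / GAD-INF of `GAD/Spec.lean` are about the concrete class
module `GAD.CT L`; here they are reduced to the SAME statements about the layer-G class module
`G.CRep S L.Gal L.F` (the language of the REC / EXIST producers).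
-/



set_option autoImplicit false
set_option linter.unusedSectionVars false

open CategoryTheory

namespace Fermat.Agent.S55.GAD

open Fermat.Agent.S55 Fermat.Agent.S55.Tow Fermat.Agent.S55.G Fermat.Agent.S55.G.LocH897
open scoped Fermat.Agent.S55.E1.H594

noncomputable section

/-! ### Generic transport lemmas -/

section Generic

variable {G : Type} [Group G]

/-- `NormInP` is invariant under isomorphism of the module. -/
theorem normInP_of_iso (p : ℕ) (H : Subgroup G) [Fintype H] {C C' : Rep.{0} ℤ G} (e : C ≅ C')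
    (hC : E1.NormInP p H C) : E1.NormInP p H C' := by
  intro c'
  obtain ⟨c₀, hinv, hsum⟩ := hC (e.inv.hom c')
  refine ⟨e.hom.hom c₀, fun h hh => ?_, ?_⟩
  · rw [← Rep.hom_comm_apply, hinv h hh]
  · have h1 : ∀ h : H, C'.ρ (h : G) c' = e.hom.hom (C.ρ (h : G) (e.inv.hom c')) := by
      intro h
      rw [Rep.hom_comm_apply, Rep.hom_inv_apply]
    simp only [h1]
    rw [← map_sum, hsum, map_nsmul]

/-- Restriction to a subgroup commutes with change of coefficients. -/
theorem resMap_coeffMap {C C' : Rep.{0} ℤ G} (f : C ⟶ C') (H : Subgroup G) (n : ℕ) :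
    T.coeffMap f n ≫ T.resMap C' H n =
      T.resMap C H n ≫ T.coeffMap ((Rep.resFunctor H.subtype).map f) n := by
  rw [← groupCohomology.map_comp, ← groupCohomology.map_comp]
  exact groupCohomology.map_congr rfl rfl n

theorem resMap_coeffMap_apply {C C' : Rep.{0} ℤ G} (f : C ⟶ C') (H : Subgroup G) (n : ℕ)
    (x : groupCohomology C n) :
    (T.resMap C' H n).hom ((T.coeffMap f n).hom x) =
      (T.coeffMap ((Rep.resFunctor H.subtype).map f) n).hom ((T.resMap C H n).hom x) := by
  have := congrArg (fun φ => φ.hom x) (resMap_coeffMap f H n)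
  exact this

/-- The isomorphism on the cohomology of a subgroup induced by an isomorphism of modules. -/
def subCohIso {C C' : Rep.{0} ℤ G} (e : C ≅ C') (H : Subgroup G) (n : ℕ) :
    groupCohomology (T.resSub C H) n ≅ groupCohomology (T.resSub C' H) n :=
  (groupCohomology.functor ℤ H n).mapIso ((Rep.resFunctor H.subtype).mapIso e)

lemma subCohIso_hom {C C' : Rep.{0} ℤ G} (e : C ≅ C') (H : Subgroup G) (n : ℕ) :
    (subCohIso e H n).hom = T.coeffMap ((Rep.resFunctor H.subtype).map e.hom) n := rfl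

/-- Class modules at `p` are transported along isomorphisms. -/
theorem isClassModuleAt_of_iso [Finite G] (p : ℕ) {C C' : Rep.{0} ℤ G} (e : C ≅ C')
    (γ : groupCohomology C 2) (hγ : E1.IsClassModuleAt p C γ) :
    E1.IsClassModuleAt p C' ((T.coeffMap e.hom 2).hom γ) := by
  intro H hH
  obtain ⟨h1, h2, h3⟩ := hγ H hH
  refine ⟨Limits.IsZero.of_iso h1 (subCohIso e H 1).symm, ?_, ?_⟩
  · rw [← h2]
    exact Nat.card_congr (subCohIso e H 2).symm.toLinearEquiv.toEquiv
  · intro x'
    obtain ⟨n, hn⟩ := h3 ((subCohIso e H 2).inv.hom x')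
    refine ⟨n, ?_⟩
    have hx : x' = (subCohIso e H 2).hom.hom ((subCohIso e H 2).inv.hom x') := by
      rw [← ModuleCat.comp_apply, Iso.inv_hom_id]
      rfl
    rw [hx, hn, map_nsmul, resMap_coeffMap_apply]
    rfl

theorem exists_isClassModuleAt_of_iso [Finite G] (p : ℕ) {C C' : Rep.{0} ℤ G} (e : C ≅ C')
    (h : ∃ γ : groupCohomology C 2, E1.IsClassModuleAt p C γ) :
    ∃ γ' : groupCohomology C' 2, E1.IsClassModuleAt p C' γ' := by
  obtain ⟨γ, hγ⟩ := h
  exact ⟨_, isClassModuleAt_of_iso p e γ hγ⟩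

/-- Change of coefficients along an isomorphism is injective. -/
theorem coeffMap_iso_injective {C C' : Rep.{0} ℤ G} (e : C ≅ C') (n : ℕ) :
    Function.Injective (T.coeffMap e.hom n).hom := by
  intro x y hxy
  have h := congrArg (T.coeffMap e.inv n).hom hxy
  have hc : T.coeffMap e.hom n ≫ T.coeffMap e.inv n = 𝟙 _ := by
    rw [← groupCohomology.map_id_comp, Iso.hom_inv_id]
    exact groupCohomology.map_id n
  have hx : ∀ z, (T.coeffMap e.inv n).hom ((T.coeffMap e.hom n).hom z) = z := fun z => by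
    rw [← ModuleCat.comp_apply, hc]
    rfl
  rwa [hx, hx] at h

theorem coeffMap_comp_apply' {A B C : Rep.{0} ℤ G} (f : A ⟶ B) (g : B ⟶ C) (n : ℕ)
    (x : groupCohomology A n) :
    (T.coeffMap (f ≫ g) n).hom x = (T.coeffMap g n).hom ((T.coeffMap f n).hom x) := by
  have h : T.coeffMap (f ≫ g) n = T.coeffMap f n ≫ T.coeffMap g n :=
    groupCohomology.map_id_comp f g n
  rw [h]
  rfl

end Generic

/-! ### The leaf specs in layer-G language -/

variable (S : Finset Nat.Primes) (p : ℕ)

/-- **GAD-EX in layer-G language**: gd6 for `C_S(F) = G.CRep S Gal(F/ℚ) F`. -/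
def ExistenceSpecG : Prop :=
  ∀ L₀ : Level S, L₀.HasMu p → ∃ L₁ : Level S, L₀ ≤ L₁ ∧
    ∀ (L : Level S) (h : L₀ ≤ L), L₁ ≤ L →
      @E1.NormInP p L.Gal _ (Level.relGal h) (Fintype.ofFinite _) (G.CRep S L.Gal L.F)

theorem existenceSpec_of_G (h : ExistenceSpecG S p) : ExistenceSpec S p := by
  intro L₀ hμ
  obtain ⟨L₁, h01, hL⟩ := h L₀ hμ
  refine ⟨L₁, h01, fun L h0 h1 => ?_⟩
  let _ : Fintype (Level.relGal h0) := Fintype.ofFinite _
  exact normInP_of_iso p (Level.relGal h0) (isoC L) (hL L h0 h1)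

/-- **GAD-CM in layer-G language**: gd1 for `C_S(F)`. -/
def ClassModuleSpecG : Prop :=
  ∀ L : Level S, L.HasMu p →
    ∃ γ : groupCohomology (G.CRep S L.Gal L.F) 2, E1.IsClassModuleAt p (G.CRep S L.Gal L.F) γ

theorem classModuleSpec_of_G (h : ClassModuleSpecG S p) : ClassModuleSpec S p :=
  fun L hμ => exists_isClassModuleAt_of_iso p (isoC L) (h L hμ)

/-- **GAD-J in layer-G language**: gd3 for `J_q(F) → J_S(F) → C_S(F)`
(`jTowInv` = helper897's inclusion of the `q`-component). -/
def JInjSpecG : Prop :=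
  ∀ L : Level S, L.HasMu p → ∀ q : S, ∀ y : groupCohomology (L.J q.1) 2,
    p • y = 0 → (T.coeffMap (jTowInv L q ≫ G.jToCRepHom S L.Gal L.F) 2).hom y = 0 → y = 0

theorem jInjSpec_of_G (h : JInjSpecG S p) : JInjSpec S p := by
  intro L hμ q hq y hy hy0
  refine h L hμ ⟨q, hq⟩ y hy ?_
  rw [← jT_comp_isoC_inv L ⟨q, hq⟩, coeffMap_comp_apply', hy0, map_zero]

/-- **GAD-INF in layer-G language**: gd8 for the base change `C_S(F) → C_S(F')`
(`cTrG h`, whose underlying map is helper773's `G.DescH773.cBase`, see `cTrG_apply`). -/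
def InfInjSpecG : Prop :=
  ∀ {L L' : Level S} (h : L ≤ L'), L.HasMu p → ∀ z : groupCohomology (G.CRep S L.Gal L.F) 2,
    p • z = 0 → (groupCohomology.map (Level.proj h) (cTrG h) 2).hom z = 0 → z = 0

variable {S} in
/-- Inflation commutes with the comparison isomorphisms. -/
theorem map_cTrG_coeffMap {L L' : Level S} (h : L ≤ L') (n : ℕ) :
    T.coeffMap (isoC L).hom n ≫ groupCohomology.map (Level.proj h) (trT h) n =
      groupCohomology.map (Level.proj h) (cTrG h) n ≫ T.coeffMap (isoC L').hom n := by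
  rw [← groupCohomology.map_comp, ← groupCohomology.map_comp]
  refine groupCohomology.map_congr rfl ?_ n
  exact congrArg (fun f => (Rep.Hom.hom f).toLinearMap) (cTrG_comp_isoC h).symm

theorem infInjSpec_of_G (h : InfInjSpecG S p) : InfInjSpec S p := by
  intro L L' hLL hμ z hz hz0
  have hz' : z = (T.coeffMap (isoC L).hom 2).hom ((T.coeffMap (isoC L).inv 2).hom z) := by
    rw [← coeffMap_comp_apply', Iso.inv_hom_id]
    exact (congrArg (fun φ => φ.hom z) (groupCohomology.map_id (B := CT L) 2)).symm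
  set z₀ := (T.coeffMap (isoC L).inv 2).hom z with hz₀
  have h1 : p • z₀ = 0 := by rw [hz₀, ← map_nsmul, hz, map_zero]
  have h2 : (groupCohomology.map (Level.proj hLL) (cTrG hLL) 2).hom z₀ = 0 := by
    apply coeffMap_iso_injective (isoC L') 2
    have := congrArg (fun φ => φ.hom z₀) (map_cTrG_coeffMap hLL 2)
    rw [map_zero]
    refine Eq.trans this.symm ?_
    show (groupCohomology.map (Level.proj hLL) (trT hLL) 2).hom
      ((T.coeffMap (isoC L).hom 2).hom z₀) = 0
    rw [← hz', hz0]
  rw [hz', h hLL hμ z₀ h1 h2, map_zero]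

end

end Fermat.Agent.S55.GAD

end
-- ===== PACK-END S55/GAD/Transport.lean

-- ===== PACK-BEGIN S55/GAD/Main.lean
section
/-
S55 / G-ADAPTER (helper955): **assembly in layer-G language.**
`globalSpecMu_of_G` : the open input `Tow.GlobalSpecMu S p` of the engine E1 from the leaves
GAD-7b, GAD-CAP (concrete datum) and GAD-EX/CM/J/INF stated for `G.CRep S L.Gal L.F`
(`GAD/Transport.lean`).  GAD-SU is closed (helper655, `GAD/SUnitDictH655.lean`).
-/




set_option autoImplicit false

namespace Fermat.Agent.S55.GAD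

open Fermat.Agent.S55 Fermat.Agent.S55.Tow

/-- `Tow.GlobalSpecMu S p` from the six open leaves (four of them in layer-G language). -/
theorem globalSpecMu_of_G (S : Finset Nat.Primes) (p : ℕ)
    (h7b : DivTrTransSpec S) (hCap : CapitulationSpec S p)
    (hEx : ExistenceSpecG S p) (hCM : ClassModuleSpecG S p)
    (hJ : JInjSpecG S p) (hInf : InfInjSpecG S p) : Tow.GlobalSpecMu S p :=
  globalSpecMu_of (H655.sUnitDict S) (fun {_ _ _} => h7b) hCap (existenceSpec_of_G S p hEx)
    (classModuleSpec_of_G S p hCM) (jInjSpec_of_G S p hJ) (fun {_ _} => infInjSpec_of_G S p hInf)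

end Fermat.Agent.S55.GAD

end
-- ===== PACK-END S55/GAD/Main.lean

-- ===== PACK-BEGIN S55/GAD/Final.lean
section
/-
S55 / G-ADAPTER (sub-architect helper955): **FINAL WIRING of layer G.**

`E1.GlobalInputSpec` (`E1/Inputs.lean`, the only open arithmetic input of the engine E1) from the
THREE leaves that are still open for the concrete tower datum `GAD.datum S p`:

* GAD-CM  = gd1 : `ClassModuleSpec S p`   (or `ClassModuleSpecG`, layer-G language),
* GAD-J   = gd3 : `JInjSpec S p`          (or `JInjSpecG`),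
* GAD-EX1 = one Kummer step of gd6 : `H233.ExistStepSpec S p`  (or `ExistStepSpecG`).

Everything else is closed on main and plugged in here:
GAD-SU (helper655), GAD-7b (helper655), GAD-CAP (helper57), GD5b (helper604),
GAD-DESC (helper901), GAD-INF from CM + DESC (helper953), GAD-EX from DESC + one step (helper233),
GAD-ISO + transport (helper897 J-bridge, `GAD/Iso.lean`, `GAD/Transport.lean`).
-/









set_option autoImplicit false

namespace Fermat.Agent.S55.GAD

open Fermat.Agent.S55 Fermat.Agent.S55.Tow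
open scoped Fermat.Agent.S55.E1.H594

/-- **GAD-DESC**, closed (helper901): the transition maps of the concrete datum are injective
with image the invariants. -/
theorem descSpec (S : Finset Nat.Primes) (hS : S.Nonempty) : H953.DescSpec S :=
  fun h => ⟨H901.trT_injective h hS, fun c hc => (H901.mem_range_trT_iff h hS c).2 hc⟩

/-- **Layer G, reduced to three leaves** (concrete language). -/
theorem globalSpecFin_of_three (S : Finset Nat.Primes) (p : ℕ) (hp : p.Prime)
    (hpS : (⟨p, hp⟩ : Nat.Primes) ∈ S)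
    (hCM : ClassModuleSpec S p) (hJ : JInjSpec S p) (hStep : H233.ExistStepSpec S p) :
    GlobalSpecFin S p :=
  have hS : S.Nonempty := ⟨_, hpS⟩
  have hD : H953.DescSpec S := descSpec S hS
  H604.globalSpecFin_of (H655.sUnitDict S) (fun {_ _ _} => H655.divTrTrans S)
    (H57.capitulation S p hp hpS) (H233.existence_of_step (fun {_ _} => hD) hStep) hCM hJ
    (fun {_ _} => H953.infInj_of hp hCM (fun {_ _} => hD))

/-- GAD-EX1 in layer-G language: ONE level `L₁ ≥ L₀` with
`N_{L₁/L₀} C_S(L₁) ⊆ p • C_S(L₁)^{Gal(L₁/L₀)}`. -/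
def ExistStepSpecG (S : Finset Nat.Primes) (p : ℕ) : Prop :=
  ∀ L₀ : Level S, L₀.HasMu p → ∃ (L₁ : Level S) (h₁ : L₀ ≤ L₁),
    @E1.NormInP p L₁.Gal _ (Level.relGal h₁) (Fintype.ofFinite _) (G.CRep S L₁.Gal L₁.F)

theorem existStepSpec_of_G (S : Finset Nat.Primes) (p : ℕ) (h : ExistStepSpecG S p) :
    H233.ExistStepSpec S p := by
  intro L₀ hμ
  obtain ⟨L₁, h₁, hN⟩ := h L₀ hμ
  refine ⟨L₁, h₁, ?_⟩
  let _ : Fintype (Level.relGal h₁) := Fintype.ofFinite _
  exact normInP_of_iso p (Level.relGal h₁) (isoC L₁) hN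

/-- **Layer G, reduced to three leaves** (layer-G language: statements about
`G.CRep S L.Gal L.F`). -/
theorem globalSpecFin_of_three_G (S : Finset Nat.Primes) (p : ℕ) (hp : p.Prime)
    (hpS : (⟨p, hp⟩ : Nat.Primes) ∈ S)
    (hCM : ClassModuleSpecG S p) (hJ : JInjSpecG S p) (hStep : ExistStepSpecG S p) :
    GlobalSpecFin S p :=
  globalSpecFin_of_three S p hp hpS (classModuleSpec_of_G S p hCM) (jInjSpec_of_G S p hJ)
    (existStepSpec_of_G S p hStep)

/-- **The global input of the engine E1 from the three open leaves.** -/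
theorem globalInputSpec_of
    (hCM : ∀ (p : ℕ) [Fact p.Prime], p ≠ 2 → ∀ S : Finset Nat.Primes, ExtCitation.pPrime p ∈ S →
      ClassModuleSpec S p)
    (hJ : ∀ (p : ℕ) [Fact p.Prime], p ≠ 2 → ∀ S : Finset Nat.Primes, ExtCitation.pPrime p ∈ S →
      JInjSpec S p)
    (hStep : ∀ (p : ℕ) [Fact p.Prime], p ≠ 2 → ∀ S : Finset Nat.Primes,
      ExtCitation.pPrime p ∈ S → H233.ExistStepSpec S p) :
    E1.GlobalInputSpec :=
  fun p _ hp2 S hpS =>
    globalSpecFin_of_three S p Fact.out hpS (hCM p hp2 S hpS) (hJ p hp2 S hpS)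
      (hStep p hp2 S hpS)

/-- The same in layer-G language. -/
theorem globalInputSpec_of_G
    (hCM : ∀ (p : ℕ) [Fact p.Prime], p ≠ 2 → ∀ S : Finset Nat.Primes, ExtCitation.pPrime p ∈ S →
      ClassModuleSpecG S p)
    (hJ : ∀ (p : ℕ) [Fact p.Prime], p ≠ 2 → ∀ S : Finset Nat.Primes, ExtCitation.pPrime p ∈ S →
      JInjSpecG S p)
    (hStep : ∀ (p : ℕ) [Fact p.Prime], p ≠ 2 → ∀ S : Finset Nat.Primes,
      ExtCitation.pPrime p ∈ S → ExistStepSpecG S p) :
    E1.GlobalInputSpec :=
  fun p _ hp2 S hpS =>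
    globalSpecFin_of_three_G S p Fact.out hpS (hCM p hp2 S hpS) (hJ p hp2 S hpS)
      (hStep p hp2 S hpS)

end Fermat.Agent.S55.GAD

end
-- ===== PACK-END S55/GAD/Final.lean

-- ===== PACK-BEGIN S55/GAD/TransH897.lean
section





/-!
# S55 / G-ADAPTER, leaf GAD-TR (helper897): transport of the REC2-TOW targets to the tower datum

The block REC2-TOW (helper417, `G/Rec/Tow/Spec.lean`) states its targets on the `S`-idèle class
module of layer G, `lvlC L = G.CRep S L.Gal L.F`.  The tower datum of the G-ADAPTER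
(`GAD/Defs.lean`) uses `CT L`.  This file transports along the comparison isomorphism
`cIso L : G.CRep S L.Gal L.F ≅ CT L` (`GAD/IsoH897.lean`):

* `isClassModuleAt_of_iso` : class modules at `p` are invariant under isomorphism (generic);
* `classModule_of_gd1 : TOW.Gd1Spec p → GAD.ClassModuleSpec S p`;
* `jInj_of_gd3 : TOW.Gd3Spec p → GAD.JInjSpec S p`.
-/

set_option autoImplicit false
set_option linter.style.haveILetI false
set_option linter.unusedSectionVars false

open CategoryTheory groupCohomology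
open scoped TensorProduct

namespace Fermat.Agent.S55.GAD.H897

open Fermat.Agent.S55 Fermat.Agent.S55.Tow Fermat.Agent.S55.E1.H594 Fermat.Agent.S55.G
open Fermat.Agent.S55.GAD Fermat.Agent.S55.G.LocH897

noncomputable section

/-! ### Generic: naturality of restriction, class modules and isomorphisms -/

section Generic

variable {Γ : Type} [Group Γ]

set_option backward.isDefEq.respectTransparency false in
/-- Restriction is natural in the coefficients. -/
theorem coeffMap_resMap {A B : Rep.{0} ℤ Γ} (f : A ⟶ B) (H : Subgroup Γ) (n : ℕ) :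
    T.coeffMap f n ≫ T.resMap B H n =
      T.resMap A H n ≫ T.coeffMap ((Rep.resFunctor H.subtype).map f) n :=
  (resNatTrans (k := ℤ) H.subtype n).naturality f

theorem coeffMap_resMap_apply {A B : Rep.{0} ℤ Γ} (f : A ⟶ B) (H : Subgroup Γ) (n : ℕ)
    (x : groupCohomology A n) :
    (T.resMap B H n).hom ((T.coeffMap f n).hom x) =
      (T.coeffMap ((Rep.resFunctor H.subtype).map f) n).hom ((T.resMap A H n).hom x) :=
  congrArg (fun φ => φ.hom x) (coeffMap_resMap f H n)

/-- The isomorphism `Hⁿ(H, C) ≅ Hⁿ(H, C')` induced by `Φ : C ≅ C'`. -/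
def subCohIso {C C' : Rep.{0} ℤ Γ} (Φ : C ≅ C') (H : Subgroup Γ) (n : ℕ) :
    groupCohomology (T.resSub C H) n ≅ groupCohomology (T.resSub C' H) n :=
  (groupCohomology.functor ℤ H n).mapIso ((Rep.resFunctor H.subtype).mapIso Φ)

lemma subCohIso_hom {C C' : Rep.{0} ℤ Γ} (Φ : C ≅ C') (H : Subgroup Γ) (n : ℕ) :
    (_root_.Fermat.Agent.S55.GAD.H897.subCohIso Φ H n).hom = T.coeffMap ((Rep.resFunctor H.subtype).map Φ.hom) n := rfl

variable [Finite Γ]

/-- Class modules at `p` are invariant under isomorphism. -/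
theorem isClassModuleAt_of_iso {C C' : Rep.{0} ℤ Γ} (Φ : C ≅ C') (p : ℕ)
    (γ : groupCohomology C 2) (h : E1.IsClassModuleAt p C γ) :
    E1.IsClassModuleAt p C' ((T.coeffMap Φ.hom 2).hom γ) := by
  intro H hH
  obtain ⟨h1, h2, h3⟩ := h H hH
  refine ⟨Limits.IsZero.of_iso h1 (_root_.Fermat.Agent.S55.GAD.H897.subCohIso Φ H 1).symm, ?_, fun x => ?_⟩
  · rw [← h2]
    exact Nat.card_congr (_root_.Fermat.Agent.S55.GAD.H897.subCohIso Φ H 2).symm.toLinearEquiv.toEquiv
  · obtain ⟨n, hn⟩ := h3 ((_root_.Fermat.Agent.S55.GAD.H897.subCohIso Φ H 2).inv.hom x)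
    refine ⟨n, ?_⟩
    have hx : x = (_root_.Fermat.Agent.S55.GAD.H897.subCohIso Φ H 2).hom.hom ((_root_.Fermat.Agent.S55.GAD.H897.subCohIso Φ H 2).inv.hom x) := by
      have := congrArg (fun φ => φ.hom x) (_root_.Fermat.Agent.S55.GAD.H897.subCohIso Φ H 2).inv_hom_id
      exact this.symm
    rw [hx, hn, map_nsmul, _root_.Fermat.Agent.S55.GAD.H897.subCohIso_hom, ← coeffMap_resMap_apply]

end Generic

/-! ### GD1: the class module -/

section CM

variable (S : Finset Nat.Primes) {p : ℕ}

/-- **GAD-CM from REC2-TOW.**  `Gd1Spec` (fundamental class at `p` on `C_S(F)`) gives the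
class-module leaf of the G-ADAPTER. -/
theorem classModule_of_gd1 (hp : p.Prime) (hp2 : p ≠ 2) (hpS : (⟨p, hp⟩ : Nat.Primes) ∈ S)
    (h : G.Rec.TOW.Gd1Spec p) : ClassModuleSpec S p := by
  intro L hL
  obtain ⟨γ, hγ⟩ := h S hp hp2 hpS L hL
  exact ⟨_, _root_.Fermat.Agent.S55.GAD.H897.isClassModuleAt_of_iso (cIso L) p γ hγ⟩

end CM

/-! ### GD3: local–global injectivity -/

section J

variable {S : Finset Nat.Primes} (L : Level S) (q : S)

/-- The components at `q' ≠ q` of an element of the `q`-component of `J_S(F)` are trivial. -/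
lemma evQ_jInvLin_ne {q' : S} (h : q' ≠ q) (x : (L.J q.1).V) (g : L.Gal) :
    evQ L q' (asRingAut L.Gal S L.F g (((jInvLin L q x).toMul : (AS S L.F)ˣ) : AS S L.F)) = 1 := by
  rw [← oval_jTowFun, ← Jeval_jTowLin, jTowLin_jInvLin_ne L q h x]
  rfl

lemma asRingAut_one_tmul (g : L.Gal) (y : QS S) :
    asRingAut L.Gal S L.F g ((1 : L.F) ⊗ₜ[ℚ] y) = (1 : L.F) ⊗ₜ[ℚ] y := by
  rw [asRingAut_apply, asAut_tmul, smul_one]

open PL0H713 in
/-- The `q`-component of `J_S(F)` dies in `J_{S∖{q}}(F)`: ring level. -/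
lemma asRes_jInvLin (x : (L.J q.1).V) :
    asRes (Finset.erase_subset q.1 S) L.F (((jInvLin L q x).toMul : (AS S L.F)ˣ) : AS S L.F)
      = 1 := by
  set h := Finset.erase_subset q.1 S with hh
  set u : AS S L.F := (((jInvLin L q x).toMul : (AS S L.F)ˣ) : AS S L.F) with hu
  haveI := LocH897.isArtinianRing_AS (S.erase q.1) L.F
  haveI := isReduced_AS (S.erase q.1) L.F
  haveI := LocH897.isArtinianRing_AS S L.F
  rw [← sub_eq_zero]
  apply eq_zero_of_forall_mem_maximal
  intro 𝔫 h𝔫
  haveI : 𝔫.IsPrime := h𝔫.isPrime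
  have h𝔪 : (𝔫.comap (asRes h L.F)).IsMaximal := IsArtinianRing.isMaximal_of_isPrime _
  obtain ⟨q', g, hq'⟩ := evQ_cover L _ h𝔪
  have hne : q' ≠ q := by
    rintro rfl
    have h0 : ((1 : L.F) ⊗ₜ[ℚ] single S q' 1 : AS S L.F) ∈ 𝔫.comap (asRes h L.F) := by
      rw [Ideal.mem_comap, asRes_tmul]
      have : QS.res h (single S q' 1) = 0 := by
        apply QS_ext
        intro r
        rw [QS.res_apply, map_zero, Pi.zero_apply]
        apply single_apply_ne
        intro hr
        have := congrArg Subtype.val hr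
        exact (Finset.mem_erase.1 r.2).1 this
      rw [this, TensorProduct.tmul_zero]
      exact 𝔫.zero_mem
    rw [hq', asRingAut_one_tmul, evQ_one_tmul_single, map_one] at h0
    exact one_ne_zero h0
  have h1 : u - 1 ∈ 𝔫.comap (asRes h L.F) := by
    rw [hq', map_sub, map_sub, map_one, map_one, evQ_jInvLin_ne L q hne x g, sub_self]
  rw [Ideal.mem_comap, map_sub, map_one] at h1
  exact h1

/-- The `q`-component of `J_S(F)` dies in `J_{S∖{q}}(F)`. -/
lemma jRes_jInvLin (x : (L.J q.1).V) :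
    jRes (Finset.erase_subset q.1 S) L.F (jInvLin L q x) = 0 := by
  apply Additive.toMul.injective
  apply Units.ext
  exact asRes_jInvLin L q x

/-- The inclusion of the `q`-component followed by the projection to `J_{S∖{q}}` is zero. -/
theorem jTowInv_comp_jRes :
    jTowInv L q ≫ G.Rec.TOW.jResRepHom L.Gal L.F (Finset.erase_subset q.1 S) = 0 := by
  ext x
  exact jRes_jInvLin L q x

/-- `Φ ∘ j ∘ (inclusion of the q-component) = j_q` : the structure map `jT` of the tower datum
is the composite of the inclusion of the `q`-component of `J_S(F)`, the map `J_S → C_S` of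
layer G and the comparison isomorphism. -/
theorem jTowInv_comp_lvlj :
    jTowInv L q ≫ jToCRepHom S L.Gal L.F ≫ (cIso L).hom = jT L q.1 := by
  classical
  ext x
  show (cIso L).hom.hom ((jToCRepHom S L.Gal L.F).hom (jInvLin L q x)) = (jT L q.1).hom x
  rw [cIso_jToC, jT_apply_of_mem]
  congr 1
  refine Prod.ext (funext fun q' => ?_) rfl
  show (jTow L q').hom ((jTowInv L q).hom x) = Pi.single (M := fun q : S => (L.J q.1).V) q x q'
  by_cases h : q' = q
  · subst h
    rw [Pi.single_eq_same]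
    exact jTow_jTowInv_same L q' x
  · rw [Pi.single_eq_of_ne h]
    exact jTow_jTowInv_ne L q h x

variable (S) in
/-- **GAD-J from REC2-TOW.**  `Gd3Spec` (injectivity of `j_*` on `p`-primary classes of
`H²(Gal(F/ℚ), J_S(F))` concentrated at one prime) gives the leaf `JInjSpec` of the G-ADAPTER. -/
theorem jInj_of_gd3 {p : ℕ} (h : G.Rec.TOW.Gd3Spec p) : JInjSpec S p := by
  intro L _ q hq y hpy hjy
  set q' : S := ⟨q, hq⟩ with hq'
  set y' : groupCohomology (JRep L.Gal S L.F) 2 := (T.coeffMap (jTowInv L q') 2).hom y with hy'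
  have h1 : E1.IsPPrimary p y' := ⟨1, by rw [pow_one, hy', ← map_nsmul, hpy, map_zero]⟩
  have h2 : G.Rec.TOW.IsAt S L.Gal L.F q y' := by
    show (T.coeffMap (G.Rec.TOW.jResRepHom L.Gal L.F (Finset.erase_subset q S)) 2).hom
      ((T.coeffMap (jTowInv L q') 2).hom y) = 0
    rw [T.H635.coeffMap_comp_apply]
    have := jTowInv_comp_jRes L q'
    rw [this, T.H635.coeffMap_zero_apply]
  have h3 : (T.coeffMap (jToCRepHom S L.Gal L.F) 2).hom y' = 0 := by
    have h4 : (T.coeffMap (cIso L).hom 2).hom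
        ((T.coeffMap (jToCRepHom S L.Gal L.F) 2).hom y') = 0 := by
      rw [hy', T.H635.coeffMap_comp_apply, T.H635.coeffMap_comp_apply, jTowInv_comp_lvlj]
      exact hjy
    have h5 := congrArg (fun φ => φ.hom ((T.coeffMap (jToCRepHom S L.Gal L.F) 2).hom y'))
      (cohIsoTop L 2).hom_inv_id
    have h6 : (cohIsoTop L 2).inv.hom ((T.coeffMap (cIso L).hom 2).hom
        ((T.coeffMap (jToCRepHom S L.Gal L.F) 2).hom y')) =
        (T.coeffMap (jToCRepHom S L.Gal L.F) 2).hom y' := h5
    rw [← h6, h4, map_zero]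
  have h7 : y' = 0 := h S L q hq y' h1 h2 h3
  have h8 : y = (T.coeffMap (jTow L q') 2).hom y' := by
    rw [hy', T.H635.coeffMap_comp_apply, jTowInv_comp_jTow, T.H635.coeffMap_id_apply]
  rw [h8, h7, map_zero]

end J

end

end Fermat.Agent.S55.GAD.H897

end
-- ===== PACK-END S55/GAD/TransH897.lean

-- ===== PACK-BEGIN S55/G/Exist121/Main.lean
section




/-!
# S55, layer G, block EXIST: assembly of the existence theorem mod `p` (finite-level core)

Author: helper121.  Everything except the reciprocity input `PClassModuleSpec` is closed: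

* `shaBound_of_classModule : PClassModuleSpec → ShaBoundSpec`  (EX-SHA);
* `count_of_classModule : PClassModuleSpec → CountSpec`  (EX-CNT);
* **`existCore_of_classModule : PClassModuleSpec → ExistCoreSpec`**  (the existence theorem mod
  `p` for a finite `p`-group `G` acting on a `p`-Kummer-saturated `L`, unramified outside `S`).
-/

set_option autoImplicit false

noncomputable section

namespace Fermat.Agent.S55.G.Exist121

open Fermat.Agent.S55 Fermat.Agent.S55.G

/-- EX-POW, closed (helper901 + helper604/helper597). -/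
theorem powIndex : PowIndexSpec :=
  Exist.H901.powIndexSpec_of FIClosedH604.placePrime

/-- EX-SHA from the class-module input. -/
theorem shaBound_of_classModule (hCM : PClassModuleSpec) : ShaBoundSpec :=
  shaBound_of Exist.H361.kummerFieldSpec (recip_of hCM) descentTop

/-- EX-CNT from the class-module input. -/
theorem count_of_classModule (hCM : PClassModuleSpec) : CountSpec :=
  count_of powIndex (shaBound_of_classModule hCM)

/-- **The existence theorem mod `p`, finite-level core**, from the class-module input. -/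
theorem existCore_of_classModule (hCM : PClassModuleSpec) : ExistCoreSpec :=
  existCore_of (recip_of hCM) descentTop (count_of_classModule hCM)

end Fermat.Agent.S55.G.Exist121

end
end
-- ===== PACK-END S55/G/Exist121/Main.lean

-- ===== PACK-BEGIN S55/GAD/ExistH121.lean
section




/-!
# S55 / G-ADAPTER, leaf GAD-EX (gd6): the existence theorem mod `p` for the tower datum

Author: helper121.  `p` an odd prime, `p ∈ S`.

* `existenceSpecG_of_core : ExistCoreSpec → GAD.ExistenceSpecG S p`  (layer-G language);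
* `existenceSpec_of_core : ExistCoreSpec → GAD.ExistenceSpec S p`  (concrete datum `CT L`);
* **`existenceSpec_of_classModule : G.PClassModuleSpec → GAD.ExistenceSpec S p`**: gd6 is closed
  modulo the reciprocity input `PClassModuleSpec` (layer G, block REC).

No descent hypothesis is needed (transitivity of norms is done in layer-G language,
`Exist121.norm_in_p_trans`, with helper773's descent).
-/

set_option autoImplicit false

noncomputable section

namespace Fermat.Agent.S55.GAD.H121

open Fermat.Agent.S55 Fermat.Agent.S55.Tow Fermat.Agent.S55.G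

variable (S : Finset Nat.Primes) (p : ℕ) [hp : Fact p.Prime]

/-- gd6 in layer-G language from the finite-level existence theorem. -/
theorem existenceSpecG_of_core (hp2 : p ≠ 2) (hpS : (⟨p, hp.out⟩ : Nat.Primes) ∈ S)
    (hCore : Exist121.ExistCoreSpec) : GAD.ExistenceSpecG S p :=
  Exist121.existenceG_of_core p hp2 hpS hCore

/-- gd6 for the concrete tower datum from the finite-level existence theorem. -/
theorem existenceSpec_of_core (hp2 : p ≠ 2) (hpS : (⟨p, hp.out⟩ : Nat.Primes) ∈ S)
    (hCore : Exist121.ExistCoreSpec) : GAD.ExistenceSpec S p :=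
  GAD.existenceSpec_of_G S p (existenceSpecG_of_core S p hp2 hpS hCore)

/-- gd6 in layer-G language, modulo the class-module input of layer G. -/
theorem existenceSpecG_of_classModule (hp2 : p ≠ 2) (hpS : (⟨p, hp.out⟩ : Nat.Primes) ∈ S)
    (hCM : PClassModuleSpec) : GAD.ExistenceSpecG S p :=
  existenceSpecG_of_core S p hp2 hpS (Exist121.existCore_of_classModule hCM)

/-- **gd6 for the concrete tower datum, modulo the class-module input of layer G.** -/
theorem existenceSpec_of_classModule (hp2 : p ≠ 2) (hpS : (⟨p, hp.out⟩ : Nat.Primes) ∈ S)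
    (hCM : PClassModuleSpec) : GAD.ExistenceSpec S p :=
  existenceSpec_of_core S p hp2 hpS (Exist121.existCore_of_classModule hCM)

end Fermat.Agent.S55.GAD.H121

end
end
-- ===== PACK-END S55/GAD/ExistH121.lean

-- ===== PACK-BEGIN S55/G/AllH604.lean
section
/-
S55, layer G — CLOSED FORMS (helper604 glue): every Spec of `G/Spec.lean`, `G/Spec1b.lean` that
is provable from what is on main, unconditionally, under ONE import.

* structure: `classShortExact`, `classGroupFinite`, `locField`, `placePrime`, `shapiroJ`, `h1J`,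
  `descent`;
* inequalities: `firstInequality`, `firstInequalityCyc`, `secondInequality`, `cyclicLayer`;
* output: `pClassUpper : PClassUpperSpec` (G-UP), `cyclicPow : CyclicPowSpec` (G-CYCp).

Open in the layer after this file: `PClassModuleSpec` (lower bound = reciprocity, block REC),
`SIndepSpec`.  No `sorry`.
-/







set_option autoImplicit false

open Fermat.Agent.S55.G

namespace Fermat.Agent.S55.G.AllH604

/-- **G-SES** (helper604). -/
theorem classShortExact : ClassShortExactSpec := SesSpecH604.classShortExactSpec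

/-- **G-CL** (helper604). -/
theorem classGroupFinite : ClassGroupFiniteSpec := SesSpecH604.classGroupFiniteSpec

/-- **G-PL0** (helper713). -/
theorem locField : LocFieldSpec := PL0H713.locField

/-- **G-PL1** (helper597). -/
theorem placePrime : PlacePrimeSpec := PL1H597.placePrimeSpec

/-- **G-LOC** (helper897, helper303, helper635). -/
theorem shapiroJ : ShapiroJSpec := JGlueH604.shapiroJ

/-- **G-H1J** (helper604). -/
theorem h1J : H1JSpec := H1JH604.h1JSpec

/-- **G-DESC** (helper773). -/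
theorem descent : DescentSpec := DescH773.descentSpec

/-- **G-FI** (helper895, helper595, helper903, helper604). -/
theorem firstInequality : FirstInequalitySpec := FIClosedH604.firstInequality

/-- **G-FIc** (helper895, helper595, helper903, helper604). -/
theorem firstInequalityCyc : FirstInequalityCycSpec := FIClosedH604.firstInequalityCyc

/-- **G-SI** (helper963, helper777, helper357). -/
theorem secondInequality : SecondInequalitySpec := Fermat.Agent.S55.H963.Br.secondInequality

/-- **G-CYC** (helper119). -/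
theorem cyclicLayer : CyclicLayerSpec := UpH119.cyclicLayer_of firstInequality secondInequality

/-- **G-UP** (helper119): for a `p`-group `G` (`p` odd, `p ∈ S`, unramified outside `S`,
`μ_p ⊂ L^G`): `H¹(H, C_S(L)) = 0` and `|H²(H, C_S(L))|` divides `|H|` for all `H ≤ G`. -/
theorem pClassUpper : PClassUpperSpec :=
  UpH119.pClassUpper_of_inequalities firstInequality secondInequality descent

/-- **G-CYCp** (helper184): cyclic `p`-power layers: `H¹ = 0`, `|H²| = |G|`. -/
theorem cyclicPow : CyclicPowSpec := CycPowH184.cyclicPow_of pClassUpper firstInequalityCyc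

end Fermat.Agent.S55.G.AllH604

end
-- ===== PACK-END S55/G/AllH604.lean

-- ===== PACK-BEGIN S55/GAD/Closed.lean
section
/-
S55 / G-ADAPTER (sub-architect helper955): **LAYER G, CLOSED FORM.**

`globalInputSpec_of_finRec` : the only open arithmetic input of the engine E1,
`E1.GlobalInputSpec` (`E1/Inputs.lean`), follows from ONE remaining leaf of layer G:

    `∀ odd primes p, G.Rec.TOW.FinRecSpec p`       (= `Nonempty (SemiLocalInv p)`,
      the finite-level semilocal invariants with reciprocity; block REC2-TOW:FR).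

Plugged in from main (all sorry-free):
* gd1 / gd3 on `C_S(F)`: `TOW.H417.gd1`, `TOW.H417.gd3` (helper417 + TOW leaf owners),
  with G-UP `G.AllH604.pClassUpper`, descent `TOW.H934.desc`, independence of `S`
  `G.SIndH601.sIndep`, auxiliary level `TOW.H978.ram`;
* the universal class module `G.PClassModuleSpec`: `G.CM.pClassModule_of_leaves` (helper893) with
  leaves H893 (GCL), H514 (SUBCM), H954 (ORD), H587 (DESCI), H139 (SINDT);
* gd6: `GAD.H121.existenceSpec_of_classModule` (helper121);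
* transports to the concrete datum: `GAD.H897.classModule_of_gd1`, `GAD.H897.jInj_of_gd3`;
* gd8: `GAD.H953.infInj_of` + GAD-DESC `GAD.H901` (via `GAD.descSpec`);
* gd4, gd5, GD5b, gd7: `GAD.H655.sUnitDict`, `GAD.H57.capitulation`, `GAD.H604.globalSpecFin_of`,
  `GAD.H655.divTrTrans`.
-/















set_option autoImplicit false

namespace Fermat.Agent.S55.GAD

open Fermat.Agent.S55 Fermat.Agent.S55.Tow

/-- The hypothesis: finite-level reciprocity for every odd prime. -/
def FinRecAllSpec : Prop := ∀ p : ℕ, p.Prime → p ≠ 2 → G.Rec.TOW.FinRecSpec p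

/-- gd1 on every Tower level, for every `p` (vacuous unless `p` is an odd prime). -/
theorem gd1_of_finRec (hFR : FinRecAllSpec) (p : ℕ) : G.Rec.TOW.Gd1Spec p := by
  intro S hp hp2 hpS
  obtain ⟨I⟩ := hFR p hp hp2
  exact G.Rec.TOW.H417.gd1 hp I G.AllH604.pClassUpper G.Rec.TOW.H934.desc G.SIndH601.sIndep
    (G.Rec.TOW.H978.ram p) S hp hp2 hpS

/-- gd3 on every Tower level, for every odd prime `p`. -/
theorem gd3_of_finRec (hFR : FinRecAllSpec) (p : ℕ) (hp : p.Prime) (hp2 : p ≠ 2) :
    G.Rec.TOW.Gd3Spec p := by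
  obtain ⟨I⟩ := hFR p hp hp2
  exact G.Rec.TOW.H417.gd3 hp I

/-- The universal class-module property for `p`-groups (layer G, block CM). -/
theorem pClassModule_of_finRec (hFR : FinRecAllSpec) : G.PClassModuleSpec :=
  G.CM.pClassModule_of_leaves G.AllH604.pClassUpper (gd1_of_finRec hFR)
    G.CM.H893.closureLevel G.CM.H514.subClassModuleSpec G.CM.H954.quotOrder
    (G.CM.H587.descIncl_of G.AllH604.descent) (G.CM.H139.sindTop_of G.SIndH601.sIndep)

/-- **Layer G for one `(S, p)`**: the good tower datum (final form) from finite-level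
reciprocity. -/
theorem globalSpecFin_of_finRec (hFR : FinRecAllSpec) (S : Finset Nat.Primes) (p : ℕ)
    [hp : Fact p.Prime] (hp2 : p ≠ 2) (hpS : (⟨p, hp.out⟩ : Nat.Primes) ∈ S) :
    GlobalSpecFin S p :=
  have hCM : ClassModuleSpec S p :=
    H897.classModule_of_gd1 S hp.out hp2 hpS (gd1_of_finRec hFR p)
  H604.globalSpecFin_of (H655.sUnitDict S) (fun {_ _ _} => H655.divTrTrans S)
    (H57.capitulation S p hp.out hpS)
    (H121.existenceSpec_of_classModule S p hp2 hpS (pClassModule_of_finRec hFR)) hCM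
    (H897.jInj_of_gd3 S (gd3_of_finRec hFR p hp.out hp2))
    (fun {_ _} => H953.infInj_of hp.out hCM (fun {_ _} => descSpec S ⟨_, hpS⟩))

/-- **LAYER G, CLOSED FORM**: the global input of the engine E1 from finite-level reciprocity. -/
theorem globalInputSpec_of_finRec (hFR : FinRecAllSpec) : E1.GlobalInputSpec :=
  fun p _ hp2 S hpS => globalSpecFin_of_finRec hFR S p hp2 hpS

end Fermat.Agent.S55.GAD

end
-- ===== PACK-END S55/GAD/Closed.lean

-- ===== PACK-BEGIN S55/G/Rec/Tow/FR/OrbitRepsH897.lean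
section



/-!
# S55 / REC2-TOW / FR, leaf FR-B (helper897): places = double cosets

`orbitReps : OrbitRepsSpec` : every place `𝔪` of `M` above `W` is `H`-conjugate to
`placeOf q g` for a unique pair `(q, g)`, `q ∈ W`, `g ∈ reps (UH M H) q`.

* `evAlg_mul_loc`, `placeOf_mul_loc` : `placeOf q (g · loc τ) = placeOf q g`;
* `placeOf_mul_left` : `placeOf q (u g) = ū • placeOf q g`;
* `primeOf_placeOf` : `placeOf q g` lies over `q`;
* `exists_placeOf_eq` : every place is some `placeOf q g` (transitivity of the Galois action);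
* `exists_loc_of_placeOf_eq` : `placeOf q a = placeOf q b ⇒ b ∈ M.U · a · D_q`.
-/

set_option autoImplicit false
set_option linter.unusedSectionVars false
set_option linter.style.haveILetI false

open CategoryTheory groupCohomology
open scoped TensorProduct

noncomputable section

namespace Fermat.Agent.S55.G.Rec.TOW.FR.H897

open Fermat.Agent.S55 Fermat.Agent.S55.Tow Fermat.Agent.S55.E1.H594 Fermat.Agent.S55.G.Rec
open Fermat.Agent.S55.G Fermat.Agent.S55.G.PL0H713 Fermat.Agent.S55.G.LocH897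

local notation "Qb" => AlgebraicClosure ℚ
local notation "GQ" => (AlgebraicClosure ℚ ≃ₐ[ℚ] AlgebraicClosure ℚ)

section Basic

variable {S : Finset Nat.Primes} (M : Level S) (W : Finset Nat.Primes) (q : ℕ)
  [hq : Fact q.Prime] (hqW : (⟨q, hq.out⟩ : Nat.Primes) ∈ W)

/-- `ev_{q, g·loc τ} = τ⁻¹ ∘ ev_{q,g}`. -/
lemma evAlg_mul_loc (g : GQ) (τ : PadicAlgCl q ≃ₐ[ℚ_[q]] PadicAlgCl q) (a : G.AS W M.F) :
    evAlg M W q hqW (g * localGaloisToGlobal q τ) a = τ⁻¹ (evAlg M W q hqW g a) := by
  induction a using TensorProduct.induction_on with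
  | zero => simp
  | add a b ha hb => simp only [map_add, ha, hb]
  | tmul x y =>
    rw [evAlg_tmul, evAlg_tmul, map_mul, AlgEquiv.commutes]
    congr 1
    rw [← padicEmbedding_localGaloisToGlobal]
    congr 1
    simp [AlgEquiv.mul_apply]

lemma placeOf_mul_loc (g : GQ) (τ : PadicAlgCl q ≃ₐ[ℚ_[q]] PadicAlgCl q) :
    placeOf M W q hqW (g * localGaloisToGlobal q τ) = placeOf M W q hqW g := by
  refine MaximalSpectrum.ext (Ideal.ext fun a => ?_)
  rw [mem_placeOf, mem_placeOf, evAlg_mul_loc]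
  exact (τ⁻¹ : PadicAlgCl q ≃ₐ[ℚ_[q]] PadicAlgCl q).map_eq_zero_iff

lemma placeOf_mul_left (u g : GQ) :
    placeOf M W q hqW (u * g) =
      G.sPlaceSMul W M.Gal (QuotientGroup.mk u : M.Gal) (placeOf M W q hqW g) := by
  refine MaximalSpectrum.ext (Ideal.ext fun a => ?_)
  rw [mem_placeOf, G.mem_sPlaceSMul_iff, mem_placeOf, evAlg_mul_left]
  rfl

lemma evAlg_one_tmul_single (g : GQ) :
    evAlg M W q hqW g ((1 : M.F) ⊗ₜ[ℚ] single W ⟨⟨q, hq.out⟩, hqW⟩ 1) = 1 := by
  rw [evAlg_tmul]
  have h1 : (single W ⟨⟨q, hq.out⟩, hqW⟩ (1 : Qq ⟨q, hq.out⟩)) ⟨⟨q, hq.out⟩, hqW⟩ = 1 :=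
    single_apply_same W ⟨⟨q, hq.out⟩, hqW⟩ 1
  rw [h1]
  simp

/-- The place `placeOf q g` lies over `q`. -/
theorem primeOf_placeOf (g : GQ) :
    primeOf W M.F (placeOf M W q hqW g) = ⟨⟨q, hq.out⟩, hqW⟩ := by
  by_contra hne
  have h1 : LocField.mk W (placeOf M W q hqW g)
      ((1 : M.F) ⊗ₜ[ℚ] single W ⟨⟨q, hq.out⟩, hqW⟩ 1) = 0 := by
    rw [mk_one_tmul, single_apply_ne W _ _ hne, map_zero]
  rw [LocField.mk_eq_zero_iff, mem_placeOf, evAlg_one_tmul_single] at h1
  exact one_ne_zero h1

/-- Every place over `q` is `placeOf q g` for some `g ∈ G_ℚ`. -/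
theorem exists_placeOf_eq (𝔪 : G.SPlace W M.F)
    (h𝔪 : primeOf W M.F 𝔪 = ⟨⟨q, hq.out⟩, hqW⟩) :
    ∃ g : GQ, placeOf M W q hqW g = 𝔪 := by
  obtain ⟨γ, hγ⟩ := exists_sPlaceSMul_eq W M.Gal M.F (level_hfix M)
    (placeOf M W q hqW 1) 𝔪 ((primeOf_placeOf M W q hqW 1).trans h𝔪.symm)
  obtain ⟨u, rfl⟩ := QuotientGroup.mk_surjective γ
  exact ⟨u * 1, (placeOf_mul_left M W q hqW u 1).trans hγ⟩

/-! ### The stabiliser of `placeOf q 1` -/

/-- The level `M` as a level of `S ∪ W`. -/
def lvlUnion : Level (S ∪ W) := Level.ofLE Finset.subset_union_left M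

/-- `q` as an element of `S ∪ W`. -/
def qUnion : (S ∪ W : Finset Nat.Primes) := ⟨⟨q, hq.out⟩, Finset.mem_union_right S hqW⟩

/-- The J-bridge evaluation `M ⊗ ℚ_{S ∪ W} → ℚ̄_q` (typed on `M.F`). -/
def evUn : G.AS (S ∪ W) M.F →ₐ[ℚ] PadicAlgCl q :=
  evQ (lvlUnion M W) (qUnion (S := S) W q hqW)

lemma evUn_tmul (x : M.F) (y : G.QS (S ∪ W)) :
    evUn M W q hqW (x ⊗ₜ[ℚ] y) = padicEmbedding q (x : Qb) *
      algebraMap ℚ_[q] (PadicAlgCl q) (y ⟨⟨q, hq.out⟩, Finset.mem_union_right S hqW⟩) :=
  evQ_tmul (lvlUnion M W) (qUnion (S := S) W q hqW) x y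

/-- The evaluation `ev_{q,1}` on `M ⊗ ℚ_W` and the J-bridge evaluation on `M ⊗ ℚ_{S ∪ W}`. -/
lemma evAlg_asRes_eq_evUn (a : G.AS (S ∪ W) M.F) :
    evAlg M W q hqW 1 (G.asRes (Finset.subset_union_right : W ⊆ S ∪ W) M.F a) =
      evUn M W q hqW a := by
  induction a using TensorProduct.induction_on with
  | zero => simp
  | add a b ha hb => simp only [map_add, ha, hb]
  | tmul x y =>
    rw [G.asRes_tmul, evAlg_tmul, evUn_tmul]
    simp only [inv_one, AlgEquiv.one_apply]
    rfl

/-- An element of `Gal(M/ℚ)` fixing the place `placeOf q 1` comes from the local Galois group. -/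
theorem exists_loc_of_stab (s : M.Gal)
    (hs : G.sPlaceSMul W M.Gal s (placeOf M W q hqW 1) = placeOf M W q hqW 1) :
    ∃ τ : PadicAlgCl q ≃ₐ[ℚ_[q]] PadicAlgCl q,
      (QuotientGroup.mk (localGaloisToGlobal q τ) : M.Gal) = s := by
  have h1 : ∀ a : G.AS W M.F, evAlg M W q hqW 1 (G.asAut W M.Gal M.F s a) = 0 ↔
      evAlg M W q hqW 1 a = 0 := by
    intro a
    have h2 := G.mem_sPlaceSMul_iff W M.Gal s (placeOf M W q hqW 1) (G.asAut W M.Gal M.F s a)
    rw [hs, mem_placeOf, mem_placeOf] at h2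
    rw [h2]
    have h3 : G.asAut W M.Gal M.F s⁻¹ (G.asAut W M.Gal M.F s a) = a := by
      rw [map_inv]
      exact (G.asAut W M.Gal M.F s).symm_apply_apply a
    rw [h3]
  have h4 : ∀ x : G.AS (S ∪ W) M.F,
      evUn M W q hqW (G.asAut (S ∪ W) M.Gal M.F s x) = 0 ↔ evUn M W q hqW x = 0 := by
    intro x
    rw [← evAlg_asRes_eq_evUn, ← evAlg_asRes_eq_evUn,
      G.asRes_asAut (Finset.subset_union_right : W ⊆ S ∪ W) M.F M.Gal s x]
    exact h1 _
  obtain ⟨τ, hτ⟩ := exists_locGal_eq (lvlUnion M W) (qUnion (S := S) W q hqW) s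
    (fun x => h4 x)
  exact ⟨τ, hτ⟩

/-- Two elements of `G_ℚ` inducing the same place over `q` lie in the same double coset
`M.U \ G_ℚ / D_q`. -/
theorem exists_of_placeOf_eq (a b : GQ) (h : placeOf M W q hqW a = placeOf M W q hqW b) :
    ∃ m ∈ M.U, ∃ τ : PadicAlgCl q ≃ₐ[ℚ_[q]] PadicAlgCl q,
      b = m * a * localGaloisToGlobal q τ := by
  have h1 : placeOf M W q hqW (a⁻¹ * b) = placeOf M W q hqW 1 := by
    rw [placeOf_mul_left, ← h, ← placeOf_mul_left, inv_mul_cancel]
  have h2 : G.sPlaceSMul W M.Gal (QuotientGroup.mk (a⁻¹ * b) : M.Gal) (placeOf M W q hqW 1) =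
      placeOf M W q hqW 1 := by
    rw [← placeOf_mul_left, mul_one, h1]
  obtain ⟨τ, hτ⟩ := exists_loc_of_stab M W q hqW _ h2
  have h3 : (localGaloisToGlobal q τ)⁻¹ * (a⁻¹ * b) ∈ M.U := by
    rw [← QuotientGroup.eq]
    exact hτ
  refine ⟨(a * localGaloisToGlobal q τ) * ((localGaloisToGlobal q τ)⁻¹ * (a⁻¹ * b)) *
    (a * localGaloisToGlobal q τ)⁻¹, ?_, τ, ?_⟩
  · exact M.normalU.conj_mem _ h3 _
  · group

end Basic

/-! ### The action of a subgroup -/

section Sub

variable {S : Finset Nat.Primes} (M : Level S) (H : Subgroup M.Gal) (W : Finset Nat.Primes)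

lemma sPlaceSMul_sub (h : ↥H) (𝔪 : G.SPlace W M.F) :
    G.sPlaceSMul W ↥H h 𝔪 = G.sPlaceSMul W M.Gal (h : M.Gal) 𝔪 := rfl

end Sub

section Main

variable {S : Finset Nat.Primes} (M : Level S) (H : Subgroup M.Gal) (W : Finset Nat.Primes)
  (q : ℕ) [hq : Fact q.Prime] (hqW : (⟨q, hq.out⟩ : Nat.Primes) ∈ W)

/-- A place conjugate to `placeOf q g` lies over `q`. -/
lemma primeOf_eq_of_smul (g : GQ) (h : ↥H) (𝔪 : G.SPlace W M.F)
    (hh : G.sPlaceSMul W ↥H h (placeOf M W q hqW g) = 𝔪) :
    primeOf W M.F 𝔪 = ⟨⟨q, hq.out⟩, hqW⟩ := by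
  rw [← hh, primeOf_sPlaceSMul, primeOf_placeOf]

/-- Existence and uniqueness of the representative over a fixed prime `q`. -/
theorem exists_rep (𝔪 : G.SPlace W M.F) (h𝔪 : primeOf W M.F 𝔪 = ⟨⟨q, hq.out⟩, hqW⟩) :
    ∃ r ∈ reps (UH M H) q,
      (∃ h : ↥H, G.sPlaceSMul W ↥H h (placeOf M W q hqW r) = 𝔪) ∧
      ∀ g' ∈ reps (UH M H) q,
        (∃ h : ↥H, G.sPlaceSMul W ↥H h (placeOf M W q hqW g') = 𝔪) → g' = r := by
  obtain ⟨g₀, hg₀⟩ := exists_placeOf_eq M W q hqW 𝔪 h𝔪
  obtain ⟨r, ⟨hrR, u, hu, d, hd, hg⟩, hruniq⟩ := reps_spec (isOpenQ_UH M H) q g₀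
  obtain ⟨τ, rfl⟩ := hd
  refine ⟨r, hrR, ⟨⟨QuotientGroup.mk u, hu⟩, ?_⟩, ?_⟩
  · show G.sPlaceSMul W M.Gal (QuotientGroup.mk u) (placeOf M W q hqW r) = 𝔪
    rw [← placeOf_mul_left, ← placeOf_mul_loc M W q hqW (u * r) τ, ← hg, hg₀]
  · rintro g' hg' ⟨h', hh'⟩
    obtain ⟨⟨u', hu'⟩, rfl⟩ := piH_surjective M H h'
    have h3 : placeOf M W q hqW (u' * g') = placeOf M W q hqW g₀ := by
      rw [placeOf_mul_left, hg₀]
      exact hh'
    obtain ⟨m, hm, τ', hτ'⟩ := exists_of_placeOf_eq M W q hqW _ _ h3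
    apply hruniq g'
    refine ⟨hg', m * u', (UH M H).mul_mem (U_le_UH M H hm) hu', _, ⟨τ', rfl⟩, ?_⟩
    rw [hτ']
    group

end Main

/-- **FR-B.**  Every place of `M` above `W` is `H`-conjugate to `placeOf q g` for a unique pair
`(q, g)`, `q ∈ W`, `g ∈ reps (UH M H) q`. -/
theorem orbitReps : OrbitRepsSpec := by
  intro S M H W 𝔪
  haveI hF : Fact (((primeOf W M.F 𝔪).1 : ℕ).Prime) := ⟨(primeOf W M.F 𝔪).1.2⟩
  obtain ⟨r, hrR, hex, huniq⟩ :=
    exists_rep M H W ((primeOf W M.F 𝔪).1 : ℕ) (primeOf W M.F 𝔪).2 𝔪 rfl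
  refine ⟨⟨primeOf W M.F 𝔪, ⟨r, hrR⟩⟩, hex, ?_⟩
  rintro ⟨q', g', hg'⟩ ⟨h', hh'⟩
  have hq : primeOf W M.F 𝔪 = q' :=
    haveI : Fact ((q'.1 : ℕ).Prime) := ⟨q'.1.2⟩
    primeOf_eq_of_smul M H W (q'.1 : ℕ) q'.2 g' h' 𝔪 hh'
  subst hq
  have h4 : g' = r := huniq g' hg' ⟨h', hh'⟩
  subst h4
  rfl

end Fermat.Agent.S55.G.Rec.TOW.FR.H897

end
end
-- ===== PACK-END S55/G/Rec/Tow/FR/OrbitRepsH897.lean

-- ===== PACK-BEGIN S55/G/Rec/ReciprocityFull.lean
section




/-!
# S55 / layer G / block REC : THE RECIPROCITY LAW, unconditional in layer G  (helper1)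

* `hassePrincipleFull p hp : HassePrincipleSpec p` : the Hasse principle for the `p`-primary part
  of `Br(K)`, `K` any number field inside `ℚ̄`, `p` odd  (adapter HP of helper473 + the closed
  layer G of helper604: first and second inequality, `PClassUpperSpec`).
* **`reciprocityFull I p hp : ReciprocitySpec I p`** : for EVERY local invariant system `I`
  (`Rec/Spec.lean`), every odd prime `p`, every number field `K = ℚ̄^U` and every
  `x ∈ Br(K)` of `p`-power order: almost all `inv_v (x_v)` vanish and `∑_v inv_v (x_v) = 0`.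

The only remaining input of block REC is the existence of a `LocalInvSystem` (adapter `Rec/Loc`).
-/

set_option autoImplicit false

namespace Fermat.Agent.S55.G.Rec

/-- **Hasse principle**, `p` odd. -/
theorem hassePrincipleFull (p : ℕ) [Fact p.Prime] (hp : p ≠ 2) : HassePrincipleSpec p :=
  HP.hassePrinciple p hp G.AllH604.pClassUpper G.AllH604.classShortExact G.AllH604.shapiroJ

/-- **Reciprocity law**, `p` odd, for every local invariant system. -/
theorem reciprocityFull (I : LocalInvSystem) (p : ℕ) [Fact p.Prime] (hp : p ≠ 2) :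
    ReciprocitySpec I p :=
  reciprocity I p hp (hassePrincipleFull p hp)

end Fermat.Agent.S55.G.Rec

end
-- ===== PACK-END S55/G/Rec/ReciprocityFull.lean

-- ===== PACK-BEGIN S55/GAD/ClosedFR.lean
section
/-
S55 / G-ADAPTER (sub-architect helper955): **LAYER G, UNCONDITIONAL.**

`globalInputSpec : E1.GlobalInputSpec` — the global arithmetic input of the engine E1 (a good
tower datum in the final sense `Tow.GlobalSpecFin S p` for all odd `p ∈ S`), with NO hypothesis.

= `GAD.globalInputSpec_of_finRec` (`GAD/Closed.lean`) applied to the finite-level reciprocity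
`finRecAll`, assembled here from the landed FR pieces (block REC2-TOW:FR, architect helper353):
* `FR.H724.finRec_of_fields` (recip + resIndex closed by helper724; FR-CONJ helper414, FR-COUNT
  helper73, FR-OUT helper64/724),
* `injAt`   : `FR.H894.injAt_of` (helper894),
* `locClass`: `FR.H481.locClass_of` (helper481) with FR-D `FR.H233.primePlace`, FR-B
  `FR.H897.orbitReps`, FR-C `FR.H715.locExist`, FR-A `FR.H894.locInj`,
* reciprocity `G.Rec.reciprocityFull` (helper1, helper473 HP), local invariants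
  `G.Rec.Loc.localInvSystem` (helper477 + LOC leaf owners), Shapiro `G.AllH604.shapiroJ`.
-/











set_option autoImplicit false

namespace Fermat.Agent.S55.GAD

open Fermat.Agent.S55 Fermat.Agent.S55.Tow Fermat.Agent.S55.G.Rec Fermat.Agent.S55.G.Rec.TOW

/-- **Finite-level reciprocity** (`FinRecSpec p` for every odd prime `p`), closed. -/
theorem finRecAll : FinRecAllSpec := by
  intro p hp hp2
  have : Fact p.Prime := ⟨hp⟩
  exact FR.H724.finRec_of_fields Loc.localInvSystem p (reciprocityFull Loc.localInvSystem p hp2)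
    (fun M r y _ hat h0 => FR.H894.injAt_of Loc.localInvSystem G.AllH604.shapiroJ M r y hat h0)
    (fun M r hr H Z hZH hZ hfix =>
      FR.H481.locClass_of Loc.localInvSystem p (fun {_} => FR.H233.primePlace)
        (fun {_} => FR.H897.orbitReps) FR.H715.locExist (fun {_} => FR.H894.locInj)
        G.AllH604.shapiroJ M r hr H Z hZH hZ hfix)

/-- **LAYER G, UNCONDITIONAL**: the global input of the engine E1. -/
theorem globalInputSpec : E1.GlobalInputSpec := globalInputSpec_of_finRec finRecAll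

/-- The good tower datum (final form) for one `(S, p)`, unconditional. -/
theorem globalSpecFin (S : Finset Nat.Primes) (p : ℕ) [hp : Fact p.Prime] (hp2 : p ≠ 2)
    (hpS : (⟨p, hp.out⟩ : Nat.Primes) ∈ S) : GlobalSpecFin S p :=
  globalSpecFin_of_finRec finRecAll S p hp2 hpS

/-- The universal class-module property for `p`-groups (layer G), unconditional. -/
theorem pClassModule : G.PClassModuleSpec := pClassModule_of_finRec finRecAll

end Fermat.Agent.S55.GAD

end
-- ===== PACK-END S55/GAD/ClosedFR.lean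

-- ===== PACK-BEGIN S55/Cap/ClosedH303.lean
section



/-!
# S55 / layer K, input A8 (CAP): CLOSED FORM   (sub-architect helper303)

`PT.CapSpec p S` (input A8 of route C′, consumed by `PT.s55_of_four`, `PT.theoremD_of_four` and by
S56 BASE-BIG `H2FormulaSpec`) from the ONE open leaf of layer G, the finite reciprocity dictionary
`GAD.FinRecAllSpec = ∀ odd p, G.Rec.TOW.FinRecSpec p`:

* `capSpec_of_finRec : (∀ p, p.Prime → p ≠ 2 → G.Rec.TOW.FinRecSpec p) → p ≠ 2 → pPrime p ∈ S →
    PT.CapSpec p S`   (the hypothesis is `GAD.FinRecAllSpec` = `Fin.FinRecAllSpec`, unfolded);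
* `globalSpecCap_of_finRec`, `isGoodMu_of_finRec` : the intermediate inputs.

Everything else is consumed from main: the seven leaves of `Cap/Spec.lean` (`Cap/AssemblyH303.lean`)
and the closed leaves of layer G exactly as in `GAD/Closed.lean`.
-/

set_option autoImplicit false

noncomputable section

namespace Fermat.Agent.S55.Cap.H303

open Fermat.Agent.S55.PT Fermat.Agent.S55.Tow Fermat.Agent.S55.Cap ExtCitation

/-- The concrete tower datum is good above `μ_p`, modulo finite reciprocity. -/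
theorem isGoodMu_of_finRec (hFR : ∀ p : ℕ, p.Prime → p ≠ 2 → G.Rec.TOW.FinRecSpec p)
    {p : ℕ} [hp : Fact p.Prime] (hp2 : p ≠ 2) {S : Finset Nat.Primes} (hpS : pPrime p ∈ S) :
    (GAD.datum S p).IsGoodMu p := by
  have hFR' : GAD.FinRecAllSpec := hFR
  have hpS' : (⟨p, hp.out⟩ : Nat.Primes) ∈ S := hpS
  have hCM : GAD.ClassModuleSpec S p :=
    GAD.H897.classModule_of_gd1 S hp.out hp2 hpS' (GAD.gd1_of_finRec hFR' p)
  exact GAD.H604.isGoodMu_of (GAD.H655.sUnitDict S) (fun {_ _ _} => GAD.H655.divTrTrans S)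
    (GAD.H57.capitulation S p hp.out hpS')
    (GAD.H121.existenceSpec_of_classModule S p hp2 hpS' (GAD.pClassModule_of_finRec hFR')) hCM
    (GAD.H897.jInj_of_gd3 S (GAD.gd3_of_finRec hFR' p hp.out hp2))
    (fun {_ _} => GAD.H953.infInj_of hp.out hCM (fun {_ _} => GAD.descSpec S ⟨_, hpS'⟩))

/-- The input of layer G consumed by A8, modulo finite reciprocity. -/
theorem globalSpecCap_of_finRec (hFR : ∀ p : ℕ, p.Prime → p ≠ 2 → G.Rec.TOW.FinRecSpec p)
    {p : ℕ} [Fact p.Prime] (hp2 : p ≠ 2) {S : Finset Nat.Primes} (hpS : pPrime p ∈ S) :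
    GlobalSpecCap p S :=
  H713.globalSpecCap_of_isGoodMu ⟨_, hpS⟩ (isGoodMu_of_finRec hFR hp2 hpS)

/-- **A8 (CAP), closed modulo finite reciprocity.** -/
theorem capSpec_of_finRec (hFR : ∀ p : ℕ, p.Prime → p ≠ 2 → G.Rec.TOW.FinRecSpec p)
    {p : ℕ} [Fact p.Prime] (hp2 : p ≠ 2) {S : Finset Nat.Primes} (hpS : pPrime p ∈ S) :
    PT.CapSpec p S :=
  capSpec_of_isGoodMu hpS (isGoodMu_of_finRec hFR hp2 hpS)

end Fermat.Agent.S55.Cap.H303

end

end
-- ===== PACK-END S55/Cap/ClosedH303.lean

-- ===== PACK-BEGIN S55/G/Rec/ClosedH904.lean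
section











/-!
# S55 / layer G / block REC : CLOSED (unconditional) forms  (helper904)

Pure assembly of theorems on main; no new mathematics.

* `nonempty_localInvSystem : Nonempty LocalInvSystem`   (block REC-LOC closed);
* `hassePrinciple p (hp2) : HassePrincipleSpec p`        (adapter HP closed with layer G);
* `reciprocity p (hp2) I : ReciprocitySpec I p`          (for EVERY local invariant system);
* `exists_reciprocity : ∃ I, ∀ p odd prime, ReciprocitySpec I p`.
-/

set_option autoImplicit false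

namespace Fermat.Agent.S55.G.Rec.H904

open Fermat.Agent.S55 Fermat.Agent.S55.G.Rec

/-- **REC-LOC, closed**: a system of local invariant maps exists. -/
theorem nonempty_localInvSystem : Nonempty LocalInvSystem :=
  Loc.nonempty_localInvSystem_of L.Closed.inv Loc.H478.openSpec Loc.H894.descent Loc.H839.up
    Loc.H363.down Loc.H63.refine63 (Loc.H480.res_of Loc.H478.openSpec Loc.H894.descent)
    Loc.H483.unram Loc.H544.unif

/-- **Hasse principle, closed** (`p` odd). -/
theorem hassePrinciple (p : ℕ) [Fact p.Prime] (hp2 : p ≠ 2) : HassePrincipleSpec p :=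
  HP.hassePrinciple p hp2 G.AllH604.pClassUpper G.AllH604.classShortExact G.AllH604.shapiroJ

/-- **Reciprocity law, closed** (`p` odd), for every local invariant system. -/
theorem reciprocity (I : LocalInvSystem) (p : ℕ) [Fact p.Prime] (hp2 : p ≠ 2) :
    ReciprocitySpec I p :=
  Rec.reciprocity I p hp2 (hassePrinciple p hp2)

/-- **Reciprocity law, closed**: existence form. -/
theorem exists_reciprocity :
    ∃ I : LocalInvSystem, ∀ (p : ℕ) [Fact p.Prime], p ≠ 2 → ReciprocitySpec I p :=
  nonempty_localInvSystem.elim fun I => ⟨I, fun p _ hp2 => _root_.Fermat.Agent.S55.G.Rec.H904.reciprocity I p hp2⟩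

end Fermat.Agent.S55.G.Rec.H904

end
-- ===== PACK-END S55/G/Rec/ClosedH904.lean

-- ===== PACK-BEGIN S55/Closed/FourH904.lean
section
/-
S55 / route C′, CLOSED FORMS of the four S55 inputs consumed by S56 (helper904).  No `sorry`.

For every odd prime `p` and every finite `S ∋ p`, unconditionally:

* `surj2Glob` : `PT.Surj2GlobSpec p S`   (A3; `K.AR.H4.surj2Glob` + layer G `GAD.globalSpecFin`)
* `surj2Loc`  : `PT.Surj2LocSpec p S`    (A4; `KL.A4.surj2Loc`)
* `invSpec`   : `PT.InvSpec p S`         (A5–A7; `PT.invSpec_of_rec` + reciprocity + GO4: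
                                          SHAP `H593.shapLeaf`, LD `H978.locDesc`, ASM `GO4.asm`,
                                          COKER tower `K.AR.H4.cokerTower`, DEG `H181.decLeaf`)
* `capSpec`   : `PT.CapSpec p S`         (A8; `Cap.H303.capSpec_of_finRec` + `GAD.finRecAll`)
* `four`      : the conjunction, in the exact shape of the hypothesis of
                `S56.Euler.baseBig_of_p1`.
-/









set_option autoImplicit false

noncomputable section

namespace Fermat.Agent.S55.Closed.H904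

open Fermat.Agent.S55 Fermat.Agent.S55.PT ExtCitation

variable (p : ℕ) [Fact p.Prime] (S : Finset Nat.Primes)

/-- Layer G, closed: the good tower datum. -/
theorem globalSpecFin (hp2 : p ≠ 2) (hpS : pPrime p ∈ S) : Tow.GlobalSpecFin S p :=
  GAD.globalSpecFin S p hp2 hpS

/-- **A3, closed.** -/
theorem surj2Glob (hp2 : p ≠ 2) (hpS : pPrime p ∈ S) : Surj2GlobSpec p S :=
  K.AR.H4.surj2Glob p S (globalSpecFin p S hp2 hpS) hp2 hpS

/-- **A4, closed.** -/
theorem surj2Loc : Surj2LocSpec p S := KL.A4.surj2Loc p S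

/-- **GO4 (finite-level coker statement), closed.** -/
theorem cokerE (hp2 : p ≠ 2) (hpS : pPrime p ∈ S) : Inv.CokerESpec p S :=
  Inv.GO4.asm p S
    (Inv.GO4.H593.shapLeaf p S (K.AR.H4.cokerTower (globalSpecFin p S hp2 hpS) hp2 hpS))
    (Inv.GO4.H978.locDesc p S (Fact.out : p.Prime)
      (K.AR.H181.decLeaf S p ⟨(Fact.out : p.Prime), hp2, hpS⟩))

/-- **A5–A7 (`InvSpec`), closed.** -/
theorem invSpec (hp2 : p ≠ 2) (hpS : pPrime p ∈ S) : InvSpec p S := by
  obtain ⟨I⟩ := G.Rec.H904.nonempty_localInvSystem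
  exact invSpec_of_rec hp2 S hpS I (G.Rec.H904.reciprocity I p hp2) (cokerE p S hp2 hpS)

/-- **A8 (`CapSpec`), closed.** -/
theorem capSpec (hp2 : p ≠ 2) (hpS : pPrime p ∈ S) : CapSpec p S :=
  Cap.H303.capSpec_of_finRec GAD.finRecAll hp2 hpS

/-- **The four S55 inputs of route C′**, in the shape consumed by `S56.Euler.baseBig_of_p1`. -/
theorem four (hp2 : p ≠ 2) (hpS : pPrime p ∈ S) :
    Surj2GlobSpec p S ∧ Surj2LocSpec p S ∧ InvSpec p S ∧ CapSpec p S :=
  ⟨surj2Glob p S hp2 hpS, surj2Loc p S, invSpec p S hp2 hpS, capSpec p S hp2 hpS⟩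

end Fermat.Agent.S55.Closed.H904

end

end
-- ===== PACK-END S55/Closed/FourH904.lean

-- ===== PACK-BEGIN S56/Euler/Big/Final.lean
section









/-!
# Row S56 / wall BASE — BASE-BIG: the FINAL ASSEMBLY (sub-architect helper366)

    theorem baseBig_of_p1 :
        (∀ p S, p ≠ 2 → pPrime p ∈ S →
            Surj2GlobSpec p S ∧ Surj2LocSpec p S ∧ InvSpec p S ∧ CapSpec p S) →   -- S55, route C′
        (∀ p, H419.P1CharSpec p) →                                                -- P1-CHAR
        H716.BaseBigStatement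

    theorem baseBig_of_inputs : (the same S55 inputs) → (∀ p, CEH1Spec p) → H716.BaseBigStatement

(`CEH1Spec p → H419.P1CharSpec p` is `p1Char_of_ceH1`: `P1CharSpec` is `CEH1Spec` with the extra
hypothesis that `σ` has order prime to `p` modulo `U`.)

Everything else of BASE-BIG is on main and is plugged in here:

* BRIDGE-BASE `Br.bridgeBase` (helper374), H2F `H29.h2Formula_of_four` (helper29),
* RED `H614.red_of H314.lemmaA` (helper614, helper314), ADD `H419.phiAdd_of` (helper419),
* CHAR-EULER-BIG `H419.charEulerBig_of` (helper419; same as `charEulerBig_of` of `AsmGlue.lean`)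
  from
  - SHA `H726.exists_sha2_indMu_eq_bot` (helper726) + Theorem D `PT.theoremD_of_four`,
  - CL `H419.clSpec'` (helper74's `H74.exists_noPTorsH1E`),
  - H2-CP `H765.h2cp_of_four` (helper765),
  - P1-CHAR = the hypothesis (KUM `H184.kumEq` + HERB `H419.herb_H0`).
-/

set_option autoImplicit false

open Polynomial

noncomputable section

namespace Fermat.Agent.S56.Euler

open Fermat.Agent.S56 Fermat.Agent.S55.PT ExtCitation Module groupCohomology

/-- `CEH1Spec` is `H419.P1CharSpec` without the `p`-regularity hypothesis on `σ`. -/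
theorem p1Char_of_ceH1 {p : ℕ} [Fact p.Prime] (h : CEH1Spec p) : H419.P1CharSpec p :=
  fun hp2 S hpS F _ _ _ hF hχ hcl σ _ hfin => h hp2 S hpS F hF hχ hcl σ hfin

/-- **BASE-BIG from the S55 inputs (route C′) and P1-CHAR.** -/
theorem baseBig_of_p1
    (h4 : ∀ (p : ℕ) [Fact p.Prime] (S : Finset Nat.Primes), p ≠ 2 → pPrime p ∈ S →
      Surj2GlobSpec p S ∧ Surj2LocSpec p S ∧ InvSpec p S ∧ CapSpec p S)
    (hP1 : ∀ (p : ℕ) [Fact p.Prime], H419.P1CharSpec p) : H716.BaseBigStatement := by
  have hH2 : ∀ (p : ℕ) [Fact p.Prime] (S : Finset Nat.Primes), H2FormulaSpec p S := by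
    intro p _ S hp2 hpS
    obtain ⟨a, b, c, d⟩ := h4 p S hp2 hpS
    exact H29.h2Formula_of_four p S a b c d hp2 hpS
  refine baseBig_of (fun p _ => ?_) hH2 Fermat.Agent.S56.Br.bridgeBase
  intro hp2
  refine eulerBig_of_red (H614.red_of H314.lemmaA) (fun S hpS => ?_) (fun S hpS => ?_) ?_ hp2
  · exact H419.phiAdd_of p S H113.les0Spec H113.les1Spec H113.lesMidSpec
      H724.globalNormalCofinal (H593.finGlob p S)
      (fun N hN hsm => (hH2 p S hp2 hpS N hN hsm).1) (h4 p S hp2 hpS).1
  · exact fun N hN hsm => (hH2 p S hp2 hpS N hN hsm).1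
  · refine H419.charEulerBig_of (fun S hp2' hpS => ?_) ?_ H419.clSpec' (hP1 p)
    · obtain ⟨a, b, c, d⟩ := h4 p S hp2' hpS
      exact H765.h2cp_of_four p S a b c d hp2' hpS
    · intro S₀ hpS₀ U hUn hU hχ
      refine H726.exists_sha2_indMu_eq_bot p S₀ (fun T hT => ?_) U hU hUn ?_
      · obtain ⟨a, b, c, d⟩ := h4 p T hp2 (hT hpS₀)
        exact theoremD_of_four p T (hT hpS₀) a b c d
      · intro u hu
        apply LinearMap.ext
        intro x
        rw [ofChar_ρ_apply, hχ u hu]
        simp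

/-- **BASE-BIG from the S55 inputs (route C′) and CE-H1.** -/
theorem baseBig_of_inputs
    (h4 : ∀ (p : ℕ) [Fact p.Prime] (S : Finset Nat.Primes), p ≠ 2 → pPrime p ∈ S →
      Surj2GlobSpec p S ∧ Surj2LocSpec p S ∧ InvSpec p S ∧ CapSpec p S)
    (h1 : ∀ (p : ℕ) [Fact p.Prime], CEH1Spec p) : H716.BaseBigStatement :=
  baseBig_of_p1 h4 fun p _ => p1Char_of_ceH1 (h1 p)

end Fermat.Agent.S56.Euler

end

end
-- ===== PACK-END S56/Euler/Big/Final.lean

-- ===== PACK-BEGIN S56/Euler/H184/P1Spec.lean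
section
/-
S56 / W-BASE / Euler characteristic, leaf P1-CHAR (helper184): the frozen input `H419.P1CharSpec p`
of the assembly `H419.charEulerBig_of` (`S56/H419/CharEulerAsm.lean`), UNCONDITIONALLY.

    theorem p1CharSpec : H419.P1CharSpec p

= `p1Char` (`P1.lean`: Kummer model `kumMap ∘ dictE` of `E_S(F)/p` + `H419.herb_H0`) with the
`H⁰` factors evaluated by `H419.H0Final`.
-/



set_option autoImplicit false
set_option linter.unusedSectionVars false
set_option linter.style.haveILetI false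

noncomputable section

namespace Fermat.Agent.S56.Euler.H184

open groupCohomology Fermat.Agent.S55 Fermat.Agent.S55.PT ExtCitation NumberField Polynomial

variable (p : ℕ) [Fact p.Prime]

/-- **P1-CHAR**, explicit form: for `F/ℚ` finite Galois unramified outside `S ∋ p`, `U = G_F`,
`χ_p|_U = 1` and `H¹_S(Ind_U 𝔼)[p] = 0`:
`cp(R_σ | H¹_S(Ind_U μ_p)) · (X - 1) = (X - χ_p(σ)) · permCharpoly (τ⁻¹ | InfinitePlace F) ·
permCharpoly (primePerm ℚ F (primesT S) τ)`, `τ = σ|_F`. -/
theorem p1Char_perm (S : Finset Nat.Primes) (hpS : pPrime p ∈ S)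
    (F : IntermediateField ℚ (AlgebraicClosure ℚ)) [NumberField F] [IsGalois ℚ F]
    [FiniteDimensional ℚ F] (hF : F.IsUnramifiedOutside S)
    (hχ : ∀ u ∈ F.fixingSubgroup, cycloChar p u = 1)
    (hcl : NoPTorsH1E p S F.fixingSubgroup) (σ : PT.GQ)
    [Module.Finite (ZMod p) ((globalLevels S).H1 (indRep F.fixingSubgroup (mu p)))] :
    (pushH1 (A := indRep F.fixingSubgroup (mu p)) (B := indRep F.fixingSubgroup (mu p))
        (H419.indR F.fixingSubgroup (mu p) σ)
        (H419.indR_equivariant F.fixingSubgroup (mu p) σ) (globalLevels S)).charpoly *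
        (X - 1) =
      (X - C (((cycloChar p σ : (ZMod p)ˣ) : ZMod p))) *
        H614.permCharpoly (ZMod p) (fun w : InfinitePlace F => (H419.resF F σ)⁻¹ • w) *
        H614.permCharpoly (ZMod p) (H614.primePerm ℚ F (H419.primesT S) (H419.resF F σ)) := by
  haveI : Module.Finite (ZMod p) (mu p) := inferInstanceAs (Module.Finite (ZMod p) (ZMod p))
  have h1 : Module.finrank (ZMod p) (mu p) = 1 := Module.finrank_self (ZMod p)
  have h := p1Char p F S hF hpS hcl σ
  rw [H419.charpoly_H0_glob_tdual F.fixingSubgroup (mu p) (cycloChar p) (H419.mu_ρ_apply p) h1 σ,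
    H419.charpoly_H0_ind_mu p F σ hχ,
    H419.charpoly_minus F (mu p) (H419.mu_ρ_complexConjugation p) h1 σ,
    H419.charpoly_H0_loc_tdual F (mu p) (cycloChar p) (H419.mu_ρ_apply p) h1 S σ] at h
  exact h

/-- **P1-CHAR**: the frozen input of `H419.charEulerBig_of`. -/
theorem p1CharSpec : H419.P1CharSpec p := by
  intro _ S hpS F _ _ _ hF hχ hcl σ _ hfin
  exact p1Char_perm p S hpS F hF hχ hcl σ

end Fermat.Agent.S56.Euler.H184

end

end
-- ===== PACK-END S56/Euler/H184/P1Spec.lean

-- ===== PACK-BEGIN S55/Inv/WeakInvH904.lean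
section



/-!
# S55 / INV : the invariant maps on `H²(G_v, μ_p)` with reciprocity and injectivity,
UNCONDITIONALLY from block REC  (helper904)

`PT.InvSpec p S` asks for a family `inv : PT.InvFamily p S` with `RecipSpec`, `TopLocIndSpec` and
`TopGlobIndSpec`; the last one is the hard cokernel statement (COK).  Row S56 (REC-Q) only uses
reciprocity and the injectivity of `inv_v`.  Here we construct the family directly from a local
invariant system `I` of block REC,

  `inv_v [c] := p · I.inv_v [ζ ^ c]`   (`[ζ ^ c] ∈ Br(ℚ_v)[p] = (1/p)ℤ/ℤ`),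

and prove

* `weakInv_of I : ReciprocitySpec I p → WeakInvSpec p S`,
* `weakInv (hp2 : p ≠ 2) : WeakInvSpec p S`   (with the closed reciprocity law),

where `WeakInvSpec p S := ∃ inv : InvFamily p S, RecipSpec inv ∧ ∀ v, Injective (inv v)`.
The cochain toolkit is helper413's (`Inv/WrH413/*`).
-/

set_option autoImplicit false
set_option linter.style.haveILetI false
set_option linter.unusedSectionVars false

noncomputable section

namespace Fermat.Agent.S55.Inv.H904

open Fermat.Agent.S55.PT Fermat.Agent.S55.G.Rec groupCohomology ExtCitation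
open Fermat.Agent.S55.Inv.H413

local notation "Qb" => AlgebraicClosure ℚ
local notation "T" => (⊤ : Subgroup GQ)

/-! ## `ZMod p ↪ ℚ/ℤ` -/

section ZC

variable (p : ℕ) [Fact p.Prime]

/-- The generator `1/p` of the `p`-torsion of `ℚ/ℤ`. -/
def invP : AddCircle (1 : ℚ) := (((p : ℚ)⁻¹ : ℚ) : AddCircle (1 : ℚ))

lemma nsmul_invP : p • invP p = 0 := by
  have hp0 : (p : ℚ) ≠ 0 := Nat.cast_ne_zero.2 (Fact.out : p.Prime).ne_zero
  unfold invP
  rw [← AddCircle.coe_nsmul, nsmul_eq_mul, mul_inv_cancel₀ hp0]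
  exact AddCircle.coe_period 1

/-- `a ↦ a / p`, `ZMod p → ℚ/ℤ`. -/
def zc : ZMod p →+ AddCircle (1 : ℚ) :=
  ZMod.lift p ⟨zmultiplesHom (AddCircle (1 : ℚ)) (invP p), by
    show (p : ℤ) • invP p = 0
    rw [natCast_zsmul]
    exact nsmul_invP p⟩

lemma zc_intCast (m : ℤ) : zc p (m : ZMod p) = m • invP p := by
  unfold zc
  rw [ZMod.lift_coe]
  rfl

lemma zsmul_invP_eq_zero_iff (m : ℤ) : m • invP p = 0 ↔ (p : ℤ) ∣ m := by
  have hp0 : (p : ℚ) ≠ 0 := Nat.cast_ne_zero.2 (Fact.out : p.Prime).ne_zero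
  unfold invP
  rw [← AddCircle.coe_zsmul, AddCircle.coe_eq_zero_iff]
  constructor
  · rintro ⟨n, hn⟩
    refine ⟨n, ?_⟩
    have h1 : (m : ℚ) = (p : ℚ) * (n : ℚ) := by
      have := hn
      rw [zsmul_eq_mul, zsmul_eq_mul, mul_one] at this
      field_simp at this
      linarith
    exact_mod_cast h1
  · rintro ⟨n, rfl⟩
    refine ⟨n, ?_⟩
    rw [zsmul_eq_mul, zsmul_eq_mul, mul_one]
    push_cast
    field_simp

lemma zc_injective : Function.Injective (zc p) := by
  rw [injective_iff_map_eq_zero]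
  intro a ha
  obtain ⟨m, rfl⟩ := ZMod.intCast_surjective a
  rw [zc_intCast, zsmul_invP_eq_zero_iff] at ha
  exact (ZMod.intCast_zmod_eq_zero_iff_dvd m p).2 ha

lemma exists_zc_eq (t : AddCircle (1 : ℚ)) (ht : p • t = 0) : ∃ a, zc p a = t := by
  have hp0 : (p : ℚ) ≠ 0 := Nat.cast_ne_zero.2 (Fact.out : p.Prime).ne_zero
  obtain ⟨x, rfl⟩ := QuotientAddGroup.mk_surjective t
  have h1 : ((p • x : ℚ) : AddCircle (1 : ℚ)) = 0 := by
    rw [AddCircle.coe_nsmul]
    exact ht
  rw [AddCircle.coe_eq_zero_iff] at h1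
  obtain ⟨n, hn⟩ := h1
  refine ⟨(n : ZMod p), ?_⟩
  rw [zc_intCast]
  unfold invP
  rw [← AddCircle.coe_zsmul]
  congr 1
  rw [zsmul_eq_mul, mul_one, nsmul_eq_mul] at hn
  rw [zsmul_eq_mul]
  field_simp
  linarith

end ZC

/-! ## The local class map -/

section Local

variable (p : ℕ) [Fact p.Prime] (q : ℕ) [Fact q.Prime]

local notation "Ω" => PadicAlgCl q
local notation "Gq" => (PadicAlgCl q ≃ₐ[ℚ_[q]] PadicAlgCl q)

/-- `μ_p` as a representation of `G_{ℚ_q}`. -/
abbrev muq : Rep.{0, 0, 0} (ZMod p) Gq := Rep.res (localGaloisToGlobal q) (mu p)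

/-- the local level system -/
abbrev Lq : LevelSys Gq := pullbackLevels (localGaloisToGlobal q)

lemma muq_ρ_apply (g : Gq) (a : ZMod p) :
    (muq p q).ρ g a = chiq p q g * a := by
  show ((Representation.trivial (ZMod p) GQ (ZMod p)).twist (cycloChar p))
    (localGaloisToGlobal q g) a = _
  simp [Representation.twist_apply_apply, chiq]

/-- the local `ℚ̄_qˣ`-valued 2-cochain `(g, h) ↦ ζ ^ c (g, h)` -/
def lCoch (c : Gq × Gq → ZMod p) :
    ↥(locSub q 1 T) × ↥(locSub q 1 T) → ↥(lModOn q (locSub q 1 T)) :=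
  fun x => lamT p q (c ((x.1 : Gq), (x.2 : Gq)))

lemma lCoch_apply (c : Gq × Gq → ZMod p) (g h : ↥(locSub q 1 T)) :
    lCoch p q c (g, h) = lamT p q (c ((g : Gq), (h : Gq))) := rfl

lemma lCoch_add (c c' : Gq × Gq → ZMod p) :
    lCoch p q (c + c') = lCoch p q c + lCoch p q c' := by
  funext ⟨g, h⟩
  show lamT p q (c (_, _) + c' (_, _)) = _
  rw [map_add]
  rfl

lemma lCoch_mem (c : ↥((Lq q).Z2 (muq p q))) :
    lCoch p q (c : Gq × Gq → ZMod p) ∈
      levelCocycles₂ (lHom q (locSub q 1 T)) (lModOn q (locSub q 1 T)) := by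
  refine ⟨?_, ?_⟩
  · have h1 := pp₂_mem_cocycles₂ (muq p q) (lModOn q (locSub q 1 T))
      (Subgroup.subtype (locSub q 1 T)) (lamT p q)
      (fun g a => by
        rw [lamT_equivariant]
        exact congrArg (lamT p q) (muq_ρ_apply p q (g : Gq) a)) c.2.1
    exact h1
  · obtain ⟨U, ⟨F, hF, rfl⟩, h⟩ := c.2.2
    refine ⟨F, hF, fun g g' s s' hs hs' => ?_⟩
    rw [lCoch_apply, lCoch_apply]
    exact congrArg (lamT p q) (h (g : Gq) (g' : Gq) (s : Gq) (s' : Gq) hs hs')

/-- The Brauer class of a local `μ_p`-valued 2-cocycle, as an additive map. -/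
def lClassHom : ↥((Lq q).Z2 (muq p q)) →+ lBr q (locSub q 1 T) where
  toFun c := continuousH2π (lHom q (locSub q 1 T)) (lModOn q (locSub q 1 T))
    ⟨lCoch p q (c : Gq × Gq → ZMod p), lCoch_mem p q c⟩
  map_zero' := by
    rw [← map_zero (continuousH2π (lHom q (locSub q 1 T)) (lModOn q (locSub q 1 T)))]
    congr 1
    apply Subtype.ext
    funext ⟨g, h⟩
    show lamT p q 0 = 0
    exact map_zero _
  map_add' c c' := by
    rw [← map_add]
    congr 1
    apply Subtype.ext
    exact lCoch_add p q _ _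

lemma lClassHom_apply (c : ↥((Lq q).Z2 (muq p q))) :
    lClassHom p q c = continuousH2π (lHom q (locSub q 1 T)) (lModOn q (locSub q 1 T))
      ⟨lCoch p q (c : Gq × Gq → ZMod p), lCoch_mem p q c⟩ := rfl

/-- Coboundaries have trivial Brauer class. -/
theorem lClassHom_eq_zero_of_mem_B2 (c : ↥((Lq q).Z2 (muq p q)))
    (hc : (c : Gq × Gq → ZMod p) ∈ (Lq q).B2 (muq p q)) : lClassHom p q c = 0 := by
  obtain ⟨x, hx, hdx⟩ := hc
  rw [lClassHom_apply, continuousH2π_eq_zero_iff, mem_levelCoboundaries₂_iff]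
  have hx' : IsLevelConstant₁ (localGaloisToGlobal q) x :=
    (isLC₁_pullbackLevels_iff (localGaloisToGlobal q) x).1 hx
  refine ⟨fun τ => lamT p q (x (τ : Gq)), ?_, ?_⟩
  · obtain ⟨F, hF, h⟩ := hx'
    refine ⟨F, hF, fun g s hs => ?_⟩
    show lamT p q (x ((g : Gq) * (s : Gq))) = lamT p q (x (g : Gq))
    rw [h (g : Gq) (s : Gq) hs]
  · funext ⟨g, h⟩
    rw [d₁₂_hom_apply]
    show (lModOn q (locSub q 1 T)).ρ g (lamT p q (x (h : Gq))) - lamT p q (x ((g : Gq) * (h : Gq)))
      + lamT p q (x (g : Gq)) = lamT p q ((c : Gq × Gq → ZMod p) ((g : Gq), (h : Gq)))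
    rw [← hdx, d₁₂_hom_apply, map_add, map_sub, lamT_equivariant, muq_ρ_apply]

/-- **Local Kummer injectivity**: a local `μ_p`-valued cocycle with trivial Brauer class is a
coboundary. -/
theorem mem_B2_of_lClassHom_eq_zero (c : ↥((Lq q).Z2 (muq p q)))
    (h0 : lClassHom p q c = 0) : (c : Gq × Gq → ZMod p) ∈ (Lq q).B2 (muq p q) := by
  rw [lClassHom_apply, continuousH2π_eq_zero_iff, mem_levelCoboundaries₂_iff] at h0
  obtain ⟨bL, hbL, hd⟩ := h0
  obtain ⟨x, hx, hdx⟩ := local_kummer q p (lamq p q) (lamq_injective p q) (lamq_surj p q)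
    (chiq p q) (lamq_equivariant p q) (c : Gq × Gq → ZMod p)
    (fun τ => Additive.toMul (bL ⟨τ, mem_locSub_top q τ⟩)) (by
      obtain ⟨F, hF, h⟩ := hbL
      refine ⟨F, hF, fun g s hs => ?_⟩
      exact congrArg Additive.toMul (h ⟨g, mem_locSub_top q g⟩ ⟨s, mem_locSub_top q s⟩ hs))
    (by
      intro g h
      have h1 := congrFun hd (⟨g, mem_locSub_top q g⟩, ⟨h, mem_locSub_top q h⟩)
      rw [d₁₂_hom_apply] at h1
      have h2 := congrArg (fun m : ↥(lModOn q (locSub q 1 T)) =>
        ((Additive.toMul m : Ωˣ) : Ω)) h1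
      exact h2)
  refine ⟨x, (isLC₁_pullbackLevels_iff (localGaloisToGlobal q) x).2 hx, ?_⟩
  funext ⟨g, h⟩
  rw [d₁₂_hom_apply, muq_ρ_apply]
  exact hdx g h

lemma nsmul_lClassHom (c : ↥((Lq q).Z2 (muq p q))) : p • lClassHom p q c = 0 := by
  rw [← map_nsmul]
  have : p • c = 0 := by
    apply Subtype.ext
    funext x
    show p • ((c : Gq × Gq → ZMod p) x) = 0
    rw [nsmul_eq_mul, ZMod.natCast_self, zero_mul]
  rw [this, map_zero]

/-! ## The invariant map at one prime -/

variable (I : LocalInvSystem)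

/-- `I.inv ∘ lClassHom` -/
def invCirc : ↥((Lq q).Z2 (muq p q)) →+ AddCircle (1 : ℚ) :=
  (I.inv q (locSub q 1 T)).comp (lClassHom p q)

lemma nsmul_invCirc (c : ↥((Lq q).Z2 (muq p q))) : p • invCirc p q I c = 0 := by
  unfold invCirc
  rw [AddMonoidHom.comp_apply, ← map_nsmul, nsmul_lClassHom, map_zero]

/-- the `ZMod p`-valued invariant of a cocycle (as a function) -/
def invFun (c : ↥((Lq q).Z2 (muq p q))) : ZMod p :=
  (exists_zc_eq p (invCirc p q I c) (nsmul_invCirc p q I c)).choose

lemma zc_invFun (c : ↥((Lq q).Z2 (muq p q))) : zc p (invFun p q I c) = invCirc p q I c :=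
  (exists_zc_eq p (invCirc p q I c) (nsmul_invCirc p q I c)).choose_spec

/-- the `ZMod p`-valued invariant of a cocycle -/
def invZ : ↥((Lq q).Z2 (muq p q)) →ₗ[ZMod p] ZMod p :=
  AddMonoidHom.toZModLinearMap p
    { toFun := invFun p q I
      map_zero' := by
        apply zc_injective p
        rw [zc_invFun, map_zero, map_zero]
      map_add' := fun c c' => by
        apply zc_injective p
        rw [map_add, zc_invFun, zc_invFun, zc_invFun, map_add] }

lemma zc_invZ (c : ↥((Lq q).Z2 (muq p q))) : zc p (invZ p q I c) = invCirc p q I c :=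
  zc_invFun p q I c

/-- The invariant map `H²(G_{ℚ_q}, μ_p) → 𝔽_p`. -/
def invH : (Lq q).H2 (muq p q) →ₗ[ZMod p] ZMod p :=
  Submodule.liftQ _ (invZ p q I) (by
    intro c hc
    rw [LinearMap.mem_ker]
    apply zc_injective p
    rw [zc_invZ, map_zero]
    unfold invCirc
    rw [AddMonoidHom.comp_apply,
      lClassHom_eq_zero_of_mem_B2 p q c (by simpa [Submodule.mem_comap] using hc), map_zero])

lemma invH_mk (c : ↥((Lq q).Z2 (muq p q))) :
    invH p q I ((Lq q).H2π (muq p q) c) = invZ p q I c := rfl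

lemma zc_invH_mk (c : ↥((Lq q).Z2 (muq p q))) :
    zc p (invH p q I ((Lq q).H2π (muq p q) c)) =
      I.inv q (locSub q 1 T) (lClassHom p q c) := by
  rw [invH_mk, zc_invZ]
  rfl

/-- `inv_q` is injective on `H²(G_{ℚ_q}, μ_p)`. -/
theorem invH_injective : Function.Injective (invH p q I) := by
  rw [← LinearMap.ker_eq_bot, LinearMap.ker_eq_bot']
  intro y hy
  obtain ⟨c, rfl⟩ := (Lq q).H2π_surjective (muq p q) y
  have h1 : I.inv q (locSub q 1 T) (lClassHom p q c) = 0 := by
    rw [← zc_invH_mk, hy, map_zero]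
  have h2 : lClassHom p q c = 0 := by
    apply I.inv_injective q _ (H181.isOpenL_locSub q 1 isOpenQ_top)
    rw [h1, map_zero]
  rw [LevelSys.H2π_eq_zero_iff]
  exact mem_B2_of_lClassHom_eq_zero p q c h2

end Local

/-! ## The family and reciprocity -/

section Global

variable (p : ℕ) [Fact p.Prime] (S : Finset Nat.Primes)

/-- The weak form of `PT.InvSpec`: invariant maps with reciprocity and injectivity. -/
def WeakInvSpec : Prop :=
  ∃ inv : InvFamily p S, RecipSpec inv ∧ ∀ v : ↥S, Function.Injective (inv v)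

variable (I : LocalInvSystem)

/-- The family of invariant maps attached to a local invariant system. -/
def invFamily : InvFamily p S := fun v =>
  haveI : Fact ((v.1 : ℕ)).Prime := ⟨v.1.2⟩
  invH p (v.1 : ℕ) I

/-- The localisation of the Brauer class of a global cocycle is the Brauer class of its
restriction. -/
lemma lClassHom_resZ2 (q : Nat.Primes) (c : ↥((globalLevels S).Z2 (mu p))) :
    haveI : Fact ((q : ℕ)).Prime := ⟨q.2⟩
    lClassHom p (q : ℕ) (resZ2 (rl_levelCompatible S q) (mu p) c) =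
      locBr (q : ℕ) 1 T (gClass p S c) := by
  haveI : Fact ((q : ℕ)).Prime := ⟨q.2⟩
  refine congrArg (continuousH2π (lHom (q : ℕ) (locSub (q : ℕ) 1 T))
    (lModOn (q : ℕ) (locSub (q : ℕ) 1 T))) (Subtype.ext ?_)
  funext ⟨g, h⟩
  exact (locCochain_gCoch p (q : ℕ) (c : GQ × GQ → ↥(mu p)) g h).symm

lemma zc_invFamily (v : ↥S) (c : ↥((globalLevels S).Z2 (mu p))) :
    zc p (invFamily p S I v (resH2 (hrl S v) (mu p) ((globalLevels S).H2π (mu p) c))) =
      I.invAt v.1 1 T (gClass p S c) := by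
  haveI : Fact ((v.1 : ℕ)).Prime := ⟨v.1.2⟩
  rw [resH2_mk]
  refine (zc_invH_mk p (v.1 : ℕ) I (resZ2 (rl_levelCompatible S v.1) (mu p) c)).trans ?_
  rw [lClassHom_resZ2 p S v.1 c]
  rfl

/-- **Reciprocity and injectivity** for the family attached to `I`. -/
theorem weakInv_of (hRec : ReciprocitySpec I p) : WeakInvSpec p S := by
  refine ⟨invFamily p S I, ?_, ?_⟩
  · intro y
    obtain ⟨c, rfl⟩ := (globalLevels S).H2π_surjective (mu p) y
    apply zc_injective p
    rw [map_sum, map_zero]
    have hout : ∀ q : Nat.Primes, q ∉ S → I.invAt q 1 T (gClass p S c) = 0 := by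
      intro q hq
      apply LocalInvSystem.invAt_eq_zero
      haveI : Fact ((q : ℕ)).Prime := ⟨q.2⟩
      exact locBr_eq_zero_of_not_mem p S I c (q : ℕ) hq
    have key := (hRec T isOpenQ_top (gClass p S c) ⟨1, gClass_torsion p S c⟩ (fun _ => {1})
      (fun q => isDoubleCosetReps_top _)).2
    simp only [Finset.sum_singleton] at key
    rw [finsum_eq_sum_of_support_subset (s := S) _ (by
      intro q hq
      by_contra hqS
      exact hq (hout q hqS))] at key
    rw [← key, ← Finset.sum_coe_sort S]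
    exact Finset.sum_congr rfl fun v _ => zc_invFamily p S I v c
  · intro v
    haveI : Fact ((v.1 : ℕ)).Prime := ⟨v.1.2⟩
    exact invH_injective p (v.1 : ℕ) I

/-- **Unconditional**: invariant maps on `H²(G_v, μ_p)`, `v ∈ S`, with reciprocity and
injectivity (`p` odd). -/
theorem weakInv (hp2 : p ≠ 2) : WeakInvSpec p S := by
  obtain ⟨I, hI⟩ := G.Rec.H904.exists_reciprocity
  exact weakInv_of p S I (hI p hp2)

end Global

end Fermat.Agent.S55.Inv.H904

end

end
-- ===== PACK-END S55/Inv/WeakInvH904.lean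

-- ===== PACK-BEGIN S56/RQ/Closed.lean
section



/-!
# Row S56 — REC-Q-SUB, UNCONDITIONAL (helper554)

`recQSubClosed : H716.RecQSubStatement` and `recQClosed : H716.RecQStatement`:
the RQ route (`RQ/Final.lean`, all elementary leaves on main) plugged into helper904's
unconditional weak invariant package `S55.Inv.H904.weakInv` (invariant maps on `H²(G_v, μ_p)` with
reciprocity and injectivity, from the closed block REC of S55).
-/

set_option autoImplicit false

noncomputable section

namespace Fermat.Agent.S56.RQ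

open Fermat.Agent.S56 Fermat.Agent.S56.H716

/-- The weak invariant package of S55 holds (helper904). -/
theorem weakInvInput : H554.WeakInvInput :=
  fun p _ S hp2 _ => Fermat.Agent.S55.Inv.H904.weakInv p S hp2

/-- **REC-Q-SUB**, unconditionally. -/
theorem recQSubClosed : H716.RecQSubStatement :=
  recQSub_of_weakInv weakInvInput

/-- **REC-Q**, unconditionally. -/
theorem recQClosed : H716.RecQStatement :=
  recQ (H554.weakInvInput₁_of_weakInvInput weakInvInput)

end Fermat.Agent.S56.RQ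

end

end
-- ===== PACK-END S56/RQ/Closed.lean

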